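import Fermat.Agent.PT.Conc

/-!
# Equivariant cohomology of an open subgroup: statement of the equivariant Euler characteristic

Let `U ≤ H` be open subgroups of `Gal(ℚ̄/ℚ)`, `U` normalised by `H` and contained in the kernel of
the cyclotomic character.  `H` acts on `H^i(U, μ_p)`.  For a representation `P` of `H`, trivial on
`U` and relatively projective (`T` with `∑_{H/U} h T h⁻¹ = 1`), the statement `XProp` compares the
dimensions of the spaces of equivariant maps from `P` to `H^i(U, μ_p)`.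
-/

set_option autoImplicit false
set_option linter.unusedSectionVars false

namespace Fermat.Agent.PT

open Fermat.Agent.Coh Fermat.Agent.GCFT Fermat.Agent.GlobalCFT Fermat.Agent.GalD
  Fermat.Agent.LocalCFT Module ExtCitation

/-- The field of algebraic numbers. -/
local notation "Qb" => AlgebraicClosure ℚ
/-- The absolute Galois group. -/
local notation "GQ" => (AlgebraicClosure ℚ ≃ₐ[ℚ] AlgebraicClosure ℚ)

section eqhom

variable {k : Type*} [CommRing k] {G : Type*} [Group G] {P V : Type*} [AddCommGroup P] [Module k P]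
  [AddCommGroup V] [Module k V]

/-- equivariant linear maps -/
def EqHom (σ : Representation k G P) (τ : Representation k G V) : Submodule k (P →ₗ[k] V) where
  carrier := {f | ∀ g x, f (σ g x) = τ g (f x)}
  zero_mem' := fun g x => by simp
  add_mem' := fun {f f'} hf hf' g x => by
    simp only [LinearMap.add_apply, map_add, hf g x, hf' g x]
  smul_mem' := fun c f hf g x => by
    simp only [LinearMap.smul_apply, map_smul, hf g x]

theorem mem_EqHom {σ : Representation k G P} {τ : Representation k G V} {f : P →ₗ[k] V} :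
    f ∈ EqHom σ τ ↔ ∀ g x, f (σ g x) = τ g (f x) := Iff.rfl

end eqhom

section conjugation

variable {k : Type*} [CommRing k] {Γ : Type*} [Group Γ] {V : Type*} [AddCommGroup V] [Module k V]
  (𝓤 : Fam Γ) (ρ : Representation k Γ V) {U : Subgroup Γ}

/-- conjugation by an element of the normaliser -/
def cnj (g : Γ) (hg : ∀ u ∈ U, g⁻¹ * u * g ∈ U) :
    Mor (𝓤.res U) (𝓤.res U) (rep ρ U) (rep ρ U) where
  f :=
    { toFun := fun u => ⟨g⁻¹ * u * g, hg u u.2⟩
      map_one' := Subtype.ext (by simp)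
      map_mul' := fun a b => Subtype.ext (by simp [mul_assoc]) }
  T := ρ g
  comm δ v := by
    change ρ g (ρ (g⁻¹ * δ * g) v) = ρ δ (ρ g v)
    rw [← Module.End.mul_apply, ← Module.End.mul_apply, ← map_mul, ← map_mul]
    congr 2
    group
  cont := by
    rintro _ ⟨W, hW, rfl⟩
    refine ⟨_, ⟨W, hW, rfl⟩, fun u hu => ?_⟩
    change g⁻¹ * (u : Γ) * g ∈ W
    have := (𝓤.normal W hW).conj_mem u hu g⁻¹
    simpa using this

@[simp] theorem cnj_mapZ1 (g : Γ) (hg : ∀ u ∈ U, g⁻¹ * u * g ∈ U) (z : ↥(Z1 (𝓤.res U) (rep ρ U)))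
    (u : U) : ((cnj 𝓤 ρ g hg).mapZ1 z : U → V) u = ρ g ((z : U → V) ⟨g⁻¹ * u * g, hg u u.2⟩) := rfl

@[simp] theorem cnj_mapZ2 (g : Γ) (hg : ∀ u ∈ U, g⁻¹ * u * g ∈ U) (z : ↥(Z2 (𝓤.res U) (rep ρ U)))
    (p : U × U) : ((cnj 𝓤 ρ g hg).mapZ2 z : U × U → V) p =
      ρ g ((z : U × U → V) (⟨g⁻¹ * p.1 * g, hg _ p.1.2⟩, ⟨g⁻¹ * p.2 * g, hg _ p.2.2⟩)) := rfl

variable {H : Subgroup Γ} (hn : ∀ h ∈ H, ∀ u ∈ U, h * u * h⁻¹ ∈ U)

include hn in
theorem hn' (h : H) : ∀ u ∈ U, (h : Γ)⁻¹ * u * h ∈ U := fun u hu => by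
  have := hn _ (H.inv_mem h.2) u hu
  rwa [inv_inv] at this

/-- the action of `H` on `H¹(U, ρ)` -/
def h1Rep : Representation k H (H1 (𝓤.res U) (rep ρ U)) where
  toFun h := (cnj 𝓤 ρ (h : Γ) (hn' hn h)).mapH1
  map_one' := by
    refine LinearMap.ext fun x => ?_
    obtain ⟨z, rfl⟩ := H1.mk_surjective x
    rw [Mor.mapH1_mk]
    change H1.mk (𝓤.res U) (rep ρ U) _ = H1.mk (𝓤.res U) (rep ρ U) z
    congr 1
    apply Subtype.ext
    funext u
    rw [cnj_mapZ1]
    have e : (⟨((1 : H) : Γ)⁻¹ * u * ((1 : H) : Γ), hn' hn 1 u u.2⟩ : U) = u :=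
      Subtype.ext (by simp)
    rw [e]
    change ρ (1 : Γ) _ = _
    rw [map_one]
    rfl
  map_mul' h h' := by
    refine LinearMap.ext fun x => ?_
    obtain ⟨z, rfl⟩ := H1.mk_surjective x
    rw [Module.End.mul_apply, Mor.mapH1_mk, Mor.mapH1_mk, Mor.mapH1_mk]
    congr 1
    apply Subtype.ext
    funext u
    rw [cnj_mapZ1, cnj_mapZ1, cnj_mapZ1, ← Module.End.mul_apply, ← map_mul]
    have e : (⟨((h * h' : H) : Γ)⁻¹ * u * ((h * h' : H) : Γ), hn' hn _ u u.2⟩ : U) =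
        ⟨(h' : Γ)⁻¹ * ((h : Γ)⁻¹ * u * h) * h', hn' hn h' _ (hn' hn h u u.2)⟩ :=
      Subtype.ext (by simp [mul_assoc])
    rw [e]
    rfl

/-- the action of `H` on `H²(U, ρ)` -/
def h2Rep : Representation k H (H2 (𝓤.res U) (rep ρ U)) where
  toFun h := (cnj 𝓤 ρ (h : Γ) (hn' hn h)).mapH2
  map_one' := by
    refine LinearMap.ext fun x => ?_
    obtain ⟨z, rfl⟩ := H2.mk_surjective x
    rw [Mor.mapH2_mk]
    change H2.mk (𝓤.res U) (rep ρ U) _ = H2.mk (𝓤.res U) (rep ρ U) z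
    congr 1
    apply Subtype.ext
    funext u
    rw [cnj_mapZ2]
    have e : ∀ u : U, (⟨((1 : H) : Γ)⁻¹ * u * ((1 : H) : Γ), hn' hn 1 u u.2⟩ : U) = u := fun u =>
      Subtype.ext (by simp)
    rw [e, e]
    change ρ (1 : Γ) _ = _
    rw [map_one]
    rfl
  map_mul' h h' := by
    refine LinearMap.ext fun x => ?_
    obtain ⟨z, rfl⟩ := H2.mk_surjective x
    rw [Module.End.mul_apply, Mor.mapH2_mk, Mor.mapH2_mk, Mor.mapH2_mk]
    congr 1
    apply Subtype.ext
    funext u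
    rw [cnj_mapZ2, cnj_mapZ2, cnj_mapZ2, ← Module.End.mul_apply, ← map_mul]
    have e : ∀ u : U, (⟨((h * h' : H) : Γ)⁻¹ * u * ((h * h' : H) : Γ), hn' hn _ u u.2⟩ : U) =
        ⟨(h' : Γ)⁻¹ * ((h : Γ)⁻¹ * u * h) * h', hn' hn h' _ (hn' hn h u u.2)⟩ := fun u =>
      Subtype.ext (by simp [mul_assoc])
    rw [e, e]
    rfl

theorem h1Rep_mk (h : H) (z : ↥(Z1 (𝓤.res U) (rep ρ U))) :
    h1Rep 𝓤 ρ hn h (H1.mk (𝓤.res U) (rep ρ U) z) = H1.mk (𝓤.res U) (rep ρ U) ((cnj 𝓤 ρ (h : Γ) (hn' hn h)).mapZ1 z) :=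
  rfl

theorem h2Rep_mk (h : H) (z : ↥(Z2 (𝓤.res U) (rep ρ U))) :
    h2Rep 𝓤 ρ hn h (H2.mk (𝓤.res U) (rep ρ U) z) = H2.mk (𝓤.res U) (rep ρ U) ((cnj 𝓤 ρ (h : Γ) (hn' hn h)).mapZ2 z) :=
  rfl

end conjugation

section places

variable (k : Type*) [CommRing k] {Γ : Type*} [Group Γ] (D : Subgroup Γ) (U H : Subgroup Γ)

/-- functions on the double cosets `D \ Γ / U` -/
def plSub : Submodule k (Γ → k) where
  carrier := {φ | ∀ d ∈ D, ∀ g, ∀ u ∈ U, φ (d * g * u) = φ g}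
  zero_mem' := fun _ _ _ _ _ => rfl
  add_mem' := fun hf hf' d hd g u hu => by
    simp only [Pi.add_apply, hf d hd g u hu, hf' d hd g u hu]
  smul_mem' := fun c f hf d hd g u hu => by
    simp only [Pi.smul_apply, hf d hd g u hu]

theorem mem_plSub {φ : Γ → k} : φ ∈ plSub k D U ↔ ∀ d ∈ D, ∀ g, ∀ u ∈ U, φ (d * g * u) = φ g :=
  Iff.rfl

/-- `H` acts on the functions on `D \ Γ / U` by right translation -/
def plRep {U H : Subgroup Γ} (hn : ∀ h ∈ H, ∀ u ∈ U, h * u * h⁻¹ ∈ U) :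
    Representation k H (plSub k D U) where
  toFun h :=
    { toFun := fun φ => ⟨fun g => (φ : Γ → k) (g * h), fun d hd g u hu => by
        have h1 : d * g * u * (h : Γ) = d * (g * h) * ((h : Γ)⁻¹ * u * h) := by group
        simp only
        rw [h1]
        exact φ.2 d hd _ _ (hn' hn h u hu)⟩
      map_add' := fun _ _ => rfl
      map_smul' := fun _ _ => rfl }
  map_one' := by
    ext φ g
    simp
  map_mul' h h' := by
    ext φ g
    simp [mul_assoc]

@[simp] theorem plRep_apply {U H : Subgroup Γ} (hn : ∀ h ∈ H, ∀ u ∈ U, h * u * h⁻¹ ∈ U) (h : H)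
    (φ : plSub k D U) (g : Γ) : (plRep k D hn h φ : Γ → k) g = (φ : Γ → k) (g * h) := rfl

end places

/-- relative projectivity -/
def RelProj {k : Type*} [CommRing k] {G : Type*} [Group G] {P : Type*} [AddCommGroup P] [Module k P]
    (N : Subgroup G) (σ : Representation k G P) : Prop :=
  (∀ n ∈ N, σ n = 1) ∧ ∃ T : P →ₗ[k] P, ∑ᶠ x : G ⧸ N, σ x.out ∘ₗ T ∘ₗ σ x.out⁻¹ = LinearMap.id

/-- **The equivariant Euler characteristic at level `U`**, to be proved from Kummer theory,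
the finiteness of class groups and the structure of the `S`-units as a Galois module. -/
def XProp (p : ℕ) [Fact p.Prime] (S : Finset Nat.Primes) (H U : Subgroup GQ)
    (hn : ∀ h ∈ H, ∀ u ∈ U, h * u * h⁻¹ ∈ U) : Prop :=
  ∀ (P : Type) [AddCommGroup P] [Module (ZMod p) P] [FiniteDimensional (ZMod p) P]
    (σ : Representation (ZMod p) H P), RelProj (U.subgroupOf H) σ →
    finrank (ZMod p) (EqHom σ (h2Rep (famS S) (muQ p) hn)) +
      finrank (ZMod p) (EqHom σ ((muQ p).comp H.subtype)) +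
      finrank (ZMod p) (EqHom σ (plRep (ZMod p) (Subgroup.zpowers complexConjugation) hn)) ≤
    finrank (ZMod p) (EqHom σ (h1Rep (famS S) (muQ p) hn))

end Fermat.Agent.PT
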