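import Mathlib

/-!
# Linear algebra of pairings
-/

set_option autoImplicit false

namespace Fermat.Agent.PT.LA

open Module

variable {k X Y A C : Type*} [Field k] [AddCommGroup X] [Module k X] [AddCommGroup Y] [Module k Y]
  [AddCommGroup A] [Module k A] [AddCommGroup C] [Module k C]

variable (P : X →ₗ[k] Y →ₗ[k] k) (πX : X →ₗ[k] A) (πY : Y →ₗ[k] C)

/-- the induced map to the dual of the image -/
theorem exists_sec : ∃ s : ↥(LinearMap.range πY) →ₗ[k] Y, ∀ e, πY (s e) = e := by
  obtain ⟨s, hs⟩ := LinearMap.exists_rightInverse_of_surjective πY.rangeRestrict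
    (LinearMap.range_rangeRestrict _)
  exact ⟨s, fun e => congrArg Subtype.val (LinearMap.congr_fun hs e)⟩

variable {P πX πY}

theorem exists_rightInv (f : X →ₗ[k] A) (hf : Function.Surjective f) :
    ∃ s : A →ₗ[k] X, ∀ a, f (s a) = a := by
  obtain ⟨s, hs⟩ := LinearMap.exists_rightInverse_of_surjective f (LinearMap.range_eq_top.mpr hf)
  exact ⟨s, fun e => LinearMap.congr_fun hs e⟩

/-- extending a functional from the image -/
theorem exists_factor (T : X →ₗ[k] A) (lam : X →ₗ[k] k) (h : ∀ x, T x = 0 → lam x = 0) :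
    ∃ lam' : A →ₗ[k] k, ∀ x, lam' (T x) = lam x := by
  obtain ⟨s, hs⟩ := exists_sec T
  obtain ⟨g, hg⟩ := LinearMap.exists_extend (lam ∘ₗ s)
  refine ⟨g, fun x => ?_⟩
  have h1 : g (T x) = lam (s ⟨T x, x, rfl⟩) := LinearMap.congr_fun hg ⟨T x, x, rfl⟩
  rw [h1, ← sub_eq_zero, ← map_sub]
  apply h
  rw [map_sub, hs, sub_self]

/-- rank-nullity with a bound -/
theorem finrank_ker_range (f : X →ₗ[k] A) [FiniteDimensional k X] :
    finrank k ↥(LinearMap.range f) + finrank k ↥(LinearMap.ker f) = finrank k X :=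
  LinearMap.finrank_range_add_finrank_ker f

theorem finrank_range_le {X A B : Type*} [AddCommGroup X] [Module k X] [AddCommGroup A]
    [Module k A] [AddCommGroup B] [Module k B] (f : X →ₗ[k] A) (g : X →ₗ[k] B)
    (h : ∀ x, f x = 0 → g x = 0) [FiniteDimensional k ↥(LinearMap.range f)] :
    FiniteDimensional k ↥(LinearMap.range g) ∧
      finrank k ↥(LinearMap.range g) ≤ finrank k ↥(LinearMap.range f) := by
  obtain ⟨s, hs⟩ := exists_sec f
  have h1 : Function.Surjective (g.rangeRestrict ∘ₗ s) := by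
    rintro ⟨_, x, rfl⟩
    refine ⟨⟨f x, x, rfl⟩, Subtype.ext ?_⟩
    change g (s ⟨f x, x, rfl⟩) = g x
    rw [← sub_eq_zero, ← map_sub]
    apply h
    rw [map_sub, hs, sub_self]
  exact ⟨Module.Finite.of_surjective _ h1, LinearMap.finrank_le_finrank_of_surjective h1⟩

/-- A counting lemma. -/
theorem count {ι : Type*} [Fintype ι] {Z E : ι → Type*} [∀ v, AddCommGroup (Z v)]
    [∀ v, Module k (Z v)] [∀ v, AddCommGroup (E v)] [∀ v, Module k (E v)]
    [∀ v, FiniteDimensional k (E v)] (m : ∀ v, Z v →ₗ[k] E v)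
    (hm : ∀ v, Function.Surjective (m v))
    {X H C : Type*} [AddCommGroup X] [Module k X] [AddCommGroup H] [Module k H]
    [AddCommGroup C] [Module k C] [FiniteDimensional k H] (mk : X →ₗ[k] H)
    (hmk : Function.Surjective mk) (b : (∀ v, Z v) →ₗ[k] C)
    (hb : ∀ n, (∀ v, m v (n v) = 0) → b n = 0) (r : ∀ v, X →ₗ[k] Z v)
    (hr : ∀ x, b (fun v => r v x) = 0) (S : Submodule k H)
    (hS : ∀ x, (∀ v, m v (r v x) = 0) → mk x ∈ S) :
    FiniteDimensional k ↥(LinearMap.range b) ∧ finrank k ↥(LinearMap.range b) + finrank k H ≤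
      ∑ v, finrank k (E v) + finrank k ↥S := by
  let G : (∀ v, Z v) →ₗ[k] (∀ v, E v) := LinearMap.pi fun v => (m v) ∘ₗ LinearMap.proj v
  have hG : Function.Surjective G := by
    intro c
    choose z hz using fun v => hm v (c v)
    exact ⟨z, funext hz⟩
  obtain ⟨s, hs⟩ := exists_rightInv G hG
  let β : (∀ v, E v) →ₗ[k] C := b ∘ₗ s
  have hβ : ∀ n, β (G n) = b n := by
    intro n
    have h1 : b (s (G n) - n) = 0 := by
      apply hb
      intro v
      have h2 : G (s (G n) - n) = 0 := by rw [map_sub, hs, sub_self]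
      exact congrFun h2 v
    rw [map_sub, sub_eq_zero] at h1
    exact h1
  have hrange : LinearMap.range b ≤ LinearMap.range β := by
    rintro _ ⟨n, rfl⟩
    exact ⟨G n, hβ n⟩
  let γ : X →ₗ[k] (∀ v, E v) := LinearMap.pi fun v => (m v) ∘ₗ r v
  have hγ : LinearMap.range γ ≤ LinearMap.ker β := by
    rintro _ ⟨x, rfl⟩
    have h1 : γ x = G fun v => r v x := rfl
    rw [LinearMap.mem_ker, h1, hβ, hr]
  obtain ⟨-, h2⟩ := finrank_range_le γ (S.mkQ ∘ₗ mk) fun x hx =>
    (Submodule.Quotient.mk_eq_zero _).mpr (hS x fun v => congrFun hx v)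
  have h3 : LinearMap.range (S.mkQ ∘ₗ mk) = ⊤ := by
    rw [LinearMap.range_eq_top]
    exact (Submodule.mkQ_surjective S).comp hmk
  rw [h3, finrank_top] at h2
  have h4 := Submodule.finrank_quotient_add_finrank S
  have h5 := LinearMap.finrank_range_add_finrank_ker β
  rw [finrank_pi_fintype] at h5
  have h6 := Submodule.finrank_mono hγ
  have h7 := Submodule.finrank_mono hrange
  exact ⟨Submodule.finiteDimensional_of_le hrange, by omega⟩

/-- **Pairing lemma**: left nondegeneracy bounds the dimension of the left side. -/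
theorem finrank_le [FiniteDimensional k ↥(LinearMap.range πY)]
    (h1 : ∀ y, πY y = 0 → ∀ x, P x y = 0) (h2 : ∀ x, (∀ y, P x y = 0) → πX x = 0) :
    FiniteDimensional k ↥(LinearMap.range πX) ∧
      finrank k ↥(LinearMap.range πX) ≤ finrank k ↥(LinearMap.range πY) := by
  obtain ⟨s, hs⟩ := exists_sec πY
  let L : X →ₗ[k] Dual k ↥(LinearMap.range πY) := (LinearMap.lcomp k k s) ∘ₗ P
  have hL : ∀ x e, L x e = P x (s e) := fun x e => rfl
  have h3 : ∀ x, L x = 0 → πX x = 0 := by
    intro x hx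
    apply h2
    intro y
    have h4 : P x (y - s ⟨πY y, y, rfl⟩) = 0 := h1 _ (by rw [map_sub, hs, sub_self]) x
    rw [map_sub, sub_eq_zero] at h4
    rw [h4, ← hL, hx, LinearMap.zero_apply]
  obtain ⟨h4, h5⟩ := finrank_range_le L πX h3
  refine ⟨h4, h5.trans ((Submodule.finrank_le _).trans ?_)⟩
  rw [Subspace.dual_finrank_eq]

/-- **Pairing lemma**: if the dimensions agree then every functional is represented. -/
theorem exists_eq [FiniteDimensional k ↥(LinearMap.range πY)]
    (h1 : ∀ y, πY y = 0 → ∀ x, P x y = 0) (h2 : ∀ x, (∀ y, P x y = 0) → πX x = 0)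
    (h : finrank k ↥(LinearMap.range πY) ≤ finrank k ↥(LinearMap.range πX))
    (lam : Y →ₗ[k] k) (hlam : ∀ y, πY y = 0 → lam y = 0) : ∃ x, ∀ y, P x y = lam y := by
  obtain ⟨s, hs⟩ := exists_sec πY
  let L : X →ₗ[k] Dual k ↥(LinearMap.range πY) := (LinearMap.lcomp k k s) ∘ₗ P
  have hL : ∀ x e, L x e = P x (s e) := fun x e => rfl
  have h4 : ∀ x y, P x y = L x ⟨πY y, y, rfl⟩ := by
    intro x y
    have h4 : P x (y - s ⟨πY y, y, rfl⟩) = 0 := h1 _ (by rw [map_sub, hs, sub_self]) x
    rw [map_sub, sub_eq_zero] at h4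
    rw [h4, ← hL]
  have h3 : ∀ x, L x = 0 → πX x = 0 := by
    intro x hx
    apply h2
    intro y
    rw [h4, hx, LinearMap.zero_apply]
  obtain ⟨h6, h5⟩ := finrank_range_le L πX h3
  have h7 : LinearMap.range L = ⊤ := by
    apply Submodule.eq_top_of_finrank_eq
    apply le_antisymm (Submodule.finrank_le _)
    rw [Subspace.dual_finrank_eq]
    exact h.trans h5
  have h8 : (lam ∘ₗ s) ∈ LinearMap.range L := by rw [h7]; trivial
  obtain ⟨x, hx⟩ := h8
  refine ⟨x, fun y => ?_⟩
  rw [h4, hx]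
  change lam (s _) = lam y
  rw [← sub_eq_zero, ← map_sub]
  apply hlam
  rw [map_sub, hs, sub_self]

/-- bounding the dimension by the size of independent families -/
theorem finite_of_card_le {M : Type*} [AddCommGroup M] [Module k M] (n : ℕ)
    (H : ∀ s : Finset M, LinearIndependent k (fun i : s => (i : M)) → s.card ≤ n) :
    FiniteDimensional k M ∧ finrank k M ≤ n := by
  have h1 : Module.rank k M ≤ n := rank_le H
  have h2 : Module.rank k M < Cardinal.aleph0 := h1.trans_lt (Cardinal.natCast_lt_aleph0)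
  exact ⟨Module.rank_lt_aleph0_iff.mp h2, finrank_le_of_rank_le h1⟩

/-- There is a nondegenerate pairing between spaces of the same finite dimension. -/
theorem exists_pairing [FiniteDimensional k A] [FiniteDimensional k C]
    (h : finrank k A = finrank k C) :
    ∃ B : A →ₗ[k] C →ₗ[k] k, (∀ y, (∀ x, B y x = 0) → y = 0) ∧ (∀ x, (∀ y, B y x = 0) → x = 0) := by
  have h1 : finrank k A = finrank k (Dual k C) := by rw [Subspace.dual_finrank_eq, h]
  let e := LinearEquiv.ofFinrankEq A (Dual k C) h1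
  refine ⟨e.toLinearMap, fun y hy => ?_, fun x hx => ?_⟩
  · apply e.injective
    rw [map_zero]
    exact LinearMap.ext hy
  · rw [← Module.forall_dual_apply_eq_zero_iff k]
    intro φ
    obtain ⟨y, rfl⟩ := e.surjective φ
    exact hx y

end Fermat.Agent.PT.LA
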