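import Fermat.Agent.PT.P3
import Fermat.Agent.PT.LA

/-!
# Everywhere locally trivial classes; the first inequality
-/

set_option autoImplicit false
set_option linter.unusedSectionVars false
set_option linter.style.haveILetI false

namespace Fermat.Agent.PT

open Fermat.Agent.Coh Module

namespace Frame

attribute [local instance] fq

section defs

variable {k : Type*} [Field k] {Γ : Type*} [Group Γ] (D : Frame k Γ)
variable {V W : Type*} [AddCommGroup V] [Module k V] [AddCommGroup W] [Module k W]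

/-- the localisation morphism -/
def loc (v : D.ι) (σ : Representation k Γ V) : Mor D.𝓤 (D.𝓥 v) σ (D.lr v σ) where
  f := D.r v
  T := LinearMap.id
  comm _ _ := rfl
  cont := D.cont v

/-- everywhere locally trivial classes of degree one -/
def sha1 (σ : Representation k Γ V) : Submodule k (H1 D.𝓤 σ) :=
  ⨅ v, LinearMap.ker (D.loc v σ).mapH1

/-- everywhere locally trivial classes of degree two -/
def sha2 (σ : Representation k Γ V) : Submodule k (H2 D.𝓤 σ) :=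
  ⨅ v, LinearMap.ker (D.loc v σ).mapH2

variable {D} {σ : Representation k Γ V}

theorem mk_mem_sha1 {z : ↥(Z1 D.𝓤 σ)} : H1.mk D.𝓤 σ z ∈ D.sha1 σ ↔
    ∀ v, D.r1 v (z : Γ → V) ∈ B1 (D.lr v σ) := by
  rw [sha1, Submodule.mem_iInf]
  refine forall_congr' fun v => ?_
  rw [LinearMap.mem_ker, Mor.mapH1_mk, Submodule.mkQ_apply, Submodule.Quotient.mk_eq_zero]
  rfl

theorem mk_mem_sha2 {z : ↥(Z2 D.𝓤 σ)} : H2.mk D.𝓤 σ z ∈ D.sha2 σ ↔
    ∀ v, D.r2 v (z : Γ × Γ → V) ∈ B2 (D.𝓥 v) (D.lr v σ) := by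
  rw [sha2, Submodule.mem_iInf]
  refine forall_congr' fun v => ?_
  rw [LinearMap.mem_ker, Mor.mapH2_mk, Submodule.mkQ_apply, Submodule.Quotient.mk_eq_zero]
  rfl

variable {U : Subgroup Γ} [U.FiniteIndex] {ρ : Representation k Γ V}

/-- composing a coboundary with a locally equivariant form -/
theorem comp_d1' {v : D.ι} {σ : Representation k Γ W} {b : W →ₗ[k] k} {κ : D.G v → W}
    (hb : ∀ (g : D.G v) h, b (σ (D.r v g) (κ h)) = D.χ (D.r v g) * b (κ h)) :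
    (fun p => b (d1 (D.lr v σ) κ p)) = d1 (D.lr v D.μ) (fun g => b (κ g)) := by
  funext p
  rw [d1_apply, d1_apply, map_add, map_sub]
  congr 2
  exact hb _ _

/-- The pairing between a locally trivial class in the dual and an element whose class vanishes. -/
theorem pv_eq_zero_of_lt (hR : D.Rec) (hU : D.𝓤.IsOpen U) (hρ : SmRep D.𝓤 ρ) {x : Γ → Dual k V}
    (hx : x ∈ D.X U ρ) (hxl : ∀ v, D.r1 v x ∈ B1 (D.lr v (D.dl ρ))) {y : D.CC (Γ ⧸ U → V)}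
    (hy : y ∈ D.Y U ρ) (h : (fun p => tr (k := k) U (y.1 p)) ∈ B2 D.𝓤 ρ) : D.pv ρ x y = 0 := by
  obtain ⟨η, hη, h1⟩ := h
  choose β hβ using hxl
  set η' : Γ → (Γ ⧸ U → V) := fun g => sg (k := k) U (η g) with hη'
  have hη's : D.𝓤.Sm1 η' := Fam.Sm1.post hη _
  set z1 : Γ × Γ → (Γ ⧸ U → V) := y.1 - d1 (indRep U ρ) η' with hz1
  set k1 : ∀ v, D.G v → (Γ ⧸ U → V) := fun v => y.2 v - D.r1 v η' with hk1
  have hz1tr : ∀ p, tr (k := k) U (z1 p) = 0 := by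
    intro p
    rw [hz1, Pi.sub_apply, map_sub, map_d1 _ (tr_act ρ)]
    have h3 : d1 ρ η p = tr (k := k) U (y.1 p) := congrFun h1 p
    rw [← h3]
    simp only [hη', tr_sg, sub_self]
  have hz1m : z1 ∈ Z2 D.𝓤 (indRep U ρ) :=
    sub_mem hy.1 (d1_mem_Z2 (ind_sm hU hρ) hη's)
  have hk1s : ∀ v, (D.𝓥 v).Sm1 (k1 v) := fun v => (hy.2.1 v).post₂ (D.r1_sm hη's) (· - ·)
  have herr : ∀ v, D.err ρ y v = D.r2 v z1 - d1 (D.lr v (indRep U ρ)) (k1 v) := by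
    intro v
    have e1 : D.r2 v z1 = D.r2 v y.1 - D.r2 v (d1 (indRep U ρ) η') := rfl
    rw [err, hk1, e1, r2_d1]
    simp only [map_sub]
    abel
  have hbz : (fun p => bx U x (z1 p)) ∈ Z2 D.𝓤 D.μ :=
    comp_mem_Z2g hz1m fun g p => bx_act_of_tr hx g _ (hz1tr p)
  have key : ∀ v, D.iv v (fun p => bx U x (D.err ρ y v p)) =
      D.iv v (D.r2 v fun p => bx U x (z1 p)) := by
    intro v
    set b : (Γ ⧸ U → V) →ₗ[k] k := bx U x - (β v) ∘ₗ tr (k := k) U with hb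
    have hbe : ∀ (g : D.G v) φ, b (indRep U ρ (D.r v g) φ) = D.χ (D.r v g) * b φ := by
      intro g φ
      rw [hb, LinearMap.sub_apply, LinearMap.sub_apply, LinearMap.comp_apply,
        LinearMap.comp_apply, bx_act hx, tr_act]
      have h3 := congrFun (hβ v) g
      rw [r1_apply] at h3
      rw [← h3]
      change _ - (D.dl ρ (D.r v g) (β v) - β v) (ρ (D.r v g) (tr (k := k) U φ)) - _ = _
      rw [LinearMap.sub_apply, dualR_apply_act]
      ring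
    have e2 : (fun p => bx U x (D.err ρ y v p)) = D.r2 v (fun p => bx U x (z1 p)) -
        d1 (D.lr v D.μ) (fun g => b (k1 v g)) := by
      rw [← comp_d1' (σ := indRep U ρ) (fun g h => hbe g _)]
      funext p
      have h4 : bx U x (D.err ρ y v p) = b (D.err ρ y v p) := by
        rw [hb, LinearMap.sub_apply, LinearMap.comp_apply, tr_err hy, map_zero, sub_zero]
      rw [h4, herr, Pi.sub_apply, map_sub, Pi.sub_apply]
      congr 1
      rw [hb, LinearMap.sub_apply, LinearMap.comp_apply, r2_apply, hz1tr, map_zero, sub_zero]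
      rfl
    rw [e2, iv_sub (D.r2_mem hbz) (d1_mem_Z2' ((hk1s v).post _)), iv_d1 ((hk1s v).post _),
      sub_zero]
  rw [pv, Finset.sum_congr rfl fun v _ => key v]
  exact hR _ hbz

/-- representing classes by cocycles vanishing on a small subgroup -/
theorem exists_U_repr (σ : Representation k Γ V) [FiniteDimensional k (H1 D.𝓤 σ)] :
    ∃ U₀ ∈ D.𝓤, ∀ U ≤ U₀, ∀ c : H1 D.𝓤 σ, ∃ z : ↥(Z1 D.𝓤 σ), H1.mk D.𝓤 σ z = c ∧
      ∀ u ∈ U, (z : Γ → V) u = 0 := by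
  classical
  let b := Module.finBasis k (H1 D.𝓤 σ)
  choose z hz using fun i => H1.mk_surjective (b i)
  have h1 : ∀ i, ∃ U ∈ D.𝓤, ∀ u ∈ U, (z i : Γ → V) u = 0 := by
    intro i
    obtain ⟨U, hU, h⟩ := (z i).2.1
    refine ⟨U, hU, fun u hu => ?_⟩
    rw [← one_mul u, h 1 u hu, Z1.map_one]
  choose F hF1 hF2 using h1
  obtain ⟨U₀, hU₀, hle⟩ := D.𝓤.exists_le_forall Finset.univ F fun i _ => hF1 i
  refine ⟨U₀, hU₀, fun U hUU c => ?_⟩
  refine ⟨∑ i, b.repr c i • z i, ?_, fun u hu => ?_⟩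
  · rw [map_sum]
    conv_rhs => rw [← b.sum_repr c]
    refine Finset.sum_congr rfl fun i _ => ?_
    rw [map_smul, hz]
  · rw [Submodule.coe_sum, Finset.sum_apply]
    refine Finset.sum_eq_zero fun i _ => ?_
    rw [Submodule.coe_smul, Pi.smul_apply, hF2 i u (hle i (Finset.mem_univ _) (hUU hu)), smul_zero]

end defs

section good

variable {k : Type} [Field k] {Γ : Type} [Group Γ] (D : Frame k Γ)
variable {V W : Type} [AddCommGroup V] [Module k V] [AddCommGroup W] [Module k W]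

/-- the finiteness and counting assumption for the induced module -/
def EF (U : Subgroup Γ) : Prop :=
  FiniteDimensional k (H1 D.𝓤 (indRep U D.μ)) ∧ FiniteDimensional k ↥(D.sha2 (indRep U D.μ)) ∧
  (∀ v, FiniteDimensional k (H1 (D.𝓥 v) (D.lr v (indRep U D.μ)))) ∧
  2 * finrank k ↥(D.sha2 (indRep U D.μ)) +
    ∑ v, finrank k (H1 (D.𝓥 v) (D.lr v (indRep U D.μ))) ≤ 2 * finrank k (H1 D.𝓤 (indRep U D.μ))

/-- The list of assumptions. -/
structure Good : Prop where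
  recip : D.Rec
  ln : D.LN
  q0 : ∀ (U : Subgroup Γ) [U.FiniteIndex], U ∈ D.𝓤 → (∀ u ∈ U, D.χ u = 1) → D.Q0 U
  ef : ∀ U ∈ D.𝓤, (∀ u ∈ U, D.χ u = 1) → D.EF U

variable {D} {ρ : Representation k Γ V}

theorem exists_triv [FiniteDimensional k V] (hρ : SmRep D.𝓤 ρ) :
    ∃ U₀ ∈ D.𝓤, ∀ U ≤ U₀, D.Triv U ρ := by
  classical
  let b := Module.finBasis k V
  obtain ⟨U₁, hU₁, h1⟩ := D.χ_sm
  obtain ⟨U₂, hU₂, h2⟩ := hρ.finite (Set.finite_range b)
  refine ⟨U₁ ⊓ U₂, D.𝓤.inf_mem _ hU₁ _ hU₂, fun U hU => ⟨fun u hu => h1 u (hU hu).1,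
    fun u hu v => ?_⟩⟩
  have h3 : ρ u = LinearMap.id := by
    apply b.ext
    intro i
    rw [LinearMap.id_apply]
    exact h2 u (hU hu).2 _ ⟨i, rfl⟩
  rw [h3, LinearMap.id_apply]

/-- `X U ρ` in terms of representatives -/
theorem exists_mem_X [FiniteDimensional k (H1 D.𝓤 (D.dl ρ))] :
    ∃ U₀ ∈ D.𝓤, ∀ U ≤ U₀, ∀ c : H1 D.𝓤 (D.dl ρ), ∃ x : Γ → Dual k V, ∃ hx : x ∈ D.X U ρ,
      H1.mk D.𝓤 (D.dl ρ) ⟨x, hx.1⟩ = c := by
  obtain ⟨U₀, hU₀, h⟩ := exists_U_repr (D := D) (D.dl ρ)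
  refine ⟨U₀, hU₀, fun U hU c => ?_⟩
  obtain ⟨z, hz, hz'⟩ := h U hU c
  exact ⟨z, ⟨z.2, hz'⟩, hz⟩

/-- **First inequality.** -/
theorem finrank_sha1_le (hG : D.Good) (hρ : SmRep D.𝓤 ρ) [FiniteDimensional k V]
    [FiniteDimensional k (H1 D.𝓤 (D.dl ρ))] [FiniteDimensional k ↥(D.sha2 ρ)] :
    finrank k ↥(D.sha1 (D.dl ρ)) ≤ finrank k ↥(D.sha2 ρ) := by
  obtain ⟨U₁, hU₁, h1⟩ := exists_triv hρ
  obtain ⟨U₂, hU₂, h2⟩ := exists_mem_X (D := D) (ρ := ρ)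
  set U := U₁ ⊓ U₂ with hUdef
  have hU : U ∈ D.𝓤 := D.𝓤.inf_mem _ hU₁ _ hU₂
  have hT : D.Triv U ρ := h1 U inf_le_left
  haveI := D.𝓤.finiteIndex U hU
  haveI := D.𝓤.normal U hU
  have hUo : D.𝓤.IsOpen U := D.𝓤.isOpen_of_mem hU
  let XL : Submodule k (Γ → Dual k V) := D.X U ρ ⊓
    ⨅ v, (B1 (D.lr v (D.dl ρ))).comap (LinearMap.funLeft k _ (D.r v))
  have hXL : ∀ x ∈ XL, ∀ v, D.r1 v x ∈ B1 (D.lr v (D.dl ρ)) := by
    intro x hx v
    exact (Submodule.mem_iInf _).mp hx.2 v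
  let P : ↥XL →ₗ[k] ↥(D.Y U ρ) →ₗ[k] k :=
    (D.P ρ hUo hρ) ∘ₗ (Submodule.inclusion (inf_le_left : XL ≤ D.X U ρ))
  let πX : ↥XL →ₗ[k] H1 D.𝓤 (D.dl ρ) :=
    (H1.mk D.𝓤 (D.dl ρ)) ∘ₗ Submodule.inclusion (fun x hx => hx.1.1 : XL ≤ Z1 D.𝓤 (D.dl ρ))
  let πY : ↥(D.Y U ρ) →ₗ[k] H2 D.𝓤 ρ :=
    { toFun := fun y => H2.mk D.𝓤 ρ ⟨fun p => tr (k := k) U (y.1.1 p), (tr_mem_Zc2 y.2).1⟩
      map_add' := fun y y' => by
        rw [← map_add]
        congr 1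
        apply Subtype.ext
        funext p
        exact map_add _ _ _
      map_smul' := fun c y => by
        rw [RingHom.id_apply, ← map_smul]
        congr 1
        apply Subtype.ext
        funext p
        exact LinearMap.map_smul (tr (k := k) U) c _ }
  have hrY : LinearMap.range πY ≤ D.sha2 ρ := by
    rintro _ ⟨y, rfl⟩
    apply mk_mem_sha2.mpr
    intro v
    have h3 := (tr_mem_Zc2 y.2).2.2 v
    exact ⟨_, (tr_mem_Zc2 y.2).2.1 v, h3.symm⟩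
  haveI : FiniteDimensional k ↥(LinearMap.range πY) := Submodule.finiteDimensional_of_le hrY
  have hA : ∀ y, πY y = 0 → ∀ x, P x y = 0 := by
    intro y hy x
    refine pv_eq_zero_of_lt hG.recip hUo hρ x.2.1 (hXL x x.2) y.2 ?_
    obtain ⟨c, hc, h3⟩ := H2.mk_eq_zero.mp hy
    exact mem_B2.mpr ⟨c, hc, h3⟩
  have hB : ∀ x, (∀ y, P x y = 0) → πX x = 0 := by
    intro x hx
    obtain ⟨β, hβ⟩ := exists_coboundary (hG.q0 U hU hT.1) hG.ln hUo hρ hT x.2.1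
      fun y hy => hx ⟨y, hy⟩
    exact H1.mk_eq_zero.mpr ⟨β, hβ⟩
  obtain ⟨h5, h6⟩ := LA.finrank_le (X := ↥XL) (Y := ↥(D.Y U ρ)) (A := H1 D.𝓤 (D.dl ρ))
    (C := H2 D.𝓤 ρ) (P := P) (πX := πX) (πY := πY) hA hB
  have h7 : D.sha1 (D.dl ρ) ≤ LinearMap.range πX := by
    intro c hc
    obtain ⟨x, hx, rfl⟩ := h2 U inf_le_right c
    have h8 := mk_mem_sha1.mp hc
    exact ⟨⟨x, hx, (Submodule.mem_iInf _).mpr h8⟩, rfl⟩
  calc finrank k ↥(D.sha1 (D.dl ρ)) ≤ finrank k ↥(LinearMap.range πX) :=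
        Submodule.finrank_mono h7
    _ ≤ finrank k ↥(LinearMap.range πY) := h6
    _ ≤ finrank k ↥(D.sha2 ρ) := Submodule.finrank_mono hrY

end good

end Frame

end Fermat.Agent.PT
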