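import Fermat.Agent.PT.Conc
import Fermat.Agent.PT.St1

/-!
# The invariant of a trace; local nondegeneracy
-/

set_option autoImplicit false
set_option linter.unusedSectionVars false
set_option linter.style.haveILetI false

namespace Fermat.Agent.PT

open Fermat.Agent.Coh Fermat.Agent.GCFT Fermat.Agent.GlobalCFT Fermat.Agent.GalD
  Fermat.Agent.LocalCFT Module ExtCitation

section top

variable {G : Type*} [Group G] (U : Subgroup G)

/-- the quotient of `⊤` -/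
def io : (⊤ : Subgroup G) ⧸ U.subgroupOf ⊤ → G ⧸ U :=
  Quotient.map' (fun g => (g : G)) (by
    intro a b h
    rw [QuotientGroup.leftRel_apply] at h ⊢
    exact h)

@[simp] theorem io_mk (g : (⊤ : Subgroup G)) :
    io U (g : (⊤ : Subgroup G) ⧸ U.subgroupOf ⊤) = ((g : G) : G ⧸ U) := rfl

theorem io_smul (g : (⊤ : Subgroup G)) (c : (⊤ : Subgroup G) ⧸ U.subgroupOf ⊤) :
    io U (g • c) = (g : G) • io U c := by
  obtain ⟨a, rfl⟩ := QuotientGroup.mk_surjective c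
  rfl

theorem io_bijective : Function.Bijective (io U) := by
  constructor
  · intro a b h
    obtain ⟨a, rfl⟩ := QuotientGroup.mk_surjective a
    obtain ⟨b, rfl⟩ := QuotientGroup.mk_surjective b
    rw [io_mk, io_mk, QuotientGroup.eq] at h
    rw [QuotientGroup.eq]
    exact h
  · intro c
    obtain ⟨a, rfl⟩ := QuotientGroup.mk_surjective c
    exact ⟨((⟨a, trivial⟩ : (⊤ : Subgroup G)) : (⊤ : Subgroup G) ⧸ U.subgroupOf ⊤), rfl⟩

end top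

section local_

variable {p : ℕ} [hp : Fact p.Prime] {l : Nat.Primes} (hp2 : p ≠ 2)
variable {U : Subgroup (Gl l)} (hU : (LF (l : ℕ)).IsOpen U)

attribute [local instance] Frame.fq

/-- the Shapiro map on cocycles -/
noncomputable def shZ (Z : ↥(Z2 (LF (l : ℕ)) (indRep U (muL p l)))) :
    ↥(Z2 ((LF (l : ℕ)).res U) (rep (muL p l) U)) :=
  (sh (LF (l : ℕ)) U (muL p l)).mapZ2 Z

/-- restriction to `⊤` on cocycles -/
noncomputable def resZ (z : ↥(Z2 (LF (l : ℕ)) (muL p l))) :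
    ↥(Z2 ((LF (l : ℕ)).res ⊤) (rep (muL p l) ⊤)) :=
  (Mor.res (LF (l : ℕ)) (muL p l) ⊤).mapZ2 z

theorem invL_mk (z : ↥(Z2 (LF (l : ℕ)) (muL p l))) :
    invL hp2 l (H2.mk (LF (l : ℕ)) (muL p l) z) =
      (cycCF (l : ℕ) p hp2).inv (Fam.isOpen_top _) (toTor (resZ z)) :=
  invU_mk hp2 (Fam.isOpen_top _) (resZ z)

theorem shZ_apply (Z : ↥(Z2 (LF (l : ℕ)) (indRep U (muL p l)))) (q : U × U) :
    (shZ Z : U × U → ZMod p) q =
      (Z : Gl l × Gl l → (Gl l ⧸ U → ZMod p)) (q.1, q.2) ((1 : Gl l) : Gl l ⧸ U) := rfl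

/-- The `ℤ`-linear cocycle on `⊤` attached to a cocycle with values in the induced module. -/
theorem jlZ_mem {Z : Gl l × Gl l → (Gl l ⧸ U → ZMod p)}
    (hZ : Z ∈ Z2 (LF (l : ℕ)) (indRep U (muL p l))) :
    (fun q : (⊤ : Subgroup (Gl l)) × (⊤ : Subgroup (Gl l)) =>
      fun c : (⊤ : Subgroup (Gl l)) ⧸ U.subgroupOf ⊤ => jl p l (Z (q.1, q.2) (io U c))) ∈
    Z2 ((LF (l : ℕ)).res ⊤) (indRep (U.subgroupOf ⊤) (rep (LU (l : ℕ)) ⊤)) := by
  refine ⟨?_, fun g h j => ?_⟩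
  · obtain ⟨W, hW, h⟩ := hZ.1
    refine ⟨_, ⟨W, hW, rfl⟩, fun g g' u hu v hv => ?_⟩
    funext c
    have h1 : Z (((g * u : (⊤ : Subgroup (Gl l))) : Gl l), ((g' * v : (⊤ : Subgroup (Gl l))) : Gl l)) =
        Z ((g : Gl l), (g' : Gl l)) := h g g' u hu v hv
    simp only [h1]
  · funext c
    have h1 := congrFun (hZ.2 g h j) (io U c)
    rw [Pi.add_apply, Pi.add_apply, indRep_apply] at h1
    have h2 := congrArg (jl p l) h1
    rw [map_add, map_add] at h2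
    rw [Pi.add_apply, Pi.add_apply, indRep_apply]
    simp only [io_smul]
    refine h2.trans ?_
    congr 1
    exact jl_comm p l (g : Gl l) _

/-- The `ℤ`-linear cocycle on `⊤` attached to a cocycle with values in the induced module. -/
noncomputable def JZ (Z : ↥(Z2 (LF (l : ℕ)) (indRep U (muL p l)))) :
    ↥(Z2 ((LF (l : ℕ)).res ⊤) (indRep (U.subgroupOf ⊤) (rep (LU (l : ℕ)) ⊤))) :=
  ⟨_, jlZ_mem Z.2⟩

theorem up_JZ (Z : ↥(Z2 (LF (l : ℕ)) (indRep U (muL p l)))) :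
    (upMor (LF (l : ℕ)) (LU (l : ℕ)) (le_top : U ≤ ⊤)).mapH2
      (H2.mk ((LF (l : ℕ)).res U) (rep (LU (l : ℕ)) U) (jZ (shZ Z))) =
      (sh ((LF (l : ℕ)).res ⊤) (U.subgroupOf ⊤) (rep (LU (l : ℕ)) ⊤)).mapH2
        (H2.mk ((LF (l : ℕ)).res ⊤) (indRep (U.subgroupOf ⊤) (rep (LU (l : ℕ)) ⊤)) (JZ Z)) := rfl

theorem cr_JZ (Z : ↥(Z2 (LF (l : ℕ)) (indRep U (muL p l)))) :
    letI := relFintype hU (⊤ : Subgroup (Gl l))
    cr (LU (l : ℕ)) (le_top : U ≤ ⊤) hU (H2.mk ((LF (l : ℕ)).res U) (rep (LU (l : ℕ)) U)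
      (jZ (shZ Z))) =
      (sumMor ((LF (l : ℕ)).res ⊤) (U.subgroupOf ⊤) (rep (LU (l : ℕ)) ⊤)).mapH2
        (H2.mk ((LF (l : ℕ)).res ⊤) (indRep (U.subgroupOf ⊤) (rep (LU (l : ℕ)) ⊤)) (JZ Z)) := by
  letI := relFintype hU (⊤ : Subgroup (Gl l))
  exact (congrArg (cor2 (rep (LU (l : ℕ)) ⊤) (isOpen_subgroupOf hU ⊤)) (up_JZ Z)).trans
    (cor2_sh _ _ _)

theorem sum_JZ [U.FiniteIndex] (Z : ↥(Z2 (LF (l : ℕ)) (indRep U (muL p l))))
    (hZt : (fun q => sumLin (k := ZMod p) U ((Z : Gl l × Gl l → (Gl l ⧸ U → ZMod p)) q)) ∈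
      Z2 (LF (l : ℕ)) (muL p l)) :
    letI := relFintype hU (⊤ : Subgroup (Gl l))
    jZ (resZ ⟨_, hZt⟩) = (sumMor ((LF (l : ℕ)).res ⊤) (U.subgroupOf ⊤)
      (rep (LU (l : ℕ)) ⊤)).mapZ2 (JZ Z) := by
  letI := relFintype hU (⊤ : Subgroup (Gl l))
  apply Subtype.ext
  funext q
  change jl p l (∑ c, (Z : Gl l × Gl l → (Gl l ⧸ U → ZMod p)) (q.1, q.2) c) =
    ∑ c, jl p l ((Z : Gl l × Gl l → (Gl l ⧸ U → ZMod p)) (q.1, q.2) (io U c))
  rw [map_sum]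
  exact (Fintype.sum_bijective (io U) (io_bijective U) _ _ fun c => rfl).symm

include hp2 hU in
/-- **The invariant of the trace.** -/
theorem invL_tr [U.FiniteIndex] (Z : ↥(Z2 (LF (l : ℕ)) (indRep U (muL p l))))
    (hZt : (fun q => sumLin (k := ZMod p) U ((Z : Gl l × Gl l → (Gl l ⧸ U → ZMod p)) q)) ∈
      Z2 (LF (l : ℕ)) (muL p l)) :
    invL hp2 l (H2.mk (LF (l : ℕ)) (muL p l) ⟨_, hZt⟩) =
      invU hp2 hU (H2.mk ((LF (l : ℕ)).res U) (rep (muL p l) U) (shZ Z)) := by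
  have e1 := invL_mk hp2 ⟨_, hZt⟩
  have e2 := invU_mk hp2 hU (shZ Z)
  have e3 := (cycCF (l : ℕ) p hp2).inv_cr (le_top : U ≤ ⊤) hU (Fam.isOpen_top _)
    (toTor (shZ Z))
  refine e1.trans (Eq.trans ?_ (e3.trans e2.symm))
  refine congrArg _ (Subtype.ext ?_)
  exact (congrArg (H2.mk ((LF (l : ℕ)).res ⊤) (rep (LU (l : ℕ)) ⊤)) (sum_JZ hU Z hZt)).trans
    (cr_JZ hU Z).symm

end local_

end Fermat.Agent.PT
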