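import Fermat.Agent.PT.InvCor

/-!
# Local nondegeneracy for the concrete frame
-/

set_option autoImplicit false
set_option linter.unusedSectionVars false
set_option linter.style.haveILetI false

namespace Fermat.Agent.PT

open Fermat.Agent.Coh Fermat.Agent.GCFT Fermat.Agent.GlobalCFT Fermat.Agent.GalD
  Fermat.Agent.LocalCFT Module ExtCitation

attribute [local instance] Frame.fq

section TT

variable {k : Type*} [Field k] {G : Type*} [Group G] (χ : G →* kˣ) {V : Type*} [AddCommGroup V]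
  [Module k V] (σ : Representation k G V) (U : Subgroup G) [U.FiniteIndex] (w₀ : V)

/-- an equivariant map from the induced module -/
noncomputable def TT : (G ⧸ U → k) →ₗ[k] V where
  toFun ψ := ∑ c, (ψ c * (((χ (sec U c))⁻¹ : kˣ) : k)) • σ (sec U c) w₀
  map_add' ψ ψ' := by
    rw [← Finset.sum_add_distrib]
    refine Finset.sum_congr rfl fun c _ => ?_
    rw [Pi.add_apply, add_mul, add_smul]
  map_smul' a ψ := by
    rw [RingHom.id_apply, Finset.smul_sum]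
    refine Finset.sum_congr rfl fun c _ => ?_
    rw [Pi.smul_apply, smul_eq_mul, smul_smul, mul_assoc]

theorem TT_apply (ψ : G ⧸ U → k) : TT χ σ U w₀ ψ =
    ∑ c, (ψ c * (((χ (sec U c))⁻¹ : kˣ) : k)) • σ (sec U c) w₀ := rfl

variable {χ σ U w₀}

theorem TT_act {μ : Representation k G k} (hμ : ∀ g a, μ g a = χ g * a)
    (hχ : ∀ u ∈ U, χ u = 1) (hσ : ∀ u ∈ U, σ u w₀ = w₀) (g : G) (ψ : G ⧸ U → k) :
    TT χ σ U w₀ (indRep U μ g ψ) = σ g (TT χ σ U w₀ ψ) := by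
  rw [TT_apply, TT_apply, map_sum]
  refine Fintype.sum_equiv (MulAction.toPerm g⁻¹) _ _ fun c => ?_
  rw [MulAction.toPerm_apply, indRep_apply, hμ, map_smul, ← Module.End.mul_apply, ← map_mul]
  have h1 : (sec U c)⁻¹ * (g * sec U (g⁻¹ • c)) ∈ U := by
    apply QuotientGroup.eq.mp
    rw [← smul_eq_mul, ← MulAction.Quotient.smul_coe, mk_sec, mk_sec, smul_inv_smul]
  have h2 : g * sec U (g⁻¹ • c) = sec U c * ((sec U c)⁻¹ * (g * sec U (g⁻¹ • c))) := by group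
  have h3 : σ (g * sec U (g⁻¹ • c)) w₀ = σ (sec U c) w₀ := by
    rw [h2, map_mul, Module.End.mul_apply, hσ _ h1]
  have h4 : χ g * χ (sec U (g⁻¹ • c)) = χ (sec U c) := by
    rw [← map_mul, h2, map_mul, hχ _ h1, mul_one]
  rw [h3]
  congr 1
  have h5 : χ g * (χ (sec U c))⁻¹ = (χ (sec U (g⁻¹ • c)))⁻¹ := by
    rw [← h4, mul_inv, ← mul_assoc, mul_inv_cancel, one_mul]
  rw [← h5, Units.val_mul]
  ring

theorem b_TT {b : V →ₗ[k] k} (hb : ∀ g w, b (σ g w) = χ g * b w) (ψ : G ⧸ U → k) :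
    b (TT χ σ U w₀ ψ) = (∑ c, ψ c) * b w₀ := by
  rw [TT_apply, map_sum, Finset.sum_mul]
  refine Finset.sum_congr rfl fun c _ => ?_
  rw [map_smul, hb, smul_eq_mul]
  have h : (((χ (sec U c))⁻¹ : kˣ) : k) * (χ (sec U c) : k) = 1 := Units.inv_mul _
  linear_combination ψ c * b w₀ * h

end TT

section tor

variable {p : ℕ} [hp : Fact p.Prime] {l : Nat.Primes} (hp2 : p ≠ 2)
variable {U : Subgroup (Gl l)} (hU : (LF (l : ℕ)).IsOpen U)

variable (p) in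
theorem exists_div (a : Additive (Om l)ˣ) : ∃ b : Additive (Om l)ˣ, p • b = a := by
  obtain ⟨z, hz⟩ := IsAlgClosed.exists_pow_nat_eq (uval a) hp.out.pos
  have hz0 : z ≠ 0 := by
    intro h0
    rw [h0, zero_pow hp.out.ne_zero] at hz
    exact uval_ne_zero a hz.symm
  exact ⟨umk z hz0, uval_injective (by rw [uval_nsmul, uval_umk, hz])⟩

omit hp in
/-- torsion classes are represented by torsion cocycles -/
theorem exists_torsion_rep {G A : Type*} [Group G] [AddCommGroup A] {𝓤 : Fam G}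
    {α : Representation ℤ G A} (hα : SmRep 𝓤 α) (p : ℕ) (hdiv : ∀ a : A, ∃ b, p • b = a)
    (z : ↥(Z2 𝓤 α)) (hz : p • H2.mk 𝓤 α z = 0) :
    ∃ z' : ↥(Z2 𝓤 α), H2.mk 𝓤 α z' = H2.mk 𝓤 α z ∧ ∀ q, p • (z' : G × G → A) q = 0 := by
  rw [← map_nsmul] at hz
  obtain ⟨c, hc, h2⟩ := H2.mk_eq_zero.mp hz
  choose r hr using hdiv
  set c' : G → A := fun g => r (c g) with hc'
  have hc's : 𝓤.Sm1 c' := hc.post r
  refine ⟨z - ⟨_, d1_mem_Z2 hα hc's⟩, ?_, ?_⟩
  · rw [map_sub, sub_eq_self]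
    exact H2.mk_eq_zero.mpr ⟨c', hc's, fun g h => rfl⟩
  · rintro ⟨g, h⟩
    have h4 : ((z - ⟨_, d1_mem_Z2 hα hc's⟩ : ↥(Z2 𝓤 α)) : G × G → A) (g, h) =
      (z : G × G → A) (g, h) - (α g (c' h) - c' (g * h) + c' g) := rfl
    have h5 : p • (z : G × G → A) (g, h) = α g (c h) - c (g * h) + c g := h2 g h
    rw [h4, smul_sub, h5, smul_add, smul_sub, ← map_nsmul]
    simp only [hc', hr]
    rw [sub_self]

/-- a torsion cocycle comes from the roots of unity -/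
theorem exists_jZ (z' : ↥(Z2 ((LF (l : ℕ)).res U) (rep (LU (l : ℕ)) U)))
    (h3 : ∀ q : U × U, p • (z' : U × U → Additive (Om l)ˣ) q = 0) :
    ∃ f : ↥(Z2 ((LF (l : ℕ)).res U) (rep (muL p l) U)), jZ f = z' := by
  choose f hf using fun q => exists_jl p l ((z' : U × U → Additive (Om l)ˣ) q) (h3 q)
  have hfZ : f ∈ Z2 ((LF (l : ℕ)).res U) (rep (muL p l) U) := by
    refine ⟨?_, fun g h j => ?_⟩
    · obtain ⟨W, hW, h⟩ := z'.2.1
      refine ⟨W, hW, fun g g' u hu v hv => jl_injective p l ?_⟩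
      rw [hf, hf, h g g' u hu v hv]
    · apply jl_injective p l
      rw [map_add, map_add, hf, hf, hf]
      have h5 : jl p l (rep (muL p l) U g (f (h, j))) =
          rep (LU (l : ℕ)) U g ((z' : U × U → Additive (Om l)ˣ) (h, j)) := by
        rw [← hf]
        exact jl_comm p l (g : Gl l) _
      rw [h5]
      exact z'.2.2 g h j
  exact ⟨⟨f, hfZ⟩, Subtype.ext (funext fun q => hf q)⟩

theorem exists_torsion_L (x : HH (LF (l : ℕ)) (LU (l : ℕ)) U) (hx : p • x = 0) :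
    ∃ z' : ↥(Z2 ((LF (l : ℕ)).res U) (rep (LU (l : ℕ)) U)),
      H2.mk ((LF (l : ℕ)).res U) (rep (LU (l : ℕ)) U) z' = x ∧
      ∀ q, p • (z' : U × U → Additive (Om l)ˣ) q = 0 := by
  obtain ⟨z, rfl⟩ := H2.mk_surjective x
  exact exists_torsion_rep ((unitsRep_smooth (k := ℚ_[(l : ℕ)])
    (Ω := PadicAlgCl (l : ℕ))).comp U.subtype) p (exists_div (l := l) p) z hx

theorem exists_mk_jZ (x : HH (LF (l : ℕ)) (LU (l : ℕ)) U) (hx : p • x = 0) :
    ∃ f : ↥(Z2 ((LF (l : ℕ)).res U) (rep (muL p l) U)),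
      H2.mk ((LF (l : ℕ)).res U) (rep (LU (l : ℕ)) U) (jZ f) = x := by
  obtain ⟨z', h1, h2⟩ := exists_torsion_L x hx
  obtain ⟨f, hf⟩ := exists_jZ z' h2
  exact ⟨f, (congrArg _ hf).trans h1⟩

theorem toTor_surjective (x : ↥(CFData.tor (LF (l : ℕ)) (LU (l : ℕ)) p U)) :
    ∃ f : ↥(Z2 ((LF (l : ℕ)).res U) (rep (muL p l) U)), toTor f = x := by
  obtain ⟨f, hf⟩ := exists_mk_jZ x.1 x.2
  exact ⟨f, Subtype.ext hf⟩

theorem invU_surjective : ∃ y : ↥(Z2 ((LF (l : ℕ)).res U) (rep (muL p l) U)),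
    invU hp2 hU (H2.mk ((LF (l : ℕ)).res U) (rep (muL p l) U) y) = 1 := by
  obtain ⟨x, hx⟩ := (cycCF (l : ℕ) p hp2).inv_surjective hU 1
  obtain ⟨y, rfl⟩ := toTor_surjective x
  exact ⟨y, (invU_mk hp2 hU y).trans hx⟩

include hU in
/-- there is a cocycle in the induced module whose trace has nonzero invariant -/
theorem exists_tr_ne [U.FiniteIndex] :
    ∃ Z : ↥(Z2 (LF (l : ℕ)) (indRep U (muL p l))),
      ∃ hZt : (fun q => sumLin (k := ZMod p) U ((Z : Gl l × Gl l → (Gl l ⧸ U → ZMod p)) q)) ∈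
        Z2 (LF (l : ℕ)) (muL p l),
      invL hp2 l (H2.mk (LF (l : ℕ)) (muL p l) ⟨_, hZt⟩) = 1 := by
  obtain ⟨y, hy⟩ := invU_surjective hp2 hU
  obtain ⟨X, hX⟩ := sh_H2_surjective hU (ρ := muL p l) (H2.mk ((LF (l : ℕ)).res U)
    (rep (muL p l) U) y)
  obtain ⟨Z, rfl⟩ := H2.mk_surjective X
  have hZt : (fun q => sumLin (k := ZMod p) U ((Z : Gl l × Gl l → (Gl l ⧸ U → ZMod p)) q)) ∈
      Z2 (LF (l : ℕ)) (muL p l) :=
    Frame.post_mem_Z2 (sumLin (k := ZMod p) U) (sumLin_comm U (muL p l)) Z.2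
  refine ⟨Z, hZt, ?_⟩
  rw [invL_tr hp2 hU Z hZt, ← hy]
  exact congrArg _ hX

end tor

section ln

variable (p : ℕ) [hp : Fact p.Prime] (hp2 : p ≠ 2) (S : Finset Nat.Primes) (hpS : pPrime p ∈ S)

theorem ln_fr : (fr p hp2 S hpS).LN := by
  refine ⟨⟨pPrime p, hpS⟩, fun V _ _ _ σ hσ b hb hb0 => ?_⟩
  have h0 : ∃ w, b w ≠ 0 := by
    by_contra hcon
    push Not at hcon
    exact hb0 (LinearMap.ext hcon)
  obtain ⟨w, hw⟩ := h0
  set w₀ : V := (b w)⁻¹ • w with hw₀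
  have hbw : b w₀ = 1 := by rw [hw₀, map_smul, smul_eq_mul, inv_mul_cancel₀ hw]
  obtain ⟨U₀, hU₀, hT⟩ := Frame.exists_triv (D := fr p hp2 S hpS) hσ
  have hT' := hT U₀ le_rfl
  obtain ⟨U, hU, hle⟩ := rl_cont (l := pPrime p) (isOpen_of_famS (Fam.isOpen_of_mem hU₀))
  haveI := (LF ((pPrime p : Nat.Primes) : ℕ)).finiteIndex U hU
  have hUo : (LF ((pPrime p : Nat.Primes) : ℕ)).IsOpen U := Fam.isOpen_of_mem hU
  obtain ⟨Z, hZt, hZ⟩ := exists_tr_ne (p := p) hp2 hUo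
  have hχ : ∀ u ∈ U, ((cycloChar p).comp (rl (pPrime p))) u = 1 := fun u hu => hT'.1 _ (hle hu)
  have hσU : ∀ u ∈ U, (σ.comp (rl (pPrime p))) u w₀ = w₀ := fun u hu => hT'.2 _ (hle hu) _
  let T := TT ((cycloChar p).comp (rl (pPrime p))) (σ.comp (rl (pPrime p))) U w₀
  have hTa : ∀ g ψ, T (indRep U (muL p (pPrime p)) g ψ) = (σ.comp (rl (pPrime p))) g (T ψ) :=
    TT_act (fun g a => rfl) hχ hσU
  have hTZ : (fun q => T ((Z : Gl (pPrime p) × Gl (pPrime p) → (Gl (pPrime p) ⧸ U → ZMod p)) q)) ∈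
      Z2 (LF ((pPrime p : Nat.Primes) : ℕ)) (σ.comp (rl (pPrime p))) :=
    Frame.post_mem_Z2 T hTa Z.2
  refine ⟨_, hTZ, ?_⟩
  have h1 : (fun q => b (T ((Z : Gl (pPrime p) × Gl (pPrime p) →
        (Gl (pPrime p) ⧸ U → ZMod p)) q))) =
      fun q => sumLin (k := ZMod p) U ((Z : Gl (pPrime p) × Gl (pPrime p) →
        (Gl (pPrime p) ⧸ U → ZMod p)) q) := by
    funext q
    have h2 := b_TT (χ := (cycloChar p).comp (rl (pPrime p))) (σ := σ.comp (rl (pPrime p)))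
      (U := U) (w₀ := w₀) (b := b) (fun g w => hb _ w) ((Z : Gl (pPrime p) × Gl (pPrime p) →
        (Gl (pPrime p) ⧸ U → ZMod p)) q)
    rw [hbw, mul_one] at h2
    exact h2
  intro h3
  have hm : (fun q => b (T ((Z : Gl (pPrime p) × Gl (pPrime p) →
        (Gl (pPrime p) ⧸ U → ZMod p)) q))) ∈ Z2 (LF ((pPrime p : Nat.Primes) : ℕ))
          (muL p (pPrime p)) := by
    rw [h1]
    exact hZt
  have h5 := Frame.iv_eq (D := fr p hp2 S hpS) (v := ⟨pPrime p, hpS⟩) hm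
  have h6 : invL hp2 (pPrime p) (H2.mk (LF ((pPrime p : Nat.Primes) : ℕ)) (muL p (pPrime p))
      ⟨_, hm⟩) = 1 := by
    rw [← hZ]
    exact congrArg (fun z => invL hp2 (pPrime p) (H2.mk (LF ((pPrime p : Nat.Primes) : ℕ))
      (muL p (pPrime p)) z)) (Subtype.ext h1)
  exact one_ne_zero (h6.symm.trans (h5.symm.trans h3))

end ln

end Fermat.Agent.PT
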