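import Fermat.Agent.PT.St2b

/-!
# The abstract duality theorem
-/

set_option autoImplicit false
set_option linter.unusedSectionVars false
set_option linter.style.haveILetI false

namespace Fermat.Agent.PT

open Fermat.Agent.Coh Module

namespace Frame

variable {k : Type} [Field k] {Γ : Type} [Group Γ] {D : Frame k Γ}
variable {V : Type} [AddCommGroup V] [Module k V] {ρ : Representation k Γ V}

theorem eval_comm [FiniteDimensional k V] (g : Γ) (v : V) :
    Module.evalEquiv k V (ρ g v) = D.dl (D.dl ρ) g (Module.evalEquiv k V v) := by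
  refine LinearMap.ext fun f => ?_
  rw [dl_comp, Module.evalEquiv_apply, Module.evalEquiv_apply, Dual.eval_apply, Dual.eval_apply,
    dl_comp, inv_inv, map_inv, ← mul_assoc, Units.mul_inv, one_mul]

/-- **Duality, abstract form.** -/
theorem finrank_sha_eq (hG : D.Good) (hρ : SmRep D.𝓤 ρ) [FiniteDimensional k V] :
    FiniteDimensional k ↥(D.sha1 (D.dl ρ)) ∧ FiniteDimensional k ↥(D.sha2 ρ) ∧
      finrank k ↥(D.sha1 (D.dl ρ)) = finrank k ↥(D.sha2 ρ) := by
  have hdl := dl_sm hρ
  haveI := finite_H1 hG hdl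
  obtain ⟨h1, h2⟩ := finrank_sha2_dl_le hG hdl
  haveI := h1
  haveI h3 : FiniteDimensional k ↥(D.sha2 ρ) :=
    finite_sha2 (D := D) (Module.evalEquiv k V) (eval_comm (D := D) (ρ := ρ))
  refine ⟨inferInstance, h3, le_antisymm (finrank_sha1_le hG hρ) ?_⟩
  exact (finrank_sha2_mono (D := D) (Module.evalEquiv k V) (eval_comm (D := D) (ρ := ρ))).trans h2

/-- **Duality, abstract form.** -/
theorem exists_pairing (hG : D.Good) (hρ : SmRep D.𝓤 ρ) [FiniteDimensional k V] :
    ∃ B : ↥(D.sha1 (D.dl ρ)) →ₗ[k] ↥(D.sha2 ρ) →ₗ[k] k,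
      (∀ y, (∀ x, B y x = 0) → y = 0) ∧ (∀ x, (∀ y, B y x = 0) → x = 0) := by
  obtain ⟨h1, h2, h3⟩ := finrank_sha_eq hG hρ
  exact LA.exists_pairing h3

end Frame

end Fermat.Agent.PT
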