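import Fermat.Agent.PT.LocDim
import Fermat.Agent.PT.LNfr
import Fermat.Agent.PT.Main

/-!
# Semilocal cohomology of the induced module; the counting hypothesis for the concrete frame
-/

set_option autoImplicit false
set_option linter.unusedSectionVars false
set_option linter.style.haveILetI false

namespace Fermat.Agent.PT

open Fermat.Agent.Coh Fermat.Agent.GCFT Fermat.Agent.GlobalCFT Fermat.Agent.GalD
  Fermat.Agent.LocalCFT Module ExtCitation

section LA

variable {k H : Type*} [Field k] [AddCommGroup H] [Module k H]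

/-- bounding a dimension by a jointly injective family -/
theorem LA.finrank_le_of_family {ι : Type*} [Finite ι] {E : Type*} [AddCommGroup E] [Module k E]
    [FiniteDimensional k E] (f : ι → H →ₗ[k] E) (hf : ∀ x, (∀ i, f i x = 0) → x = 0) (n : ℕ)
    (hn : finrank k E ≤ n) : FiniteDimensional k H ∧ finrank k H ≤ Nat.card ι * n := by
  haveI := Fintype.ofFinite ι
  have hinj : Function.Injective (LinearMap.pi f) := by
    rw [← LinearMap.ker_eq_bot, LinearMap.ker_eq_bot']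
    intro x hx
    exact hf x fun i => congrFun hx i
  refine ⟨FiniteDimensional.of_injective _ hinj, ?_⟩
  refine (LinearMap.finrank_le_finrank_of_injective hinj).trans ?_
  rw [finrank_pi_fintype, Finset.sum_const, Finset.card_univ, smul_eq_mul, Nat.card_eq_fintype_card]
  exact Nat.mul_le_mul_left _ hn

/-- transporting a bound through an equivalence -/
theorem LA.finite_of_map_le {H' : Type*} [AddCommGroup H'] [Module k H'] (e : H ≃ₗ[k] H')
    (Q : Submodule k H) (R : Submodule k H') [FiniteDimensional k R]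
    (h : ∀ x ∈ Q, e x ∈ R) : FiniteDimensional k Q ∧ finrank k Q ≤ finrank k R := by
  have hle : Q.map e.toLinearMap ≤ R := by
    rintro _ ⟨x, hx, rfl⟩
    exact h x hx
  haveI : FiniteDimensional k ↥(Q.map e.toLinearMap) := Submodule.finiteDimensional_of_le hle
  refine ⟨Module.Finite.equiv (Submodule.equivMapOfInjective _ e.injective Q).symm, ?_⟩
  rw [← LinearEquiv.finrank_map_eq e Q]
  exact Submodule.finrank_mono hle

end LA

section conj

variable {k : Type*} [CommRing k] {Γ : Type*} [Group Γ] {V : Type*} [AddCommGroup V] [Module k V]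
  {𝓤 : Fam Γ} {ρ : Representation k Γ V}

/-- inner automorphisms act trivially on `H²` -/
theorem conj_cocycle {F : Γ × Γ → V} (hF : F ∈ Z2 𝓤 ρ) (x : Γ) :
    ∃ φ : Γ → V, 𝓤.Sm1 φ ∧ ∀ g h, ρ x (F (x⁻¹ * g * x, x⁻¹ * h * x)) =
      F (g, h) + (ρ g (φ h) - φ (g * h) + φ g) := by
  refine ⟨fun g => F (x, x⁻¹ * g * x) - F (g, x), ?_, fun g h => ?_⟩
  · obtain ⟨W, hW, h⟩ := hF.1
    refine ⟨W, hW, fun g u hu => ?_⟩
    have h1 : x⁻¹ * (g * u) * x = (x⁻¹ * g * x) * (x⁻¹ * u * x) := by group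
    have h2 : x⁻¹ * u * x ∈ W := by
      have := (𝓤.normal W hW).conj_mem u hu x⁻¹
      simpa using this
    have h3 := h x (x⁻¹ * g * x) 1 W.one_mem _ h2
    have h4 := h g x u hu 1 W.one_mem
    rw [mul_one] at h3 h4
    simp only
    rw [h1, h3, h4]
  · have e1 := hF.2 x (x⁻¹ * g * x) (x⁻¹ * h * x)
    have e2 := hF.2 g x (x⁻¹ * h * x)
    have e3 := hF.2 g h x
    have a1 : x * (x⁻¹ * g * x) = g * x := by group
    have a2 : x * (x⁻¹ * h * x) = h * x := by group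
    have a3 : x⁻¹ * g * x * (x⁻¹ * h * x) = x⁻¹ * (g * h) * x := by group
    rw [a1, a3] at e1
    rw [a2] at e2
    simp only [map_sub]
    have e1' : ρ x (F (x⁻¹ * g * x, x⁻¹ * h * x)) =
        F (g * x, x⁻¹ * h * x) + F (x, x⁻¹ * g * x) - F (x, x⁻¹ * (g * h) * x) :=
      eq_sub_of_add_eq e1.symm
    have e2' : F (g * x, x⁻¹ * h * x) = ρ g (F (x, x⁻¹ * h * x)) + F (g, h * x) - F (g, x) :=
      eq_sub_of_add_eq e2
    have e3' : F (g, h * x) = F (g * h, x) + F (g, h) - ρ g (F (h, x)) := by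
      rw [e3]; abel
    rw [e1', e2', e3']
    abel

end conj

section semi

variable {k : Type*} [CommRing k] {G Δ : Type*} [Group G] [Group Δ] (r : Δ →* G)
  {W : Type*} [AddCommGroup W] [Module k W] (μ : Representation k G W) (U : Subgroup G) [U.Normal]
  (𝓥 : Fam Δ)

theorem smul_of_mem {u : G} (hu : u ∈ U) (c : G ⧸ U) : u • c = c :=
  fac_of_normal U ‹U.Normal› le_rfl u hu c

/-- evaluation at a coset -/
def evMor (x : G) : Mor 𝓥 (𝓥.res (U.comap r)) ((indRep U μ).comp r) (rep (μ.comp r) (U.comap r)) where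
  f := (U.comap r).subtype
  T := LinearMap.proj (x : G ⧸ U)
  comm δ φ := by
    change μ (r δ) (φ ((r δ)⁻¹ • (x : G ⧸ U))) = μ (r δ) (φ (x : G ⧸ U))
    rw [smul_of_mem U (U.inv_mem δ.2)]
  cont W hW := ⟨_, Fam.comap_mem hW, le_rfl⟩

variable {r μ U 𝓥}

theorem exists_rep_place (y : G ⧸ U) : ∃ δ : Δ, ∃ c : Pl r U,
    c = cl r U y.out ∧ y = r δ • ((c.out : G) : G ⧸ U) := by
  have h1 : cl r U (Quotient.out (cl r U y.out)) = cl r U y.out := Quotient.out_eq _
  obtain ⟨δ, u, hu, h2⟩ := (cl_eq_iff r U).mp h1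
  refine ⟨δ, _, rfl, ?_⟩
  have h3 : y = ((y.out : G) : G ⧸ U) := (QuotientGroup.out_eq' y).symm
  rw [MulAction.Quotient.smul_coe, smul_eq_mul]
  conv_lhs => rw [h3, h2]
  rw [QuotientGroup.eq]
  have h4 : (r δ * Quotient.out (cl r U y.out) * u)⁻¹ * (r δ * Quotient.out (cl r U y.out)) = u⁻¹ := by
    group
  rw [h4]
  exact U.inv_mem hu

theorem cl_eq_of_smul {y y' : G ⧸ U} (δ : Δ) (h : y = r δ • y') :
    cl r U y.out = cl r U y'.out := by
  symm
  rw [cl_eq_iff]
  refine ⟨δ, (r δ * y'.out)⁻¹ * y.out, ?_, by group⟩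
  apply QuotientGroup.eq.mp
  rw [← smul_eq_mul, ← MulAction.Quotient.smul_coe, QuotientGroup.out_eq', QuotientGroup.out_eq', h]

theorem mem_of_smul_eq {g : G} {x : G ⧸ U} (h : g • x = x) : g ∈ U := by
  obtain ⟨x, rfl⟩ := QuotientGroup.mk_surjective x
  rw [MulAction.Quotient.smul_coe, smul_eq_mul, QuotientGroup.eq] at h
  have h1 := (‹U.Normal›).conj_mem _ h x
  have h2 : x * ((g * x)⁻¹ * x) * x⁻¹ = g⁻¹ := by group
  rw [h2] at h1
  exact (U.inv_mem_iff).mp h1

/-- Semilocal Shapiro in degree one: injectivity. -/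
theorem semi_injective (hμ : ∀ u ∈ U, ∀ w, μ u w = w)
    (z : H1 𝓥 ((indRep U μ).comp r))
    (h : ∀ c : Pl r U, (evMor r μ U 𝓥 c.out).mapH1 z = 0) : z = 0 := by
  obtain ⟨z, rfl⟩ := H1.mk_surjective z
  have h0 : ∀ (c : Pl r U) (ε : Δ), r ε ∈ U → (z : Δ → (G ⧸ U → W)) ε ((c.out : G) : G ⧸ U) = 0 := by
    intro c ε hε
    obtain ⟨a, ha⟩ := H1.mk_eq_zero.mp (h c)
    have h1 := ha ⟨ε, hε⟩
    have h2 : (z : Δ → (G ⧸ U → W)) ε ((c.out : G) : G ⧸ U) = μ (r ε) a - a := h1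
    rw [h2, hμ _ hε, sub_self]
  choose δ c hc hy using fun y : G ⧸ U => exists_rep_place (r := r) y
  refine H1.mk_eq_zero.mpr ⟨fun y => - (z : Δ → (G ⧸ U → W)) (δ y) y, fun g => ?_⟩
  funext y
  change (z : Δ → (G ⧸ U → W)) g y = μ (r g) (- (z : Δ → (G ⧸ U → W)) (δ ((r g)⁻¹ • y))
    ((r g)⁻¹ • y)) - (- (z : Δ → (G ⧸ U → W)) (δ y) y)
  set y' := (r g)⁻¹ • y with hy'
  have h1 : y = r g • y' := by rw [hy', smul_inv_smul]
  have h2 : c y' = c y := by
    rw [hc, hc]
    exact (cl_eq_of_smul g h1).symm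
  set ε := (δ y)⁻¹ * g * δ y' with hε
  have h3 : r ε ∈ U := by
    apply mem_of_smul_eq (x := (((c y).out : G) : G ⧸ U))
    rw [hε, map_mul, map_mul, map_inv, mul_smul, mul_smul, inv_smul_eq_iff, ← hy y, ← h2, ← hy y',
      ← h1]
  have h4 : g * δ y' = δ y * ε := by rw [hε]; group
  have h5 := z.2.2 g (δ y')
  have h6 := z.2.2 (δ y) ε
  rw [h4] at h5
  have h7 := congrFun (h5.symm.trans h6) y
  have h8 : (((indRep U μ).comp r) (δ y) ((z : Δ → (G ⧸ U → W)) ε) + (z : Δ → (G ⧸ U → W)) (δ y)) y =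
      (z : Δ → (G ⧸ U → W)) (δ y) y := by
    change μ (r (δ y)) ((z : Δ → (G ⧸ U → W)) ε ((r (δ y))⁻¹ • y)) + _ = _
    have h9 : (r (δ y))⁻¹ • y = (((c y).out : G) : G ⧸ U) := by
      rw [inv_smul_eq_iff]
      exact hy y
    rw [h9, h0 _ _ h3, map_zero, zero_add]
  rw [h8] at h7
  change μ (r g) ((z : Δ → (G ⧸ U → W)) (δ y') y') + (z : Δ → (G ⧸ U → W)) g y = _ at h7
  rw [map_neg, ← h7]
  abel

variable (r U) in
theorem finite_Pl [U.FiniteIndex] : Finite (Pl r U) := by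
  refine Finite.of_surjective (fun y : G ⧸ U => cl r U y.out) fun c => ?_
  refine ⟨((c.out : G) : G ⧸ U), ?_⟩
  have h1 : c = cl r U c.out := (Quotient.out_eq c).symm
  conv_rhs => rw [h1]
  symm
  rw [cl_eq_iff]
  obtain ⟨u, hu⟩ := QuotientGroup.mk_out_eq_mul U (c.out : G)
  exact ⟨1, u, u.2, by rw [map_one, one_mul]; exact hu⟩

variable (r U) in
theorem card_Pl_mul_le [U.FiniteIndex] : Nat.card (Pl r U) * (U.comap r).index ≤ U.index := by
  haveI := finite_Pl r U
  rw [Subgroup.index, Subgroup.index, ← Nat.card_prod]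
  haveI : Finite (G ⧸ U) := inferInstance
  refine Nat.card_le_card_of_injective
    (fun a : Pl r U × (Δ ⧸ U.comap r) => r a.2.out • ((a.1.out : G) : G ⧸ U)) ?_
  rintro ⟨c, d⟩ ⟨c', d'⟩ h
  simp only at h
  have h1 : c = c' := by
    have h2 : r (d.out⁻¹ * d'.out) • ((c'.out : G) : G ⧸ U) = ((c.out : G) : G ⧸ U) := by
      rw [map_mul, map_inv, mul_smul, ← h, inv_smul_smul]
    have h3 := cl_eq_of_smul (r := r) (U := U) (d.out⁻¹ * d'.out) h2.symm
    have h4 : ∀ c : Pl r U, cl r U ((((c.out : G) : G ⧸ U)).out) = c := by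
      intro c
      have h1 : c = cl r U c.out := (Quotient.out_eq c).symm
      conv_rhs => rw [h1]
      symm
      rw [cl_eq_iff]
      obtain ⟨u, hu⟩ := QuotientGroup.mk_out_eq_mul U (c.out : G)
      exact ⟨1, u, u.2, by rw [map_one, one_mul]; exact hu⟩
    rw [h4, h4] at h3
    exact h3
  subst h1
  refine Prod.ext rfl ?_
  have h2 : r (d.out⁻¹ * d'.out) • ((c.out : G) : G ⧸ U) = ((c.out : G) : G ⧸ U) := by
    rw [map_mul, map_inv, mul_smul, ← h, inv_smul_smul]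
  have h3 := mem_of_smul_eq h2
  have h4 : ((d.out : Δ) : Δ ⧸ U.comap r) = ((d'.out : Δ) : Δ ⧸ U.comap r) :=
    QuotientGroup.eq.mpr h3
  rw [QuotientGroup.out_eq', QuotientGroup.out_eq'] at h4
  exact h4

end semi

end Fermat.Agent.PT
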