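import Fermat.Agent.PT.Cone
import Fermat.Agent.LocalCFT.CycL
import Fermat.Agent.GlobalCFT.GPlaces
import Fermat.Agent.ESCore.Cyclo

/-!
# The concrete frame: `Gal(ℚ̄/ℚ)` with the local Galois groups at the primes of `S`
-/

set_option autoImplicit false
set_option linter.unusedSectionVars false
set_option linter.style.haveILetI false

namespace Fermat.Agent.PT

open Fermat.Agent.Coh Fermat.Agent.GCFT Fermat.Agent.GlobalCFT Fermat.Agent.GalD
  Fermat.Agent.LocalCFT Module ExtCitation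

/-- The field of algebraic numbers. -/
local notation "Qb" => AlgebraicClosure ℚ
/-- The absolute Galois group. -/
local notation "GQ" => (AlgebraicClosure ℚ ≃ₐ[ℚ] AlgebraicClosure ℚ)

/-- the localisation map is continuous -/
theorem rl_cont {l : Nat.Primes} {U : Subgroup GQ} (hU : IsOpen (U : Set GQ)) :
    (LF (l : ℕ)).IsOpen (U.comap (rl l)) := by
  have hfin := finite_FFd hU
  obtain ⟨θ, hθ⟩ := Field.exists_primitive_element ℚ (FFd U)
  have hint : IsIntegral ℚ_[(l : ℕ)] (il l (θ : Qb)) := Algebra.IsIntegral.isIntegral _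
  have := IntermediateField.adjoin.finiteDimensional hint
  refine (fam_isOpen_of_finite (k := ℚ_[(l : ℕ)]) (Ω := PadicAlgCl (l : ℕ))
    (IntermediateField.adjoin ℚ_[(l : ℕ)] {il l (θ : Qb)})).mono fun δ hδ => ?_
  rw [Subgroup.mem_comap]
  have h1 : δ (il l (θ : Qb)) = il l (θ : Qb) :=
    hδ ⟨_, IntermediateField.mem_adjoin_simple_self ℚ_[(l : ℕ)] _⟩
  rw [← il_rl] at h1
  have h2 : rl l δ (θ : Qb) = θ := (il l).toRingHom.injective h1
  rw [← fixingSubgroup_FFd hU, IntermediateField.mem_fixingSubgroup_iff]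
  intro x hx
  have h3 : (⟨x, hx⟩ : FFd U) ∈ IntermediateField.adjoin ℚ {θ} := by
    rw [hθ]
    exact IntermediateField.mem_top
  have h4 : ∀ y : FFd U, y ∈ IntermediateField.adjoin ℚ {θ} → rl l δ (y : Qb) = y := by
    intro y hy
    induction hy using IntermediateField.adjoin_induction with
    | mem x hx =>
      rw [Set.mem_singleton_iff] at hx
      rw [hx, h2]
    | algebraMap x => exact (rl l δ).commutes x
    | add x y _ _ hx hy =>
      have e : ((x + y : FFd U) : Qb) = x + y := rfl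
      rw [e, map_add, hx, hy]
    | inv x _ hx =>
      have e : ((x⁻¹ : FFd U) : Qb) = (x : Qb)⁻¹ := rfl
      rw [e, map_inv₀, hx]
    | mul x y _ _ hx hy =>
      have e : ((x * y : FFd U) : Qb) = x * y := rfl
      rw [e, map_mul, hx, hy]
  exact h4 _ h3

section mu

variable (p : ℕ) [hp : Fact p.Prime]

theorem exists_zt : ∃ ζ : Qb, IsPrimitiveRoot ζ p := by
  obtain ⟨ζ, h⟩ := exists_prim (p := p) (Ω := Qb) 1
  exact ⟨ζ, by rwa [pow_one] at h⟩

/-- a primitive `p`-th root of unity -/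
noncomputable def zt : Qb := (exists_zt p).choose

theorem zt_spec : IsPrimitiveRoot (zt p) p := (exists_zt p).choose_spec

theorem cycloChar_spec (g : GQ) : g (zt p) = zt p ^ (cycloChar p g : ZMod p).val := by
  have : NeZero p := ⟨hp.out.ne_zero⟩
  have h1 : ((zt_spec p).isUnit hp.out.ne_zero).unit ∈ rootsOfUnity p Qb := by
    rw [mem_rootsOfUnity]
    apply Units.ext
    rw [Units.val_pow_eq_pow_val]
    exact (zt_spec p).pow_eq_one
  exact modularCyclotomicCharacter.spec Qb (card_rootsOfUnity_eq_self p) (g : Qb ≃+* Qb) h1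

theorem zt_ne_zero : zt p ≠ 0 := (zt_spec p).ne_zero hp.out.ne_zero

variable (l : Nat.Primes)

theorem ztl_spec : IsPrimitiveRoot (il l (zt p)) p :=
  (zt_spec p).map_of_injective (il l).toRingHom.injective

/-- the inclusion of the `p`-th roots of unity -/
noncomputable def jl : ZMod p →+ Additive (Om l)ˣ :=
  ZMod.lift p ⟨zmultiplesHom _ (umk (il l (zt p)) ((ztl_spec p l).ne_zero hp.out.ne_zero)), by
    apply uval_injective
    rw [zmultiplesHom_apply, uval_zsmul, uval_umk, zpow_natCast, (ztl_spec p l).pow_eq_one,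
      uval_zero]⟩

theorem uval_jl_natCast (n : ℕ) : uval (jl p l (n : ZMod p)) = il l (zt p) ^ n := by
  have h1 : ((n : ℤ) : ZMod p) = (n : ZMod p) := Int.cast_natCast n
  rw [jl, ← h1, ZMod.lift_coe]
  change uval (zmultiplesHom _ (umk (il l (zt p)) ((ztl_spec p l).ne_zero hp.out.ne_zero)) (n : ℤ)) = _
  rw [zmultiplesHom_apply, uval_zsmul, uval_umk, zpow_natCast]

theorem uval_jl (a : ZMod p) : uval (jl p l a) = il l (zt p) ^ a.val := by
  have : NeZero p := ⟨hp.out.ne_zero⟩
  conv_lhs => rw [← ZMod.natCast_zmod_val a]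
  exact uval_jl_natCast p l _

theorem jl_injective : Function.Injective (jl p l) := by
  have : NeZero p := ⟨hp.out.ne_zero⟩
  intro a b h
  have h1 := congrArg uval h
  rw [uval_jl, uval_jl] at h1
  exact ZMod.val_injective p ((ztl_spec p l).pow_inj (ZMod.val_lt a) (ZMod.val_lt b) h1)

/-- every `p`-torsion element is in the image -/
theorem exists_jl (a : Additive (Om l)ˣ) (ha : p • a = 0) : ∃ b, jl p l b = a := by
  have : NeZero p := ⟨hp.out.ne_zero⟩
  have h1 := congrArg uval ha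
  rw [uval_nsmul, uval_zero] at h1
  obtain ⟨i, _, hi⟩ := (ztl_spec p l).eq_pow_of_pow_eq_one h1
  refine ⟨(i : ZMod p), uval_injective ?_⟩
  rw [uval_jl_natCast, hi]

theorem nsmul_jl (b : ZMod p) : p • jl p l b = 0 := by
  rw [← map_nsmul, nsmul_eq_mul, ZMod.natCast_self, zero_mul, map_zero]

theorem jl_comm (δ : Gl l) (a : ZMod p) :
    jl p l (((cycloChar p).comp (rl l) δ : ZMod p) * a) = LU (l : ℕ) δ (jl p l a) := by
  have : NeZero p := ⟨hp.out.ne_zero⟩
  set c := ((cycloChar p).comp (rl l) δ : ZMod p) with hc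
  have h1 : c * a = c.val • a := by rw [nsmul_eq_mul, ZMod.natCast_zmod_val]
  apply uval_injective
  rw [h1, map_nsmul, uval_nsmul, uval_unitsRep, uval_jl, map_pow]
  have h2 : δ (il l (zt p)) = il l (zt p) ^ c.val := by
    rw [← il_rl, cycloChar_spec, map_pow]
    rfl
  rw [h2, ← pow_mul, ← pow_mul, mul_comm]

/-- the global representation `μ_p` -/
noncomputable abbrev muQ : Representation (ZMod p) GQ (ZMod p) := chRep (cycloChar p)

/-- the local representation `μ_p` -/
noncomputable abbrev muL : Representation (ZMod p) (Gl l) (ZMod p) := (muQ p).comp (rl l)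

variable {p l} (hp2 : p ≠ 2) {U : Subgroup (Gl l)} (hU : (LF (l : ℕ)).IsOpen U)

theorem jl_mem {f : U × U → ZMod p} (hf : f ∈ Z2 ((LF (l : ℕ)).res U) (rep (muL p l) U)) :
    (fun q => jl p l (f q)) ∈ Z2 ((LF (l : ℕ)).res U) (rep (LU (l : ℕ)) U) := by
  refine ⟨hf.1.post _, fun g h j => ?_⟩
  rw [← map_add, hf.2, map_add]
  congr 1
  exact jl_comm p l (g : Gl l) _

/-- a `μ_p`-valued cocycle with values in the units -/
noncomputable def jZ : ↥(Z2 ((LF (l : ℕ)).res U) (rep (muL p l) U)) →+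
    ↥(Z2 ((LF (l : ℕ)).res U) (rep (LU (l : ℕ)) U)) where
  toFun f := ⟨fun q => jl p l ((f : U × U → ZMod p) q), jl_mem f.2⟩
  map_zero' := Subtype.ext (funext fun _ => map_zero (jl p l))
  map_add' _ _ := Subtype.ext (funext fun _ => map_add (jl p l) _ _)

@[simp] theorem coe_jZ (f : ↥(Z2 ((LF (l : ℕ)).res U) (rep (muL p l) U))) (q : U × U) :
    (jZ f : U × U → Additive (Om l)ˣ) q = jl p l ((f : U × U → ZMod p) q) := rfl

theorem mk_jZ_mem (f : ↥(Z2 ((LF (l : ℕ)).res U) (rep (muL p l) U))) :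
    H2.mk ((LF (l : ℕ)).res U) (rep (LU (l : ℕ)) U) (jZ f) ∈
      CFData.tor (LF (l : ℕ)) (LU (l : ℕ)) p U := by
  rw [CFData.mem_tor, ← map_nsmul]
  have : p • jZ f = 0 := Subtype.ext (funext fun q => nsmul_jl p l _)
  rw [this, map_zero]

/-- the class of a `μ_p`-valued cocycle with values in the units -/
noncomputable def toTor : ↥(Z2 ((LF (l : ℕ)).res U) (rep (muL p l) U)) →+
    ↥(CFData.tor (LF (l : ℕ)) (LU (l : ℕ)) p U) :=
  ((H2.mk ((LF (l : ℕ)).res U) (rep (LU (l : ℕ)) U)).toAddMonoidHom.comp jZ).codRestrict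
    (CFData.tor (LF (l : ℕ)) (LU (l : ℕ)) p U) mk_jZ_mem

theorem coe_toTor (f : ↥(Z2 ((LF (l : ℕ)).res U) (rep (muL p l) U))) :
    (toTor f : HH (LF (l : ℕ)) (LU (l : ℕ)) U) =
      H2.mk ((LF (l : ℕ)).res U) (rep (LU (l : ℕ)) U) (jZ f) := rfl

theorem toTor_eq_zero {f : ↥(Z2 ((LF (l : ℕ)).res U) (rep (muL p l) U))}
    (hf : H2.mk ((LF (l : ℕ)).res U) (rep (muL p l) U) f = 0) : toTor f = 0 := by
  obtain ⟨c, hc, h⟩ := H2.mk_eq_zero.mp hf
  have key : H2.mk ((LF (l : ℕ)).res U) (rep (LU (l : ℕ)) U) (jZ f) = 0 := by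
    refine H2.mk_eq_zero.mpr ⟨fun g => jl p l (c g), hc.post _, fun g h' => ?_⟩
    rw [coe_jZ, h, map_add, map_sub]
    congr 2
    exact jl_comm p l (g : Gl l) _
  exact Subtype.ext key

/-- the invariant on cocycles -/
noncomputable def invZ : ↥(Z2 ((LF (l : ℕ)).res U) (rep (muL p l) U)) →ₗ[ZMod p] ZMod p :=
  AddMonoidHom.toZModLinearMap p (((cycCF (l : ℕ) p hp2).inv hU).comp toTor)

theorem invZ_apply (f : ↥(Z2 ((LF (l : ℕ)).res U) (rep (muL p l) U))) :
    invZ hp2 hU f = (cycCF (l : ℕ) p hp2).inv hU (toTor f) := rfl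

/-- **The invariant map of an open subgroup of the local Galois group.** -/
noncomputable def invU : H2 ((LF (l : ℕ)).res U) (rep (muL p l) U) →ₗ[ZMod p] ZMod p :=
  Submodule.liftQ _ (invZ hp2 hU) (by
      intro f hf
      rw [LinearMap.mem_ker, invZ_apply, toTor_eq_zero, map_zero]
      rw [Submodule.mkQ_apply, Submodule.Quotient.mk_eq_zero]
      exact hf)

theorem invU_mk (f : ↥(Z2 ((LF (l : ℕ)).res U) (rep (muL p l) U))) :
    invU hp2 hU (H2.mk ((LF (l : ℕ)).res U) (rep (muL p l) U) f) =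
      (cycCF (l : ℕ) p hp2).inv hU (toTor f) := rfl

/-- the local invariant -/
noncomputable def invL (l : Nat.Primes) : H2 (LF (l : ℕ)) (muL p l) →ₗ[ZMod p] ZMod p :=
  invU hp2 (Fam.isOpen_top _) ∘ₗ (Mor.res (LF (l : ℕ)) (muL p l) ⊤).mapH2

variable (p) in
theorem mem_ker_cycloChar {g : GQ} : g ∈ (cycloChar p).ker ↔ g (zt p) = zt p := by
  have : NeZero p := ⟨hp.out.ne_zero⟩
  have : Fact (1 < p) := ⟨hp.out.one_lt⟩
  rw [MonoidHom.mem_ker, cycloChar_spec]
  constructor
  · intro h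
    rw [h, Units.val_one, ZMod.val_one, pow_one]
  · intro h
    have h1 : zt p ^ (cycloChar p g : ZMod p).val = zt p ^ 1 := by rw [h, pow_one]
    have h2 := (zt_spec p).pow_inj (ZMod.val_lt _) hp.out.one_lt h1
    apply Units.ext
    apply ZMod.val_injective p
    rw [h2, Units.val_one, ZMod.val_one]

/-- The kernel of the cyclotomic character is open. -/
theorem cycloChar_open {S : Finset Nat.Primes} (hpS : pPrime p ∈ S) :
    (cycloChar p).ker ∈ famS S := by
  refine ⟨inferInstance, ?_, fun q hq A hA g hg => ?_⟩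
  · have hint : IsIntegral ℚ (zt p) := Algebra.IsIntegral.isIntegral _
    have := IntermediateField.adjoin.finiteDimensional hint
    refine Subgroup.isOpen_mono (H₁ := (IntermediateField.adjoin ℚ {zt p}).fixingSubgroup)
      (fun g hg => ?_) (IntermediateField.fixingSubgroup_isOpen _)
    rw [mem_ker_cycloChar]
    exact hg ⟨_, IntermediateField.mem_adjoin_simple_self ℚ _⟩
  · rw [mem_ker_cycloChar]
    refine ESCore.inertia_root hA q.2 hg ?_ (zt_spec p).pow_eq_one
    intro h
    have h1 := (Nat.prime_dvd_prime_iff_eq q.2 hp.out).mp h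
    exact hq (by
      have : q = pPrime p := Subtype.ext h1
      rw [this]
      exact hpS)

end mu

section frame

variable (p : ℕ) [hp : Fact p.Prime] (hp2 : p ≠ 2) (S : Finset Nat.Primes) (hpS : pPrime p ∈ S)

/-- **The concrete frame.** -/
noncomputable def fr : Frame (ZMod p) GQ where
  𝓤 := famS S
  ι := ↥S
  G v := Gl v.1
  𝓥 v := LF (v.1 : ℕ)
  r v := rl v.1
  cont _ _ hU := rl_cont (isOpen_of_famS (Fam.isOpen_of_mem hU))
  χ := cycloChar p
  χ_sm := ⟨_, cycloChar_open hpS, fun _ hu => hu⟩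
  inv v := invL hp2 v.1

/-- the localisation at `(l, x)` of the cohomology of an open subgroup -/
noncomputable def stabL (l : Nat.Primes) (x : GQ) (U : Subgroup GQ) : Subgroup (Gl l) :=
  (U.comap (MulAut.conj x⁻¹).toMonoidHom).comap (rl l)

theorem mem_stabL {l : Nat.Primes} {x : GQ} {U : Subgroup GQ} {δ : Gl l} :
    δ ∈ stabL l x U ↔ x⁻¹ * rl l δ * x ∈ U := by
  rw [stabL, Subgroup.mem_comap, Subgroup.mem_comap]
  change (MulAut.conj x⁻¹) (rl l δ) ∈ U ↔ _
  rw [MulAut.conj_apply, inv_inv]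

/-- the localisation homomorphism -/
noncomputable def stabHom (l : Nat.Primes) (x : GQ) (U : Subgroup GQ) : stabL l x U →* U where
  toFun δ := ⟨x⁻¹ * rl l δ * x, mem_stabL.mp δ.2⟩
  map_one' := by
    apply Subtype.ext
    simp
  map_mul' δ δ' := by
    apply Subtype.ext
    simp [mul_assoc]

variable {p S}

/-- the localisation morphism on the cohomology of `μ_p` -/
noncomputable def locMor (l : Nat.Primes) (x : GQ) {U : Subgroup GQ} :
    Mor ((famS S).res U) ((LF (l : ℕ)).res (stabL l x U)) (rep (muQ p) U)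
      (rep (muL p l) (stabL l x U)) where
  f := stabHom l x U
  T := muQ p x
  comm δ a := by
    change muQ p x (muQ p (x⁻¹ * rl l δ * x) a) = muQ p (rl l δ) (muQ p x a)
    rw [← Module.End.mul_apply, ← Module.End.mul_apply, ← map_mul, ← map_mul]
    congr 2
    group
  cont := by
    rintro _ ⟨W, hW, rfl⟩
    obtain ⟨W', hW', hle⟩ := rl_cont (l := l) (isOpen_of_famS (Fam.isOpen_of_mem hW))
    refine ⟨_, ⟨W', hW', rfl⟩, fun δ hδ => ?_⟩
    change x⁻¹ * rl l δ * x ∈ W
    have h1 := hle hδ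
    have := (famS S).normal W hW |>.conj_mem _ h1 x⁻¹
    simpa using this

variable (p S) in
/-- everywhere locally (at `S`) trivial classes -/
noncomputable def sha2U (U : Subgroup GQ) :
    Submodule (ZMod p) (H2 ((famS S).res U) (rep (muQ p) U)) :=
  ⨅ (l : ↥S) (x : GQ), LinearMap.ker (locMor (S := S) (p := p) l.1 x (U := U)).mapH2

theorem mem_sha2U {U : Subgroup GQ} {y : H2 ((famS S).res U) (rep (muQ p) U)} :
    y ∈ sha2U p S U ↔ ∀ l ∈ S, ∀ x : GQ, (locMor l x).mapH2 y = 0 := by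
  simp only [sha2U, Submodule.mem_iInf, LinearMap.mem_ker, Subtype.forall]

variable (p S) in
/-- **The numerical input (E)** from Kummer theory. -/
def EProp (U : Subgroup GQ) : Prop :=
  Module.Finite (ZMod p) (H1 ((famS S).res U) (rep (muQ p) U)) ∧
  Module.Finite (ZMod p) (sha2U p S U) ∧
  2 * finrank (ZMod p) (sha2U p S U) + U.index + 2 * ∑ l ∈ S, Nat.card (Pl (rl l) U) ≤
    2 * finrank (ZMod p) (H1 ((famS S).res U) (rep (muQ p) U))

end frame

end Fermat.Agent.PT
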