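import Fermat.Agent.PT.Kras
import Fermat.Agent.PT.Main
import Fermat.Agent.FrobDensity.Density
import Fermat.Prelude.Def_GroupCohomology_ContinuousUnramified

/-!
# Dictionary between smooth cohomology and the level cohomology of the statement
-/

set_option autoImplicit false
set_option linter.unusedSectionVars false
set_option linter.style.haveILetI false

open scoped Pointwise

namespace Fermat.Agent.PT

open Fermat.Agent.Coh Fermat.Agent.GCFT Fermat.Agent.GlobalCFT Fermat.Agent.GalD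
  Fermat.Agent.LocalCFT Module ExtCitation Polynomial CategoryTheory

/-- The field of algebraic numbers. -/
local notation "Qb" => AlgebraicClosure ℚ
/-- The absolute Galois group. -/
local notation "GQ" => (AlgebraicClosure ℚ ≃ₐ[ℚ] AlgebraicClosure ℚ)

theorem mem_inertia_iff {A : ValuationSubring Qb} {σ : GQ} :
    σ ∈ A.inertiaSubgroupIn ℚ ↔ σ ∈ A.decompositionSubgroup ℚ ∧ ∀ x ∈ A, σ x - x ∈ A.nonunits := by
  constructor
  · intro h
    obtain ⟨τ, hτ, rfl⟩ := h
    refine ⟨τ.2, fun x hx => ?_⟩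
    have h0 : MulSemiringAction.toRingAut (A.decompositionSubgroup ℚ)
      (IsLocalRing.ResidueField A) τ = 1 := hτ
    have h1 : τ • (IsLocalRing.residue A ⟨x, hx⟩) = IsLocalRing.residue A ⟨x, hx⟩ := by
      have := congrArg (fun f : RingAut (IsLocalRing.ResidueField A) =>
        f (IsLocalRing.residue A ⟨x, hx⟩)) h0
      exact this
    rw [← IsLocalRing.ResidueField.residue_smul, ← sub_eq_zero, ← map_sub,
      IsLocalRing.residue_eq_zero_iff, ← ValuationSubring.coe_mem_nonunits_iff] at h1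
    exact h1
  · rintro ⟨hD, h⟩
    rw [ValuationSubring.inertiaSubgroupIn, Subgroup.mem_map]
    refine ⟨⟨σ, hD⟩, ?_, rfl⟩
    rw [ValuationSubring.inertiaSubgroup, MonoidHom.mem_ker]
    ext y
    obtain ⟨x, rfl⟩ := IsLocalRing.residue_surjective y
    change (⟨σ, hD⟩ : A.decompositionSubgroup ℚ) • (IsLocalRing.residue A x) =
      IsLocalRing.residue A x
    rw [← IsLocalRing.ResidueField.residue_smul, ← sub_eq_zero, ← map_sub,
      IsLocalRing.residue_eq_zero_iff, ← ValuationSubring.coe_mem_nonunits_iff]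
    exact h x x.2

theorem inertia_conj {A : ValuationSubring Qb} {σ : GQ} (γ : GQ)
    (h : σ ∈ A.inertiaSubgroupIn ℚ) : γ⁻¹ * σ * γ ∈ (γ⁻¹ • A).inertiaSubgroupIn ℚ := by
  rw [mem_inertia_iff] at h ⊢
  obtain ⟨h1, h2⟩ := h
  constructor
  · have h3 : σ • A = A := h1
    change (γ⁻¹ * σ * γ) • γ⁻¹ • A = γ⁻¹ • A
    rw [← mul_smul, mul_assoc, mul_inv_cancel, mul_one, mul_smul, h3]
  · intro x hx
    rw [ValuationSubring.mem_inv_pointwise_smul_iff] at hx
    rw [FrobDensity.mem_nonunits_conj]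
    have h3 := h2 _ hx
    have e : γ ((γ⁻¹ * σ * γ) x - x) = σ (γ x) - γ x := by
      rw [map_sub, AlgEquiv.mul_apply, AlgEquiv.mul_apply, ← AlgEquiv.mul_apply γ γ⁻¹,
        mul_inv_cancel, AlgEquiv.one_apply]
    rw [e]
    exact h3

theorem core_mem_famS {S : Finset Nat.Primes} {H : Subgroup GQ} (hH : IsOpen (H : Set GQ))
    (hI : ∀ q : Nat.Primes, q ∉ S → ∀ A : ValuationSubring Qb, A.LiesOverPrime (q : ℕ) →
      A.inertiaSubgroupIn ℚ ≤ H) : H.normalCore ∈ famS S := by
  have hHf : H.FiniteIndex := finiteIndex_of_isOpen hH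
  refine ⟨inferInstance, Subgroup.isOpen_of_isClosed_of_finiteIndex _
      (H.normalCore_isClosed (Subgroup.isClosed_of_isOpen H hH)), ?_⟩
  intro q hq A hA σ hσ b
  have h1 := inertia_conj (b⁻¹) hσ
  rw [inv_inv] at h1
  exact hI q hq _ (by
    have := FrobDensity.conj_liesOverPrime hA b⁻¹
    rwa [inv_inv] at this) h1

section level

variable {S : Finset Nat.Primes} {X : Type*}

theorem sm1_iff {f : GQ → X} : (famS S).Sm1 f ↔ groupCohomology.IsLevelConstantS₁ S f := by
  constructor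
  · rintro ⟨U, hU, h⟩
    refine ⟨FFd U, ⟨finite_FFd hU.2.1, fun q hq A hA => ?_⟩, fun g s hs => h g s ?_⟩
    · rw [fixingSubgroup_FFd hU.2.1]
      exact hU.2.2 q hq A hA
    · rwa [fixingSubgroup_FFd hU.2.1] at hs
  · rintro ⟨F, hF, h⟩
    have := hF.1
    exact ⟨_, core_mem_famS (H := F.fixingSubgroup) (IntermediateField.fixingSubgroup_isOpen F) hF.2,
      fun g u hu => h g u (Subgroup.normalCore_le _ hu)⟩

theorem sm2_iff {f : GQ × GQ → X} : (famS S).Sm2 f ↔ groupCohomology.IsLevelConstantS₂ S f := by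
  constructor
  · rintro ⟨U, hU, h⟩
    refine ⟨FFd U, ⟨finite_FFd hU.2.1, fun q hq A hA => ?_⟩, fun g g' s s' hs hs' => h g g' s ?_ s' ?_⟩
    · rw [fixingSubgroup_FFd hU.2.1]
      exact hU.2.2 q hq A hA
    · rwa [fixingSubgroup_FFd hU.2.1] at hs
    · rwa [fixingSubgroup_FFd hU.2.1] at hs'
  · rintro ⟨F, hF, h⟩
    have := hF.1
    exact ⟨_, core_mem_famS (H := F.fixingSubgroup) (IntermediateField.fixingSubgroup_isOpen F) hF.2,
      fun g g' u hu u' hu' => h g g' u u' (Subgroup.normalCore_le _ hu)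
        (Subgroup.normalCore_le _ hu')⟩

theorem loc_sm1_iff {l : Nat.Primes} {f : Gl l → X} :
    (LF (l : ℕ)).Sm1 f ↔ groupCohomology.IsLevelConstant₁ (G := Gl l) (rl l) f := by
  constructor
  · rintro ⟨U, hU, h⟩
    obtain ⟨F, hF, hF'⟩ := exists_level l (Fam.isOpen_of_mem hU)
    exact ⟨F, hF, fun g s hs => h g s (hF' s hs)⟩
  · rintro ⟨F, hF, h⟩
    obtain ⟨W, hW, hle⟩ := rl_cont (l := l) (IntermediateField.fixingSubgroup_isOpen F)
    exact ⟨W, hW, fun g u hu => h g u (hle hu)⟩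

end level

end Fermat.Agent.PT
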