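import Fermat.Agent.PT.Cone
import Fermat.Agent.Coh.Cyclic

/-!
# Left nondegeneracy of the basic pairing
-/

set_option autoImplicit false
set_option linter.unusedSectionVars false
set_option linter.style.haveILetI false

namespace Fermat.Agent.PT

open Fermat.Agent.Coh Module

namespace Frame

attribute [local instance] fq

universe u

section Q0

variable {k : Type*} [Field k] {Γ : Type*} [Group Γ] (D : Frame k Γ)
variable {V W : Type*} [AddCommGroup V] [Module k V] [AddCommGroup W] [Module k W]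
variable (U : Subgroup Γ) [U.FiniteIndex]

/-- **(Q0)** -/
def Q0 : Prop := ∀ z : (∀ v, D.G v × D.G v → (Γ ⧸ U → k)),
  (∀ v, z v ∈ Z2 (D.𝓥 v) (D.lr v (indRep U D.μ))) →
  ∑ v, D.iv v (fun p => tr (k := k) U (z v p)) = 0 →
  ∃ f ∈ Z2 D.𝓤 (indRep U D.μ), ∀ v, D.r2 v f - z v ∈ B2 (D.𝓥 v) (D.lr v (indRep U D.μ))

variable {D U} {ρ : Representation k Γ V}

/-- `U` acts trivially -/
def Triv (D : Frame k Γ) (U : Subgroup Γ) (ρ : Representation k Γ V) : Prop :=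
  (∀ u ∈ U, D.χ u = 1) ∧ ∀ u ∈ U, ∀ v, ρ u v = v

theorem Triv.dl (h : D.Triv U ρ) {u : Γ} (hu : u ∈ U) (β : Dual k V) : D.dl ρ u β = β := by
  ext v
  rw [dualR_apply, h.1 u hu, Units.val_one, one_mul, h.2 _ (U.inv_mem hu)]

theorem Triv.dl_eq (h : D.Triv U ρ) {g g' : Γ} (hg : (g : Γ ⧸ U) = g') (β : Dual k V) :
    D.dl ρ g β = D.dl ρ g' β := by
  have h1 : g⁻¹ * g' ∈ U := QuotientGroup.eq.mp hg
  have h2 : g' = g * (g⁻¹ * g') := by group
  rw [h2, map_mul, Module.End.mul_apply, h.dl h1]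

theorem Triv.act_eq (h : D.Triv U ρ) {g g' : Γ} (hg : (g : Γ ⧸ U) = g') (v : V) :
    ρ g v = ρ g' v := by
  have h1 : g⁻¹ * g' ∈ U := QuotientGroup.eq.mp hg
  have h2 : g' = g * (g⁻¹ * g') := by group
  rw [h2, map_mul, Module.End.mul_apply, h.2 _ h1]

theorem Triv.chi_eq (h : D.Triv U ρ) {g g' : Γ} (hg : (g : Γ ⧸ U) = g') : D.χ g = D.χ g' := by
  have h1 : g⁻¹ * g' ∈ U := QuotientGroup.eq.mp hg
  have h2 : g' = g * (g⁻¹ * g') := by group
  rw [h2, map_mul, h.1 _ h1, mul_one]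

theorem sec_smul (g : Γ) (c : Γ ⧸ U) : ((sec U (g • c) : Γ) : Γ ⧸ U) = ((g * sec U c : Γ) : Γ ⧸ U) := by
  rw [mk_sec, ← smul_eq_mul, ← MulAction.Quotient.smul_coe, mk_sec]

variable (D ρ U) in
/-- the equivariant form attached to a functional -/
noncomputable def be (β : Dual k V) : (Γ ⧸ U → V) →ₗ[k] k := bF U fun c => D.dl ρ (sec U c) β

theorem be_apply (β : Dual k V) (φ : Γ ⧸ U → V) :
    D.be U ρ β φ = ∑ c, D.dl ρ (sec U c) β (φ c) := bF_apply _ _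

theorem be_add (β β' : Dual k V) : D.be U ρ (β + β') = D.be U ρ β + D.be U ρ β' := by
  ext φ
  simp only [be_apply, map_add, LinearMap.add_apply,
    Finset.sum_add_distrib]

theorem be_smul (a : k) (β : Dual k V) : D.be U ρ (a • β) = a • D.be U ρ β := by
  ext φ
  simp only [be_apply, map_smul, LinearMap.smul_apply, Finset.smul_sum]

theorem be_act (h : D.Triv U ρ) (β : Dual k V) (g : Γ) (φ : Γ ⧸ U → V) :
    D.be U ρ β (indRep U ρ g φ) = D.χ g * D.be U ρ β φ := by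
  rw [be_apply, be_apply, Finset.mul_sum]
  have h1 : ∑ c, D.dl ρ (sec U c) β (indRep U ρ g φ c) =
      ∑ c, D.dl ρ (sec U (g • c)) β (ρ g (φ c)) := by
    refine Fintype.sum_equiv (MulAction.toPerm g⁻¹) _ _ fun c => ?_
    rw [MulAction.toPerm_apply, smul_inv_smul, indRep_apply]
  rw [h1]
  refine Finset.sum_congr rfl fun c _ => ?_
  rw [h.dl_eq (sec_smul g c), map_mul, Module.End.mul_apply, dualR_apply_act]

/-- the equivariant projections to `Ind μ` -/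
noncomputable def Jm (D : Frame k Γ) (U : Subgroup Γ) (ρ : Representation k Γ V) (β : Dual k V) :
    (Γ ⧸ U → V) →ₗ[k] (Γ ⧸ U → k) where
  toFun φ c := D.dl ρ (sec U c) β (φ c)
  map_add' _ _ := funext fun _ => map_add _ _ _
  map_smul' _ _ := funext fun _ => map_smul _ _ _

@[simp] theorem Jm_apply (β : Dual k V) (φ : Γ ⧸ U → V) (c : Γ ⧸ U) :
    D.Jm U ρ β φ c = D.dl ρ (sec U c) β (φ c) := rfl

theorem Jm_act (h : D.Triv U ρ) (β : Dual k V) (g : Γ) (φ : Γ ⧸ U → V) :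
    D.Jm U ρ β (indRep U ρ g φ) = indRep U D.μ g (D.Jm U ρ β φ) := by
  funext c
  rw [Jm_apply, indRep_apply, indRep_apply, Jm_apply, chRep_apply]
  have h1 : ((sec U c : Γ) : Γ ⧸ U) = ((g * sec U (g⁻¹ • c) : Γ) : Γ ⧸ U) := by
    rw [← sec_smul, smul_inv_smul]
  rw [h.dl_eq h1, map_mul, Module.End.mul_apply, dualR_apply_act]

theorem tr_Jm (β : Dual k V) (φ : Γ ⧸ U → V) :
    tr (k := k) U (D.Jm U ρ β φ) = D.be U ρ β φ := by
  rw [sumLin_apply, be_apply]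
  rfl

/-- the equivariant inclusions of `Ind μ` -/
noncomputable def Im (D : Frame k Γ) (U : Subgroup Γ) (ρ : Representation k Γ V) (e : V) :
    (Γ ⧸ U → k) →ₗ[k] (Γ ⧸ U → V) where
  toFun ψ c := ψ c • (((D.χ (sec U c))⁻¹ : kˣ) : k) • ρ (sec U c) e
  map_add' _ _ := funext fun _ => add_smul _ _ _
  map_smul' _ _ := funext fun _ => by
    simp only [Pi.smul_apply, smul_eq_mul, RingHom.id_apply, mul_smul]

@[simp] theorem Im_apply (e : V) (ψ : Γ ⧸ U → k) (c : Γ ⧸ U) :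
    D.Im U ρ e ψ c = ψ c • (((D.χ (sec U c))⁻¹ : kˣ) : k) • ρ (sec U c) e := rfl

theorem Im_act (h : D.Triv U ρ) (e : V) (g : Γ) (ψ : Γ ⧸ U → k) :
    D.Im U ρ e (indRep U D.μ g ψ) = indRep U ρ g (D.Im U ρ e ψ) := by
  funext c
  rw [Im_apply, indRep_apply, indRep_apply, Im_apply, chRep_apply]
  have h1 : ((sec U c : Γ) : Γ ⧸ U) = ((g * sec U (g⁻¹ • c) : Γ) : Γ ⧸ U) := by
    rw [← sec_smul, smul_inv_smul]
  rw [h.act_eq h1, h.chi_eq h1, map_smul, map_smul, map_mul, map_mul, Module.End.mul_apply,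
    smul_smul, smul_smul]
  congr 1
  rw [mul_inv, Units.val_mul]
  have h2 : (D.χ g : k) * ((D.χ g)⁻¹ : kˣ) = 1 := Units.mul_inv _
  linear_combination (ψ (g⁻¹ • c)) * (((D.χ (sec U (g⁻¹ • c)))⁻¹ : kˣ) : k) * h2

theorem sum_Im_Jm {n : Type*} [Fintype n] [DecidableEq n] (b : Basis n k V)
    (φ : Γ ⧸ U → V) :
    ∑ j, D.Im U ρ (b j) (D.Jm U ρ (b.coord j) φ) = φ := by
  funext c
  rw [Finset.sum_apply]
  have h1 : ∀ j, D.Im U ρ (b j) (D.Jm U ρ (b.coord j) φ) c =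
      ρ (sec U c) (b.coord j (ρ (sec U c)⁻¹ (φ c)) • b j) := by
    intro j
    rw [Im_apply, Jm_apply, dualR_apply, map_smul, smul_smul]
    congr 1
    have h2 : (D.χ (sec U c) : k) * ((D.χ (sec U c))⁻¹ : kˣ) = 1 := Units.mul_inv _
    linear_combination (b.coord j (ρ (sec U c)⁻¹ (φ c))) * h2
  rw [Finset.sum_congr rfl fun j _ => h1 j, ← map_sum]
  have h3 : ∑ j, b.coord j (ρ (sec U c)⁻¹ (φ c)) • b j = ρ (sec U c)⁻¹ (φ c) :=
    b.sum_repr _
  rw [h3, ← Module.End.mul_apply, ← map_mul, mul_inv_cancel, map_one, Module.End.one_apply]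

/-- equivariant maps preserve cocycles -/
theorem post_mem_Z2 {Δ : Type*} [Group Δ] {𝓤 : Fam Δ} {ρ' : Representation k Δ V}
    {σ' : Representation k Δ W} (C : V →ₗ[k] W) (hC : ∀ g φ, C (ρ' g φ) = σ' g (C φ))
    {z : Δ × Δ → V} (hz : z ∈ Z2 𝓤 ρ') : (fun p => C (z p)) ∈ Z2 𝓤 σ' := by
  refine ⟨hz.1.post C, fun g h j => ?_⟩
  rw [← map_add, hz.2, map_add, hC]

theorem post_mem_B2 {Δ : Type*} [Group Δ] {𝓤 : Fam Δ} {ρ' : Representation k Δ V}
    {σ' : Representation k Δ W} (C : V →ₗ[k] W) (hC : ∀ g φ, C (ρ' g φ) = σ' g (C φ))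
    {z : Δ × Δ → V} (hz : z ∈ B2 𝓤 ρ') : (fun p => C (z p)) ∈ B2 𝓤 σ' := by
  obtain ⟨c, hc, rfl⟩ := hz
  exact ⟨fun g => C (c g), hc.post C, funext fun p => (map_d1 C hC c p).symm⟩

/-- (Q0) for general induced modules -/
theorem Q0_gen (hQ : D.Q0 U) (h : D.Triv U ρ) [FiniteDimensional k V]
    (z : ∀ v, D.G v × D.G v → (Γ ⧸ U → V))
    (hz : ∀ v, z v ∈ Z2 (D.𝓥 v) (D.lr v (indRep U ρ)))
    (h0 : ∀ β, ∑ v, D.iv v (fun p => D.be U ρ β (z v p)) = 0) :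
    ∃ f ∈ Z2 D.𝓤 (indRep U ρ), ∀ v, D.r2 v f - z v ∈ B2 (D.𝓥 v) (D.lr v (indRep U ρ)) := by
  classical
  let b := Module.finBasis k V
  have h1 : ∀ j, ∃ f ∈ Z2 D.𝓤 (indRep U D.μ), ∀ v, D.r2 v f -
      (fun p => D.Jm U ρ (b.coord j) (z v p)) ∈ B2 (D.𝓥 v) (D.lr v (indRep U D.μ)) := by
    intro j
    apply hQ
    · intro v
      exact post_mem_Z2 (ρ' := D.lr v (indRep U ρ)) (σ' := D.lr v (indRep U D.μ)) _
        (fun g => Jm_act h _ _) (hz v)
    · rw [← h0 (b.coord j)]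
      refine Finset.sum_congr rfl fun v _ => ?_
      congr 1
      funext p
      exact tr_Jm _ _
  choose f hf hfz using h1
  refine ⟨∑ j, fun p => D.Im U ρ (b j) (f j p), sum_mem fun j _ =>
    post_mem_Z2 _ (Im_act h (b j)) (hf j), fun v => ?_⟩
  have h2 : D.r2 v (∑ j, fun p => D.Im U ρ (b j) (f j p)) - z v =
      ∑ j, fun p => D.Im U ρ (b j) ((D.r2 v (f j) - fun p => D.Jm U ρ (b.coord j) (z v p)) p) := by
    funext p
    rw [Pi.sub_apply, r2_apply, Finset.sum_apply, Finset.sum_apply]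
    simp only [Pi.sub_apply, map_sub, Finset.sum_sub_distrib, r2_apply]
    rw [sum_Im_Jm b]
  rw [h2]
  exact sum_mem fun j _ => post_mem_B2 (ρ' := D.lr v (indRep U D.μ))
    (σ' := D.lr v (indRep U ρ)) _ (fun g => Im_act h (b j) _) (hfz j v)

end Q0

end Frame

end Fermat.Agent.PT
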