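import Fermat.Agent.PT.Frame

/-!
# The cone complex; functoriality of the basic pairing
-/

set_option autoImplicit false
set_option linter.unusedSectionVars false
set_option linter.style.haveILetI false

namespace Fermat.Agent.PT

open Fermat.Agent.Coh Module

namespace Frame

variable {k : Type*} [Field k] {Γ : Type*} [Group Γ] (D : Frame k Γ)
variable {V W : Type*} [AddCommGroup V] [Module k V] [AddCommGroup W] [Module k W]

section cone

variable (ρ : Representation k Γ V)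

/-- the type of pairs of a global `2`-cochain and local `1`-cochains -/
abbrev CC (V : Type*) : Type _ := (Γ × Γ → V) × (∀ v, D.G v → V)

/-- `2`-cocycles of the cone -/
def Zc2 : Submodule k (D.CC V) where
  carrier := {z | z.1 ∈ Z2 D.𝓤 ρ ∧ (∀ v, (D.𝓥 v).Sm1 (z.2 v)) ∧
    ∀ v, D.r2 v z.1 = d1 (D.lr v ρ) (z.2 v)}
  zero_mem' := by
    refine ⟨zero_mem _, fun v => Fam.Sm1.const _ (0 : V), fun v => ?_⟩
    have : ((0 : D.CC V).2 v) = 0 := rfl
    rw [this, map_zero]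
    rfl
  add_mem' := by
    rintro y y' ⟨h1, h2, h3⟩ ⟨h1', h2', h3'⟩
    refine ⟨add_mem h1 h1', fun v => (h2 v).post₂ (h2' v) (· + ·), fun v => ?_⟩
    have e1 : D.r2 v (y + y').1 = D.r2 v y.1 + D.r2 v y'.1 := rfl
    have e2 : (y + y').2 v = y.2 v + y'.2 v := rfl
    rw [e1, e2, map_add, h3, h3']
  smul_mem' := by
    rintro c y ⟨h1, h2, h3⟩
    refine ⟨Submodule.smul_mem _ c h1, fun v => (h2 v).post (c • ·), fun v => ?_⟩
    have e1 : D.r2 v (c • y).1 = c • D.r2 v y.1 := rfl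
    have e2 : (c • y).2 v = c • y.2 v := rfl
    rw [e1, e2, map_smul, h3]

/-- `2`-coboundaries of the cone -/
def Bc2 : Submodule k (D.CC V) where
  carrier := {z | ∃ (η : Γ → V) (m : D.ι → V), D.𝓤.Sm1 η ∧ z.1 = d1 ρ η ∧
    ∀ v, z.2 v = D.r1 v η - d0 (D.lr v ρ) (m v)}
  zero_mem' := by
    refine ⟨0, 0, Fam.Sm1.const _ (0 : V), ?_, fun v => ?_⟩
    · rw [map_zero]; rfl
    · rw [Pi.zero_apply, map_zero, sub_zero]; rfl
  add_mem' := by
    rintro y y' ⟨η, m, h1, h2, h3⟩ ⟨η', m', h1', h2', h3'⟩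
    refine ⟨η + η', m + m', h1.post₂ h1' (· + ·), ?_, fun v => ?_⟩
    · rw [map_add, ← h2, ← h2']; rfl
    · have e2 : (y + y').2 v = y.2 v + y'.2 v := rfl
      have e3 : D.r1 v (η + η') = D.r1 v η + D.r1 v η' := rfl
      rw [e2, e3, Pi.add_apply, map_add, h3, h3']
      abel
  smul_mem' := by
    rintro c y ⟨η, m, h1, h2, h3⟩
    refine ⟨c • η, c • m, h1.post (c • ·), ?_, fun v => ?_⟩
    · rw [map_smul, ← h2]; rfl
    · have e2 : (c • y).2 v = c • y.2 v := rfl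
      have e3 : D.r1 v (c • η) = c • D.r1 v η := rfl
      rw [e2, e3, Pi.smul_apply, map_smul, h3, smul_sub]

variable {D ρ}

theorem d1_d0 {Δ : Type*} [Group Δ] (σ : Representation k Δ V) (m : V) : d1 σ (d0 σ m) = 0 := by
  funext p
  rw [d1_apply, d0_apply, d0_apply, d0_apply, map_sub, map_mul, Module.End.mul_apply,
    Pi.zero_apply]
  abel

theorem Bc2_le_Zc2 (hρ : SmRep D.𝓤 ρ) : D.Bc2 ρ ≤ D.Zc2 ρ := by
  rintro z ⟨η, m, h1, h2, h3⟩
  refine ⟨?_, fun v => ?_, fun v => ?_⟩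
  · rw [h2]; exact d1_mem_Z2 hρ h1
  · rw [h3]
    exact (D.r1_sm h1).post₂ (d0_mem_Z1 (D.lr_sm hρ) (m v)).1 (· - ·)
  · rw [h2, h3, map_sub, d1_d0, sub_zero, r2_d1]

end cone

section trace

attribute [local instance] fq

variable {U : Subgroup Γ} [U.FiniteIndex] (ρ : Representation k Γ V) {σ : Representation k Γ W}

/-- the map on cochains induced by a linear map -/
def mapC (C : V →ₗ[k] W) : D.CC V →ₗ[k] D.CC W where
  toFun y := (fun p => C (y.1 p), fun v g => C (y.2 v g))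
  map_add' y y' := by
    refine Prod.ext (funext fun p => ?_) (funext fun v => funext fun g => ?_)
    · exact map_add C _ _
    · exact map_add C _ _
  map_smul' c y := by
    refine Prod.ext (funext fun p => ?_) (funext fun v => funext fun g => ?_)
    · exact map_smul C _ _
    · exact map_smul C _ _

@[simp] theorem mapC_fst (C : V →ₗ[k] W) (y : D.CC V) (p : Γ × Γ) :
    (D.mapC C y).1 p = C (y.1 p) := rfl

@[simp] theorem mapC_snd (C : V →ₗ[k] W) (y : D.CC V) (v : D.ι) (g : D.G v) :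
    (D.mapC C y).2 v g = C (y.2 v g) := rfl

theorem mapC_r2 (C : V →ₗ[k] W) (y : D.CC V) (v : D.ι) (p : D.G v × D.G v) :
    D.r2 v (D.mapC C y).1 p = C (D.r2 v y.1 p) := rfl

variable {D ρ}

/-- equivariant maps commute with the differential -/
theorem map_d1 {Δ : Type*} [Group Δ] {ρ' : Representation k Δ V} {σ' : Representation k Δ W}
    (C : V →ₗ[k] W) (hC : ∀ g φ, C (ρ' g φ) = σ' g (C φ)) (c : Δ → V) (p : Δ × Δ) :
    C (d1 ρ' c p) = d1 σ' (fun g => C (c g)) p := by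
  rw [d1_apply, d1_apply, map_add, map_sub, hC]

theorem map_d0 {Δ : Type*} [Group Δ] {ρ' : Representation k Δ V} {σ' : Representation k Δ W}
    (C : V →ₗ[k] W) (hC : ∀ g φ, C (ρ' g φ) = σ' g (C φ)) (m : V) (g : Δ) :
    C (d0 ρ' m g) = d0 σ' (C m) g := by
  rw [d0_apply, d0_apply, map_sub, hC]

theorem mapC_mem_Zc2 (C : V →ₗ[k] W) (hC : ∀ g φ, C (ρ g φ) = σ g (C φ)) {y : D.CC V}
    (hy : y ∈ D.Zc2 ρ) : D.mapC C y ∈ D.Zc2 σ := by
  refine ⟨⟨hy.1.1.post C, fun g h j => ?_⟩, fun v => (hy.2.1 v).post C, fun v => ?_⟩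
  · simp only [mapC_fst]
    rw [← map_add, hy.1.2, map_add, hC]
  · funext p
    rw [mapC_r2, hy.2.2]
    exact map_d1 (ρ' := D.lr v ρ) (σ' := D.lr v σ) C (fun g => hC _) (y.2 v) p

theorem mapC_mem_Bc2 (C : V →ₗ[k] W) (hC : ∀ g φ, C (ρ g φ) = σ g (C φ)) {y : D.CC V}
    (hy : y ∈ D.Bc2 ρ) : D.mapC C y ∈ D.Bc2 σ := by
  obtain ⟨η, m, h1, h2, h3⟩ := hy
  refine ⟨fun g => C (η g), fun v => C (m v), h1.post C, funext fun p => ?_,
    fun v => funext fun g => ?_⟩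
  · rw [mapC_fst, h2, map_d1 C hC]
  · rw [mapC_snd, h3, Pi.sub_apply, map_sub, Pi.sub_apply]
    congr 1
    exact map_d0 C (fun g => hC _) _ _

/-- traces of elements of `Y` are cocycles of the cone -/
theorem tr_mem_Zc2 {y : D.CC (Γ ⧸ U → V)} (hy : y ∈ D.Y U ρ) :
    D.mapC (tr (k := k) U) y ∈ D.Zc2 ρ := by
  refine ⟨⟨hy.1.1.post (tr (k := k) U), fun g h j => ?_⟩,
    fun v => (hy.2.1 v).post (tr (k := k) U), fun v => ?_⟩
  · simp only [mapC_fst]
    rw [← map_add, hy.1.2, map_add, tr_act]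
  · funext p
    rw [mapC_r2, hy.2.2]
    exact map_d1 (ρ' := D.lr v (indRep U ρ)) (σ' := D.lr v ρ) (tr (k := k) U)
      (fun g => tr_act ρ _) (y.2 v) p

open Classical in
/-- a linear section of the trace -/
noncomputable def sg (U : Subgroup Γ) : V →ₗ[k] (Γ ⧸ U → V) :=
  LinearMap.single k (fun _ => V) ((1 : Γ) : Γ ⧸ U)

@[simp] theorem tr_sg (v : V) : tr (k := k) U (sg (k := k) U v) = v := by
  classical
  rw [sumLin_apply, sg, LinearMap.single_apply, Finset.sum_pi_single']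
  simp

/-- composing a coboundary with an equivariant form -/
theorem comp_d1 {v : D.ι} {b : W →ₗ[k] k} {κ : D.G v → W}
    (hb : ∀ g h, b (σ g (κ h)) = D.χ g * b (κ h)) :
    (fun p => b (d1 (D.lr v σ) κ p)) = d1 (D.lr v D.μ) (fun g => b (κ g)) := by
  funext p
  rw [d1_apply, d1_apply, map_add, map_sub]
  congr 2
  exact hb _ _

/-- **(P1)**: the pairing vanishes on elements whose trace is a coboundary. -/
theorem pv_eq_zero (hR : D.Rec) (hU : D.𝓤.IsOpen U) (hρ : SmRep D.𝓤 ρ) {x : Γ → Dual k V}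
    (hx : x ∈ D.X U ρ) {y : D.CC (Γ ⧸ U → V)} (hy : y ∈ D.Y U ρ)
    (h : D.mapC (tr (k := k) U) y ∈ D.Bc2 ρ) : D.pv ρ x y = 0 := by
  obtain ⟨η, m, hη, h1, h2⟩ := h
  set η' : Γ → (Γ ⧸ U → V) := fun g => sg (k := k) U (η g) with hη'
  have hη's : D.𝓤.Sm1 η' := hη.post _
  set z1 : Γ × Γ → (Γ ⧸ U → V) := y.1 - d1 (indRep U ρ) η' with hz1
  set k1 : ∀ v, D.G v → (Γ ⧸ U → V) := fun v => y.2 v - D.r1 v η' +
    d0 (D.lr v (indRep U ρ)) (sg (k := k) U (m v)) with hk1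
  have hz1tr : ∀ p, tr (k := k) U (z1 p) = 0 := by
    intro p
    rw [hz1, Pi.sub_apply, map_sub, map_d1 _ (tr_act ρ)]
    have h3 := congrFun h1 p
    rw [mapC_fst] at h3
    rw [h3]
    simp only [hη', tr_sg, sub_self]
  have hk1tr : ∀ v g, tr (k := k) U (k1 v g) = 0 := by
    intro v g
    have h3 := congrFun (h2 v) g
    rw [mapC_snd, Pi.sub_apply] at h3
    rw [hk1]
    simp only [Pi.add_apply, Pi.sub_apply, map_add, map_sub]
    rw [map_d0 (σ' := D.lr v ρ) (tr (k := k) U) (fun g => tr_act ρ _), tr_sg, h3, r1_apply,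
      r1_apply]
    simp only [hη', tr_sg]
    abel
  have hz1m : z1 ∈ Z2 D.𝓤 (indRep U ρ) :=
    sub_mem hy.1 (d1_mem_Z2 (ind_sm hU hρ) hη's)
  have hk1s : ∀ v, (D.𝓥 v).Sm1 (k1 v) := fun v =>
    (((hy.2.1 v).post₂ (D.r1_sm hη's) (· - ·)).post₂
      (d0_mem_Z1 (D.lr_sm (ind_sm hU hρ)) _).1 (· + ·))
  have herr : ∀ v, D.err ρ y v = D.r2 v z1 - d1 (D.lr v (indRep U ρ)) (k1 v) := by
    intro v
    have e1 : D.r2 v z1 = D.r2 v y.1 - D.r2 v (d1 (indRep U ρ) η') := rfl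
    rw [err, hk1, e1, r2_d1]
    simp only [map_add, map_sub, d1_d0]
    abel
  have hbz : (fun p => bx U x (z1 p)) ∈ Z2 D.𝓤 D.μ :=
    comp_mem_Z2g hz1m fun g p => bx_act_of_tr hx g _ (hz1tr p)
  have key : ∀ v, D.iv v (fun p => bx U x (D.err ρ y v p)) =
      D.iv v (D.r2 v fun p => bx U x (z1 p)) := by
    intro v
    have e2 : (fun p => bx U x (D.err ρ y v p)) = D.r2 v (fun p => bx U x (z1 p)) -
        d1 (D.lr v D.μ) (fun g => bx U x (k1 v g)) := by
      rw [← comp_d1 (σ := indRep U ρ) (fun g h => bx_act_of_tr hx g _ (hk1tr v h))]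
      funext p
      rw [herr, Pi.sub_apply, map_sub]
      rfl
    rw [e2, iv_sub (D.r2_mem hbz) (d1_mem_Z2' ((hk1s v).post _)), iv_d1 ((hk1s v).post _),
      sub_zero]
  rw [pv, Finset.sum_congr rfl fun v _ => key v]
  exact hR _ hbz

/-! ### functoriality -/

section map

variable {U' : Subgroup Γ} [U'.FiniteIndex] (C : (Γ ⧸ U → V) →ₗ[k] (Γ ⧸ U' → W))
  (hC : ∀ g φ, C (indRep U ρ g φ) = indRep U' σ g (C φ)) (t : V →ₗ[k] W)
  (ht : ∀ φ, tr (k := k) U' (C φ) = t (tr (k := k) U φ))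

include ht in
theorem tr_mapC (y : D.CC (Γ ⧸ U → V)) :
    D.mapC (tr (k := k) U') (D.mapC C y) = D.mapC t (D.mapC (tr (k := k) U) y) :=
  Prod.ext (funext fun _ => ht _) (funext fun _ => funext fun _ => ht _)

include hC ht in
theorem mapC_mem_Y {y : D.CC (Γ ⧸ U → V)} (hy : y ∈ D.Y U ρ) : D.mapC C y ∈ D.Y U' σ := by
  refine ⟨⟨hy.1.1.post C, fun g h j => ?_⟩, fun v => (hy.2.1 v).post C, fun v p => ?_⟩
  · simp only [mapC_fst]
    rw [← map_add, hy.1.2, map_add, hC]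
  · rw [mapC_r2, ht, hy.2.2, ← ht, map_d1 C (σ' := D.lr v (indRep U' σ)) (fun g => hC _)]
    rfl

include hC in
theorem err_mapC (y : D.CC (Γ ⧸ U → V)) (v : D.ι) (p : D.G v × D.G v) :
    D.err σ (D.mapC C y) v p = C (D.err ρ y v p) := by
  rw [err, err, Pi.sub_apply, Pi.sub_apply, mapC_r2, map_sub,
    map_d1 C (σ' := D.lr v (indRep U' σ)) (fun g => hC _)]
  rfl

include hC in
theorem pv_mapC {x : Γ → Dual k V} {x' : Γ → Dual k W} (hb : ∀ φ, bx U' x' (C φ) = bx U x φ)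
    (y : D.CC (Γ ⧸ U → V)) : D.pv σ x' (D.mapC C y) = D.pv ρ x y := by
  rw [pv, pv]
  refine Finset.sum_congr rfl fun v _ => ?_
  congr 1
  funext p
  rw [err_mapC C hC, hb]

end map

/-! ### change of coefficients -/

variable (U) in
/-- the map on induced modules -/
def indMap (t : V →ₗ[k] W) : (Γ ⧸ U → V) →ₗ[k] (Γ ⧸ U → W) where
  toFun φ c := t (φ c)
  map_add' _ _ := funext fun _ => map_add t _ _
  map_smul' _ _ := funext fun _ => map_smul t _ _

@[simp] theorem indMap_apply (t : V →ₗ[k] W) (φ : Γ ⧸ U → V) (c : Γ ⧸ U) :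
    indMap U t φ c = t (φ c) := rfl

variable (t : V →ₗ[k] W) (ht : ∀ g v, t (ρ g v) = σ g (t v))

include ht in
theorem indMap_act (g : Γ) (φ : Γ ⧸ U → V) :
    indMap U t (indRep U ρ g φ) = indRep U σ g (indMap U t φ) := by
  funext c
  rw [indMap_apply, indRep_apply, indRep_apply, ht, indMap_apply]

theorem tr_indMap (φ : Γ ⧸ U → V) :
    tr (k := k) U (indMap U t φ) = t (tr (k := k) U φ) := by
  rw [sumLin_apply, sumLin_apply, map_sum]
  rfl

/-- pullback of a cochain with values in the dual -/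
def pb (t : V →ₗ[k] W) (x : Γ → Dual k W) : Γ → Dual k V := fun g => x g ∘ₗ t

@[simp] theorem pb_apply (x : Γ → Dual k W) (g : Γ) (v : V) : pb t x g v = x g (t v) := rfl

theorem bx_indMap (x : Γ → Dual k W) (φ : Γ ⧸ U → V) :
    bx U x (indMap U t φ) = bx U (pb t x) φ := by
  rw [bx_apply, bx_apply]
  rfl

include ht in
theorem pb_mem {x : Γ → Dual k W} (hx : x ∈ D.X U σ) : pb t x ∈ D.X U ρ := by
  refine ⟨⟨hx.1.1.post (fun f => f ∘ₗ t), fun g h => ?_⟩, fun u hu => ?_⟩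
  · ext v
    rw [pb_apply, hx.1.2, LinearMap.add_apply, LinearMap.add_apply, dualR_apply, dualR_apply,
      pb_apply, pb_apply, ht]
  · rw [pb, hx.2 u hu, LinearMap.zero_comp]

include ht in
/-- **(P4)** functoriality in the module -/
theorem pv_indMap (x : Γ → Dual k W) (y : D.CC (Γ ⧸ U → V)) :
    D.pv σ x (D.mapC (indMap U t) y) = D.pv ρ (pb t x) y :=
  pv_mapC (indMap U t) (indMap_act t ht) (bx_indMap t x) y

/-! ### change of the subgroup -/

section collapse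

variable {U₂ : Subgroup Γ} [U₂.FiniteIndex] (h : U₂ ≤ U)

open Classical in
variable (k V) in
/-- the collapse map -/
noncomputable def cl : (Γ ⧸ U₂ → V) →ₗ[k] (Γ ⧸ U → V) where
  toFun φ c := ∑ c', if Subgroup.quotientMapOfLE h c' = c then φ c' else 0
  map_add' φ ψ := by
    funext c
    rw [Pi.add_apply, ← Finset.sum_add_distrib]
    refine Finset.sum_congr rfl fun c' _ => ?_
    split_ifs <;> simp
  map_smul' a φ := by
    funext c
    rw [Pi.smul_apply, RingHom.id_apply, Finset.smul_sum]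
    refine Finset.sum_congr rfl fun c' _ => ?_
    split_ifs <;> simp

open Classical in
theorem cl_apply (φ : Γ ⧸ U₂ → V) (c : Γ ⧸ U) :
    cl k V h φ c = ∑ c', if Subgroup.quotientMapOfLE h c' = c then φ c' else 0 := rfl

theorem quotientMap_smul (g : Γ) (c : Γ ⧸ U₂) :
    Subgroup.quotientMapOfLE h (g • c) = g • Subgroup.quotientMapOfLE h c := by
  obtain ⟨a, rfl⟩ := QuotientGroup.mk_surjective c
  rfl

theorem cl_act (g : Γ) (φ : Γ ⧸ U₂ → V) :
    cl k V h (indRep U₂ ρ g φ) = indRep U ρ g (cl k V h φ) := by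
  classical
  funext c
  rw [cl_apply, indRep_apply, cl_apply, map_sum]
  refine Fintype.sum_equiv (MulAction.toPerm g⁻¹) _ _ fun c' => ?_
  rw [MulAction.toPerm_apply, indRep_apply, quotientMap_smul]
  by_cases hc : Subgroup.quotientMapOfLE h c' = c
  · rw [if_pos hc, if_pos (by rw [hc])]
  · rw [if_neg hc, if_neg (fun h' => hc (smul_left_cancel _ h')), map_zero]

theorem sum_cl (F : Γ ⧸ U → Dual k V) (φ : Γ ⧸ U₂ → V) :
    ∑ c, F c (cl k V h φ c) = ∑ c', F (Subgroup.quotientMapOfLE h c') (φ c') := by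
  classical
  simp only [cl_apply, map_sum]
  rw [Finset.sum_comm]
  refine Finset.sum_congr rfl fun c' _ => ?_
  rw [Finset.sum_eq_single (Subgroup.quotientMapOfLE h c')]
  · rw [if_pos rfl]
  · intro c _ hc
    rw [if_neg (Ne.symm hc), map_zero]
  · intro hc
    exact absurd (Finset.mem_univ _) hc

theorem tr_cl (φ : Γ ⧸ U₂ → V) :
    tr (k := k) U (cl k V h φ) = (LinearMap.id : V →ₗ[k] V) (tr (k := k) U₂ φ) := by
  classical
  rw [sumLin_apply, LinearMap.id_apply, sumLin_apply]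
  simp only [cl_apply]
  rw [Finset.sum_comm]
  refine Finset.sum_congr rfl fun c' _ => ?_
  rw [Finset.sum_ite_eq]
  simp

theorem bx_cl {x : Γ → Dual k V} (hx : x ∈ D.X U ρ) (φ : Γ ⧸ U₂ → V) :
    bx U x (cl k V h φ) = bx U₂ x φ := by
  rw [bx_apply, bx_apply, sum_cl h (fun c => x (sec U c))]
  congr 1
  refine Finset.sum_congr rfl fun c' _ => ?_
  congr 1
  apply X_eq hx
  rw [mk_sec]
  conv_lhs => rw [← mk_sec U₂ c']
  rfl

include h in
theorem X_mono {x : Γ → Dual k V} (hx : x ∈ D.X U ρ) : x ∈ D.X U₂ ρ :=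
  ⟨hx.1, fun u hu => hx.2 u (h hu)⟩

/-- **(P5)** change of the subgroup -/
theorem pv_cl {x : Γ → Dual k V} (hx : x ∈ D.X U ρ) (y : D.CC (Γ ⧸ U₂ → V)) :
    D.pv ρ x (D.mapC (cl k V h) y) = D.pv ρ x y :=
  pv_mapC (cl k V h) (cl_act h) (bx_cl h hx) y

theorem cl_mem_Y {y : D.CC (Γ ⧸ U₂ → V)} (hy : y ∈ D.Y U₂ ρ) :
    D.mapC (cl k V h) y ∈ D.Y U ρ :=
  mapC_mem_Y (cl k V h) (cl_act h) LinearMap.id (tr_cl h) hy

theorem tr_cl_mapC (y : D.CC (Γ ⧸ U₂ → V)) :
    D.mapC (tr (k := k) U) (D.mapC (cl k V h) y) = D.mapC (tr (k := k) U₂) y :=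
  tr_mapC (cl k V h) LinearMap.id (tr_cl h) y

end collapse

end trace

end Frame

end Fermat.Agent.PT
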