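import Fermat.Agent.PT.Dict

/-!
# The dictionary in degree one
-/

set_option autoImplicit false
set_option linter.unusedSectionVars false
set_option linter.style.haveILetI false

namespace Fermat.Agent.PT

open Fermat.Agent.Coh Fermat.Agent.GCFT Fermat.Agent.GlobalCFT Fermat.Agent.GalD
  Fermat.Agent.LocalCFT Module ExtCitation Polynomial CategoryTheory

/-- The field of algebraic numbers. -/
local notation "Qb" => AlgebraicClosure ℚ
/-- The absolute Galois group. -/
local notation "GQ" => (AlgebraicClosure ℚ ≃ₐ[ℚ] AlgebraicClosure ℚ)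

variable {p : ℕ} [hp : Fact p.Prime] (hp2 : p ≠ 2) (S : Finset Nat.Primes) (hpS : pPrime p ∈ S)
variable (A : Rep (ZMod p) GQ)

/-- the map on cocycles -/
def zc : ↥(Z1 (famS S) A.ρ) →ₗ[ZMod p] ↥(groupCohomology.cocycles₁ A) where
  toFun z := ⟨(z : GQ → A), (groupCohomology.mem_cocycles₁_iff _).mpr z.2.2⟩
  map_add' _ _ := rfl
  map_smul' _ _ := rfl

@[simp] theorem coe_zc (z : ↥(Z1 (famS S) A.ρ)) : ((zc S A z : ↥(groupCohomology.cocycles₁ A)) :
    GQ → A) = (z : GQ → A) := rfl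

theorem H1π_zc_eq_zero {z : ↥(Z1 (famS S) A.ρ)} :
    (groupCohomology.H1π A).hom (zc S A z) = 0 ↔ (z : GQ → A) ∈ B1 A.ρ := by
  rw [mem_B1]
  have h := groupCohomology.H1π_eq_zero_iff (zc S A z)
  rw [show (groupCohomology.H1π A).hom (zc S A z) = groupCohomology.H1π A (zc S A z) from rfl, h]
  constructor
  · rintro ⟨m, hm⟩
    refine ⟨m, fun g => ?_⟩
    have := congrFun hm g
    rw [groupCohomology.d₀₁_hom_apply] at this
    exact this.symm
  · rintro ⟨m, hm⟩
    refine ⟨m, funext fun g => ?_⟩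
    rw [groupCohomology.d₀₁_hom_apply]
    exact (hm g).symm

/-- the map from smooth cohomology -/
noncomputable def toH1 : Coh.H1 (famS S) A.ρ →ₗ[ZMod p] groupCohomology.H1 A :=
  Submodule.liftQ _ ((groupCohomology.H1π A).hom ∘ₗ zc S A) fun z hz => by
    rw [LinearMap.mem_ker, LinearMap.comp_apply]
    exact (H1π_zc_eq_zero S A).mpr hz

theorem toH1_mk (z : ↥(Z1 (famS S) A.ρ)) :
    toH1 S A (H1.mk (famS S) A.ρ z) = (groupCohomology.H1π A).hom (zc S A z) := rfl

theorem toH1_injective : Function.Injective (toH1 S A) := by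
  rw [injective_iff_map_eq_zero]
  intro x hx
  obtain ⟨z, rfl⟩ := H1.mk_surjective x
  rw [toH1_mk, H1π_zc_eq_zero] at hx
  rw [H1.mk_eq_zero]
  exact mem_B1.mp hx

theorem toH1_mem (x : Coh.H1 (famS S) A.ρ) : toH1 S A x ∈ groupCohomology.continuousH1S S A := by
  obtain ⟨z, rfl⟩ := H1.mk_surjective x
  rw [groupCohomology.mem_continuousH1S_iff]
  exact ⟨zc S A z, sm1_iff.mp z.2.1, rfl⟩

theorem exists_toH1 {y : groupCohomology.H1 A} (hy : y ∈ groupCohomology.continuousH1S S A) :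
    ∃ x, toH1 S A x = y := by
  rw [groupCohomology.mem_continuousH1S_iff] at hy
  obtain ⟨c, hc, rfl⟩ := hy
  refine ⟨H1.mk (famS S) A.ρ ⟨(c : GQ → A), sm1_iff.mpr hc, (groupCohomology.mem_cocycles₁_iff _).mp c.2⟩, ?_⟩
  rw [toH1_mk]
  rfl

/-- the local condition -/
theorem locRes_eq_zero_iff (v : extArithIndex S) (z : ↥(Z1 (famS S) A.ρ)) :
    (groupCohomology.locRes (extArithLoc S) A v).hom (toH1 S A (H1.mk (famS S) A.ρ z)) = 0 ↔
      ∃ m : A, ∀ δ, (z : GQ → A) (extArithLoc S v δ) = A.ρ (extArithLoc S v δ) m - m := by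
  rw [toH1_mk]
  have h1 : (groupCohomology.locRes (extArithLoc S) A v).hom
      ((groupCohomology.H1π A).hom (zc S A z)) =
      groupCohomology.H1π (Rep.res (extArithLoc S v) A)
        (groupCohomology.mapCocycles₁ (extArithLoc S v) (𝟙 (Rep.res (extArithLoc S v) A))
          (zc S A z)) :=
    groupCohomology.H1π_comp_map_apply (extArithLoc S v) (𝟙 (Rep.res (extArithLoc S v) A)) (zc S A z)
  rw [h1, groupCohomology.H1π_eq_zero_iff]
  constructor
  · rintro ⟨m, hm⟩
    refine ⟨m, fun g => ?_⟩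
    have := congrFun hm g
    rw [groupCohomology.d₀₁_hom_apply] at this
    exact this.symm
  · rintro ⟨m, hm⟩
    refine ⟨m, funext fun g => ?_⟩
    rw [groupCohomology.d₀₁_hom_apply]
    exact (hm g).symm

include hp2 in
/-- at the infinite place there is no condition -/
theorem arch_H1 (z : ↥(Z1 (famS S) A.ρ)) (v : Unit) :
    ∃ m : A, ∀ δ, (z : GQ → A) (extArithLoc S (Sum.inl v) δ) =
      A.ρ (extArithLoc S (Sum.inl v) δ) m - m := by
  have h2 : (2 : ZMod p) ≠ 0 := by
    intro h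
    have : (p : ℕ) ∣ 2 := (ZMod.natCast_eq_zero_iff 2 p).mp (by exact_mod_cast h)
    exact hp2 ((Nat.prime_dvd_prime_iff_eq hp.out Nat.prime_two).mp this)
  set c := complexConjugation with hc
  have h1 : (z : GQ → A) 1 = 0 := Z1.map_one z
  have hcc : A.ρ c ((z : GQ → A) c) + (z : GQ → A) c = 0 := by
    rw [← z.2.2, complexConjugation_mul_self, h1]
  -- `m = - z(c) / 2`
  refine ⟨-((2 : ZMod p)⁻¹ • (z : GQ → A) c), fun δ => ?_⟩
  have hδ : (extArithLoc S (Sum.inl v) δ : GQ) ∈ Subgroup.zpowers c := δ.2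
  have hcase : (extArithLoc S (Sum.inl v) δ : GQ) = 1 ∨ (extArithLoc S (Sum.inl v) δ : GQ) = c := by
    obtain ⟨n, hn⟩ := Subgroup.mem_zpowers_iff.mp hδ
    rw [← hn]
    rcases Int.even_or_odd n with ⟨m, rfl⟩ | ⟨m, rfl⟩
    · left
      rw [← two_mul, zpow_mul]
      have : c ^ (2 : ℤ) = 1 := by
        rw [zpow_ofNat]
        exact complexConjugation_sq
      rw [this, one_zpow]
    · right
      rw [zpow_add, zpow_mul]
      have : c ^ (2 : ℤ) = 1 := by
        rw [zpow_ofNat]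
        exact complexConjugation_sq
      rw [this, one_zpow, one_mul, zpow_one]
  rcases hcase with h | h
  · rw [h, h1, map_one, Module.End.one_apply, sub_self]
  · rw [h, map_neg, map_smul, eq_neg_of_add_eq_zero_left hcc, smul_neg, neg_neg, sub_neg_eq_add,
      ← two_smul (ZMod p), smul_smul, mul_inv_cancel₀ h2, one_smul]

/-- `Ш¹` for the concrete frame -/
noncomputable def shS1 : Submodule (ZMod p) (Coh.H1 (famS S) A.ρ) := (fr p hp2 S hpS).sha1 A.ρ

theorem toH1_mem_sha₁ (x : Coh.H1 (famS S) A.ρ) :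
    toH1 S A x ∈ groupCohomology.sha₁ S A ↔ x ∈ shS1 hp2 S hpS A := by
  obtain ⟨z, rfl⟩ := H1.mk_surjective x
  rw [groupCohomology.sha₁, Submodule.mem_inf, and_iff_right (toH1_mem S A _), LinearMap.mem_ker]
  have h1 : groupCohomology.locTotal (extArithLoc S) A (toH1 S A (H1.mk (famS S) A.ρ z)) = 0 ↔
      ∀ v, (groupCohomology.locRes (extArithLoc S) A v).hom (toH1 S A (H1.mk (famS S) A.ρ z)) = 0 :=
    funext_iff
  rw [h1]
  have h2 := Frame.mk_mem_sha1 (D := fr p hp2 S hpS) (σ := A.ρ) (z := z)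
  refine Iff.trans ?_ h2.symm
  constructor
  · intro h v
    have h3 := (locRes_eq_zero_iff S A (Sum.inr v) z).mp (h _)
    exact (mem_B1 (Γ := Gl v.1) (ρ := A.ρ.comp (rl v.1))).mpr h3
  · rintro h (v | v)
    · exact (locRes_eq_zero_iff S A (Sum.inl v) z).mpr (arch_H1 hp2 S A z v)
    · exact (locRes_eq_zero_iff S A (Sum.inr v) z).mpr ((mem_B1 (Γ := Gl v.1) (ρ := A.ρ.comp (rl v.1))).mp (h v))

/-- **The dictionary for `Ш¹`.** -/
noncomputable def shaEquiv1 : ↥(shS1 hp2 S hpS A) ≃ₗ[ZMod p]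
    ↥(groupCohomology.sha₁ S A) :=
  LinearEquiv.ofBijective
    ((toH1 S A).restrict fun x hx => (toH1_mem_sha₁ hp2 S hpS A x).mpr hx) <| by
    constructor
    · intro x y h
      apply Subtype.ext
      apply toH1_injective S A
      exact congrArg Subtype.val h
    · rintro ⟨y, hy⟩
      obtain ⟨x, rfl⟩ := exists_toH1 S A hy.1
      exact ⟨⟨x, (toH1_mem_sha₁ hp2 S hpS A x).mp hy⟩, rfl⟩

end Fermat.Agent.PT
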