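import Fermat.Agent.PT.Dict1

/-!
# The dictionary in degree two
-/

set_option autoImplicit false
set_option linter.unusedSectionVars false
set_option linter.style.haveILetI false

namespace Fermat.Agent.PT

open Fermat.Agent.Coh Fermat.Agent.GCFT Fermat.Agent.GlobalCFT Fermat.Agent.GalD
  Fermat.Agent.LocalCFT Module ExtCitation Polynomial CategoryTheory

/-- The field of algebraic numbers. -/
local notation "Qb" => AlgebraicClosure ℚ
/-- The absolute Galois group. -/
local notation "GQ" => (AlgebraicClosure ℚ ≃ₐ[ℚ] AlgebraicClosure ℚ)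

variable {p : ℕ} [hp : Fact p.Prime] (hp2 : p ≠ 2) (S : Finset Nat.Primes) (hpS : pPrime p ∈ S)
variable (A : Rep (ZMod p) GQ)

/-- the map on cocycles -/
def zc2 : ↥(Z2 (famS S) A.ρ) →ₗ[ZMod p] ↥(groupCohomology.levelCocyclesS₂ S A) where
  toFun z := ⟨(z : GQ × GQ → A),
    ⟨(groupCohomology.mem_cocycles₂_iff _).mpr z.2.2, sm2_iff.mp z.2.1⟩⟩
  map_add' _ _ := rfl
  map_smul' _ _ := rfl

theorem mem_levelCoboundariesS₂ {f : GQ × GQ → A} :
    f ∈ groupCohomology.levelCoboundariesS₂ S A ↔ f ∈ B2 (famS S) A.ρ := by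
  rw [groupCohomology.mem_levelCoboundariesS₂_iff, mem_B2]
  refine exists_congr fun c => and_congr sm1_iff.symm ?_
  rw [funext_iff, Prod.forall]
  refine forall₂_congr fun g h => ?_
  rw [groupCohomology.d₁₂_hom_apply]
  exact eq_comm

/-- the map from smooth cohomology -/
noncomputable def toH2 : Coh.H2 (famS S) A.ρ →ₗ[ZMod p] groupCohomology.continuousH2S S A :=
  Submodule.mapQ _ _ (zc2 S A) fun _ hz => (mem_levelCoboundariesS₂ S A).mpr hz

theorem toH2_mk (z : ↥(Z2 (famS S) A.ρ)) :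
    toH2 S A (H2.mk (famS S) A.ρ z) = groupCohomology.continuousH2Sπ S A (zc2 S A z) := rfl

theorem toH2_injective : Function.Injective (toH2 S A) := by
  rw [injective_iff_map_eq_zero]
  intro x hx
  obtain ⟨z, rfl⟩ := H2.mk_surjective x
  rw [toH2_mk, groupCohomology.continuousH2Sπ_eq_zero_iff, mem_levelCoboundariesS₂] at hx
  rw [H2.mk_eq_zero]
  exact mem_B2.mp hx

theorem toH2_surjective : Function.Surjective (toH2 S A) := by
  intro y
  obtain ⟨c, rfl⟩ := Submodule.mkQ_surjective _ y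
  have hc := (groupCohomology.mem_levelCocyclesS₂_iff S A _).mp c.2
  refine ⟨H2.mk (famS S) A.ρ ⟨(c : GQ × GQ → A), sm2_iff.mpr hc.2,
    (groupCohomology.mem_cocycles₂_iff _).mp hc.1⟩, ?_⟩
  rw [toH2_mk]
  rfl

/-- the local condition -/
theorem locRes₂S_eq_zero_iff (v : extArithIndex S) (z : ↥(Z2 (famS S) A.ρ)) :
    groupCohomology.locRes₂S S A (extArithLoc S v) (toH2 S A (H2.mk (famS S) A.ρ z)) = 0 ↔
      ∃ c : extArithLocalGroups S v → A,
        groupCohomology.IsLevelConstant₁ (extArithLoc S v) c ∧ ∀ g h,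
        (z : GQ × GQ → A) (extArithLoc S v g, extArithLoc S v h) =
          A.ρ (extArithLoc S v g) (c h) - c (g * h) + c g := by
  rw [toH2_mk]
  have h1 : groupCohomology.locRes₂S S A (extArithLoc S v)
      (groupCohomology.continuousH2Sπ S A (zc2 S A z)) =
      groupCohomology.continuousH2π (extArithLoc S v) (Rep.res (extArithLoc S v) A)
        (groupCohomology.levelCocycles₂Map (rH := MonoidHom.id _) (rG := extArithLoc S v)
          (extArithLoc S v) (fun _ => rfl) (LinearMap.id : A →ₗ[ZMod p] Rep.res (extArithLoc S v) A)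
          (fun _ _ => rfl) (groupCohomology.levelCocyclesS₂ToLevelCocycles₂ S A (zc2 S A z))) := rfl
  rw [h1, groupCohomology.continuousH2π_eq_zero_iff, groupCohomology.mem_levelCoboundaries₂_iff]
  refine exists_congr fun c => and_congr Iff.rfl ?_
  rw [funext_iff, Prod.forall]
  refine forall₂_congr fun g h => ?_
  rw [groupCohomology.d₁₂_hom_apply]
  exact eq_comm

include hp2 in
theorem two_ne_zero' : (2 : ZMod p) ≠ 0 := by
  intro h
  have : (p : ℕ) ∣ 2 := (ZMod.natCast_eq_zero_iff 2 p).mp (by exact_mod_cast h)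
  exact hp2 ((Nat.prime_dvd_prime_iff_eq hp.out Nat.prime_two).mp this)

theorem arch_cases (g : ↥archimedeanDecomposition) : g = 1 ∨ g = archimedeanGen := by
  have hg : (g : GQ) ∈ Subgroup.zpowers complexConjugation := g.2
  obtain ⟨n, hn⟩ := Subgroup.mem_zpowers_iff.mp hg
  have h2 : complexConjugation ^ (2 : ℤ) = 1 := by
    rw [zpow_ofNat]
    exact complexConjugation_sq
  rcases Int.even_or_odd n with ⟨m, rfl⟩ | ⟨m, rfl⟩
  · left
    apply Subtype.ext
    rw [← hn, ← two_mul, zpow_mul, h2, one_zpow]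
    rfl
  · right
    apply Subtype.ext
    rw [← hn, zpow_add, zpow_mul, h2, one_zpow, one_mul, zpow_one]
    rfl

include hp2 in
/-- at the infinite place there is no condition -/
theorem arch_H2 (z : ↥(Z2 (famS S) A.ρ)) (v : Unit) :
    ∃ c : ↥archimedeanDecomposition → A,
        groupCohomology.IsLevelConstant₁ (archimedeanLoc) c ∧ ∀ g h,
        (z : GQ × GQ → A) (archimedeanLoc g, archimedeanLoc h) =
          A.ρ (archimedeanLoc g) (c h) - c (g * h) + c g := by
  have h2 := two_ne_zero' hp2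
  set Z := (z : GQ × GQ → A) with hZ
  have hcoc := z.2.2
  obtain ⟨F, hF, hFz⟩ := sm2_iff.mp z.2.1
  set cc := complexConjugation with hcc
  have hcc2 : cc * cc = 1 := complexConjugation_mul_self
  refine ⟨fun g => (2 : ZMod p)⁻¹ • (Z (g, 1) + Z (g, cc)), ⟨F, hF.1, fun g s hs => ?_⟩,
    fun g h => ?_⟩
  · have e1 : Z (((g * s : ↥archimedeanDecomposition) : GQ), 1) = Z ((g : GQ), 1) := by
      have := hFz (g : GQ) 1 (s : GQ) 1 hs (one_mem _)
      rwa [mul_one] at this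
    have e2 : Z (((g * s : ↥archimedeanDecomposition) : GQ), cc) = Z ((g : GQ), cc) := by
      have := hFz (g : GQ) cc (s : GQ) 1 hs (one_mem _)
      rwa [mul_one] at this
    simp only [e1, e2]
  · have e1 := hcoc (g : GQ) (h : GQ) 1
    have e2 := hcoc (g : GQ) (h : GQ) cc
    change Z ((g : GQ), (h : GQ)) = A.ρ (g : GQ) ((2 : ZMod p)⁻¹ • (Z (h, 1) + Z (h, cc))) -
      (2 : ZMod p)⁻¹ • (Z (((g * h : ↥archimedeanDecomposition) : GQ), 1) +
        Z (((g * h : ↥archimedeanDecomposition) : GQ), cc)) +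
      (2 : ZMod p)⁻¹ • (Z (g, 1) + Z (g, cc))
    have hsum : Z ((g : GQ), (h : GQ) * 1) + Z ((g : GQ), (h : GQ) * cc) =
        Z ((g : GQ), 1) + Z ((g : GQ), cc) := by
      rcases arch_cases h with rfl | rfl
      · change Z ((g : GQ), 1 * 1) + Z ((g : GQ), 1 * cc) = _
        rw [one_mul, one_mul]
      · change Z ((g : GQ), cc * 1) + Z ((g : GQ), cc * cc) = _
        rw [mul_one, hcc2, add_comm]
    have e3 : Z ((g : GQ) * (h : GQ), 1) + Z ((g : GQ) * (h : GQ), cc) +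
        (2 : ZMod p) • Z ((g : GQ), (h : GQ)) =
        A.ρ (g : GQ) (Z (h, 1) + Z (h, cc)) + (Z (g, 1) + Z (g, cc)) := by
      rw [two_smul, ← hsum, map_add]
      have : Z ((g : GQ) * (h : GQ), 1) + Z ((g : GQ) * (h : GQ), cc) +
          (Z ((g : GQ), (h : GQ)) + Z ((g : GQ), (h : GQ))) =
          (Z ((g : GQ) * (h : GQ), 1) + Z ((g : GQ), (h : GQ))) +
          (Z ((g : GQ) * (h : GQ), cc) + Z ((g : GQ), (h : GQ))) := by abel
      rw [this]
      have e1' : Z ((g : GQ) * (h : GQ), 1) + Z ((g : GQ), (h : GQ)) =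
        A.ρ (g : GQ) (Z (h, 1)) + Z ((g : GQ), (h : GQ) * 1) := e1
      have e2' : Z ((g : GQ) * (h : GQ), cc) + Z ((g : GQ), (h : GQ)) =
        A.ρ (g : GQ) (Z (h, cc)) + Z ((g : GQ), (h : GQ) * cc) := e2
      rw [e1', e2']
      abel
    have e4 : (2 : ZMod p) • Z ((g : GQ), (h : GQ)) =
        A.ρ (g : GQ) (Z (h, 1) + Z (h, cc)) -
        (Z ((g : GQ) * (h : GQ), 1) + Z ((g : GQ) * (h : GQ), cc)) + (Z (g, 1) + Z (g, cc)) := by
      rw [sub_add_eq_add_sub, ← e3]
      abel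
    have e5 : Z ((g : GQ), (h : GQ)) = (2 : ZMod p)⁻¹ • ((2 : ZMod p) • Z ((g : GQ), (h : GQ))) := by
      rw [smul_smul, inv_mul_cancel₀ h2, one_smul]
    rw [e5, e4, map_smul, smul_add, smul_sub]
    rfl

/-- `Ш²` for the concrete frame -/
noncomputable def shS2 : Submodule (ZMod p) (Coh.H2 (famS S) A.ρ) := (fr p hp2 S hpS).sha2 A.ρ

theorem toH2_mem_sha₂ (x : Coh.H2 (famS S) A.ρ) :
    toH2 S A x ∈ groupCohomology.sha₂ S A ↔ x ∈ shS2 hp2 S hpS A := by
  obtain ⟨z, rfl⟩ := H2.mk_surjective x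
  rw [groupCohomology.sha₂, LinearMap.mem_ker]
  have h1 : groupCohomology.locTotal₂S S A (toH2 S A (H2.mk (famS S) A.ρ z)) = 0 ↔
      ∀ v, groupCohomology.locRes₂S S A (extArithLoc S v) (toH2 S A (H2.mk (famS S) A.ρ z)) = 0 :=
    funext_iff
  rw [h1]
  have h2 := Frame.mk_mem_sha2 (D := fr p hp2 S hpS) (σ := A.ρ) (z := z)
  refine Iff.trans ?_ h2.symm
  constructor
  · intro h v
    obtain ⟨c, hc, h3⟩ := (locRes₂S_eq_zero_iff S A (Sum.inr v) z).mp (h _)
    exact (mem_B2 (𝓤 := LF (v.1 : ℕ)) (Γ := Gl v.1) (ρ := A.ρ.comp (rl v.1))).mpr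
      ⟨c, loc_sm1_iff.mpr hc, h3⟩
  · rintro h (v | v)
    · exact (locRes₂S_eq_zero_iff S A (Sum.inl v) z).mpr (arch_H2 hp2 S A z v)
    · obtain ⟨c, hc, h3⟩ := (mem_B2 (𝓤 := LF (v.1 : ℕ)) (Γ := Gl v.1)
        (ρ := A.ρ.comp (rl v.1))).mp (h v)
      exact (locRes₂S_eq_zero_iff S A (Sum.inr v) z).mpr ⟨c, loc_sm1_iff.mp hc, h3⟩

/-- **The dictionary for `Ш²`.** -/
noncomputable def shaEquiv2 : ↥(shS2 hp2 S hpS A) ≃ₗ[ZMod p]
    ↥(groupCohomology.sha₂ S A) :=
  LinearEquiv.ofBijective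
    ((toH2 S A).restrict fun x hx => (toH2_mem_sha₂ hp2 S hpS A x).mpr hx) <| by
    constructor
    · intro x y h
      apply Subtype.ext
      apply toH2_injective S A
      exact congrArg Subtype.val h
    · rintro ⟨y, hy⟩
      obtain ⟨x, rfl⟩ := toH2_surjective S A y
      exact ⟨⟨x, (toH2_mem_sha₂ hp2 S hpS A x).mp hy⟩, rfl⟩

end Fermat.Agent.PT
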