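import Fermat.Agent.PT.SemiL
import Fermat.Agent.GlobalCFT.KumSha

/-!
# The counting hypothesis for the concrete frame
-/

set_option autoImplicit false
set_option linter.unusedSectionVars false
set_option linter.style.haveILetI false

namespace Fermat.Agent.PT

open Fermat.Agent.Coh Fermat.Agent.GCFT Fermat.Agent.GlobalCFT Fermat.Agent.GalD
  Fermat.Agent.LocalCFT Module ExtCitation

/-- The absolute Galois group. -/
local notation "GQ'" => (AlgebraicClosure ℚ ≃ₐ[ℚ] AlgebraicClosure ℚ)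

variable {p : ℕ} [hp : Fact p.Prime] {S : Finset Nat.Primes}
  {U : Subgroup (AlgebraicClosure ℚ ≃ₐ[ℚ] AlgebraicClosure ℚ)}

/-- the local dimension of the induced module -/
theorem finrank_local_ind (hU : U ∈ famS S) (hχ : ∀ u ∈ U, cycloChar p u = 1) (l : Nat.Primes) :
    Module.Finite (ZMod p) (H1 (LF (l : ℕ)) ((indRep U (muQ p)).comp (rl l))) ∧
    finrank (ZMod p) (H1 (LF (l : ℕ)) ((indRep U (muQ p)).comp (rl l))) ≤
      2 * Nat.card (Pl (rl l) U) + if (l : ℕ) = p then U.index else 0 := by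
  haveI := (famS S).normal U hU
  haveI := (famS S).finiteIndex U hU
  have hV : (LF (l : ℕ)).IsOpen (U.comap (rl l)) := rl_cont (isOpen_of_famS (Fam.isOpen_of_mem hU))
  obtain ⟨h1, h2⟩ := locdim (p := p) hV
  haveI := h1
  haveI := finite_Pl (rl l) U
  obtain ⟨h3, h4⟩ := LA.finrank_le_of_family (k := ZMod p)
    (H := H1 (LF (l : ℕ)) ((indRep U (muQ p)).comp (rl l)))
    (E := H1 ((LF (l : ℕ)).res (U.comap (rl l))) (rep (muL p l) (U.comap (rl l))))
    (fun c : Pl (rl l) U => (evMor (rl l) (muQ p) U (LF (l : ℕ)) c.out).mapH1)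
    (fun z hz => semi_injective (fun u hu w => by
      rw [chRep_apply, hχ u hu, Units.val_one, one_mul]) z hz) _ h2
  refine ⟨h3, h4.trans ?_⟩
  rw [mul_add, mul_comm _ 2]
  split_ifs with hl
  · exact Nat.add_le_add_left (card_Pl_mul_le (rl l) U) _
  · simp

variable (hp2 : p ≠ 2) (hpS : pPrime p ∈ S)

/-- the Shapiro map takes locally trivial classes to locally trivial classes -/
theorem sh_mem_sha2U {F : ↥(Z2 (famS S) (indRep U (muQ p)))}
    (hF : ∀ l : ↥S, (fun q : Gl l.1 × Gl l.1 =>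
      (F : GQ' × GQ' → (GQ' ⧸ U → ZMod p)) (rl l.1 q.1, rl l.1 q.2)) ∈ B2 (LF (l.1 : ℕ)) ((indRep U (muQ p)).comp (rl l.1))) :
    (sh (famS S) U (muQ p)).mapH2 (H2.mk (famS S) (indRep U (muQ p)) F) ∈ sha2U p S U := by
  rw [mem_sha2U]
  intro l hl x
  obtain ⟨c, hc, hcF⟩ := hF ⟨l, hl⟩
  obtain ⟨φ, hφ, hφF⟩ := conj_cocycle F.2 x
  refine H2.mk_eq_zero.mpr ⟨fun δ => c (δ : Gl l) ((x : GQ') : GQ' ⧸ U) + φ (rl l δ) ((x : GQ') : GQ' ⧸ U), ?_, ?_⟩
  · have hφl : (LF (l : ℕ)).Sm1 (fun δ : Gl l => φ (rl l δ)) :=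
      hφ.comp (rl l) fun W hW => rl_cont (isOpen_of_famS (Fam.isOpen_of_mem hW))
    obtain ⟨W, hW, h⟩ := hc
    obtain ⟨W', hW', h'⟩ := hφl
    refine ⟨_, ⟨W ⊓ W', (LF (l : ℕ)).inf_mem _ hW _ hW', rfl⟩, fun g u hu => ?_⟩
    have h1 : c ((g : Gl l) * (u : Gl l)) = c (g : Gl l) := h _ _ hu.1
    have h2 : φ (rl l ((g : Gl l) * (u : Gl l))) = φ (rl l (g : Gl l)) := h' _ _ hu.2
    change c ((g : Gl l) * (u : Gl l)) _ + φ (rl l ((g : Gl l) * (u : Gl l))) _ = _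
    rw [h1, h2]
  · intro g h
    change muQ p x ((F : GQ' × GQ' → (GQ' ⧸ U → ZMod p)) (x⁻¹ * rl l g * x, x⁻¹ * rl l h * x)
        ((1 : GQ') : GQ' ⧸ U)) =
      muQ p (rl l g) (c (h : Gl l) ((x : GQ') : GQ' ⧸ U) + φ (rl l h) ((x : GQ') : GQ' ⧸ U)) -
      (c ((g : Gl l) * (h : Gl l)) ((x : GQ') : GQ' ⧸ U) + φ (rl l ((g : Gl l) * (h : Gl l))) ((x : GQ') : GQ' ⧸ U)) +
      (c (g : Gl l) ((x : GQ') : GQ' ⧸ U) + φ (rl l g) ((x : GQ') : GQ' ⧸ U))
    have hg : (rl l (g : Gl l))⁻¹ • (x : (AlgebraicClosure ℚ ≃ₐ[ℚ] AlgebraicClosure ℚ) ⧸ U) = x := by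
      rw [MulAction.Quotient.smul_coe, smul_eq_mul, QuotientGroup.eq]
      have h1 := mem_stabL.mp g.2
      have h2 : ((rl l (g : Gl l))⁻¹ * x)⁻¹ * x = x⁻¹ * rl l (g : Gl l) * x := by group
      rw [h2]
      exact h1
    have e1 := congrFun (hφF (rl l g) (rl l h)) ((x : GQ') : GQ' ⧸ U)
    have e2 : (F : GQ' × GQ' → (GQ' ⧸ U → ZMod p)) (rl l g, rl l h) =
        (indRep U (muQ p)) (rl l g) (c (h : Gl l)) - c ((g : Gl l) * (h : Gl l)) + c (g : Gl l) :=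
      (congrFun hcF ((g : Gl l), (h : Gl l))).symm
    rw [e2] at e1
    have e3 : (indRep U (muQ p) x ((F : GQ' × GQ' → (GQ' ⧸ U → ZMod p)) (x⁻¹ * rl l g * x, x⁻¹ * rl l h * x))) ((x : GQ') : GQ' ⧸ U) =
        muQ p x ((F : GQ' × GQ' → (GQ' ⧸ U → ZMod p)) (x⁻¹ * rl l g * x, x⁻¹ * rl l h * x) ((1 : GQ') : GQ' ⧸ U)) := by
      rw [indRep_apply, MulAction.Quotient.smul_coe, smul_eq_mul, inv_mul_cancel]
    rw [e3] at e1
    rw [e1]
    simp only [Pi.add_apply, Pi.sub_apply, indRep_apply, hg, map_mul, map_add]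
    abel

/-- locally trivial classes of the induced module -/
noncomputable def shaF (U : Subgroup GQ') : Submodule (ZMod p) (H2 (famS S) (indRep U (muQ p))) :=
  (fr p hp2 S hpS).sha2 (indRep U (muQ p))

theorem shaF_bound (hU : U ∈ famS S) (h2 : Module.Finite (ZMod p) (sha2U p S U)) :
    Module.Finite (ZMod p) ↥(shaF hp2 hpS U) ∧
    finrank (ZMod p) ↥(shaF hp2 hpS U) ≤ finrank (ZMod p) ↥(sha2U p S U) := by
  haveI := h2
  refine LA.finite_of_map_le (shEquiv2 (Fam.isOpen_of_mem hU) (muQ p))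
    (shaF hp2 hpS U) (sha2U p S U) fun c hc => ?_
  obtain ⟨F, rfl⟩ := H2.mk_surjective c
  exact sh_mem_sha2U (F := F) fun l => (Frame.mk_mem_sha2.mp hc) l

theorem H1_bound (hU : U ∈ famS S)
    (h1 : Module.Finite (ZMod p) (H1 ((famS S).res U) (rep (muQ p) U))) :
    Module.Finite (ZMod p) (H1 (famS S) (indRep U (muQ p))) ∧
    finrank (ZMod p) (H1 (famS S) (indRep U (muQ p))) =
      finrank (ZMod p) (H1 ((famS S).res U) (rep (muQ p) U)) :=
  ⟨Module.Finite.equiv (shEquiv1 (Fam.isOpen_of_mem hU) (muQ p)).symm,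
    (shEquiv1 (Fam.isOpen_of_mem hU) (muQ p)).finrank_eq⟩

include hpS in
theorem local_bound (hU : U ∈ famS S) (hχ : ∀ u ∈ U, cycloChar p u = 1) :
    ∑ v : ↥S, finrank (ZMod p) (H1 (LF (v.1 : ℕ)) ((indRep U (muQ p)).comp (rl v.1))) ≤
      U.index + 2 * ∑ l ∈ S, Nat.card (Pl (rl l) U) := by
  calc ∑ v : ↥S, finrank (ZMod p) (H1 (LF (v.1 : ℕ)) ((indRep U (muQ p)).comp (rl v.1)))
      ≤ ∑ v : ↥S, (2 * Nat.card (Pl (rl v.1) U) + if (v.1 : ℕ) = p then U.index else 0) :=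
        Finset.sum_le_sum fun v _ => (finrank_local_ind hU hχ v.1).2
    _ = ∑ l ∈ S, (2 * Nat.card (Pl (rl l) U) + if (l : ℕ) = p then U.index else 0) :=
        Finset.sum_coe_sort S (fun l => 2 * Nat.card (Pl (rl l) U) +
          if (l : ℕ) = p then U.index else 0)
    _ = U.index + 2 * ∑ l ∈ S, Nat.card (Pl (rl l) U) := by
        rw [Finset.sum_add_distrib, ← Finset.mul_sum, add_comm]
        congr 1
        rw [Finset.sum_eq_single (pPrime p)]
        · simp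
        · intro l _ hl
          rw [if_neg]
          intro h
          exact hl (Subtype.ext h)
        · intro h
          exact absurd hpS h

theorem ef_fr (hU : U ∈ famS S) (hχ : ∀ u ∈ U, cycloChar p u = 1) :
    (fr p hp2 S hpS).EF U := by
  obtain ⟨h1, h2, h3⟩ := eprop hpS hp2 hU hχ
  obtain ⟨f1, e1⟩ := H1_bound hU h1
  obtain ⟨f2, e3⟩ := shaF_bound hp2 hpS hU h2
  have e4 := local_bound hpS hU hχ
  have e5 : 2 * finrank (ZMod p) ↥(shaF hp2 hpS U) +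
      ∑ v : ↥S, finrank (ZMod p) (H1 (LF (v.1 : ℕ)) ((indRep U (muQ p)).comp (rl v.1))) ≤
      2 * finrank (ZMod p) (H1 (famS S) (indRep U (muQ p))) := by
    omega
  exact ⟨f1, f2, fun v => (finrank_local_ind hU hχ v.1).1, e5⟩

end Fermat.Agent.PT
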