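import Fermat.Agent.Coh.LES
import Fermat.Agent.Coh.Shapiro

/-!
# Euler characteristics: superadditivity
-/

set_option autoImplicit false
set_option linter.unusedSectionVars false
set_option linter.style.haveILetI false

namespace Fermat.Agent.PT.EU

open Fermat.Agent.Coh Module

variable {k : Type*} [Field k] {G : Type*} [Group G] {𝓤 : Fam G}
variable {V' V V'' : Type*} [AddCommGroup V'] [Module k V'] [AddCommGroup V] [Module k V]
  [AddCommGroup V''] [Module k V'']
variable {ρ' : Representation k G V'} {ρ : Representation k G V} {ρ'' : Representation k G V''}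

/-- rank count in an exact sequence -/
theorem rk_exact {X Y Z : Type*} [AddCommGroup X] [Module k X] [AddCommGroup Y] [Module k Y]
    [AddCommGroup Z] [Module k Z] [FiniteDimensional k Y] (f : X →ₗ[k] Y) (g : Y →ₗ[k] Z)
    (h : ∀ y, g y = 0 ↔ ∃ x, f x = y) :
    (finrank k Y : ℤ) = finrank k (LinearMap.range f) + finrank k (LinearMap.range g) := by
  have h1 : LinearMap.range f = LinearMap.ker g := by
    ext y
    rw [LinearMap.mem_range, LinearMap.mem_ker, h]
  rw [h1, ← LinearMap.finrank_range_add_finrank_ker g]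
  push_cast
  ring

variable (𝓤 ρ) in
/-- the Euler characteristic (with sign) -/
noncomputable def e3 : ℤ :=
  (finrank k (H1 𝓤 ρ) : ℤ) - finrank k (H2 𝓤 ρ) - finrank k ↥(H0 ρ)

section les

variable (E : SES ρ' ρ ρ'') (hρ : SmRep 𝓤 ρ)

include E hρ in
theorem e3_les [FiniteDimensional k V'] [FiniteDimensional k V] [FiniteDimensional k V'']
    [FiniteDimensional k (H1 𝓤 ρ')] [FiniteDimensional k (H1 𝓤 ρ)]
    [FiniteDimensional k (H1 𝓤 ρ'')] [FiniteDimensional k (H2 𝓤 ρ')]
    [FiniteDimensional k (H2 𝓤 ρ)] :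
    e3 𝓤 ρ = e3 𝓤 ρ' + e3 𝓤 ρ'' + finrank k (H2 𝓤 ρ'') -
      finrank k (LinearMap.range (E.πMor 𝓤).mapH2) := by
  have a0 : (finrank k ↥(H0 ρ') : ℤ) = finrank k (LinearMap.range (E.iMor 𝓤).mapH0) := by
    rw [LinearMap.finrank_range_of_inj]
    intro x y h
    apply Subtype.ext
    exact E.inj (congrArg Subtype.val h)
  have b0 := rk_exact (E.iMor 𝓤).mapH0 (E.πMor 𝓤).mapH0 (fun y => by
    constructor
    · intro h
      have h1 : E.π (y : V) = 0 := congrArg Subtype.val h
      obtain ⟨x, hx⟩ := E.exact _ h1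
      refine ⟨⟨x, fun g => E.inj ?_⟩, Subtype.ext hx⟩
      rw [E.i_comm, hx, (mem_H0 ρ).mp y.2 g]
    · rintro ⟨x, rfl⟩
      apply Subtype.ext
      exact E.comp _)
  have c0 := rk_exact (E.πMor 𝓤).mapH0 (E.delta0 hρ) (fun y => E.exact_H0_delta0 hρ y)
  have a1 := rk_exact (E.delta0 hρ) (E.iMor 𝓤).mapH1 (fun y => E.exact_delta0_H1 hρ y)
  have b1 := rk_exact (E.iMor 𝓤).mapH1 (E.πMor 𝓤).mapH1 (fun y => E.exact_H1 hρ y)
  have c1 := rk_exact (E.πMor 𝓤).mapH1 (E.delta1 hρ) (fun y => E.exact_H1_delta1 hρ y)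
  have a2 := rk_exact (E.delta1 hρ) (E.iMor 𝓤).mapH2 (fun y => E.exact_delta1_H2 hρ y)
  have b2 := rk_exact (E.iMor 𝓤).mapH2 (E.πMor 𝓤).mapH2 (fun y => E.exact_H2 hρ y)
  unfold e3
  linarith

include E hρ in
theorem e3_super [FiniteDimensional k V'] [FiniteDimensional k V] [FiniteDimensional k V'']
    [FiniteDimensional k (H1 𝓤 ρ')] [FiniteDimensional k (H1 𝓤 ρ)]
    [FiniteDimensional k (H1 𝓤 ρ'')] [FiniteDimensional k (H2 𝓤 ρ')]
    [FiniteDimensional k (H2 𝓤 ρ)] [FiniteDimensional k (H2 𝓤 ρ'')] :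
    e3 𝓤 ρ' + e3 𝓤 ρ'' ≤ e3 𝓤 ρ := by
  rw [e3_les E hρ]
  have h : finrank k (LinearMap.range (E.πMor 𝓤).mapH2) ≤ finrank k (H2 𝓤 ρ'') :=
    Submodule.finrank_le _
  have h' : (finrank k (LinearMap.range (E.πMor 𝓤).mapH2) : ℤ) ≤ finrank k (H2 𝓤 ρ'') := by
    exact_mod_cast h
  linarith

include E hρ in
theorem e3_add [FiniteDimensional k V'] [FiniteDimensional k V] [FiniteDimensional k V'']
    [FiniteDimensional k (H1 𝓤 ρ')] [FiniteDimensional k (H1 𝓤 ρ)]
    [FiniteDimensional k (H1 𝓤 ρ'')] [FiniteDimensional k (H2 𝓤 ρ')]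
    [FiniteDimensional k (H2 𝓤 ρ)] (s : V'' →ₗ[k] V) (hs : ∀ v, E.π (s v) = v)
    (hs' : ∀ g v, s (ρ'' g v) = ρ g (s v)) :
    e3 𝓤 ρ = e3 𝓤 ρ' + e3 𝓤 ρ'' := by
  rw [e3_les E hρ]
  have h : LinearMap.range (E.πMor 𝓤).mapH2 = ⊤ := by
    rw [LinearMap.range_eq_top]
    intro x
    obtain ⟨z, rfl⟩ := H2.mk_surjective x
    refine ⟨(Mor.coeff (𝓤 := 𝓤) s hs').mapH2 (H2.mk 𝓤 ρ'' z), ?_⟩
    rw [Mor.mapH2_mk, Mor.mapH2_mk]
    congr 1
    apply Subtype.ext
    funext p
    exact hs _
  rw [h, finrank_top]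
  ring

end les

section congr

variable (e : V ≃ₗ[k] V') (he : ∀ g v, e (ρ g v) = ρ' g (e v))

theorem mapH1_bij : Function.Bijective (Mor.coeff (𝓤 := 𝓤) e.toLinearMap he).mapH1 := by
  have he' : ∀ g v, e.symm (ρ' g v) = ρ g (e.symm v) := fun g v => by
    rw [LinearEquiv.symm_apply_eq, he, LinearEquiv.apply_symm_apply]
  have h : ∀ x, (Mor.coeff (𝓤 := 𝓤) e.symm.toLinearMap he').mapH1
      ((Mor.coeff (𝓤 := 𝓤) e.toLinearMap he).mapH1 x) = x := by
    intro x
    obtain ⟨z, rfl⟩ := H1.mk_surjective x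
    rw [Mor.mapH1_mk, Mor.mapH1_mk]
    congr 1
    apply Subtype.ext
    funext p
    exact e.symm_apply_apply _
  have h' : ∀ x, (Mor.coeff (𝓤 := 𝓤) e.toLinearMap he).mapH1
      ((Mor.coeff (𝓤 := 𝓤) e.symm.toLinearMap he').mapH1 x) = x := by
    intro x
    obtain ⟨z, rfl⟩ := H1.mk_surjective x
    rw [Mor.mapH1_mk, Mor.mapH1_mk]
    congr 1
    apply Subtype.ext
    funext p
    exact e.apply_symm_apply _
  exact ⟨Function.LeftInverse.injective h, Function.RightInverse.surjective h'⟩

theorem mapH2_bij : Function.Bijective (Mor.coeff (𝓤 := 𝓤) e.toLinearMap he).mapH2 := by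
  have he' : ∀ g v, e.symm (ρ' g v) = ρ g (e.symm v) := fun g v => by
    rw [LinearEquiv.symm_apply_eq, he, LinearEquiv.apply_symm_apply]
  have h : ∀ x, (Mor.coeff (𝓤 := 𝓤) e.symm.toLinearMap he').mapH2
      ((Mor.coeff (𝓤 := 𝓤) e.toLinearMap he).mapH2 x) = x := by
    intro x
    obtain ⟨z, rfl⟩ := H2.mk_surjective x
    rw [Mor.mapH2_mk, Mor.mapH2_mk]
    congr 1
    apply Subtype.ext
    funext p
    exact e.symm_apply_apply _
  have h' : ∀ x, (Mor.coeff (𝓤 := 𝓤) e.toLinearMap he).mapH2
      ((Mor.coeff (𝓤 := 𝓤) e.symm.toLinearMap he').mapH2 x) = x := by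
    intro x
    obtain ⟨z, rfl⟩ := H2.mk_surjective x
    rw [Mor.mapH2_mk, Mor.mapH2_mk]
    congr 1
    apply Subtype.ext
    funext p
    exact e.apply_symm_apply _
  exact ⟨Function.LeftInverse.injective h, Function.RightInverse.surjective h'⟩

theorem mapH0_bij (𝓤 : Fam G) :
    Function.Bijective (Mor.coeff (𝓤 := 𝓤) e.toLinearMap he).mapH0 := by
  constructor
  · intro x y h
    exact Subtype.ext (e.injective (congrArg Subtype.val h))
  · intro x
    refine ⟨⟨e.symm x, fun g => e.injective ?_⟩, Subtype.ext (e.apply_symm_apply _)⟩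
    rw [he, LinearEquiv.apply_symm_apply, (mem_H0 ρ').mp x.2 g]

include he in
theorem e3_congr (𝓤 : Fam G) : e3 𝓤 ρ = e3 𝓤 ρ' := by
  have h0 := (LinearEquiv.ofBijective _ (mapH0_bij e he 𝓤)).finrank_eq
  have h1 := (LinearEquiv.ofBijective _ (mapH1_bij (𝓤 := 𝓤) e he)).finrank_eq
  have h2 := (LinearEquiv.ofBijective _ (mapH2_bij (𝓤 := 𝓤) e he)).finrank_eq
  unfold e3
  rw [h0, h1, h2]

end congr

/-! ### the archimedean term -/

section arch

variable {H : Subgroup G} (c : G)
variable {W' W W'' : Type*} [AddCommGroup W'] [Module k W'] [AddCommGroup W] [Module k W]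
  [AddCommGroup W''] [Module k W'']

/-- the minus part of `c` on the induced module -/
def arS (τ : Representation k H W) : Submodule k (G → W) where
  carrier := {f | (∀ g (h : H), f (g * h) = τ h⁻¹ (f g)) ∧ ∀ g, f (c * g) = - f g}
  zero_mem' := ⟨fun g h => by simp, fun g => by simp⟩
  add_mem' := fun {a b} ha hb => ⟨fun g h => by
    rw [Pi.add_apply, Pi.add_apply, ha.1, hb.1, map_add], fun g => by
    rw [Pi.add_apply, Pi.add_apply, ha.2, hb.2, neg_add]⟩
  smul_mem' := fun t a ha => ⟨fun g h => by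
    rw [Pi.smul_apply, Pi.smul_apply, ha.1, map_smul], fun g => by
    rw [Pi.smul_apply, Pi.smul_apply, ha.2, smul_neg]⟩

variable {c}

theorem mem_arS {τ : Representation k H W} {f : G → W} : f ∈ arS c τ ↔
    (∀ g (h : H), f (g * h) = τ h⁻¹ (f g)) ∧ ∀ g, f (c * g) = - f g := Iff.rfl

theorem arS_eq_out {τ : Representation k H W} {f : G → W}
    (hf : ∀ g (h : H), f (g * h) = τ h⁻¹ (f g)) (g : G) :
    ∃ h : H, g = (g : G ⧸ H).out * h ∧ f g = τ h⁻¹ (f (g : G ⧸ H).out) := by
  have h1 : ((g : G ⧸ H).out)⁻¹ * g ∈ H := QuotientGroup.eq.mp (QuotientGroup.out_eq' _)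
  refine ⟨⟨_, h1⟩, by simp, ?_⟩
  rw [← hf]
  simp

theorem finite_arS [H.FiniteIndex] [FiniteDimensional k W] (τ : Representation k H W) :
    FiniteDimensional k (arS c τ) := by
  haveI : Fintype (G ⧸ H) := Fintype.ofFinite _
  let Φ : arS c τ →ₗ[k] (G ⧸ H → W) :=
    { toFun := fun f x => (f : G → W) x.out
      map_add' := fun _ _ => rfl
      map_smul' := fun _ _ => rfl }
  refine FiniteDimensional.of_injective Φ ?_
  rw [← LinearMap.ker_eq_bot, LinearMap.ker_eq_bot']
  intro f hf
  apply Subtype.ext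
  funext g
  obtain ⟨h, -, h2⟩ := arS_eq_out f.2.1 g
  rw [h2]
  have h3 : (f : G → W) (g : G ⧸ H).out = 0 := congrFun hf (g : G ⧸ H)
  rw [h3, map_zero]
  rfl

theorem arS_ses {τ' : Representation k H W'} {τ : Representation k H W}
    {τ'' : Representation k H W''} (E : SES τ' τ τ'') (hc : c * c = 1) (h2 : (2 : k) ≠ 0)
    [H.FiniteIndex] [FiniteDimensional k W'] [FiniteDimensional k W] [FiniteDimensional k W''] :
    (finrank k (arS c τ) : ℤ) = finrank k (arS c τ') + finrank k (arS c τ'') := by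
  haveI := finite_arS (c := c) τ'
  haveI := finite_arS (c := c) τ
  haveI := finite_arS (c := c) τ''
  let i : arS c τ' →ₗ[k] arS c τ :=
    { toFun := fun f => ⟨fun g => E.i ((f : G → W') g), fun g h => by
        simp only [f.2.1 g h, E.i_comm], fun g => by simp only [f.2.2 g, map_neg]⟩
      map_add' := fun a b => by
        apply Subtype.ext
        funext g
        exact map_add _ _ _
      map_smul' := fun t a => by
        apply Subtype.ext
        funext g
        exact map_smul _ _ _ }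
  let π : arS c τ →ₗ[k] arS c τ'' :=
    { toFun := fun f => ⟨fun g => E.π ((f : G → W) g), fun g h => by
        simp only [f.2.1 g h, E.π_comm], fun g => by simp only [f.2.2 g, map_neg]⟩
      map_add' := fun a b => by
        apply Subtype.ext
        funext g
        exact map_add _ _ _
      map_smul' := fun t a => by
        apply Subtype.ext
        funext g
        exact map_smul _ _ _ }
  have h := rk_exact i π (fun f => by
    constructor
    · intro hf
      have h1 : ∀ g, E.π ((f : G → W) g) = 0 := fun g => congrFun (congrArg Subtype.val hf) g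
      refine ⟨⟨fun g => E.down ((f : G → W) g), fun g h => E.inj ?_, fun g => E.inj ?_⟩, ?_⟩
      · rw [E.i_down (h1 _), E.i_comm, E.i_down (h1 _), f.2.1]
      · rw [E.i_down (h1 _), map_neg, E.i_down (h1 _), f.2.2]
      · apply Subtype.ext
        funext g
        exact E.i_down (h1 _)
    · rintro ⟨x, rfl⟩
      apply Subtype.ext
      funext g
      exact E.comp _)
  have hi : Function.Injective i := by
    rw [← LinearMap.ker_eq_bot, LinearMap.ker_eq_bot']
    intro f hf
    apply Subtype.ext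
    funext g
    apply E.inj
    have h1 : E.i ((f : G → W') g) = 0 := congrFun (congrArg Subtype.val hf) g
    rw [h1]
    exact (map_zero _).symm
  have hπ : Function.Surjective π := by
    intro f
    -- an equivariant lift
    let L : G → W := fun g => τ (⟨((g : G ⧸ H).out)⁻¹ * g,
      QuotientGroup.eq.mp (QuotientGroup.out_eq' _)⟩ : H)⁻¹ (E.lift ((f : G → W'') (g : G ⧸ H).out))
    have hL : ∀ g (h : H), L (g * h) = τ h⁻¹ (L g) := by
      intro g h
      have e1 : ((g * h : G) : G ⧸ H) = (g : G ⧸ H) := by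
        rw [QuotientGroup.eq]
        simp
      simp only [L]
      rw [← Module.End.mul_apply, ← map_mul]
      rw [← mul_inv_rev]
      congr 3
      · simp only [e1]
        exact Subtype.ext (mul_assoc _ _ _).symm
      · rw [e1]
    have hLπ : ∀ g, E.π (L g) = (f : G → W'') g := by
      intro g
      simp only [L]
      rw [E.π_comm, E.π_lift, ← f.2.1]
      simp
    refine ⟨⟨fun g => (2 : k)⁻¹ • (L g - L (c * g)), fun g h => ?_, fun g => ?_⟩, ?_⟩
    · simp only
      rw [← mul_assoc c, hL, hL, ← map_sub, map_smul]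
    · simp only
      rw [← mul_assoc c, hc, one_mul, ← smul_neg, neg_sub]
    · apply Subtype.ext
      funext g
      change E.π ((2 : k)⁻¹ • (L g - L (c * g))) = _
      rw [map_smul, map_sub, hLπ, hLπ, f.2.2, sub_neg_eq_add, ← two_smul k, smul_smul,
        inv_mul_cancel₀ h2, one_smul]
  rw [h, LinearMap.finrank_range_of_inj hi, LinearMap.range_eq_top.mpr hπ, finrank_top]

theorem arS_congr {τ : Representation k H W} {τ' : Representation k H W'} (e : W ≃ₗ[k] W')
    (he : ∀ g v, e (τ g v) = τ' g (e v)) :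
    finrank k (arS c τ) = finrank k (arS c τ') := by
  refine LinearEquiv.finrank_eq
    { toFun := fun f => ⟨fun g => e ((f : G → W) g), fun g h => by
        simp only [f.2.1 g h, he], fun g => by simp only [f.2.2 g, map_neg]⟩
      invFun := fun f => ⟨fun g => e.symm ((f : G → W') g), fun g h => by
        apply e.injective
        rw [he, LinearEquiv.apply_symm_apply, LinearEquiv.apply_symm_apply, f.2.1], fun g => by
        simp only [f.2.2 g, map_neg]⟩
      left_inv := fun f => by
        apply Subtype.ext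
        funext g
        exact e.symm_apply_apply _
      right_inv := fun f => by
        apply Subtype.ext
        funext g
        exact e.apply_symm_apply _
      map_add' := fun a b => by
        apply Subtype.ext
        funext g
        exact map_add _ _ _
      map_smul' := fun t a => by
        apply Subtype.ext
        funext g
        exact map_smul _ _ _ }

variable (c) in
/-- the minus part -/
def mns (ρ : Representation k G V) : Submodule k V where
  carrier := {v | ρ c v = -v}
  zero_mem' := by simp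
  add_mem' := fun {a b} ha hb => by
    have ha' : ρ c a = -a := ha
    have hb' : ρ c b = -b := hb
    change ρ c (a + b) = -(a + b)
    rw [map_add, ha', hb', neg_add]
  smul_mem' := fun t a ha => by
    have ha' : ρ c a = -a := ha
    change ρ c (t • a) = -(t • a)
    rw [map_smul, ha', smul_neg]

theorem mem_mns {ρ : Representation k G V} {v : V} : v ∈ mns c ρ ↔ ρ c v = -v := Iff.rfl

/-- comparison with the induced module -/
theorem mns_ind (hc : c * c = 1) (ρ : Representation k G V) (H : Subgroup G) :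
    finrank k (mns c (indRep H ρ)) = finrank k (arS c (ρ.comp H.subtype)) := by
  have key : ∀ F : G ⧸ H → V, F ∈ mns c (indRep H ρ) → ∀ x : G ⧸ H, F (c • x) = - ρ c (F x) := by
    intro F hF x
    have h1 := congrFun (mem_mns.mp hF) (c • x)
    rw [indRep_apply, inv_smul_smul, Pi.neg_apply] at h1
    rw [h1, neg_neg]
  have hci : c⁻¹ = c := inv_eq_of_mul_eq_one_left hc
  refine LinearEquiv.finrank_eq
    { toFun := fun F => ⟨fun g => ρ g⁻¹ ((F : G ⧸ H → V) (g : G ⧸ H)), fun g h => ?_, fun g => ?_⟩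
      invFun := fun f => ⟨fun x => ρ x.out ((f : G → V) x.out), ?_⟩
      left_inv := fun F => ?_
      right_inv := fun f => ?_
      map_add' := fun a b => by
        apply Subtype.ext
        funext g
        exact map_add _ _ _
      map_smul' := fun t a => by
        apply Subtype.ext
        funext g
        exact map_smul _ _ _ }
  · have e1 : ((g * h : G) : G ⧸ H) = (g : G ⧸ H) := by
      rw [QuotientGroup.eq]
      simp
    simp only
    rw [e1, mul_inv_rev, map_mul]
    rfl
  · have h1 := key F F.2 (g : G ⧸ H)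
    have h2 : c • (g : G ⧸ H) = ((c * g : G) : G ⧸ H) := rfl
    rw [h2] at h1
    simp only
    rw [h1, map_neg, ← Module.End.mul_apply, ← map_mul]
    congr 3
    group
  · have hout : ∀ g : G, ρ (g : G ⧸ H).out ((f : G → V) (g : G ⧸ H).out) = ρ g ((f : G → V) g) := by
      intro g
      obtain ⟨h, h1, h2⟩ := arS_eq_out f.2.1 g
      conv_rhs => rw [h2]
      change _ = ρ g (ρ (h⁻¹ : H) _)
      rw [← Module.End.mul_apply, ← map_mul]
      congr 2
      rw [Subgroup.coe_inv, eq_mul_inv_iff_mul_eq]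
      exact h1.symm
    rw [mem_mns]
    funext x
    obtain ⟨g, rfl⟩ := QuotientGroup.mk_surjective x
    rw [indRep_apply]
    have h2 : c⁻¹ • (g : G ⧸ H) = ((c * g : G) : G ⧸ H) := by
      rw [hci]
      rfl
    change ρ c (ρ (c⁻¹ • (g : G ⧸ H)).out ((f : G → V) (c⁻¹ • (g : G ⧸ H)).out)) =
      -(ρ (g : G ⧸ H).out ((f : G → V) (g : G ⧸ H).out))
    rw [h2, hout, hout, f.2.2, map_neg, map_neg, ← Module.End.mul_apply, ← map_mul, ← mul_assoc,
      hc, one_mul]
  · apply Subtype.ext
    funext x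
    change ρ x.out (ρ (x.out)⁻¹ ((F : G ⧸ H → V) ((x.out : G) : G ⧸ H))) = _
    rw [← Module.End.mul_apply, ← map_mul, mul_inv_cancel, map_one, Module.End.one_apply,
      QuotientGroup.out_eq']
  · apply Subtype.ext
    funext g
    change ρ g⁻¹ (ρ (g : G ⧸ H).out ((f : G → V) (g : G ⧸ H).out)) = (f : G → V) g
    obtain ⟨h, h1, h2⟩ := arS_eq_out f.2.1 g
    rw [h2]
    change _ = ρ (h⁻¹ : H) _
    rw [← Module.End.mul_apply, ← map_mul]
    congr 2
    rw [Subgroup.coe_inv, inv_mul_eq_iff_eq_mul, eq_mul_inv_iff_mul_eq]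
    exact h1.symm

theorem mns_congr {ρ : Representation k G V} {ρ' : Representation k G V'} (e : V ≃ₗ[k] V')
    (he : ∀ g v, e (ρ g v) = ρ' g (e v)) : finrank k (mns c ρ) = finrank k (mns c ρ') := by
  refine LinearEquiv.finrank_eq
    { toFun := fun f => ⟨e f, by rw [mem_mns, ← he, mem_mns.mp f.2, map_neg]⟩
      invFun := fun f => ⟨e.symm f, by
        rw [mem_mns]
        apply e.injective
        rw [he, LinearEquiv.apply_symm_apply, mem_mns.mp f.2, map_neg,
          LinearEquiv.apply_symm_apply]⟩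
      left_inv := fun f => Subtype.ext (e.symm_apply_apply _)
      right_inv := fun f => Subtype.ext (e.apply_symm_apply _)
      map_add' := fun a b => Subtype.ext (map_add _ _ _)
      map_smul' := fun t a => Subtype.ext (map_smul _ _ _) }

theorem mns_ses (E : SES ρ' ρ ρ'') (hc : c * c = 1) (h2 : (2 : k) ≠ 0)
    [FiniteDimensional k V'] [FiniteDimensional k V] [FiniteDimensional k V''] :
    (finrank k (mns c ρ) : ℤ) = finrank k (mns c ρ') + finrank k (mns c ρ'') := by
  let i : mns c ρ' →ₗ[k] mns c ρ :=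
    { toFun := fun f => ⟨E.i f, by rw [mem_mns, ← E.i_comm, mem_mns.mp f.2, map_neg]⟩
      map_add' := fun a b => Subtype.ext (map_add _ _ _)
      map_smul' := fun t a => Subtype.ext (map_smul _ _ _) }
  let π : mns c ρ →ₗ[k] mns c ρ'' :=
    { toFun := fun f => ⟨E.π f, by rw [mem_mns, ← E.π_comm, mem_mns.mp f.2, map_neg]⟩
      map_add' := fun a b => Subtype.ext (map_add _ _ _)
      map_smul' := fun t a => Subtype.ext (map_smul _ _ _) }
  have h := rk_exact i π (fun f => by
    constructor
    · intro hf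
      obtain ⟨x, hx⟩ := E.exact _ (congrArg Subtype.val hf)
      refine ⟨⟨x, ?_⟩, Subtype.ext hx⟩
      rw [mem_mns]
      apply E.inj
      rw [E.i_comm, hx, mem_mns.mp f.2, map_neg, hx]
    · rintro ⟨x, rfl⟩
      exact Subtype.ext (E.comp _))
  have hi : Function.Injective i := fun x y h => Subtype.ext (E.inj (congrArg Subtype.val h))
  have hπ : Function.Surjective π := by
    intro f
    refine ⟨⟨(2 : k)⁻¹ • (E.lift f - ρ c (E.lift f)), ?_⟩, Subtype.ext ?_⟩
    · rw [mem_mns, map_smul, map_sub, ← Module.End.mul_apply, ← map_mul, hc, map_one,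
        Module.End.one_apply, ← smul_neg, neg_sub]
    · change E.π ((2 : k)⁻¹ • (E.lift f - ρ c (E.lift f))) = _
      rw [map_smul, map_sub, E.π_comm, E.π_lift, mem_mns.mp f.2, sub_neg_eq_add, ← two_smul k,
        smul_smul, inv_mul_cancel₀ h2, one_smul]
  rw [h, LinearMap.finrank_range_of_inj hi, LinearMap.range_eq_top.mpr hπ, finrank_top]

end arch

end Fermat.Agent.PT.EU
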