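import Fermat.Agent.PT.EU1
import Fermat.Agent.PT.EqX
import Fermat.Agent.PT.SemiL

/-!
# Cohomology of relatively projective modules
-/

set_option autoImplicit false
set_option linter.unusedSectionVars false
set_option linter.style.haveILetI false

namespace Fermat.Agent.PT.EU

open Fermat.Agent.Coh Module

variable {k : Type} [Field k] {G : Type} [Group G] {𝓥 : Fam G}
variable {W : Type} [AddCommGroup W] [Module k W] [FiniteDimensional k W]
variable {U : Subgroup G} [U.Normal] {χ : G →* kˣ}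
variable {τ : Representation k G W}

/-- the normality, in the form used for conjugation -/
theorem nrm (g : G) : ∀ u ∈ U, g⁻¹ * u * g ∈ U := fun u hu => by
  have := ‹U.Normal›.conj_mem u hu g⁻¹
  simpa using this

variable (𝓥 U χ τ) in
/-- equivariant maps from the dual to the first cohomology of `U` -/
def A1 : Submodule k (Dual k W →ₗ[k] H1 (𝓥.res U) (rep (chRep χ) U)) where
  carrier := {φ | ∀ g f, φ (dualR χ τ g f) = (cnj 𝓥 (chRep χ) g (nrm g)).mapH1 (φ f)}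
  zero_mem' := fun g f => by simp
  add_mem' := fun {a b} ha hb g f => by
    rw [LinearMap.add_apply, LinearMap.add_apply, ha, hb, map_add]
  smul_mem' := fun c a ha g f => by
    rw [LinearMap.smul_apply, LinearMap.smul_apply, ha, map_smul]

variable (𝓥 U χ τ) in
/-- equivariant maps from the dual to the second cohomology of `U` -/
def A2 : Submodule k (Dual k W →ₗ[k] H2 (𝓥.res U) (rep (chRep χ) U)) where
  carrier := {φ | ∀ g f, φ (dualR χ τ g f) = (cnj 𝓥 (chRep χ) g (nrm g)).mapH2 (φ f)}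
  zero_mem' := fun g f => by simp
  add_mem' := fun {a b} ha hb g f => by
    rw [LinearMap.add_apply, LinearMap.add_apply, ha, hb, map_add]
  smul_mem' := fun c a ha g f => by
    rw [LinearMap.smul_apply, LinearMap.smul_apply, ha, map_smul]

variable (hχ : ∀ u ∈ U, χ u = 1) (ht : ∀ u ∈ U, ∀ w, τ u w = w)

include hχ in
theorem mu_triv (u : U) (a : k) : rep (chRep χ) U u a = a := by
  change (χ u : k) * a = a
  rw [hχ u u.2, Units.val_one, one_mul]

/-- restriction to `U` followed by a linear form -/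
def cf (f : Dual k W) : Mor 𝓥 (𝓥.res U) τ (rep (chRep χ) U) where
  f := U.subtype
  T := f
  comm u w := by
    rw [mu_triv hχ]
    exact congrArg f (ht u u.2 w)
  cont V hV := ⟨_, Fam.comap_mem hV, le_rfl⟩

theorem cf_mapZ1 (f : Dual k W) (z : ↥(Z1 𝓥 τ)) (u : U) :
    ((cf (𝓥 := 𝓥) hχ ht f).mapZ1 z : U → k) u = f ((z : G → W) u) := rfl

theorem cf_mapZ2 (f : Dual k W) (z : ↥(Z2 𝓥 τ)) (u : U × U) :
    ((cf (𝓥 := 𝓥) hχ ht f).mapZ2 z : U × U → k) u = f ((z : G × G → W) (u.1, u.2)) := rfl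

variable (𝓥) in
/-- the comparison in degree `1` -/
def F1 : H1 𝓥 τ →ₗ[k] (Dual k W →ₗ[k] H1 (𝓥.res U) (rep (chRep χ) U)) :=
  LinearMap.flip
    { toFun := fun f => (cf (𝓥 := 𝓥) hχ ht f).mapH1
      map_add' := fun f f' => by
        refine LinearMap.ext fun x => ?_
        obtain ⟨z, rfl⟩ := H1.mk_surjective x
        rw [LinearMap.add_apply, Mor.mapH1_mk, Mor.mapH1_mk, Mor.mapH1_mk, ← map_add]
        congr 1
      map_smul' := fun c f => by
        refine LinearMap.ext fun x => ?_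
        obtain ⟨z, rfl⟩ := H1.mk_surjective x
        rw [RingHom.id_apply, LinearMap.smul_apply, Mor.mapH1_mk, Mor.mapH1_mk, ← map_smul]
        congr 1 }

variable (𝓥) in
/-- the comparison in degree `2` -/
def F2 : H2 𝓥 τ →ₗ[k] (Dual k W →ₗ[k] H2 (𝓥.res U) (rep (chRep χ) U)) :=
  LinearMap.flip
    { toFun := fun f => (cf (𝓥 := 𝓥) hχ ht f).mapH2
      map_add' := fun f f' => by
        refine LinearMap.ext fun x => ?_
        obtain ⟨z, rfl⟩ := H2.mk_surjective x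
        rw [LinearMap.add_apply, Mor.mapH2_mk, Mor.mapH2_mk, Mor.mapH2_mk, ← map_add]
        congr 1
      map_smul' := fun c f => by
        refine LinearMap.ext fun x => ?_
        obtain ⟨z, rfl⟩ := H2.mk_surjective x
        rw [RingHom.id_apply, LinearMap.smul_apply, Mor.mapH2_mk, Mor.mapH2_mk, ← map_smul]
        congr 1 }

theorem F1_mk (z : ↥(Z1 𝓥 τ)) (f : Dual k W) :
    F1 𝓥 hχ ht (H1.mk 𝓥 τ z) f =
      H1.mk (𝓥.res U) (rep (chRep χ) U) ((cf (𝓥 := 𝓥) hχ ht f).mapZ1 z) := rfl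

theorem F2_mk (z : ↥(Z2 𝓥 τ)) (f : Dual k W) :
    F2 𝓥 hχ ht (H2.mk 𝓥 τ z) f =
      H2.mk (𝓥.res U) (rep (chRep χ) U) ((cf (𝓥 := 𝓥) hχ ht f).mapZ2 z) := rfl

/-- the image in degree `2` consists of equivariant maps -/
theorem F2_mem (x : H2 𝓥 τ) : F2 𝓥 hχ ht x ∈ A2 𝓥 U χ τ := by
  intro g f
  obtain ⟨z, rfl⟩ := H2.mk_surjective x
  rw [F2_mk, F2_mk, Mor.mapH2_mk, eq_comm, H2.mk_eq_mk]
  obtain ⟨φ, hφ, h⟩ := conj_cocycle z.2 g
  refine ⟨fun u => dualR χ τ g f (φ u), ?_, fun u v => ?_⟩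
  · obtain ⟨V, hV, h1⟩ := hφ
    exact ⟨_, ⟨V, hV, rfl⟩, fun u v hv => congrArg (dualR χ τ g f) (h1 u v hv)⟩
  · rw [mu_triv hχ, cnj_mapZ2, cf_mapZ2, cf_mapZ2]
    have h1 := congrArg (dualR χ τ g f) (h u v)
    rw [ht u u.2, map_add, map_add, map_sub] at h1
    refine Eq.trans ?_ h1
    rw [dualR_apply_act]
    rfl

variable [Fintype (G ⧸ U)] (T : W →ₗ[k] W) (hT : ∑ x : G ⧸ U, τ x.out ∘ₗ T ∘ₗ τ x.out⁻¹ = LinearMap.id)

include ht in
theorem cT_out (g : G) : τ (g : G ⧸ U).out ∘ₗ T ∘ₗ τ (g : G ⧸ U).out⁻¹ = τ g ∘ₗ T ∘ₗ τ g⁻¹ := by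
  have h1 : ((g : G ⧸ U).out)⁻¹ * g ∈ U := QuotientGroup.eq.mp (QuotientGroup.out_eq' _)
  have h2 : τ g = τ (g : G ⧸ U).out := by
    refine LinearMap.ext fun w => ?_
    have : τ g w = τ (g : G ⧸ U).out (τ (((g : G ⧸ U).out)⁻¹ * g) w) := by
      rw [← Module.End.mul_apply, ← map_mul, mul_inv_cancel_left]
    rw [this, ht _ h1]
  have h3 : τ g⁻¹ = τ (g : G ⧸ U).out⁻¹ := by
    refine LinearMap.ext fun w => ?_
    have h4 : g⁻¹ * (g : G ⧸ U).out ∈ U := by
      have := U.inv_mem h1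
      rwa [mul_inv_rev, inv_inv] at this
    have : τ (g : G ⧸ U).out⁻¹ w = τ g⁻¹ w := by
      have h5 : τ g⁻¹ w = τ (g⁻¹ * (g : G ⧸ U).out) (τ (g : G ⧸ U).out⁻¹ w) := by
        rw [← Module.End.mul_apply, ← map_mul]
        congr 2
        group
      rw [h5, ht _ h4]
    exact this.symm
  rw [h2, h3]

/-- the retraction -/
noncomputable def rr : (G ⧸ U → W) →ₗ[k] W :=
  ∑ x : G ⧸ U, (τ x.out ∘ₗ T ∘ₗ τ x.out⁻¹) ∘ₗ LinearMap.proj x

theorem rr_apply (F : G ⧸ U → W) :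
    rr (τ := τ) T F = ∑ x : G ⧸ U, (τ x.out ∘ₗ T ∘ₗ τ x.out⁻¹) (F x) := by
  rw [rr, LinearMap.sum_apply]
  rfl

include ht in
theorem rr_comm (g : G) (F : G ⧸ U → W) :
    rr (τ := τ) T (indRep U τ g F) = τ g (rr (τ := τ) T F) := by
  rw [rr_apply, rr_apply, map_sum]
  refine Fintype.sum_equiv (MulAction.toPerm g⁻¹) _ _ fun x => ?_
  rw [MulAction.toPerm_apply, indRep_apply]
  obtain ⟨y, rfl⟩ := QuotientGroup.mk_surjective x
  have h1 : g⁻¹ • (y : G ⧸ U) = ((g⁻¹ * y : G) : G ⧸ U) := rfl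
  rw [h1, cT_out ht T, cT_out ht T]
  simp only [LinearMap.comp_apply]
  have e1 : ∀ w, τ (g⁻¹ * y)⁻¹ w = τ y⁻¹ (τ g w) := fun w => by
    rw [mul_inv_rev, inv_inv, map_mul, Module.End.mul_apply]
  have e2 : ∀ w, τ g (τ (g⁻¹ * y) w) = τ y w := fun w => by
    rw [← Module.End.mul_apply, ← map_mul, mul_inv_cancel_left]
  rw [e1, e2]

include hT in
theorem rr_const (w : W) : rr (τ := τ) T (constLin (k := k) U w) = w := by
  rw [rr_apply]
  have h := LinearMap.congr_fun hT w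
  rw [LinearMap.sum_apply] at h
  exact h

include hT in
/-- **Degree two**: the comparison map is injective. -/
theorem F2_injective (hU : 𝓥.IsOpen U) :
    Function.Injective (F2 𝓥 (χ := χ) (τ := τ) hχ ht) := by
  rw [← LinearMap.ker_eq_bot, LinearMap.ker_eq_bot']
  intro x hx
  obtain ⟨z, rfl⟩ := H2.mk_surjective x
  -- the restriction to `U` is a coboundary
  let b := Module.finBasis k W
  have h1 : ∀ i, ∃ c : U → k, (𝓥.res U).Sm1 c ∧ ∀ u v : U,
      b.coord i ((z : G × G → W) (u, v)) = c v - c (u * v) + c u := by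
    intro i
    have h2 := LinearMap.congr_fun hx (b.coord i)
    obtain ⟨c, hc, h3⟩ := H2.mk_eq_zero.mp h2
    refine ⟨c, hc, fun u v => ?_⟩
    have h4 := h3 u v
    rwa [mu_triv hχ, cf_mapZ2] at h4
  choose c hc hcz using h1
  have hres : H2.mk (𝓥.res U) (rep τ U) ((Mor.res 𝓥 τ U).mapZ2 z) = 0 := by
    refine H2.mk_eq_zero.mpr ⟨fun u => ∑ i, c i u • b i, ?_, fun u v => ?_⟩
    · obtain ⟨V, hV, hV'⟩ := (𝓥.res U).exists_le_forall Finset.univ (fun i => (hc i).choose)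
        fun i _ => (hc i).choose_spec.1
      refine ⟨V, hV, fun u v hv => ?_⟩
      refine Finset.sum_congr rfl fun i _ => ?_
      rw [(hc i).choose_spec.2 u v (hV' i (Finset.mem_univ i) hv)]
    · change (z : G × G → W) (u, v) = τ u _ - _ + _
      rw [ht u u.2, ← Finset.sum_sub_distrib, ← Finset.sum_add_distrib]
      conv_lhs => rw [← b.sum_repr ((z : G × G → W) (u, v))]
      refine Finset.sum_congr rfl fun i _ => ?_
      rw [← sub_smul, ← add_smul, ← hcz]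
      rfl
  have h5 : (constMor (𝓤 := 𝓥) U τ).mapH2 (H2.mk 𝓥 τ z) = 0 := by
    apply sh_H2_injective hU
    rw [map_zero]
    exact hres
  have h6 : (Mor.coeff (𝓤 := 𝓥) (rr (τ := τ) (U := U) T) (rr_comm ht T)).mapH2
      ((constMor (𝓤 := 𝓥) U τ).mapH2 (H2.mk 𝓥 τ z)) = H2.mk 𝓥 τ z := by
    rw [Mor.mapH2_mk, Mor.mapH2_mk]
    congr 1
    apply Subtype.ext
    funext q
    exact rr_const T hT _
  rw [← h6, h5, map_zero]

theorem F1_coord (b : Basis (Fin (finrank k W)) k W) (f : Dual k W) :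
    f = ∑ i, f (b i) • b.coord i := by
  refine b.ext fun j => ?_
  rw [LinearMap.sum_apply, Finset.sum_eq_single j]
  · simp
  · intro i _ hij
    rw [LinearMap.smul_apply, Basis.coord_apply, Basis.repr_self, Finsupp.single_eq_of_ne hij,
      smul_zero]
  · intro h
    exact absurd (Finset.mem_univ _) h

include hT in
/-- **Degree one**: every equivariant map comes from a class. -/
theorem exists_F1 (hU : 𝓥.IsOpen U)
    (φ : Dual k W →ₗ[k] H1 (𝓥.res U) (rep (chRep χ) U)) (hφ : φ ∈ A1 𝓥 U χ τ) :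
    ∃ x, F1 𝓥 hχ ht x = φ := by
  let b := Module.finBasis k W
  have h1 : ∀ i, ∃ z : ↥(Z1 (𝓥.res U) (rep (chRep χ) U)),
      H1.mk (𝓥.res U) (rep (chRep χ) U) z = φ (b.coord i) := fun i => H1.mk_surjective _
  choose z hz using h1
  -- the cocycle representing `φ ∘ f`
  have hcl : ∀ f : Dual k W, H1.mk (𝓥.res U) (rep (chRep χ) U) (∑ i, f (b i) • z i) = φ f := by
    intro f
    rw [map_sum]
    conv_rhs => rw [F1_coord b f, map_sum]
    refine Finset.sum_congr rfl fun i _ => ?_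
    rw [map_smul, map_smul, hz]
  let zW : U → W := fun u => ∑ i, (z i : U → k) u • b i
  have hzf : ∀ (f : Dual k W) (u : U), f (zW u) =
      ((∑ i, f (b i) • z i : ↥(Z1 (𝓥.res U) (rep (chRep χ) U))) : U → k) u := by
    intro f u
    simp only [zW]
    rw [map_sum, Submodule.coe_sum, Finset.sum_apply]
    refine Finset.sum_congr rfl fun i _ => ?_
    rw [map_smul, Submodule.coe_smul, Pi.smul_apply, smul_eq_mul, smul_eq_mul, mul_comm]
  have hzW : zW ∈ Z1 (𝓥.res U) (rep τ U) := by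
    refine ⟨?_, fun u v => ?_⟩
    · obtain ⟨V, hV, hV'⟩ := (𝓥.res U).exists_le_forall Finset.univ (fun i => (z i).2.1.choose)
        fun i _ => (z i).2.1.choose_spec.1
      refine ⟨V, hV, fun u v hv => ?_⟩
      refine Finset.sum_congr rfl fun i _ => ?_
      rw [(z i).2.1.choose_spec.2 u v (hV' i (Finset.mem_univ i) hv)]
    · change _ = τ u (zW v) + zW u
      rw [ht u u.2]
      simp only [zW]
      rw [← Finset.sum_add_distrib]
      refine Finset.sum_congr rfl fun i _ => ?_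
      rw [(z i).2.2 u v, mu_triv hχ, add_smul]
  have hy : (fun u => T (zW u)) ∈ Z1 (𝓥.res U) (rep τ U) := by
    refine ⟨hzW.1.post T, fun u v => ?_⟩
    have h2 := hzW.2 u v
    change zW (u * v) = τ u (zW v) + zW u at h2
    change T (zW (u * v)) = τ u (T (zW v)) + T (zW u)
    rw [ht u u.2] at h2 ⊢
    rw [h2, map_add]
  obtain ⟨X, hX⟩ := sh_H1_surjective hU (ρ := τ) (H1.mk (𝓥.res U) (rep τ U) ⟨_, hy⟩)
  obtain ⟨Z, rfl⟩ := H1.mk_surjective X
  have hZ1 : ∀ u : U, (Z : G → (G ⧸ U → W)) u ((1 : G) : G ⧸ U) = T (zW u) := by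
    rw [Mor.mapH1_mk] at hX
    obtain ⟨w, hw⟩ := H1.mk_eq_mk.mp hX
    intro u
    have h2 := hw u
    change (Z : G → (G ⧸ U → W)) u ((1 : G) : G ⧸ U) = T (zW u) + (τ u w - w) at h2
    rw [h2, ht u u.2, sub_self, add_zero]
  have hnu : ∀ u ∈ U, ∀ x : G ⧸ U, u • x = x := fun u hu x => smul_of_mem U hu x
  -- evaluation at the other cosets
  have hZg : ∀ (u : U) (g : G), (Z : G → (G ⧸ U → W)) u (g : G ⧸ U) =
      τ g (T (zW ⟨g⁻¹ * u * g, nrm g u u.2⟩)) := by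
    intro u g
    rw [← hZ1]
    have e1 := Z.2.2 (u : G) g
    have e2 := Z.2.2 g (g⁻¹ * u * g)
    have e3 : g * (g⁻¹ * u * g) = u * g := by group
    rw [e3, e1] at e2
    have e4 := congrFun e2 (g : G ⧸ U)
    rw [Pi.add_apply, Pi.add_apply, indRep_apply, indRep_apply, hnu _ (U.inv_mem u.2),
      ht u u.2] at e4
    have e5 : g⁻¹ • (g : G ⧸ U) = ((1 : G) : G ⧸ U) := by
      change ((g⁻¹ * g : G) : G ⧸ U) = _
      rw [inv_mul_cancel]
    rw [e5, add_comm] at e4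
    exact add_right_cancel e4
  refine ⟨(sumMor (𝓤 := 𝓥) U τ).mapH1 (H1.mk 𝓥 (indRep U τ) Z), LinearMap.ext fun f => ?_⟩
  rw [Mor.mapH1_mk, F1_mk]
  -- decompose
  have hconj : ∀ (g : G) (f : Dual k W), H1.mk (𝓥.res U) (rep (chRep χ) U)
      (((χ g)⁻¹ : kˣ) • (cnj 𝓥 (chRep χ) g (nrm g)).mapZ1 (∑ i, f (b i) • z i)) =
      φ (f ∘ₗ τ g⁻¹) := by
    intro g f
    have h2 := hφ g f
    rw [← hcl f, Mor.mapH1_mk] at h2
    have h3 : dualR χ τ g f = (χ g) • (f ∘ₗ τ g⁻¹) := rfl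
    rw [Units.smul_def, map_smul, ← h2, h3, Units.smul_def, map_smul, smul_smul, Units.inv_mul,
      one_smul]
  have hsum : ((cf (𝓥 := 𝓥) hχ ht f).mapZ1 ((sumMor (𝓤 := 𝓥) U τ).mapZ1 Z)) =
      ∑ x : G ⧸ U, (((χ x.out)⁻¹ : kˣ) • (cnj 𝓥 (chRep χ) x.out (nrm x.out)).mapZ1
        (∑ i, (f ∘ₗ τ x.out ∘ₗ T) (b i) • z i)) := by
    apply Subtype.ext
    funext u
    rw [Submodule.coe_sum, Finset.sum_apply]
    change f (∑ x : G ⧸ U, (Z : G → (G ⧸ U → W)) u x) = _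
    rw [map_sum]
    refine Finset.sum_congr rfl fun x _ => ?_
    conv_lhs => rw [← QuotientGroup.out_eq' x, hZg]
    have h4 := hzf (f ∘ₗ τ x.out ∘ₗ T) ⟨x.out⁻¹ * u * x.out, nrm x.out u u.2⟩
    change f (τ x.out (T (zW _))) = _ at h4
    rw [h4]
    change _ = ((χ x.out)⁻¹ : kˣ) • ((χ x.out : k) * _)
    rw [Units.smul_def, smul_eq_mul, ← mul_assoc, Units.inv_mul, one_mul]
    rfl
  rw [hsum, map_sum, Finset.sum_congr rfl fun x _ => hconj x.out _, ← map_sum]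
  congr 1
  refine LinearMap.ext fun w => ?_
  rw [LinearMap.sum_apply]
  have h5 := LinearMap.congr_fun hT w
  rw [LinearMap.sum_apply] at h5
  have h6 := congrArg f h5
  rw [map_sum] at h6
  exact h6

include hχ ht hT in
theorem finrank_A1_le (hU : 𝓥.IsOpen U) [FiniteDimensional k (H1 𝓥 τ)] :
    finrank k (A1 𝓥 U χ τ) ≤ finrank k (H1 𝓥 τ) := by
  have h : A1 𝓥 U χ τ ≤ LinearMap.range (F1 𝓥 (χ := χ) (τ := τ) hχ ht) := fun φ hφ =>
    exists_F1 hχ ht T hT hU φ hφ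
  exact (Submodule.finrank_mono h).trans (LinearMap.finrank_range_le _)

include hχ ht hT in
theorem finrank_H2_le_A2 (hU : 𝓥.IsOpen U)
    [FiniteDimensional k (H2 (𝓥.res U) (rep (chRep χ) U))] :
    finrank k (H2 𝓥 τ) ≤ finrank k (A2 𝓥 U χ τ) := by
  let Φ : H2 𝓥 τ →ₗ[k] A2 𝓥 U χ τ := (F2 𝓥 hχ ht).codRestrict _ (F2_mem hχ ht)
  refine LinearMap.finrank_le_finrank_of_injective (f := Φ) fun x y h => ?_
  exact F2_injective hχ ht T hT hU (congrArg Subtype.val h)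

end Fermat.Agent.PT.EU
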