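import Fermat.Agent.PT.EU2

/-!
# The Euler inequality for relatively projective modules
-/

set_option autoImplicit false
set_option linter.unusedSectionVars false
set_option linter.style.haveILetI false

namespace Fermat.Agent.PT.EU

open Fermat.Agent.Coh Module

variable {k : Type} [Field k] {Γ : Type} [Group Γ] {𝓤 : Fam Γ} {χ : Γ →* kˣ}
variable {H U : Subgroup Γ}

/-- the inequality for one representation -/
def XP (𝓤 : Fam Γ) (χ : Γ →* kˣ) (c : Γ) (hn : ∀ h ∈ H, ∀ u ∈ U, h * u * h⁻¹ ∈ U) {P : Type}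
    [AddCommGroup P] [Module k P] (σ : Representation k H P) : Prop :=
  finrank k (EqHom σ (h2Rep 𝓤 (chRep χ) hn)) +
    finrank k (EqHom σ ((chRep χ).comp H.subtype)) +
    finrank k (EqHom σ (plRep k (Subgroup.zpowers c) hn)) ≤
  finrank k (EqHom σ (h1Rep 𝓤 (chRep χ) hn))

variable {W : Type} [AddCommGroup W] [Module k W] [FiniteDimensional k W]
variable {τ : Representation k H W}

theorem finite_EqHom {G : Type*} [Group G] {P V : Type*} [AddCommGroup P] [Module k P]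
    [AddCommGroup V] [Module k V] [FiniteDimensional k P] [FiniteDimensional k V]
    (σ : Representation k G P) (τ : Representation k G V) : FiniteDimensional k (EqHom σ τ) :=
  inferInstance

theorem finite_plSub [U.FiniteIndex] (D : Subgroup Γ) : FiniteDimensional k (plSub k D U) := by
  haveI : Fintype (Γ ⧸ U) := Fintype.ofFinite _
  let Φ : plSub k D U →ₗ[k] (Γ ⧸ U → k) :=
    { toFun := fun f x => (f : Γ → k) x.out
      map_add' := fun _ _ => rfl
      map_smul' := fun _ _ => rfl }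
  refine FiniteDimensional.of_injective Φ ?_
  rw [← LinearMap.ker_eq_bot, LinearMap.ker_eq_bot']
  intro f hf
  apply Subtype.ext
  funext g
  have h1 : ((g : Γ ⧸ U).out)⁻¹ * g ∈ U := QuotientGroup.eq.mp (QuotientGroup.out_eq' _)
  have h2 := f.2 1 D.one_mem (g : Γ ⧸ U).out _ h1
  rw [one_mul, mul_inv_cancel_left] at h2
  rw [h2]
  exact congrFun hf (g : Γ ⧸ U)

/-- the restricted character -/
abbrev rχ (χ : Γ →* kˣ) (H : Subgroup Γ) : H →* kˣ := χ.comp H.subtype

/-- the dual -/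
abbrev dR (χ : Γ →* kˣ) (τ : Representation k H W) : Representation k H (Dual k W) :=
  dualR (rχ χ H) τ

theorem finrank_H0_le (χ : Γ →* kˣ) (τ : Representation k H W) :
    finrank k ↥(H0 τ) ≤ finrank k (EqHom (dR χ τ) ((chRep χ).comp H.subtype)) := by
  let Φ : ↥(H0 τ) →ₗ[k] EqHom (dR χ τ) ((chRep χ).comp H.subtype) :=
    { toFun := fun w => ⟨Dual.eval k W w, fun h f => by
        change (χ h : k) * f (τ h⁻¹ w) = (χ h : k) * f w
        rw [(mem_H0 τ).mp w.2]⟩
      map_add' := fun a b => Subtype.ext (map_add (Dual.eval k W) _ _)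
      map_smul' := fun t a => Subtype.ext (map_smul (Dual.eval k W) _ _) }
  refine LinearMap.finrank_le_finrank_of_injective (f := Φ) fun a b h => ?_
  have h1 : Dual.eval k W (a : W) = Dual.eval k W b := congrArg Subtype.val h
  exact Subtype.ext ((Module.evalEquiv k W).injective h1)

theorem finrank_arS_le {c : Γ} (hc : χ c = -1) (hn : ∀ h ∈ H, ∀ u ∈ U, h * u * h⁻¹ ∈ U)
    (hle : U ≤ H) (hχ : ∀ u ∈ U, χ u = 1) (ht : ∀ u : H, (u : Γ) ∈ U → ∀ w, τ u w = w)
    [U.FiniteIndex] :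
    finrank k (arS c τ) ≤ finrank k (EqHom (dR χ τ) (plRep k (Subgroup.zpowers c) hn)) := by
  haveI := finite_plSub (k := k) (U := U) (Subgroup.zpowers c)
  have hinv : ∀ (F : arS c τ) (f : Dual k W), ∀ d ∈ Subgroup.zpowers c, ∀ g, ∀ u ∈ U,
      (χ (d * g * u) : k) * f ((F : Γ → W) (d * g * u)) = χ g * f ((F : Γ → W) g) := by
    intro F f d hd g u hu
    have h1 : (F : Γ → W) (d * g * u) = (F : Γ → W) (d * g) := by
      have := F.2.1 (d * g) ⟨u, hle hu⟩
      rw [this]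
      exact ht _ (U.inv_mem hu) _
    rw [h1, map_mul, hχ u hu, mul_one]
    -- now `d`
    have key : ∀ g', (χ (c * g') : k) * f ((F : Γ → W) (c * g')) = χ g' * f ((F : Γ → W) g') := by
      intro g'
      rw [F.2.2, map_mul, hc, map_neg]
      simp
    clear h1
    obtain ⟨n, rfl⟩ := hd
    change (χ (c ^ n * g) : k) * f ((F : Γ → W) (c ^ n * g)) = _
    induction n using Int.induction_on with
    | zero => simp
    | succ n ih =>
      have e : c ^ ((n : ℤ) + 1) * g = c * (c ^ (n : ℤ) * g) := by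
        rw [add_comm, zpow_one_add, mul_assoc]
      rw [e, key]
      exact ih
    | pred n ih =>
      have h2 := key (c ^ (-(n : ℤ) - 1) * g)
      rw [← mul_assoc, ← zpow_one_add] at h2
      have h3 : (1 : ℤ) + (-(n : ℤ) - 1) = -(n : ℤ) := by ring
      rw [h3] at h2
      rw [← h2]
      exact ih
  let Φ : arS c τ →ₗ[k] EqHom (dR χ τ) (plRep k (Subgroup.zpowers c) hn) :=
    { toFun := fun F => ⟨
        { toFun := fun f => ⟨fun g => (χ g : k) * f ((F : Γ → W) g), hinv F f⟩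
          map_add' := fun f f' => by
            apply Subtype.ext
            funext g
            exact mul_add _ _ _
          map_smul' := fun t f => by
            apply Subtype.ext
            funext g
            exact mul_left_comm _ _ _ }, fun h f => by
        apply Subtype.ext
        funext g
        change (χ g : k) * ((χ h : k) * f (τ h⁻¹ ((F : Γ → W) g))) =
          (χ (g * h) : k) * f ((F : Γ → W) (g * h))
        rw [F.2.1, map_mul, Units.val_mul, mul_assoc]⟩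
      map_add' := fun F F' => by
        apply Subtype.ext
        refine LinearMap.ext fun f => Subtype.ext (funext fun g => ?_)
        change (χ g : k) * f ((F : Γ → W) g + (F' : Γ → W) g) =
          (χ g : k) * f ((F : Γ → W) g) + (χ g : k) * f ((F' : Γ → W) g)
        rw [map_add, mul_add]
      map_smul' := fun t F => by
        apply Subtype.ext
        refine LinearMap.ext fun f => Subtype.ext (funext fun g => ?_)
        change (χ g : k) * f (t • (F : Γ → W) g) = t * ((χ g : k) * f ((F : Γ → W) g))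
        rw [map_smul, smul_eq_mul, mul_left_comm] }
  refine LinearMap.finrank_le_finrank_of_injective (f := Φ) fun F F' h => ?_
  apply Subtype.ext
  funext g
  rw [← sub_eq_zero]
  refine (Module.forall_dual_apply_eq_zero_iff k _).mp fun f => ?_
  have h1 : (χ g : k) * f ((F : Γ → W) g) = (χ g : k) * f ((F' : Γ → W) g) :=
    congrFun (congrArg Subtype.val (LinearMap.congr_fun (congrArg Subtype.val h) f)) g
  rw [map_sub, sub_eq_zero]
  exact mul_left_cancel₀ (Units.ne_zero _) h1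

section compare

variable (hle : U ≤ H) (hn : ∀ h ∈ H, ∀ u ∈ U, h * u * h⁻¹ ∈ U)

include hn in
theorem normal_subgroupOf : (U.subgroupOf H).Normal :=
  ⟨fun u hu h => hn h h.2 u hu⟩

variable (𝓤 χ) in
/-- up, for the restricted character -/
def upC : Mor (𝓤.res U) ((𝓤.res H).res (U.subgroupOf H)) (rep (chRep χ) U)
    (rep (chRep (rχ χ H)) (U.subgroupOf H)) where
  f := (Subgroup.subgroupOfEquivOfLe hle).toMonoidHom
  T := LinearMap.id
  comm _ _ := rfl
  cont := by
    rintro _ ⟨W, hW, rfl⟩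
    exact ⟨_, ⟨_, ⟨W, hW, rfl⟩, rfl⟩, fun g hg => hg⟩

variable (𝓤 χ) in
/-- down, for the restricted character -/
def dnC : Mor ((𝓤.res H).res (U.subgroupOf H)) (𝓤.res U)
    (rep (chRep (rχ χ H)) (U.subgroupOf H)) (rep (chRep χ) U) where
  f := (Subgroup.subgroupOfEquivOfLe hle).symm.toMonoidHom
  T := LinearMap.id
  comm _ _ := rfl
  cont := by
    rintro _ ⟨_, ⟨W, hW, rfl⟩, rfl⟩
    exact ⟨_, ⟨W, hW, rfl⟩, fun g hg => hg⟩

theorem dnC_upC_H1 (x) : (dnC 𝓤 χ hle).mapH1 ((upC 𝓤 χ hle).mapH1 x) = x := by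
  obtain ⟨z, rfl⟩ := H1.mk_surjective x
  rfl

theorem upC_dnC_H2 (x) : (upC 𝓤 χ hle).mapH2 ((dnC 𝓤 χ hle).mapH2 x) = x := by
  obtain ⟨z, rfl⟩ := H2.mk_surjective x
  rfl

theorem dnC_upC_H2 (x) : (dnC 𝓤 χ hle).mapH2 ((upC 𝓤 χ hle).mapH2 x) = x := by
  obtain ⟨z, rfl⟩ := H2.mk_surjective x
  rfl

theorem upC_dnC_H1 (x) : (upC 𝓤 χ hle).mapH1 ((dnC 𝓤 χ hle).mapH1 x) = x := by
  obtain ⟨z, rfl⟩ := H1.mk_surjective x
  rfl

theorem upC_cnj (h : H) (x) :
    haveI := normal_subgroupOf hn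
    (upC 𝓤 χ hle).mapH1 ((cnj 𝓤 (chRep χ) (h : Γ) (hn' hn h)).mapH1 x) =
      (cnj (𝓤.res H) (chRep (rχ χ H)) h (nrm h)).mapH1 ((upC 𝓤 χ hle).mapH1 x) := by
  obtain ⟨z, rfl⟩ := H1.mk_surjective x
  rfl

theorem dnC_cnj (h : H) (x) :
    haveI := normal_subgroupOf hn
    (dnC 𝓤 χ hle).mapH2 ((cnj (𝓤.res H) (chRep (rχ χ H)) h (nrm h)).mapH2 x) =
      (cnj 𝓤 (chRep χ) (h : Γ) (hn' hn h)).mapH2 ((dnC 𝓤 χ hle).mapH2 x) := by
  obtain ⟨z, rfl⟩ := H2.mk_surjective x
  rfl

include hle in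
theorem finrank_h1_le [FiniteDimensional k (H1 (𝓤.res U) (rep (chRep χ) U))] :
    haveI := normal_subgroupOf hn
    finrank k (EqHom (dR χ τ) (h1Rep 𝓤 (chRep χ) hn)) ≤
      finrank k (A1 (𝓤.res H) (U.subgroupOf H) (rχ χ H) τ) := by
  haveI := normal_subgroupOf hn
  haveI : FiniteDimensional k (H1 ((𝓤.res H).res (U.subgroupOf H))
      (rep (chRep (rχ χ H)) (U.subgroupOf H))) :=
    Module.Finite.of_surjective (upC 𝓤 χ hle).mapH1
      (Function.RightInverse.surjective (upC_dnC_H1 (𝓤 := 𝓤) (χ := χ) hle))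
  let Φ : EqHom (dR χ τ) (h1Rep 𝓤 (chRep χ) hn) →ₗ[k]
      A1 (𝓤.res H) (U.subgroupOf H) (rχ χ H) τ :=
    { toFun := fun φ => ⟨(upC 𝓤 χ hle).mapH1 ∘ₗ (φ : Dual k W →ₗ[k] _), fun h f => by
        rw [LinearMap.comp_apply, LinearMap.comp_apply, φ.2 h f]
        exact upC_cnj hle hn h _⟩
      map_add' := fun a b => Subtype.ext (LinearMap.comp_add _ _ _)
      map_smul' := fun t a => Subtype.ext (LinearMap.comp_smul _ _ _) }
  refine LinearMap.finrank_le_finrank_of_injective (f := Φ) fun a b h => ?_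
  apply Subtype.ext
  refine LinearMap.ext fun f => ?_
  have h1 : (upC 𝓤 χ hle).mapH1 ((a : Dual k W →ₗ[k] _) f) =
      (upC 𝓤 χ hle).mapH1 ((b : Dual k W →ₗ[k] _) f) :=
    LinearMap.congr_fun (congrArg Subtype.val h) f
  have h2 := congrArg (dnC 𝓤 χ hle).mapH1 h1
  rwa [dnC_upC_H1, dnC_upC_H1] at h2

include hle in
theorem finrank_h2_le [FiniteDimensional k (H2 (𝓤.res U) (rep (chRep χ) U))] :
    haveI := normal_subgroupOf hn
    finrank k (A2 (𝓤.res H) (U.subgroupOf H) (rχ χ H) τ) ≤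
      finrank k (EqHom (dR χ τ) (h2Rep 𝓤 (chRep χ) hn)) := by
  haveI := normal_subgroupOf hn
  let Φ : A2 (𝓤.res H) (U.subgroupOf H) (rχ χ H) τ →ₗ[k]
      EqHom (dR χ τ) (h2Rep 𝓤 (chRep χ) hn) :=
    { toFun := fun φ => ⟨(dnC 𝓤 χ hle).mapH2 ∘ₗ (φ : Dual k W →ₗ[k] _), fun h f => by
        rw [LinearMap.comp_apply, LinearMap.comp_apply, φ.2 h f]
        exact dnC_cnj hle hn h _⟩
      map_add' := fun a b => Subtype.ext (LinearMap.comp_add _ _ _)
      map_smul' := fun t a => Subtype.ext (LinearMap.comp_smul _ _ _) }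
  refine LinearMap.finrank_le_finrank_of_injective (f := Φ) fun a b h => ?_
  apply Subtype.ext
  refine LinearMap.ext fun f => ?_
  have h1 : (dnC 𝓤 χ hle).mapH2 ((a : Dual k W →ₗ[k] _) f) =
      (dnC 𝓤 χ hle).mapH2 ((b : Dual k W →ₗ[k] _) f) :=
    LinearMap.congr_fun (congrArg Subtype.val h) f
  have h2 := congrArg (upC 𝓤 χ hle).mapH2 h1
  rwa [upC_dnC_H2, upC_dnC_H2] at h2

include hle in
/-- **The Euler inequality for relatively projective modules.** -/
theorem euler_of_XP {c : Γ} (hc : χ c = -1) (hU : 𝓤.IsOpen U) (hχ : ∀ u ∈ U, χ u = 1)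
    (ht : ∀ u : H, (u : Γ) ∈ U → ∀ w, τ u w = w)
    [FiniteDimensional k (H1 (𝓤.res H) τ)]
    [FiniteDimensional k (H1 (𝓤.res U) (rep (chRep χ) U))]
    [FiniteDimensional k (H2 (𝓤.res U) (rep (chRep χ) U))]
    (hT : ∃ T : W →ₗ[k] W, ∑ᶠ x : H ⧸ U.subgroupOf H, τ x.out ∘ₗ T ∘ₗ τ x.out⁻¹ = LinearMap.id)
    (hX : XP 𝓤 χ c hn (dR χ τ)) :
    (finrank k (arS c τ) : ℤ) ≤ e3 (𝓤.res H) τ := by
  haveI := normal_subgroupOf hn
  haveI := hU.finiteIndex
  haveI : Finite (H ⧸ U.subgroupOf H) := Subgroup.finite_quotient_of_finiteIndex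
  haveI : Fintype (H ⧸ U.subgroupOf H) := Fintype.ofFinite _
  haveI : FiniteDimensional k (H2 ((𝓤.res H).res (U.subgroupOf H))
      (rep (chRep (rχ χ H)) (U.subgroupOf H))) :=
    Module.Finite.of_surjective (upC 𝓤 χ hle).mapH2
      (Function.RightInverse.surjective (upC_dnC_H2 (𝓤 := 𝓤) (χ := χ) hle))
  obtain ⟨T, hT⟩ := hT
  rw [finsum_eq_sum_of_fintype] at hT
  have hχ' : ∀ u ∈ U.subgroupOf H, (rχ χ H) u = 1 := fun u hu => hχ _ hu
  have ht' : ∀ u ∈ U.subgroupOf H, ∀ w, τ u w = w := fun u hu => ht u hu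
  have hU' : (𝓤.res H).IsOpen (U.subgroupOf H) := isOpen_subgroupOf hU H
  have a1 := finrank_A1_le hχ' ht' T hT hU'
  have a2 := finrank_H2_le_A2 hχ' ht' T hT hU'
  have b1 := finrank_h1_le (τ := τ) (𝓤 := 𝓤) (χ := χ) hle hn
  have b2 := finrank_h2_le (τ := τ) (𝓤 := 𝓤) (χ := χ) hle hn
  have b0 := finrank_H0_le χ τ
  have bc := finrank_arS_le hc hn hle hχ ht
  unfold XP at hX
  unfold e3
  omega

end compare

/-- relative projectivity of the dual -/
theorem relProj_dR (ht : ∀ u : H, (u : Γ) ∈ U → ∀ w, τ u w = w) (hχ : ∀ u ∈ U, χ u = 1)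
    [Finite (H ⧸ U.subgroupOf H)]
    (hT : ∃ T : W →ₗ[k] W, ∑ᶠ x : H ⧸ U.subgroupOf H, τ x.out ∘ₗ T ∘ₗ τ x.out⁻¹ = LinearMap.id) :
    RelProj (U.subgroupOf H) (dR χ τ) := by
  haveI : Fintype (H ⧸ U.subgroupOf H) := Fintype.ofFinite _
  refine ⟨fun u hu => LinearMap.ext fun f => LinearMap.ext fun w => ?_, ?_⟩
  · rw [dualR_apply]
    have h1 : (rχ χ H) u = 1 := hχ _ hu
    rw [h1, ht u⁻¹ (U.inv_mem hu), Units.val_one, one_mul]
    rfl
  · obtain ⟨T, hT⟩ := hT
    rw [finsum_eq_sum_of_fintype] at hT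
    refine ⟨T.dualMap, ?_⟩
    rw [finsum_eq_sum_of_fintype]
    refine LinearMap.ext fun f => LinearMap.ext fun w => ?_
    rw [LinearMap.sum_apply, LinearMap.sum_apply]
    have h1 := congrArg f (LinearMap.congr_fun hT w)
    rw [LinearMap.sum_apply, map_sum] at h1
    refine Eq.trans ?_ h1
    refine Finset.sum_congr rfl fun x _ => ?_
    simp only [LinearMap.comp_apply]
    rw [dualR_apply, LinearMap.dualMap_apply, dualR_apply, inv_inv, map_inv, ← mul_assoc,
      Units.mul_inv, one_mul]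

end Fermat.Agent.PT.EU
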