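import Fermat.Agent.PT.EU3

/-!
# The Euler inequality: groups with a normal Sylow subgroup
-/

set_option autoImplicit false
set_option linter.unusedSectionVars false
set_option linter.style.haveILetI false

namespace Fermat.Agent.PT.EU

open Fermat.Agent.Coh Module

/-- `p`-groups have fixed points -/
theorem exists_fixed {p : ℕ} [hp : Fact p.Prime] {G : Type*} [Group G] {W : Type*} [AddCommGroup W]
    [Module (ZMod p) W] [FiniteDimensional (ZMod p) W] (τ : Representation (ZMod p) G W)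
    (K : Subgroup G) (hK : ∀ g ∈ K, ∃ n : ℕ, ∀ w, τ (g ^ p ^ n) w = w) (hW : Nontrivial W) :
    ∃ w : W, w ≠ 0 ∧ ∀ g ∈ K, τ g w = w := by
  let θ : K →* (Module.End (ZMod p) W)ˣ := (τ.comp K.subtype).toHomUnits
  have hP : IsPGroup p θ.range := by
    rintro ⟨_, g, rfl⟩
    obtain ⟨n, hn⟩ := hK g g.2
    refine ⟨n, Subtype.ext (Units.ext (LinearMap.ext fun w => ?_))⟩
    have h1 : (θ g) ^ p ^ n = θ (g ^ p ^ n) := (map_pow θ g _).symm
    change ((θ g ^ p ^ n : (Module.End (ZMod p) W)ˣ) : Module.End (ZMod p) W) w = w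
    rw [h1]
    exact hn w
  haveI : Finite W := Module.finite_of_finite (ZMod p)
  have hcard : p ∣ Nat.card W := by
    rw [Module.natCard_eq_pow_finrank (K := ZMod p), Nat.card_zmod]
    exact dvd_pow_self p (Module.finrank_pos (R := ZMod p) (M := W)).ne'
  obtain ⟨b, hb, hb0⟩ := hP.exists_fixed_point_of_prime_dvd_card_of_fixed_point W hcard
    (a := 0) (fun g => smul_zero g)
  refine ⟨b, fun h => hb0 h.symm, fun g hg => ?_⟩
  exact hb ⟨θ ⟨g, hg⟩, ⟨g, hg⟩, rfl⟩

/-- the short exact sequence of a stable submodule -/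
def subSES {k : Type*} [Field k] {G : Type*} [Group G] {V : Type*} [AddCommGroup V] [Module k V]
    (ρ : Representation k G V) (S : Submodule k V) (hS : ∀ g, S ≤ S.comap (ρ g)) :
    SES (subRep ρ S hS) ρ (quotRep ρ S hS) where
  i := S.subtype
  π := S.mkQ
  i_comm _ _ := rfl
  π_comm _ _ := rfl
  inj := Subtype.val_injective
  surj := Submodule.mkQ_surjective _
  exact v hv := by
    rw [Submodule.mkQ_apply, Submodule.Quotient.mk_eq_zero] at hv
    exact ⟨⟨v, hv⟩, rfl⟩
  comp w := by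
    rw [Submodule.mkQ_apply, Submodule.Quotient.mk_eq_zero]
    exact w.2

section pnormal

variable {p : ℕ} [hp : Fact p.Prime] {Γ : Type} [Group Γ] {𝓤 : Fam Γ} {χ : Γ →* (ZMod p)ˣ}
  {H K U : Subgroup Γ} {c : Γ}

/-- **The Euler inequality, groups with a normal Sylow subgroup.** -/
theorem euler_of_pnormal (hp2 : (2 : ZMod p) ≠ 0) (hKH : K ≤ H)
    (hn : ∀ h ∈ H, ∀ u ∈ K, h * u * h⁻¹ ∈ K)
    (hc : χ c = -1) (hcc : c * c = 1) (hKo : 𝓤.IsOpen K) (hχ : ∀ u ∈ K, χ u = 1)
    (hidx : ((K.relIndex H : ℕ) : ZMod p) ≠ 0)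
    (hXP : ∀ (P : Type) [AddCommGroup P] [Module (ZMod p) P] [FiniteDimensional (ZMod p) P]
      (σ : Representation (ZMod p) H P), RelProj (K.subgroupOf H) σ → XP 𝓤 χ c hn σ)
    (hfin : ∀ (W : Type) [AddCommGroup W] [Module (ZMod p) W] [FiniteDimensional (ZMod p) W]
      (τ : Representation (ZMod p) H W), SmRep (𝓤.res H) τ →
        FiniteDimensional (ZMod p) (H1 (𝓤.res H) τ) ∧ FiniteDimensional (ZMod p) (H2 (𝓤.res H) τ))
    [FiniteDimensional (ZMod p) (H1 (𝓤.res K) (rep (chRep χ) K))]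
    [FiniteDimensional (ZMod p) (H2 (𝓤.res K) (rep (chRep χ) K))]
    (hKU : ∀ g ∈ K, ∃ n : ℕ, g ^ p ^ n ∈ U) :
    ∀ (n : ℕ) (W : Type) [AddCommGroup W] [Module (ZMod p) W] [FiniteDimensional (ZMod p) W]
      (τ : Representation (ZMod p) H W), SmRep (𝓤.res H) τ → finrank (ZMod p) W ≤ n →
      (∀ u : H, (u : Γ) ∈ U → ∀ w, τ u w = w) →
      (finrank (ZMod p) (arS c τ) : ℤ) ≤ e3 (𝓤.res H) τ := by
  haveI hKf : K.FiniteIndex := hKo.finiteIndex
  haveI hHf : H.FiniteIndex := Subgroup.finiteIndex_of_le hKH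
  haveI : Finite (H ⧸ K.subgroupOf H) := Subgroup.finite_quotient_of_finiteIndex
  -- the case of a trivial action of `K`
  have triv : ∀ (W : Type) [AddCommGroup W] [Module (ZMod p) W] [FiniteDimensional (ZMod p) W]
      (τ : Representation (ZMod p) H W), SmRep (𝓤.res H) τ →
      (∀ u : H, (u : Γ) ∈ K → ∀ w, τ u w = w) →
      (finrank (ZMod p) (arS c τ) : ℤ) ≤ e3 (𝓤.res H) τ := by
    intro W _ _ _ τ hτ ht
    haveI := (hfin W τ hτ).1
    have hT : ∃ T : W →ₗ[ZMod p] W, ∑ᶠ x : H ⧸ K.subgroupOf H,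
        τ x.out ∘ₗ T ∘ₗ τ x.out⁻¹ = LinearMap.id := by
      haveI : Fintype (H ⧸ K.subgroupOf H) := Fintype.ofFinite _
      refine ⟨((K.relIndex H : ℕ) : ZMod p)⁻¹ • LinearMap.id, ?_⟩
      rw [finsum_eq_sum_of_fintype]
      refine LinearMap.ext fun w => ?_
      rw [LinearMap.sum_apply]
      have h1 : ∀ x : H ⧸ K.subgroupOf H, (τ x.out ∘ₗ (((K.relIndex H : ℕ) : ZMod p)⁻¹ •
          LinearMap.id) ∘ₗ τ x.out⁻¹) w = ((K.relIndex H : ℕ) : ZMod p)⁻¹ • w := by
        intro x
        simp only [LinearMap.comp_apply, LinearMap.smul_apply, LinearMap.id_apply, map_smul]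
        rw [← Module.End.mul_apply, ← map_mul, mul_inv_cancel, map_one, Module.End.one_apply]
      rw [Finset.sum_congr rfl fun x _ => h1 x, Finset.sum_const, Finset.card_univ,
        ← Nat.cast_smul_eq_nsmul (ZMod p), smul_smul]
      have h2 : Fintype.card (H ⧸ K.subgroupOf H) = K.relIndex H := by
        rw [← Nat.card_eq_fintype_card]
        rfl
      rw [h2, mul_inv_cancel₀ hidx, one_smul]
      rfl
    exact euler_of_XP hKH hn hc hKo hχ ht hT
      (hXP _ _ (relProj_dR ht hχ hT))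
  intro n
  induction n with
  | zero =>
    intro W _ _ _ τ hτ hn0 ht
    refine triv W τ hτ fun u hu w => ?_
    haveI : Subsingleton W := Module.finrank_zero_iff.mp (Nat.le_zero.mp hn0)
    exact Subsingleton.elim _ _
  | succ n ih =>
    intro W _ _ _ τ hτ hnW ht
    by_cases hK : ∀ u : H, (u : Γ) ∈ K → ∀ w, τ u w = w
    · exact triv W τ hτ hK
    let S : Submodule (ZMod p) W :=
      { carrier := {w | ∀ u : H, (u : Γ) ∈ K → τ u w = w}
        zero_mem' := fun u _ => map_zero _
        add_mem' := fun {a b} ha hb u hu => by rw [map_add, ha u hu, hb u hu]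
        smul_mem' := fun t a ha u hu => by rw [map_smul, ha u hu] }
    have hmS : ∀ w, w ∈ S ↔ ∀ u : H, (u : Γ) ∈ K → τ u w = w := fun _ => Iff.rfl
    have hS : ∀ g, S ≤ S.comap (τ g) := by
      intro g w hw
      rw [Submodule.mem_comap, hmS]
      intro u hu
      have h1 := (hmS w).mp hw (g⁻¹ * u * g) (by
        have := hn _ (H.inv_mem g.2) _ hu
        rwa [inv_inv] at this)
      have h2 : τ u (τ g w) = τ g (τ (g⁻¹ * u * g) w) := by
        rw [← Module.End.mul_apply, ← Module.End.mul_apply, ← map_mul, ← map_mul]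
        congr 2
        group
      rw [h2, h1]
    have hSt : S ≠ ⊤ := by
      intro h
      apply hK
      intro u hu w
      have : w ∈ S := by rw [h]; trivial
      exact (hmS w).mp this u hu
    have hS0 : S ≠ ⊥ := by
      intro h
      haveI : Nontrivial W := by
        by_contra hcon
        rw [not_nontrivial_iff_subsingleton] at hcon
        exact hSt (Subsingleton.elim _ _)
      obtain ⟨w, hw0, hw⟩ := exists_fixed τ (K.subgroupOf H) (fun g hg => by
        obtain ⟨n, hn⟩ := hKU _ hg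
        exact ⟨n, fun w => ht _ hn w⟩) inferInstance
      have : w ∈ S := fun u hu => hw u hu
      rw [h] at this
      exact hw0 this
    have hlt : finrank (ZMod p) S < finrank (ZMod p) W := Submodule.finrank_lt hSt
    have hq : finrank (ZMod p) (W ⧸ S) + finrank (ZMod p) S = finrank (ZMod p) W :=
      Submodule.finrank_quotient_add_finrank S
    have hpos : 0 < finrank (ZMod p) S := by
      rw [Nat.pos_iff_ne_zero]
      intro h
      exact hS0 (Submodule.finrank_eq_zero.mp h)
    let E := subSES τ S hS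
    have hs1 := E.smRep_left hτ
    have hs2 := E.smRep_right hτ
    have i1 := ih S (subRep τ S hS) hs1 (by omega) (fun u hu w => Subtype.ext (ht u hu w))
    have i2 := ih (W ⧸ S) (quotRep τ S hS) hs2 (by omega) (fun u hu w => by
      obtain ⟨w, rfl⟩ := Submodule.mkQ_surjective _ w
      rw [quotRep_mk, ht u hu])
    haveI := (hfin _ _ hs1).1
    haveI := (hfin _ _ hs1).2
    haveI := (hfin _ _ hτ).1
    haveI := (hfin _ _ hτ).2
    haveI := (hfin _ _ hs2).1
    haveI := (hfin _ _ hs2).2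
    have i3 := e3_super E hτ
    have i4 := arS_ses (c := c) E hcc hp2
    omega

end pnormal

end Fermat.Agent.PT.EU
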