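import Fermat.Agent.PT.EU4

/-!
# Relative projectivity of the trace kernel
-/

set_option autoImplicit false
set_option linter.unusedSectionVars false
set_option linter.style.haveILetI false

namespace Fermat.Agent.PT.EU

open Fermat.Agent.Coh Module

variable {k : Type} [Field k] {Γ : Type} [Group Γ]

section weights

variable {U K H : Subgroup Γ} [U.Normal]

theorem base_smul (hKH : K ≤ H) (κ : K) : (κ : Γ) • ((1 : Γ) : Γ ⧸ H) = ((1 : Γ) : Γ ⧸ H) := by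
  change ((κ * 1 : Γ) : Γ ⧸ H) = _
  rw [mul_one, QuotientGroup.eq]
  simpa using H.inv_mem (hKH κ.2)

/-- weights on the coset space -/
theorem exists_weights (hKH : K ≤ H) [Fintype (K ⧸ U.subgroupOf K)]
    (hU : U ≤ K)
    (hTI : ∀ g, g ∉ H → ∀ κ ∈ K, g⁻¹ * κ * g ∈ H → κ ∈ U) :
    ∃ w : Γ ⧸ H → k, w ((1 : Γ) : Γ ⧸ H) = 0 ∧ ∀ x : Γ ⧸ H, x ≠ ((1 : Γ) : Γ ⧸ H) →
      ∑ z : K ⧸ U.subgroupOf K, w ((z.out : Γ)⁻¹ • x) = 1 := by
  classical
  -- representatives of the orbits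
  let s : Γ ⧸ H → Γ ⧸ H := fun x => (Quotient.mk (MulAction.orbitRel K (Γ ⧸ H)) x).out
  have hs1 : ∀ x, ∃ κ : K, (κ : Γ) • x = s x := by
    intro x
    have h1 : (MulAction.orbitRel K (Γ ⧸ H)).r (s x) x := Quotient.exact (Quotient.out_eq _)
    obtain ⟨κ, hκ⟩ := h1
    exact ⟨κ, hκ⟩
  have hs2 : ∀ x (κ : K), s ((κ : Γ) • x) = s x := by
    intro x κ
    have h1 : Quotient.mk (MulAction.orbitRel K (Γ ⧸ H)) ((κ : Γ) • x) =
        Quotient.mk (MulAction.orbitRel K (Γ ⧸ H)) x := Quotient.sound ⟨κ, rfl⟩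
    simp only [s]
    rw [h1]
  refine ⟨fun x => if x ≠ ((1 : Γ) : Γ ⧸ H) ∧ s x = x then 1 else 0, by simp, fun x hx => ?_⟩
  obtain ⟨κ₀, hκ₀⟩ := hs1 x
  obtain ⟨g, rfl⟩ := QuotientGroup.mk_surjective x
  have hgH : g ∉ H := by
    intro hg
    apply hx
    rw [QuotientGroup.eq]
    simpa using hg
  -- the unique term
  rw [Finset.sum_eq_single ((κ₀⁻¹ : K) : K ⧸ U.subgroupOf K)]
  · beta_reduce
    rw [if_pos]
    -- the representative acts as `κ₀⁻¹`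
    have h1 : ((((κ₀⁻¹ : K) : K ⧸ U.subgroupOf K).out : Γ))⁻¹ • (g : Γ ⧸ H) = s g := by
      have h2 : (((κ₀⁻¹ : K) : K ⧸ U.subgroupOf K).out)⁻¹ * κ₀⁻¹ ∈ U.subgroupOf K :=
        QuotientGroup.eq.mp (QuotientGroup.out_eq' _)
      have h3 : ((((κ₀⁻¹ : K) : K ⧸ U.subgroupOf K).out : Γ))⁻¹ * (κ₀ : Γ)⁻¹ ∈ U := h2
      have h4 : ((((κ₀⁻¹ : K) : K ⧸ U.subgroupOf K).out : Γ))⁻¹ • (g : Γ ⧸ H) =
          (((((κ₀⁻¹ : K) : K ⧸ U.subgroupOf K).out : Γ))⁻¹ * (κ₀ : Γ)⁻¹) • (κ₀ : Γ) • (g : Γ ⧸ H) := by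
        rw [smul_smul, inv_mul_cancel_right]
      rw [h4, hκ₀]
      exact fac_of_normal H ‹U.Normal› (hU.trans hKH) _ h3 _
    rw [h1]
    refine ⟨?_, ?_⟩
    · intro h5
      rw [← hκ₀] at h5
      apply hx
      have h6 := congrArg (fun y => (κ₀ : Γ)⁻¹ • y) h5
      simp only [inv_smul_smul] at h6
      rw [h6]
      exact base_smul hKH κ₀⁻¹
    · rw [← hκ₀, hs2, hκ₀]
  · intro z _ hz
    beta_reduce
    rw [if_neg]
    rintro ⟨-, h1⟩
    apply hz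
    have h2 : s ((z.out : Γ)⁻¹ • (g : Γ ⧸ H)) = s g := hs2 _ (z.out)⁻¹
    rw [h2, ← hκ₀] at h1
    -- `κ₀ z.out` stabilises `g`
    have h3 : ((z.out : Γ) * κ₀) • (g : Γ ⧸ H) = g := by
      rw [mul_smul, h1, smul_inv_smul]
    have h4 : g⁻¹ * ((z.out : Γ) * κ₀) * g ∈ H := by
      have h5 : (((z.out : Γ) * κ₀ * g : Γ) : Γ ⧸ H) = g := h3
      rw [QuotientGroup.eq] at h5
      have h6 := H.inv_mem h5
      have h7 : (((z.out : Γ) * κ₀ * g)⁻¹ * g)⁻¹ = g⁻¹ * ((z.out : Γ) * κ₀) * g := by group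
      rwa [h7] at h6
    have h8 := hTI g hgH _ (K.mul_mem z.out.2 κ₀.2) h4
    conv_lhs => rw [← QuotientGroup.out_eq' z]
    rw [QuotientGroup.eq]
    -- `z.out⁻¹ κ₀⁻¹ ∈ U`
    have h9 := U.inv_mem h8
    rw [mul_inv_rev] at h9
    have h10 := ‹U.Normal›.conj_mem _ h9 (κ₀ : Γ)
    have h11 : (κ₀ : Γ) * ((κ₀ : Γ)⁻¹ * (z.out : Γ)⁻¹) * (κ₀ : Γ)⁻¹ = (z.out : Γ)⁻¹ * (κ₀ : Γ)⁻¹ := by
      group
    rw [h11] at h10
    exact h10
  · intro h
    exact absurd (Finset.mem_univ _) h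

end weights

section tK

variable {V : Type} [AddCommGroup V] [Module k V] (ρ : Representation k Γ V)
  {U K H : Subgroup Γ} [U.Normal] [Fintype (Γ ⧸ H)]

variable (k V H) in
/-- the trace kernel -/
abbrev tK : Submodule k (Γ ⧸ H → V) := LinearMap.ker (sumLin (k := k) (V := V) H)

theorem tK_le (H : Subgroup Γ) [Fintype (Γ ⧸ H)] (g : Γ) : tK k V H ≤
    (tK k V H).comap (indRep H ρ g) := by
  intro φ hφ
  rw [LinearMap.mem_ker] at hφ
  rw [Submodule.mem_comap, LinearMap.mem_ker, sumLin_comm, hφ, map_zero]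

/-- the representation on the trace kernel -/
abbrev tR (H : Subgroup Γ) [Fintype (Γ ⧸ H)] : Representation k Γ (tK k V H) :=
  subRep (indRep H ρ) _ (tK_le ρ H)

/-- `0 → K → Ind V → V → 0` -/
def tSES (H : Subgroup Γ) [Fintype (Γ ⧸ H)] : SES (tR ρ H) (indRep H ρ) ρ where
  i := (tK k V H).subtype
  π := sumLin (k := k) H
  i_comm _ _ := rfl
  π_comm g v := sumLin_comm H ρ g v
  inj := Subtype.val_injective
  surj v := by
    classical
    refine ⟨Pi.single ((1 : Γ) : Γ ⧸ H) v, ?_⟩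
    rw [sumLin_apply, Finset.sum_pi_single']
    simp
  exact v hv := ⟨⟨v, hv⟩, rfl⟩
  comp v' := v'.2

open Classical in
/-- the operator attached to weights -/
noncomputable def wT (w : Γ ⧸ H → k) : (Γ ⧸ H → V) →ₗ[k] tK k V H where
  toFun f := ⟨fun x => w x • f x - (Pi.single ((1 : Γ) : Γ ⧸ H) (∑ y, w y • f y) : Γ ⧸ H → V) x, by
    rw [LinearMap.mem_ker, sumLin_apply, Finset.sum_sub_distrib, Finset.sum_pi_single']
    simp⟩
  map_add' f f' := by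
    apply Subtype.ext
    funext x
    simp only [Pi.add_apply, smul_add, Finset.sum_add_distrib, Pi.single_add, Submodule.coe_add]
    abel
  map_smul' t f := by
    apply Subtype.ext
    funext x
    have h1 : ∑ y, w y • (t • f) y = t • ∑ y, w y • f y := by
      rw [Finset.smul_sum]
      refine Finset.sum_congr rfl fun y _ => ?_
      rw [Pi.smul_apply, smul_comm]
    change w x • t • f x - (Pi.single ((1 : Γ) : Γ ⧸ H) (∑ y, w y • (t • f) y) : Γ ⧸ H → V) x =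
      t • (w x • f x - (Pi.single ((1 : Γ) : Γ ⧸ H) (∑ y, w y • f y) : Γ ⧸ H → V) x)
    rw [h1, smul_sub, smul_comm]
    congr 1
    by_cases hx : x = ((1 : Γ) : Γ ⧸ H)
    · rw [hx, Pi.single_eq_same, Pi.single_eq_same]
    · rw [Pi.single_eq_of_ne hx, Pi.single_eq_of_ne hx, smul_zero]

theorem wT_apply_ne {w : Γ ⧸ H → k} (f : Γ ⧸ H → V) {x : Γ ⧸ H} (hx : x ≠ ((1 : Γ) : Γ ⧸ H)) :
    (wT w f : Γ ⧸ H → V) x = w x • f x := by
  classical
  change w x • f x - _ = _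
  rw [Pi.single_eq_of_ne hx, sub_zero]

theorem tK_ext {f f' : tK k V H} (h : ∀ x, x ≠ ((1 : Γ) : Γ ⧸ H) →
    (f : Γ ⧸ H → V) x = (f' : Γ ⧸ H → V) x) : f = f' := by
  classical
  apply Subtype.ext
  funext x
  by_cases hx : x = ((1 : Γ) : Γ ⧸ H)
  · have h1 : ∑ y, (f : Γ ⧸ H → V) y = 0 := f.2
    have h2 : ∑ y, (f' : Γ ⧸ H → V) y = 0 := f'.2
    rw [← Finset.add_sum_erase _ _ (Finset.mem_univ x)] at h1 h2
    have h3 : ∑ y ∈ Finset.univ.erase x, (f : Γ ⧸ H → V) y =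
        ∑ y ∈ Finset.univ.erase x, (f' : Γ ⧸ H → V) y :=
      Finset.sum_congr rfl fun y hy => h y (by
        rw [← hx]
        exact Finset.ne_of_mem_erase hy)
    rw [h3, ← h2] at h1
    exact add_right_cancel h1
  · exact h x hx

/-- the sum over `K / U` -/
theorem sum_wT (hKH : K ≤ H) [Fintype (K ⧸ U.subgroupOf K)] {w : Γ ⧸ H → k}
    (hw : ∀ x : Γ ⧸ H, x ≠ ((1 : Γ) : Γ ⧸ H) →
      ∑ z : K ⧸ U.subgroupOf K, w ((z.out : Γ)⁻¹ • x) = 1) :
    ∑ z : K ⧸ U.subgroupOf K, tR ρ H (z.out : Γ) ∘ₗ (wT w ∘ₗ (tK k V H).subtype) ∘ₗ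
      tR ρ H (z.out : Γ)⁻¹ = LinearMap.id := by
  refine LinearMap.ext fun f => ?_
  apply tK_ext
  intro x hx
  rw [LinearMap.sum_apply, Submodule.coe_sum, Finset.sum_apply]
  have h1 : ∀ z : K ⧸ U.subgroupOf K, ((tR ρ H (z.out : Γ) ∘ₗ (wT w ∘ₗ (tK k V H).subtype) ∘ₗ
      tR ρ H (z.out : Γ)⁻¹) f : Γ ⧸ H → V) x = w ((z.out : Γ)⁻¹ • x) • (f : Γ ⧸ H → V) x := by
    intro z
    change ρ (z.out : Γ) ((wT w (indRep H ρ (z.out : Γ)⁻¹ (f : Γ ⧸ H → V)) : Γ ⧸ H → V)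
      ((z.out : Γ)⁻¹ • x)) = _
    rw [wT_apply_ne]
    · rw [indRep_apply, inv_inv, smul_inv_smul, map_smul, ← Module.End.mul_apply, ← map_mul,
        mul_inv_cancel, map_one, Module.End.one_apply]
    · intro h2
      apply hx
      have h3 := congrArg (fun y => (z.out : Γ) • y) h2
      simp only [smul_inv_smul] at h3
      rw [h3]
      exact base_smul hKH z.out
  rw [Finset.sum_congr rfl fun z _ => h1 z, ← Finset.sum_smul, hw x hx, one_smul]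
  rfl

end tK

section twostep

variable {W : Type} [AddCommGroup W] [Module k W] [FiniteDimensional k W]
  (τ : Representation k Γ W) {U K : Subgroup Γ} [U.Normal]

/-- from the Sylow subgroup to the whole group -/
theorem sum_twostep (ht : ∀ u ∈ U, ∀ w, τ u w = w) (hUK : U ≤ K) [Fintype (Γ ⧸ U)]
    [Fintype (Γ ⧸ K)] [Fintype (K ⧸ U.subgroupOf K)] (T : W →ₗ[k] W)
    (hT : ∑ z : K ⧸ U.subgroupOf K, τ (z.out : Γ) ∘ₗ T ∘ₗ τ (z.out : Γ)⁻¹ = LinearMap.id) :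
    ∑ x : Γ ⧸ U, τ x.out ∘ₗ T ∘ₗ τ x.out⁻¹ = (K.index : k) • LinearMap.id := by
  have h1 : ∑ x : Γ ⧸ U, τ x.out ∘ₗ T ∘ₗ τ x.out⁻¹ =
      ∑ q : (Γ ⧸ K) × (K ⧸ U.subgroupOf K), τ (q.1.out * q.2.out) ∘ₗ T ∘ₗ
        τ (q.1.out * q.2.out)⁻¹ := by
    refine Fintype.sum_equiv (Subgroup.quotientEquivProdOfLE hUK) _ _ fun x => ?_
    set q := Subgroup.quotientEquivProdOfLE hUK x with hq
    have hx : x = ((q.1.out * (q.2.out : K) : Γ) : Γ ⧸ U) := by
      have h2 : x = (Subgroup.quotientEquivProdOfLE hUK).symm q := by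
        rw [hq, Equiv.symm_apply_apply]
      rw [h2]
      conv_lhs => rw [show q = (q.1, ((q.2.out : K) : K ⧸ U.subgroupOf K)) from
        Prod.ext rfl (QuotientGroup.out_eq' q.2).symm]
      rfl
    conv_lhs => rw [hx]
    exact cT_out ht T _
  rw [h1, Fintype.sum_prod_type]
  have h3 : ∀ y : Γ ⧸ K, ∑ z : K ⧸ U.subgroupOf K, τ (y.out * z.out) ∘ₗ T ∘ₗ
      τ (y.out * z.out)⁻¹ = LinearMap.id := by
    intro y
    refine LinearMap.ext fun w => ?_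
    rw [LinearMap.sum_apply]
    have h4 := LinearMap.congr_fun hT (τ y.out⁻¹ w)
    rw [LinearMap.sum_apply] at h4
    have h5 := congrArg (τ y.out) h4
    rw [map_sum] at h5
    have h6 : τ y.out ((LinearMap.id : W →ₗ[k] W) (τ y.out⁻¹ w)) = w := by
      rw [LinearMap.id_apply, ← Module.End.mul_apply, ← map_mul, mul_inv_cancel, map_one,
        Module.End.one_apply]
    rw [h6] at h5
    refine Eq.trans ?_ h5
    refine Finset.sum_congr rfl fun z _ => ?_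
    simp only [LinearMap.comp_apply, mul_inv_rev, map_mul, Module.End.mul_apply]
  rw [Finset.sum_congr rfl fun y _ => h3 y, Finset.sum_const, Finset.card_univ,
    ← Nat.cast_smul_eq_nsmul k]
  congr 2
  rw [← Nat.card_eq_fintype_card]
  rfl

end twostep

end Fermat.Agent.PT.EU
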