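import Fermat.Agent.PT.EU5

/-!
# Trivial modules, finiteness, Shapiro
-/

set_option autoImplicit false
set_option linter.unusedSectionVars false
set_option linter.style.haveILetI false

namespace Fermat.Agent.PT.EU

open Fermat.Agent.Coh Module

variable {k : Type} [Field k]

theorem prod_aux {A B : Type*} [AddCommGroup A] [Module k A] [AddCommGroup B] [Module k B] {n : ℕ}
    (m : Fin n → (A →ₗ[k] B)) (q : Fin n → (B →ₗ[k] A)) (h1 : ∀ a, ∑ i, q i (m i a) = a)
    (h2 : ∀ i j y, m j (q i y) = if i = j then y else 0) :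
    (FiniteDimensional k B → FiniteDimensional k A) ∧ finrank k A = n * finrank k B := by
  let e : A ≃ₗ[k] (Fin n → B) :=
    { toFun := fun a i => m i a
      map_add' := fun a a' => funext fun i => map_add _ _ _
      map_smul' := fun t a => funext fun i => map_smul _ _ _
      invFun := fun y => ∑ i, q i (y i)
      left_inv := h1
      right_inv := fun y => by
        funext j
        change m j (∑ i, q i (y i)) = y j
        rw [map_sum]
        simp only [h2]
        rw [Finset.sum_ite_eq' Finset.univ j (fun i => y i), if_pos (Finset.mem_univ j)] }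
  refine ⟨fun _ => Module.Finite.equiv e.symm, ?_⟩
  by_cases hB : FiniteDimensional k B
  · rw [e.finrank_eq, finrank_pi_fintype, Finset.sum_const, Finset.card_univ, Fintype.card_fin,
      smul_eq_mul]
  · rcases Nat.eq_zero_or_pos n with h | h
    · subst h
      rw [zero_mul, e.finrank_eq]
      exact Module.finrank_zero_of_subsingleton
    · have hA : ¬ FiniteDimensional k A := by
        intro hA
        apply hB
        have hs : Function.Surjective (m ⟨0, h⟩) := fun y => ⟨q ⟨0, h⟩ y, by rw [h2, if_pos rfl]⟩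
        exact Module.Finite.of_surjective _ hs
      rw [Module.finrank_of_not_finite hA, Module.finrank_of_not_finite hB, mul_zero]

section triv

variable {G : Type} [Group G] (𝓥 : Fam G) {V : Type} [AddCommGroup V] [Module k V]
  [FiniteDimensional k V] {τ : Representation k G V} (ht : ∀ g v, τ g v = v)
  {τ₀ : Representation k G k} (ht₀ : ∀ g v, τ₀ g v = v)

/-- a coordinate -/
def mc (f : V →ₗ[k] k) : Mor 𝓥 𝓥 τ τ₀ := Mor.coeff f fun g v => by rw [ht, ht₀]

/-- a coordinate axis -/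
def nc (v : V) : Mor 𝓥 𝓥 τ₀ τ := Mor.coeff (LinearMap.toSpanSingleton k V v) fun g w => by
  rw [ht, ht₀]

theorem aux1 (b : Basis (Fin (finrank k V)) k V) (v : V) :
    ∑ i, LinearMap.toSpanSingleton k V (b i) (b.coord i v) = v := by
  conv_rhs => rw [← b.sum_repr v]
  refine Finset.sum_congr rfl fun i _ => ?_
  rw [LinearMap.toSpanSingleton_apply, Basis.coord_apply]

theorem aux2 (b : Basis (Fin (finrank k V)) k V) (i j : Fin (finrank k V)) (a : k) :
    b.coord j (LinearMap.toSpanSingleton k V (b i) a) = if i = j then a else 0 := by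
  rw [LinearMap.toSpanSingleton_apply, map_smul, Basis.coord_apply, Basis.repr_self,
    Finsupp.single_apply]
  split_ifs <;> simp

theorem aux3 {X : Type*} (S : Submodule k (X → V)) {n : ℕ} (f : Fin n → S) (x : X) :
    ((∑ i, f i : S) : X → V) x = ∑ i, (f i : X → V) x := by
  rw [Submodule.coe_sum, Finset.sum_apply]

include 𝓥 ht ht₀ in
theorem triv_H0 : finrank k ↥(H0 τ) = finrank k V * finrank k ↥(H0 τ₀) := by
  obtain ⟨b, -⟩ : ∃ b : Basis (Fin (finrank k V)) k V, True := ⟨Module.finBasis k V, trivial⟩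
  refine (prod_aux (fun i => (mc 𝓥 ht ht₀ (b.coord i)).mapH0) (fun i => (nc 𝓥 ht ht₀ (b i)).mapH0)
    (fun a => ?_) (fun i j y => ?_)).2
  · apply Subtype.ext
    rw [Submodule.coe_sum]
    exact aux1 b _
  · apply Subtype.ext
    refine (aux2 b i j _).trans ?_
    split_ifs <;> rfl

include ht ht₀ in
theorem triv_H1 : (FiniteDimensional k (H1 𝓥 τ₀) → FiniteDimensional k (H1 𝓥 τ)) ∧
    finrank k (H1 𝓥 τ) = finrank k V * finrank k (H1 𝓥 τ₀) := by
  obtain ⟨b, -⟩ : ∃ b : Basis (Fin (finrank k V)) k V, True := ⟨Module.finBasis k V, trivial⟩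
  refine prod_aux (fun i => (mc 𝓥 ht ht₀ (b.coord i)).mapH1) (fun i => (nc 𝓥 ht ht₀ (b i)).mapH1)
    (fun a => ?_) (fun i j y => ?_)
  · obtain ⟨z, rfl⟩ := H1.mk_surjective a
    let w : Fin (finrank k V) → ↥(Z1 𝓥 τ) := fun i =>
      (nc 𝓥 ht ht₀ (b i)).mapZ1 ((mc 𝓥 ht ht₀ (b.coord i)).mapZ1 z)
    have hw : ∀ i g, (w i : G → V) g =
        LinearMap.toSpanSingleton k V (b i) (b.coord i ((z : G → V) g)) := fun i g => rfl
    have h1 : ∑ i, w i = z := by
      apply Subtype.ext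
      funext g
      rw [aux3 (Z1 𝓥 τ) w g, Finset.sum_congr rfl fun i _ => hw i g, aux1 b]
    have h2 : ∑ i, H1.mk 𝓥 τ (w i) = H1.mk 𝓥 τ z := by rw [← map_sum, h1]
    exact h2
  · obtain ⟨z, rfl⟩ := H1.mk_surjective y
    simp only [Mor.mapH1_mk]
    by_cases hij : i = j
    · rw [if_pos hij]
      refine congrArg (H1.mk 𝓥 τ₀) (Subtype.ext (funext fun g => ?_))
      exact (aux2 b i j _).trans (if_pos hij)
    · rw [if_neg hij]
      refine Eq.trans (congrArg (H1.mk 𝓥 τ₀) (Subtype.ext (funext fun g => ?_)))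
        (map_zero (H1.mk 𝓥 τ₀))
      exact (aux2 b i j _).trans (if_neg hij)

include ht ht₀ in
theorem triv_H2 : (FiniteDimensional k (H2 𝓥 τ₀) → FiniteDimensional k (H2 𝓥 τ)) ∧
    finrank k (H2 𝓥 τ) = finrank k V * finrank k (H2 𝓥 τ₀) := by
  obtain ⟨b, -⟩ : ∃ b : Basis (Fin (finrank k V)) k V, True := ⟨Module.finBasis k V, trivial⟩
  refine prod_aux (fun i => (mc 𝓥 ht ht₀ (b.coord i)).mapH2) (fun i => (nc 𝓥 ht ht₀ (b i)).mapH2)
    (fun a => ?_) (fun i j y => ?_)
  · obtain ⟨z, rfl⟩ := H2.mk_surjective a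
    let w : Fin (finrank k V) → ↥(Z2 𝓥 τ) := fun i =>
      (nc 𝓥 ht ht₀ (b i)).mapZ2 ((mc 𝓥 ht ht₀ (b.coord i)).mapZ2 z)
    have hw : ∀ i g, (w i : G × G → V) g =
        LinearMap.toSpanSingleton k V (b i) (b.coord i ((z : G × G → V) g)) := fun i g => rfl
    have h1 : ∑ i, w i = z := by
      apply Subtype.ext
      funext g
      rw [aux3 (Z2 𝓥 τ) w g, Finset.sum_congr rfl fun i _ => hw i g, aux1 b]
    have h2 : ∑ i, H2.mk 𝓥 τ (w i) = H2.mk 𝓥 τ z := by rw [← map_sum, h1]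
    exact h2
  · obtain ⟨z, rfl⟩ := H2.mk_surjective y
    simp only [Mor.mapH2_mk]
    by_cases hij : i = j
    · rw [if_pos hij]
      refine congrArg (H2.mk 𝓥 τ₀) (Subtype.ext (funext fun g => ?_))
      exact (aux2 b i j _).trans (if_pos hij)
    · rw [if_neg hij]
      refine Eq.trans (congrArg (H2.mk 𝓥 τ₀) (Subtype.ext (funext fun g => ?_)))
        (map_zero (H2.mk 𝓥 τ₀))
      exact (aux2 b i j _).trans (if_neg hij)

include ht ht₀ in
theorem triv_e3 : e3 𝓥 τ = finrank k V * e3 𝓥 τ₀ := by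
  unfold e3
  rw [triv_H0 𝓥 ht ht₀, (triv_H1 𝓥 ht ht₀).2, (triv_H2 𝓥 ht ht₀).2]
  push_cast
  ring

end triv

section fin

variable {G : Type} [Group G] {𝓥 : Fam G}

/-- finiteness at small levels implies finiteness -/
theorem fin_of_small
    (hb : ∀ U ∈ 𝓥, ∃ W ∈ 𝓥, W ≤ U ∧ ∃ τ₀ : Representation k W k, (∀ g v, τ₀ g v = v) ∧
      FiniteDimensional k (H1 (𝓥.res W) τ₀) ∧ FiniteDimensional k (H2 (𝓥.res W) τ₀))
    (V : Type) [AddCommGroup V] [Module k V] [FiniteDimensional k V] (τ : Representation k G V)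
    (hτ : SmRep 𝓥 τ) : FiniteDimensional k (H1 𝓥 τ) ∧ FiniteDimensional k (H2 𝓥 τ) := by
  have key : ∀ (V : Type) [AddCommGroup V] [Module k V] [FiniteDimensional k V]
      (τ : Representation k G V) (hτ : SmRep 𝓥 τ), ∃ W ∈ 𝓥, ∃ _ : W.FiniteIndex,
      FiniteDimensional k (H1 𝓥 (indRep W τ)) ∧ FiniteDimensional k (H2 𝓥 (indRep W τ)) := by
    intro V _ _ _ τ hτ
    obtain ⟨U, hU, h1⟩ := hτ.finite (Set.finite_range (Module.finBasis k V))
    obtain ⟨W, hW, hWU, τ₀, ht₀, f1, f2⟩ := hb U hU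
    have ht : ∀ (g : W) v, (rep τ W) g v = v := by
      intro g v
      have : τ g = LinearMap.id := (Module.finBasis k V).ext fun i => h1 _ (hWU g.2) _ ⟨i, rfl⟩
      change τ g v = v
      rw [this]
      rfl
    have hWo := Fam.isOpen_of_mem hW
    refine ⟨W, hW, hWo.finiteIndex, ?_, ?_⟩
    · haveI := (triv_H1 (𝓥.res W) ht ht₀).1 f1
      exact Module.Finite.equiv (shEquiv1 hWo τ).symm
    · haveI := (triv_H2 (𝓥.res W) ht ht₀).1 f2
      exact Module.Finite.equiv (shEquiv2 hWo τ).symm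
  have H1f : ∀ (V : Type) [AddCommGroup V] [Module k V] [FiniteDimensional k V]
      (τ : Representation k G V) (hτ : SmRep 𝓥 τ), FiniteDimensional k (H1 𝓥 τ) := by
    intro V _ _ _ τ hτ
    obtain ⟨W, hW, fW, f1, f2⟩ := key V τ hτ
    haveI := Fintype.ofFinite (G ⧸ W)
    have hs := smRep_indRep (Fam.isOpen_of_mem hW) hτ
    haveI := f1
    haveI : FiniteDimensional k (LinearMap.ker ((indSES W τ).iMor 𝓥).mapH1) := by
      have h2 : LinearMap.ker ((indSES W τ).iMor 𝓥).mapH1 ≤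
          LinearMap.range ((indSES W τ).delta0 hs) := by
        intro x hx
        exact ((indSES W τ).exact_delta0_H1 hs x).mp hx
      exact Submodule.finiteDimensional_of_le h2
    haveI : Module.Finite k (H1 𝓥 τ ⧸ LinearMap.ker ((indSES W τ).iMor 𝓥).mapH1) :=
      Module.Finite.equiv (LinearMap.quotKerEquivRange _).symm
    exact Module.Finite.of_submodule_quotient (LinearMap.ker ((indSES W τ).iMor 𝓥).mapH1)
  refine ⟨H1f V τ hτ, ?_⟩
  obtain ⟨W, hW, fW, f1, f2⟩ := key V τ hτ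
  haveI := Fintype.ofFinite (G ⧸ W)
  have hs := smRep_indRep (Fam.isOpen_of_mem hW) hτ
  haveI := f2
  haveI := H1f _ (indQuot W τ) ((indSES W τ).smRep_right hs)
  haveI : FiniteDimensional k (LinearMap.ker ((indSES W τ).iMor 𝓥).mapH2) := by
    have h2 : LinearMap.ker ((indSES W τ).iMor 𝓥).mapH2 ≤
        LinearMap.range ((indSES W τ).delta1 hs) := by
      intro x hx
      exact ((indSES W τ).exact_delta1_H2 hs x).mp hx
    exact Submodule.finiteDimensional_of_le h2
  haveI : Module.Finite k (H2 𝓥 τ ⧸ LinearMap.ker ((indSES W τ).iMor 𝓥).mapH2) :=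
    Module.Finite.equiv (LinearMap.quotKerEquivRange _).symm
  exact Module.Finite.of_submodule_quotient (LinearMap.ker ((indSES W τ).iMor 𝓥).mapH2)

end fin

section f1

variable {Γ : Type} [Group Γ] {𝓤 : Fam Γ} {V V' V'' : Type} [AddCommGroup V] [Module k V]
  [AddCommGroup V'] [Module k V'] [AddCommGroup V''] [Module k V'']

/-- the full Euler characteristic defect -/
noncomputable def f1 (c : Γ) (𝓤 : Fam Γ) (ρ : Representation k Γ V) : ℤ :=
  e3 𝓤 ρ - finrank k (mns c ρ)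

theorem f1_ind {c : Γ} (hc : c * c = 1) {H : Subgroup Γ} (hH : 𝓤.IsOpen H)
    (ρ : Representation k Γ V) :
    f1 c 𝓤 (indRep H ρ) = e3 (𝓤.res H) (ρ.comp H.subtype) -
      finrank k (arS c (ρ.comp H.subtype)) := by
  unfold f1 e3
  rw [mns_ind hc, (shEquiv0 𝓤 H ρ).finrank_eq, (shEquiv1 hH ρ).finrank_eq,
    (shEquiv2 hH ρ).finrank_eq]

theorem f1_congr {c : Γ} {ρ : Representation k Γ V} {ρ' : Representation k Γ V'} (e : V ≃ₗ[k] V')
    (he : ∀ g v, e (ρ g v) = ρ' g (e v)) : f1 c 𝓤 ρ = f1 c 𝓤 ρ' := by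
  unfold f1
  rw [e3_congr e he, mns_congr e he]

/-- finiteness for all modules -/
def FinAll (k : Type) [Field k] (𝓤 : Fam Γ) : Prop :=
  ∀ (V : Type) [AddCommGroup V] [Module k V] [FiniteDimensional k V] (τ : Representation k Γ V),
    SmRep 𝓤 τ → FiniteDimensional k (H1 𝓤 τ) ∧ FiniteDimensional k (H2 𝓤 τ)

theorem f1_add {c : Γ} (hF : FinAll k 𝓤) (hc : c * c = 1) (h2 : (2 : k) ≠ 0)
    {ρ' : Representation k Γ V'} {ρ : Representation k Γ V} {ρ'' : Representation k Γ V''}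
    (E : SES ρ' ρ ρ'') (hρ : SmRep 𝓤 ρ)
    [FiniteDimensional k V'] [FiniteDimensional k V] [FiniteDimensional k V'']
    (s : V'' →ₗ[k] V) (hs : ∀ v, E.π (s v) = v) (hs' : ∀ g v, s (ρ'' g v) = ρ g (s v)) :
    f1 c 𝓤 ρ = f1 c 𝓤 ρ' + f1 c 𝓤 ρ'' := by
  haveI := (hF _ ρ' (E.smRep_left hρ)).1
  haveI := (hF _ ρ' (E.smRep_left hρ)).2
  haveI := (hF _ ρ hρ).1
  haveI := (hF _ ρ hρ).2
  haveI := (hF _ ρ'' (E.smRep_right hρ)).1
  unfold f1
  rw [e3_add E hρ s hs hs', mns_ses (c := c) E hc h2]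
  ring

/-- functions on a point -/
def ptEquiv : V ≃ₗ[k] (Γ ⧸ (⊤ : Subgroup Γ) → V) :=
  { constLin (k := k) (V := V) (⊤ : Subgroup Γ) with
    invFun := fun f => f ((1 : Γ) : Γ ⧸ (⊤ : Subgroup Γ))
    left_inv := fun v => rfl
    right_inv := fun f => by
      funext x
      obtain ⟨g, rfl⟩ := QuotientGroup.mk_surjective x
      have : (g : Γ ⧸ (⊤ : Subgroup Γ)) = ((1 : Γ) : Γ ⧸ (⊤ : Subgroup Γ)) := by
        rw [QuotientGroup.eq]
        trivial
      rw [this]
      rfl }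

theorem f1_top {c : Γ} (hc : c * c = 1) (ρ : Representation k Γ V) :
    f1 c 𝓤 ρ = e3 (𝓤.res ⊤) (ρ.comp (⊤ : Subgroup Γ).subtype) -
      finrank k (arS c (ρ.comp (⊤ : Subgroup Γ).subtype)) := by
  rw [← f1_ind hc (Fam.isOpen_top 𝓤)]
  exact f1_congr ptEquiv (constLin_comm (⊤ : Subgroup Γ) ρ)

end f1

end Fermat.Agent.PT.EU
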