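import Fermat.Agent.PT.EU6
import Fermat.Agent.PT.InvCor

/-!
# The Euler inequality for all modules
-/

set_option autoImplicit false
set_option linter.unusedSectionVars false
set_option linter.style.haveILetI false

namespace Fermat.Agent.PT.EU

open Fermat.Agent.Coh Module

variable {k : Type} [Field k] {Γ : Type} [Group Γ] {𝓤 : Fam Γ} {χ : Γ →* kˣ} {c : Γ}
variable {R : Type} [AddCommGroup R] [Module k R] [FiniteDimensional k R]
  {ρ : Representation k Γ R}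

section L4

variable {U : Subgroup Γ} [U.Normal] [Fintype (Γ ⧸ U)]

theorem two_mns (h2 : (2 : k) ≠ 0) (hc : χ c = -1) (hcc : c * c = 1) (hχ : ∀ u ∈ U, χ u = 1) :
    2 * finrank k (mns c (indRep U ρ)) = finrank k R * U.index := by
  let χ' : Γ ⧸ U → kˣ := fun x => χ x.out
  have hχ' : ∀ g : Γ, χ' (g : Γ ⧸ U) = χ g := by
    intro g
    have h1 : ((g : Γ ⧸ U).out)⁻¹ * g ∈ U := QuotientGroup.eq.mp (QuotientGroup.out_eq' _)
    have h2 := hχ _ h1
    rw [map_mul, map_inv, inv_mul_eq_one] at h2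
    exact h2
  have hcx : ∀ x : Γ ⧸ U, χ' (c⁻¹ • x) = - χ' x := by
    intro x
    obtain ⟨g, rfl⟩ := QuotientGroup.mk_surjective x
    have h1 : c⁻¹ • (g : Γ ⧸ U) = ((c * g : Γ) : Γ ⧸ U) := by
      rw [inv_eq_of_mul_eq_one_left hcc]
      rfl
    rw [h1, hχ', hχ', map_mul, hc, neg_one_mul]
  let A : (Γ ⧸ U → R) →ₗ[k] (Γ ⧸ U → R) := indRep U ρ c + LinearMap.id
  have hA : ∀ F, A F = indRep U ρ c F + F := fun F => rfl
  have hAc : ∀ F, indRep U ρ c (indRep U ρ c F) = F := by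
    intro F
    rw [← Module.End.mul_apply, ← map_mul, hcc, map_one, Module.End.one_apply]
  have hker : LinearMap.ker A = mns c (indRep U ρ) := by
    ext F
    rw [LinearMap.mem_ker, hA, mem_mns, add_eq_zero_iff_eq_neg]
  have hra : ∀ F, F ∈ LinearMap.range A ↔ indRep U ρ c F = F := by
    intro F
    constructor
    · rintro ⟨F, rfl⟩
      rw [hA, map_add, hAc, add_comm]
    · intro h
      refine ⟨(2 : k)⁻¹ • F, ?_⟩
      rw [hA, map_smul, h, ← smul_add, ← two_smul k, smul_smul, inv_mul_cancel₀ h2, one_smul]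
  let mulχ : (Γ ⧸ U → R) →ₗ[k] (Γ ⧸ U → R) :=
    { toFun := fun F x => (χ' x : k) • F x
      map_add' := fun F F' => funext fun x => smul_add _ _ _
      map_smul' := fun t F => funext fun x => smul_comm _ _ _ }
  have hmi : Function.Injective mulχ := by
    intro F F' h
    funext x
    have h1 : (χ' x : k) • F x = (χ' x : k) • F' x := congrFun h x
    exact (smul_right_injective R (Units.ne_zero (χ' x))) h1
  have hmc : ∀ F, indRep U ρ c (mulχ F) = - mulχ (indRep U ρ c F) := by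
    intro F
    funext x
    rw [indRep_apply]
    change ρ c ((χ' (c⁻¹ • x) : k) • F (c⁻¹ • x)) = -((χ' x : k) • ρ c (F (c⁻¹ • x)))
    rw [hcx, map_smul, Units.val_neg, neg_smul]
  have h3 : finrank k (mns c (indRep U ρ)) ≤ finrank k (LinearMap.range A) := by
    have h4 : ∀ F ∈ mns c (indRep U ρ), mulχ F ∈ LinearMap.range A := by
      intro F hF
      rw [hra, hmc, mem_mns.mp hF, map_neg, neg_neg]
    exact LinearMap.finrank_le_finrank_of_injective (f := mulχ.restrict h4) (fun a b h =>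
      Subtype.ext (hmi (congrArg Subtype.val h)))
  have h5 : finrank k (LinearMap.range A) ≤ finrank k (mns c (indRep U ρ)) := by
    have h4 : ∀ F ∈ LinearMap.range A, mulχ F ∈ mns c (indRep U ρ) := by
      intro F hF
      rw [mem_mns, hmc, (hra F).mp hF]
    exact LinearMap.finrank_le_finrank_of_injective (f := mulχ.restrict h4) (fun a b h =>
      Subtype.ext (hmi (congrArg Subtype.val h)))
  have h6 := LinearMap.finrank_range_add_finrank_ker A
  rw [hker, finrank_pi_fintype, Finset.sum_const, Finset.card_univ, smul_eq_mul,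
    ← Nat.card_eq_fintype_card] at h6
  have h7 : Nat.card (Γ ⧸ U) = U.index := rfl
  rw [h7, mul_comm] at h6
  omega

theorem f1_indU_le (h2 : (2 : k) ≠ 0) (hc : χ c = -1) (hcc : c * c = 1) (hχ : ∀ u ∈ U, χ u = 1)
    (hU : 𝓤.IsOpen U) (ht : ∀ u ∈ U, ∀ v, ρ u v = v)
    (hTot : 2 * e3 (𝓤.res U) (rep (chRep χ) U) ≤ U.index) :
    f1 c 𝓤 (indRep U ρ) ≤ 0 := by
  have h1 := two_mns (ρ := ρ) h2 hc hcc hχ
  have h3 : f1 c 𝓤 (indRep U ρ) = e3 (𝓤.res U) (rep ρ U) - finrank k (mns c (indRep U ρ)) := by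
    rw [f1_ind hcc hU, mns_ind hcc]
  rw [h3, triv_e3 (𝓤.res U) (τ := rep ρ U) (τ₀ := rep (chRep χ) U) (fun g v => ht g g.2 v)
    (fun g v => mu_triv hχ g v)]
  have h4 : (2 : ℤ) * finrank k (mns c (indRep U ρ)) = finrank k R * U.index := by
    exact_mod_cast h1
  have h5 : (0 : ℤ) ≤ finrank k R := Int.natCast_nonneg _
  nlinarith

end L4

section L3

variable {U : Subgroup Γ} [U.Normal] [Fintype (Γ ⧸ U)]

/-- relative projectivity of a representation of the whole group -/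
def RP (U : Subgroup Γ) [Fintype (Γ ⧸ U)] {R : Type} [AddCommGroup R] [Module k R]
    (ρ : Representation k Γ R) : Prop :=
  ∃ T : R →ₗ[k] R, ∑ x : Γ ⧸ U, ρ x.out ∘ₗ T ∘ₗ ρ x.out⁻¹ = LinearMap.id

theorem f1_nonneg_of_RP (hnt : ∀ h ∈ (⊤ : Subgroup Γ), ∀ u ∈ U, h * u * h⁻¹ ∈ U)
    (hc : χ c = -1) (hcc : c * c = 1) (hχ : ∀ u ∈ U, χ u = 1)
    (hU : 𝓤.IsOpen U) (ht : ∀ u ∈ U, ∀ v, ρ u v = v)
    [FiniteDimensional k (H1 𝓤 ρ)]
    [FiniteDimensional k (H1 (𝓤.res U) (rep (chRep χ) U))]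
    [FiniteDimensional k (H2 (𝓤.res U) (rep (chRep χ) U))]
    (hXP : ∀ (P : Type) [AddCommGroup P] [Module k P] [FiniteDimensional k P]
      (σ : Representation k (⊤ : Subgroup Γ) P), RelProj (U.subgroupOf ⊤) σ → XP 𝓤 χ c hnt σ)
    (hT : RP U ρ) : 0 ≤ f1 c 𝓤 ρ := by
  haveI := hU.finiteIndex
  haveI : Finite ((⊤ : Subgroup Γ) ⧸ U.subgroupOf ⊤) :=
    Finite.of_injective _ (io_bijective U).1
  haveI : Fintype ((⊤ : Subgroup Γ) ⧸ U.subgroupOf ⊤) := Fintype.ofFinite _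
  obtain ⟨T, hT⟩ := hT
  have hT' : ∃ T : R →ₗ[k] R, ∑ᶠ x : (⊤ : Subgroup Γ) ⧸ U.subgroupOf ⊤,
      (ρ.comp (⊤ : Subgroup Γ).subtype) x.out ∘ₗ T ∘ₗ
        (ρ.comp (⊤ : Subgroup Γ).subtype) x.out⁻¹ = LinearMap.id := by
    refine ⟨T, ?_⟩
    rw [finsum_eq_sum_of_fintype, ← hT]
    refine Fintype.sum_bijective (io U) (io_bijective U) _ _ fun x => ?_
    have h1 : io U x = (((x.out : (⊤ : Subgroup Γ)) : Γ) : Γ ⧸ U) := by
      conv_lhs => rw [← QuotientGroup.out_eq' x]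
      rfl
    rw [h1, cT_out ht T]
    rfl
  have ht' : ∀ u : (⊤ : Subgroup Γ), (u : Γ) ∈ U → ∀ w,
      (ρ.comp (⊤ : Subgroup Γ).subtype) u w = w := fun u hu w => ht _ hu w
  haveI : FiniteDimensional k (H1 (𝓤.res ⊤) (ρ.comp (⊤ : Subgroup Γ).subtype)) := by
    haveI : FiniteDimensional k (H1 𝓤 (indRep (⊤ : Subgroup Γ) ρ)) :=
      Module.Finite.equiv (LinearEquiv.ofBijective _ (mapH1_bij (𝓤 := 𝓤)
        (ptEquiv (k := k) (Γ := Γ) (V := R)) (constLin_comm (⊤ : Subgroup Γ) ρ)))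
    exact Module.Finite.equiv (shEquiv1 (Fam.isOpen_top 𝓤) ρ)
  have h2 := euler_of_XP (le_top : U ≤ ⊤) hnt hc hU hχ ht' hT' (hXP _ _ (relProj_dR ht' hχ hT'))
  rw [f1_top hcc]
  linarith

end L3

section complement

variable {U : Subgroup Γ} [U.Normal] [Fintype (Γ ⧸ U)]

theorem f1_nonpos_of_RP (h2 : (2 : k) ≠ 0)
    (hnt : ∀ h ∈ (⊤ : Subgroup Γ), ∀ u ∈ U, h * u * h⁻¹ ∈ U)
    (hc : χ c = -1) (hcc : c * c = 1) (hχ : ∀ u ∈ U, χ u = 1)
    (hU : 𝓤.IsOpen U) (ht : ∀ u ∈ U, ∀ v, ρ u v = v) (hρ : SmRep 𝓤 ρ)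
    (hF : FinAll k 𝓤)
    [FiniteDimensional k (H1 (𝓤.res U) (rep (chRep χ) U))]
    [FiniteDimensional k (H2 (𝓤.res U) (rep (chRep χ) U))]
    (hXP : ∀ (P : Type) [AddCommGroup P] [Module k P] [FiniteDimensional k P]
      (σ : Representation k (⊤ : Subgroup Γ) P), RelProj (U.subgroupOf ⊤) σ → XP 𝓤 χ c hnt σ)
    (hTot : 2 * e3 (𝓤.res U) (rep (chRep χ) U) ≤ U.index)
    (hT : RP U ρ) : f1 c 𝓤 ρ ≤ 0 := by
  classical
  obtain ⟨T, hT⟩ := hT
  let E := indSES U ρ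
  have hsI := smRep_indRep hU hρ
  -- the section
  let C : (Γ ⧸ U → R) →ₗ[k] (Γ ⧸ U → R) :=
    LinearMap.id - (constLin (k := k) U) ∘ₗ (rr (τ := ρ) (U := U) T)
  have hC : ∀ F, C F = F - constLin (k := k) U (rr (τ := ρ) (U := U) T F) := fun F => rfl
  let s : ((Γ ⧸ U → R) ⧸ LinearMap.range (constLin (k := k) (V := R) U)) →ₗ[k] (Γ ⧸ U → R) :=
    Submodule.liftQ _ C (by
      rintro _ ⟨w, rfl⟩
      rw [LinearMap.mem_ker, hC, rr_const T hT, sub_self])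
  have hs : ∀ v, E.π (s v) = v := by
    intro v
    obtain ⟨F, rfl⟩ := Submodule.mkQ_surjective _ v
    change Submodule.mkQ _ (C F) = _
    rw [hC, map_sub, sub_eq_self]
    exact E.comp _
  have hs' : ∀ g v, s (indQuot U ρ g v) = indRep U ρ g (s v) := by
    intro g v
    obtain ⟨F, rfl⟩ := Submodule.mkQ_surjective _ v
    change C (indRep U ρ g F) = indRep U ρ g (C F)
    rw [hC, hC, map_sub, rr_comm ht T, constLin_comm]
  have hadd := f1_add (c := c) hF hcc h2 E hsI s hs hs'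
  have hle := f1_indU_le (ρ := ρ) h2 hc hcc hχ hU ht hTot
  -- the quotient is relatively projective
  have hsm : ∀ u ∈ U, ∀ x : Γ ⧸ U, u • x = x := fun u hu x => smul_of_mem U hu x
  have htQ : ∀ u ∈ U, ∀ v, indQuot U ρ u v = v := by
    intro u hu v
    obtain ⟨F, rfl⟩ := Submodule.mkQ_surjective _ v
    change Submodule.mkQ _ (indRep U ρ u F) = _
    congr 1
    funext x
    rw [indRep_apply, ht u hu, hsm _ (U.inv_mem hu)]
  have hQ : 0 ≤ f1 c 𝓤 (indQuot U ρ) := by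
    haveI := (hF _ _ (E.smRep_right hsI)).1
    refine f1_nonneg_of_RP hnt hc hcc hχ hU htQ hXP ?_
    let T₀ : (Γ ⧸ U → R) →ₗ[k] (Γ ⧸ U → R) :=
      LinearMap.single k (fun _ => R) ((1 : Γ) : Γ ⧸ U) ∘ₗ LinearMap.proj ((1 : Γ) : Γ ⧸ U)
    refine ⟨E.π ∘ₗ T₀ ∘ₗ s, ?_⟩
    refine LinearMap.ext fun v => ?_
    rw [LinearMap.sum_apply]
    have h3 : ∀ x : Γ ⧸ U, (indQuot U ρ x.out ∘ₗ (E.π ∘ₗ T₀ ∘ₗ s) ∘ₗ indQuot U ρ x.out⁻¹) v =
        E.π (indRep U ρ x.out (T₀ (indRep U ρ x.out⁻¹ (s v)))) := by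
      intro x
      simp only [LinearMap.comp_apply]
      rw [hs', ← E.π_comm]
    rw [Finset.sum_congr rfl fun x _ => h3 x, ← map_sum, LinearMap.id_apply]
    conv_rhs => rw [← hs v]
    congr 1
    funext y
    rw [Finset.sum_apply, Finset.sum_eq_single y]
    · rw [indRep_apply]
      have e1 : y.out⁻¹ • y = ((1 : Γ) : Γ ⧸ U) := by
        conv_lhs => rw [← QuotientGroup.out_eq' y]
        change ((((y.out : Γ) : Γ ⧸ U).out⁻¹ * y.out : Γ) : Γ ⧸ U) = _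
        rw [QuotientGroup.out_eq', inv_mul_cancel]
      rw [e1]
      have e2 : ∀ F : Γ ⧸ U → R, T₀ F ((1 : Γ) : Γ ⧸ U) = F ((1 : Γ) : Γ ⧸ U) := fun F =>
        Pi.single_eq_same _ _
      rw [e2, indRep_apply, inv_inv, ← Module.End.mul_apply, ← map_mul, mul_inv_cancel, map_one,
        Module.End.one_apply]
      refine congrArg (s v) ?_
      change ((y.out * 1 : Γ) : Γ ⧸ U) = y
      rw [mul_one]
      exact QuotientGroup.out_eq' y
    · intro x _ hxy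
      rw [indRep_apply]
      have e3 : x.out⁻¹ • y ≠ ((1 : Γ) : Γ ⧸ U) := by
        intro h
        apply hxy
        have h4 := congrArg (fun t => x.out • t) h
        simp only [smul_inv_smul] at h4
        rw [h4]
        change x = ((x.out * 1 : Γ) : Γ ⧸ U)
        rw [mul_one]
        exact (QuotientGroup.out_eq' x).symm
      have e4 : T₀ (indRep U ρ x.out⁻¹ (s v)) (x.out⁻¹ • y) = 0 := Pi.single_eq_of_ne e3 _
      rw [e4, map_zero]
    · intro h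
      exact absurd (Finset.mem_univ _) h
  linarith

end complement

/-- **The Euler inequality.** -/
theorem f1_nonneg {p : ℕ} [hp : Fact p.Prime] {χ : Γ →* (ZMod p)ˣ}
    {R : Type} [AddCommGroup R] [Module (ZMod p) R] [FiniteDimensional (ZMod p) R]
    {ρ : Representation (ZMod p) Γ R} {U K H : Subgroup Γ} [U.Normal]
    (h2 : (2 : ZMod p) ≠ 0) (hUK : U ≤ K) (hKH : K ≤ H)
    (hn : ∀ h ∈ H, ∀ u ∈ K, h * u * h⁻¹ ∈ K)
    (hnt : ∀ h ∈ (⊤ : Subgroup Γ), ∀ u ∈ U, h * u * h⁻¹ ∈ U)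
    (hc : χ c = -1) (hcc : c * c = 1) (hχ : ∀ u ∈ K, χ u = 1)
    (hU : 𝓤.IsOpen U) (ht : ∀ u ∈ U, ∀ v, ρ u v = v) (hρ : SmRep 𝓤 ρ)
    (hidx : ((K.index : ℕ) : ZMod p) ≠ 0)
    (hTI : ∀ g, g ∉ H → ∀ κ ∈ K, g⁻¹ * κ * g ∈ H → κ ∈ U)
    (hKU : ∀ g ∈ K, ∃ n : ℕ, g ^ p ^ n ∈ U)
    (hF : FinAll (ZMod p) 𝓤) (hFH : FinAll (ZMod p) (𝓤.res H))
    [FiniteDimensional (ZMod p) (H1 (𝓤.res K) (rep (chRep χ) K))]
    [FiniteDimensional (ZMod p) (H2 (𝓤.res K) (rep (chRep χ) K))]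
    [FiniteDimensional (ZMod p) (H1 (𝓤.res U) (rep (chRep χ) U))]
    [FiniteDimensional (ZMod p) (H2 (𝓤.res U) (rep (chRep χ) U))]
    (hXPK : ∀ (P : Type) [AddCommGroup P] [Module (ZMod p) P] [FiniteDimensional (ZMod p) P]
      (σ : Representation (ZMod p) H P), RelProj (K.subgroupOf H) σ → XP 𝓤 χ c hn σ)
    (hXP : ∀ (P : Type) [AddCommGroup P] [Module (ZMod p) P] [FiniteDimensional (ZMod p) P]
      (σ : Representation (ZMod p) (⊤ : Subgroup Γ) P), RelProj (U.subgroupOf ⊤) σ →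
        XP 𝓤 χ c hnt σ)
    (hTot : 2 * e3 (𝓤.res U) (rep (chRep χ) U) ≤ U.index) : 0 ≤ f1 c 𝓤 ρ := by
  have hKo : 𝓤.IsOpen K := hU.mono hUK
  have hHo : 𝓤.IsOpen H := hKo.mono hKH
  haveI := hU.finiteIndex
  haveI := hKo.finiteIndex
  haveI := hHo.finiteIndex
  haveI : Fintype (Γ ⧸ U) := Fintype.ofFinite _
  haveI : Fintype (Γ ⧸ K) := Fintype.ofFinite _
  haveI : Fintype (Γ ⧸ H) := Fintype.ofFinite _
  haveI : Fintype (K ⧸ U.subgroupOf K) := Fintype.ofFinite _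
  have hidx2 : ((K.relIndex H : ℕ) : ZMod p) ≠ 0 ∧ ((H.index : ℕ) : ZMod p) ≠ 0 := by
    rw [← Subgroup.relIndex_mul_index hKH, Nat.cast_mul] at hidx
    exact ⟨left_ne_zero_of_mul hidx, right_ne_zero_of_mul hidx⟩
  -- the induced module
  have e1 : 0 ≤ f1 c 𝓤 (indRep H ρ) := by
    rw [f1_ind hcc hHo]
    have h3 := euler_of_pnormal (U := U) h2 hKH hn hc hcc hKo hχ hidx2.1 hXPK hFH hKU
      (finrank (ZMod p) R) R (ρ.comp H.subtype) (hρ.comp H.subtype) le_rfl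
      (fun u hu w => ht _ hu w)
    linarith
  -- the trace kernel
  have hsI := smRep_indRep hHo hρ
  have hsR := (tSES ρ H).smRep_left hsI
  have e2 : f1 c 𝓤 (tR ρ H) ≤ 0 := by
    refine f1_nonpos_of_RP h2 hnt hc hcc (fun u hu => hχ u (hUK hu)) hU ?_ hsR hF hXP hTot ?_
    · intro u hu v
      apply Subtype.ext
      funext x
      change ρ u ((v : Γ ⧸ H → R) (u⁻¹ • x)) = _
      rw [ht u hu, fac_of_normal H ‹U.Normal› (hUK.trans hKH) _ (U.inv_mem hu)]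
    · obtain ⟨w, -, hw⟩ := exists_weights (k := ZMod p) (U := U) hKH hUK hTI
      have h3 := sum_wT ρ hKH hw
      have h4 := sum_twostep (tR ρ H) (fun u hu v => by
        apply Subtype.ext
        funext x
        change ρ u ((v : Γ ⧸ H → R) (u⁻¹ • x)) = _
        rw [ht u hu, fac_of_normal H ‹U.Normal› (hUK.trans hKH) _ (U.inv_mem hu)]) hUK _ h3
      refine ⟨((K.index : ℕ) : ZMod p)⁻¹ • (wT w ∘ₗ (tK (ZMod p) R H).subtype), ?_⟩
      have h5 : ∀ x : Γ ⧸ U, tR ρ H x.out ∘ₗ (((K.index : ℕ) : ZMod p)⁻¹ •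
          (wT w ∘ₗ (tK (ZMod p) R H).subtype)) ∘ₗ tR ρ H x.out⁻¹ =
          ((K.index : ℕ) : ZMod p)⁻¹ • (tR ρ H x.out ∘ₗ
          (wT w ∘ₗ (tK (ZMod p) R H).subtype) ∘ₗ tR ρ H x.out⁻¹) := by
        intro x
        rw [LinearMap.smul_comp, LinearMap.comp_smul]
      rw [Finset.sum_congr rfl fun x _ => h5 x, ← Finset.smul_sum, h4, smul_smul,
        inv_mul_cancel₀ hidx, one_smul]
  have e3 := f1_add (c := c) hF hcc h2 (tSES ρ H) hsI
    (((H.index : ℕ) : ZMod p)⁻¹ • constLin (k := ZMod p) H)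
    (fun v => by
      change sumLin (k := ZMod p) H (((H.index : ℕ) : ZMod p)⁻¹ • constLin (k := ZMod p) H v) = v
      rw [map_smul, sumLin_apply]
      change ((H.index : ℕ) : ZMod p)⁻¹ • ∑ _x : Γ ⧸ H, v = v
      rw [Finset.sum_const, Finset.card_univ, ← Nat.cast_smul_eq_nsmul (ZMod p), smul_smul,
        ← Nat.card_eq_fintype_card]
      have h3 : Nat.card (Γ ⧸ H) = H.index := rfl
      rw [h3, inv_mul_cancel₀ hidx2.2, one_smul])
    (fun g v => by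
      rw [LinearMap.smul_apply, LinearMap.smul_apply, map_smul, constLin_comm])
  linarith

end Fermat.Agent.PT.EU
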