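import Mathlib

/-!
# Sylow subgroups of `GL₂` of a finite field intersect trivially
-/

set_option autoImplicit false
set_option linter.unusedSectionVars false
set_option linter.style.haveILetI false

namespace Fermat.Agent.PT.EU

open Matrix

section fixed

variable {p : ℕ} [hp : Fact p.Prime] {k : Type*} [Field k] [CharP k p]

theorem eq_one_of_pow {x : kˣ} {n : ℕ} (h : x ^ p ^ n = 1) : x = 1 := by
  have h1 : ((x : k) - 1) ^ p ^ n = 0 := by
    rw [sub_pow_char_pow, one_pow, ← Units.val_pow_eq_pow_val, h, Units.val_one, sub_self]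
  exact Units.ext (sub_eq_zero.mp (pow_eq_zero_iff (pow_ne_zero n hp.out.ne_zero) |>.mp h1))

/-- `p`-groups have fixed vectors -/
theorem exists_fixed_vec [Finite k] {G : Type*} [Group G] (ρ : G →* GL (Fin 2) k) (P : Subgroup G)
    (hP : IsPGroup p P) : ∃ v : Fin 2 → k, v ≠ 0 ∧ ∀ g ∈ P, (ρ g).val *ᵥ v = v := by
  let θ : P →* (Module.End k (Fin 2 → k))ˣ :=
    ((Matrix.toLinAlgEquiv' (R := k) (n := Fin 2)).toRingEquiv.toMonoidHom.comp
      ((Units.coeHom _).comp (ρ.comp P.subtype))).toHomUnits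
  have hθ : ∀ (g : P) (v : Fin 2 → k), ((θ g : (Module.End k (Fin 2 → k))ˣ) :
      Module.End k (Fin 2 → k)) v = (ρ g).val *ᵥ v := fun g v => rfl
  have hR : IsPGroup p θ.range := by
    rintro ⟨_, g, rfl⟩
    obtain ⟨n, hn⟩ := hP g
    refine ⟨n, Subtype.ext ?_⟩
    change θ g ^ p ^ n = 1
    rw [← map_pow, hn, map_one]
  haveI : Finite (Fin 2 → k) := inferInstance
  have hcard : p ∣ Nat.card (Fin 2 → k) := by
    have h1 : addOrderOf (Pi.single 0 1 : Fin 2 → k) = p := by
      refine addOrderOf_eq_prime ?_ ?_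
      · funext i
        rw [Pi.smul_apply, nsmul_eq_mul, CharP.cast_eq_zero, zero_mul, Pi.zero_apply]
      · intro h
        have := congrFun h 0
        simp at this
    rw [← h1]
    exact addOrderOf_dvd_natCard _
  obtain ⟨b, hb, hb0⟩ := hR.exists_fixed_point_of_prime_dvd_card_of_fixed_point (Fin 2 → k) hcard
    (a := 0) (fun g => smul_zero g)
  exact ⟨b, fun h => hb0 h.symm, fun g hg => hb ⟨θ ⟨g, hg⟩, ⟨g, hg⟩, rfl⟩⟩

theorem pow_eq_one_of_fix {A : Matrix (Fin 2) (Fin 2) k} {v : Fin 2 → k} (hv : v ≠ 0)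
    (h : A *ᵥ v = v) (hd : A.det = 1) : A ^ p = 1 := by
  have h1 : (A - 1).det = 0 := by
    rw [← Matrix.exists_mulVec_eq_zero_iff]
    exact ⟨v, hv, by rw [sub_mulVec, h, one_mulVec, sub_self]⟩
  have htr : A 0 0 + A 1 1 = 2 := by
    rw [det_fin_two] at h1 hd
    simp at h1
    linear_combination hd - h1
  have h2 : (A - 1) ^ 2 = 0 := by
    rw [det_fin_two] at hd
    ext i j
    rw [pow_two, Matrix.mul_apply, Fin.sum_univ_two]
    fin_cases i <;> fin_cases j <;> simp
    · linear_combination A 0 0 * htr - hd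
    · linear_combination A 0 1 * htr
    · linear_combination A 1 0 * htr
    · linear_combination A 1 1 * htr - hd
  have h3 : (A - 1) ^ p = 0 := by
    obtain ⟨m, hm⟩ := Nat.exists_eq_add_of_le hp.out.two_le
    rw [hm, pow_add, h2, zero_mul]
  rw [sub_pow_char_of_commute p (Commute.one_right A), one_pow, sub_eq_zero] at h3
  exact h3

end fixed

section TI

variable {p : ℕ} [hp : Fact p.Prime] {k : Type*} [Field k] [Finite k] [CharP k p]
  {G : Type*} [Group G] [Finite G] {ρ : G →* GL (Fin 2) k} {χ : G →* (ZMod p)ˣ}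

/-- the stabiliser of a vector -/
def Nv (ρ : G →* GL (Fin 2) k) (χ : G →* (ZMod p)ˣ) (v : Fin 2 → k) : Subgroup G where
  carrier := {g | (ρ g).val *ᵥ v = v ∧ (ρ g).val.det = 1 ∧ χ g = 1}
  one_mem' := ⟨by rw [map_one, Units.val_one, one_mulVec], by rw [map_one, Units.val_one, det_one],
    map_one _⟩
  mul_mem' := by
    rintro a b ⟨h1, h2, h3⟩ ⟨h1', h2', h3'⟩
    refine ⟨?_, ?_, ?_⟩
    · rw [map_mul, Units.val_mul, ← mulVec_mulVec, h1', h1]
    · rw [map_mul, Units.val_mul, det_mul, h2, h2', one_mul]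
    · rw [map_mul, h3, h3', one_mul]
  inv_mem' := by
    rintro a ⟨h1, h2, h3⟩
    have h4 : ((ρ a)⁻¹ : GL (Fin 2) k).val * (ρ a).val = 1 := by
      rw [← Units.val_mul, inv_mul_cancel, Units.val_one]
    refine ⟨?_, ?_, ?_⟩
    · rw [map_inv]
      conv_lhs => rw [← h1]
      rw [mulVec_mulVec, h4, one_mulVec]
    · rw [map_inv]
      have := congrArg det h4
      rwa [det_mul, h2, mul_one, det_one] at this
    · rw [map_inv, h3, inv_one]

theorem Nv_pgroup (hinj : ∀ g, ρ g = 1 → χ g = 1 → g = 1) {v : Fin 2 → k} (hv : v ≠ 0) :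
    IsPGroup p (Nv ρ χ v) := by
  rintro ⟨g, h1, h2, h3⟩
  refine ⟨1, Subtype.ext ?_⟩
  change g ^ p ^ 1 = 1
  rw [pow_one]
  apply hinj
  · rw [map_pow]
    apply Units.ext
    rw [Units.val_pow_eq_pow_val, Units.val_one]
    exact pow_eq_one_of_fix hv h1 h2
  · rw [map_pow, h3, one_pow]

theorem le_Nv {P : Subgroup G} (hP : IsPGroup p P) {v : Fin 2 → k}
    (h : ∀ g ∈ P, (ρ g).val *ᵥ v = v) : P ≤ Nv ρ χ v := by
  intro g hg
  obtain ⟨n, hn⟩ := hP ⟨g, hg⟩
  have hn' : g ^ p ^ n = 1 := congrArg Subtype.val hn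
  refine ⟨h g hg, ?_, ?_⟩
  · have h1 : (Matrix.GeneralLinearGroup.det (ρ g)) ^ p ^ n = 1 := by
      rw [← map_pow, ← map_pow, hn', map_one, map_one]
    exact congrArg Units.val (eq_one_of_pow (p := p) h1)
  · have h1 : χ g ^ p ^ n = 1 := by rw [← map_pow, hn', map_one]
    exact eq_one_of_pow (p := p) h1

theorem sylow_eq (hinj : ∀ g, ρ g = 1 → χ g = 1 → g = 1) (P Q : Sylow p G) {u : G}
    (hu : u ∈ P) (hu' : u ∈ Q) (h1 : u ≠ 1) : P = Q := by
  obtain ⟨v, hv, hPv⟩ := exists_fixed_vec (p := p) ρ (P : Subgroup G) P.isPGroup'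
  obtain ⟨w, hw, hQw⟩ := exists_fixed_vec (p := p) ρ (Q : Subgroup G) Q.isPGroup'
  have e1 := hPv u hu
  have e2 := hQw u hu'
  set A := (ρ u).val with hA
  have hAv : ∀ i, A i 0 * v 0 + A i 1 * v 1 = v i := fun i => by
    have := congrFun e1 i
    rwa [mulVec, dotProduct, Fin.sum_univ_two] at this
  have hAw : ∀ i, A i 0 * w 0 + A i 1 * w 1 = w i := fun i => by
    have := congrFun e2 i
    rwa [mulVec, dotProduct, Fin.sum_univ_two] at this
  -- the vectors are proportional
  have hd : v 0 * w 1 - v 1 * w 0 = 0 := by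
    by_contra hd
    apply h1
    apply hinj
    · apply Units.ext
      rw [Units.val_one]
      change A = 1
      have a0 := hAv 0
      have a1 := hAv 1
      have b0 := hAw 0
      have b1 := hAw 1
      ext i j
      apply mul_left_cancel₀ hd
      fin_cases i <;> fin_cases j
      · change _ * A 0 0 = _ * (1 : Matrix (Fin 2) (Fin 2) k) 0 0
        rw [Matrix.one_apply_eq]
        linear_combination w 1 * a0 - v 1 * b0
      · change _ * A 0 1 = _ * (1 : Matrix (Fin 2) (Fin 2) k) 0 1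
        rw [Matrix.one_apply_ne (by decide)]
        linear_combination v 0 * b0 - w 0 * a0
      · change _ * A 1 0 = _ * (1 : Matrix (Fin 2) (Fin 2) k) 1 0
        rw [Matrix.one_apply_ne (by decide)]
        linear_combination w 1 * a1 - v 1 * b1
      · change _ * A 1 1 = _ * (1 : Matrix (Fin 2) (Fin 2) k) 1 1
        rw [Matrix.one_apply_eq]
        linear_combination v 0 * b1 - w 0 * a1
    · exact (le_Nv (χ := χ) P.isPGroup' hPv hu).2.2
  obtain ⟨a, ha⟩ : ∃ a : k, v = a • w := by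
    by_cases hw0 : w 0 = 0
    · have hw1 : w 1 ≠ 0 := by
        intro h
        apply hw
        funext i
        fin_cases i
        · exact hw0
        · exact h
      refine ⟨v 1 / w 1, ?_⟩
      funext i
      rw [Pi.smul_apply, smul_eq_mul]
      fin_cases i
      · simp only [Fin.zero_eta]
        rw [hw0, mul_zero]
        rw [hw0, mul_zero, sub_zero] at hd
        exact (mul_eq_zero.mp hd).resolve_right hw1
      · simp only [Fin.mk_one]
        rw [div_mul_cancel₀ _ hw1]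
    · refine ⟨v 0 / w 0, ?_⟩
      funext i
      rw [Pi.smul_apply, smul_eq_mul]
      fin_cases i
      · simp only [Fin.zero_eta]
        rw [div_mul_cancel₀ _ hw0]
      · simp only [Fin.mk_one]
        field_simp
        linear_combination -hd
  have hQv : ∀ g ∈ (Q : Subgroup G), (ρ g).val *ᵥ v = v := by
    intro g hg
    rw [ha, mulVec_smul, hQw g hg]
  have hP := P.is_maximal' (Nv_pgroup hinj hv) (le_Nv (χ := χ) P.isPGroup' hPv)
  have hQ := Q.is_maximal' (Nv_pgroup hinj hv) (le_Nv (χ := χ) Q.isPGroup' hQv)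
  exact Sylow.ext (hP.symm.trans hQ)

end TI

/-- **The group theoretic input.** -/
theorem exists_KH {p : ℕ} [hp : Fact p.Prime] {k : Type*} [Field k] [Finite k] [CharP k p]
    {Γ : Type*} [Group Γ] (ρ : Γ →* GL (Fin 2) k) (χ : Γ →* (ZMod p)ˣ) :
    ∃ K H : Subgroup Γ, ρ.ker ⊓ χ.ker ≤ K ∧ K ≤ H ∧ (∀ h ∈ H, ∀ u ∈ K, h * u * h⁻¹ ∈ K) ∧
      (∀ u ∈ K, χ u = 1) ∧ ((K.index : ℕ) : ZMod p) ≠ 0 ∧
      (∀ g, g ∉ H → ∀ κ ∈ K, g⁻¹ * κ * g ∈ H → κ ∈ ρ.ker ⊓ χ.ker) ∧
      (∀ g ∈ K, ∃ n : ℕ, g ^ p ^ n ∈ ρ.ker ⊓ χ.ker) := by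
  let θ : Γ →* GL (Fin 2) k × (ZMod p)ˣ := ρ.prod χ
  let G := θ.range
  haveI : Finite (GL (Fin 2) k × (ZMod p)ˣ) := inferInstance
  haveI : Finite G := inferInstance
  let π : Γ →* G := θ.rangeRestrict
  let ρ' : G →* GL (Fin 2) k := (MonoidHom.fst _ _).comp G.subtype
  let χ' : G →* (ZMod p)ˣ := (MonoidHom.snd _ _).comp G.subtype
  have hinj : ∀ g, ρ' g = 1 → χ' g = 1 → g = 1 := fun g h1 h2 => Subtype.ext (Prod.ext h1 h2)
  have hπ : ∀ g, π g = 1 ↔ g ∈ ρ.ker ⊓ χ.ker := by
    intro g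
    constructor
    · intro h
      have h1 : θ g = 1 := congrArg Subtype.val h
      exact ⟨congrArg Prod.fst h1, congrArg Prod.snd h1⟩
    · rintro ⟨h1, h2⟩
      exact Subtype.ext (Prod.ext h1 h2)
  have hπs : Function.Surjective π := θ.rangeRestrict_surjective
  let P : Sylow p G := default
  refine ⟨(P : Subgroup G).comap π, (Subgroup.normalizer (P : Subgroup G)).comap π, ?_, ?_, ?_, ?_,
    ?_, ?_, ?_⟩
  · intro g hg
    rw [Subgroup.mem_comap, (hπ g).mpr hg]
    exact one_mem _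
  · exact Subgroup.comap_mono Subgroup.le_normalizer
  · intro h hh u hu
    rw [Subgroup.mem_comap, map_mul, map_mul, map_inv]
    rw [Subgroup.mem_comap, Subgroup.mem_normalizer_iff] at hh
    exact (hh _).mp hu
  · intro u hu
    obtain ⟨n, hn⟩ := P.isPGroup' ⟨π u, hu⟩
    have h1 : (π u) ^ p ^ n = 1 := congrArg Subtype.val hn
    have h2 : χ u ^ p ^ n = 1 := by
      have h3 := congrArg χ' h1
      rw [map_pow, map_one] at h3
      exact h3
    exact eq_one_of_pow (p := p) h2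
  · rw [Subgroup.index_comap_of_surjective _ hπs]
    intro h
    exact P.not_dvd_index ((ZMod.natCast_eq_zero_iff _ _).mp h)
  · intro g hg κ hκ hgκ
    rw [Subgroup.mem_comap] at hg hκ hgκ
    rw [← hπ]
    by_contra hne
    -- the element lies in `P`
    have hκ' : (π g)⁻¹ * π κ * π g ∈ (P : Subgroup G) := by
      rw [map_mul, map_mul, map_inv] at hgκ
      set x := (π g)⁻¹ * π κ * π g with hx
      have hZ : IsPGroup p (Subgroup.zpowers x) := by
        obtain ⟨n, hn⟩ := P.isPGroup' ⟨π κ, hκ⟩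
        have hn' : (π κ) ^ p ^ n = 1 := congrArg Subtype.val hn
        have hxn : x ^ p ^ n = 1 := by
          have h4 : x ^ p ^ n = (π g)⁻¹ * (π κ) ^ p ^ n * π g := by
            rw [hx]
            have h5 := conj_pow (i := p ^ n) (a := (π g)⁻¹) (b := π κ)
            rw [inv_inv] at h5
            exact h5
          rw [h4, hn']
          group
        rintro ⟨_, m, rfl⟩
        refine ⟨n, Subtype.ext ?_⟩
        change (x ^ m) ^ p ^ n = 1
        rw [← zpow_natCast, ← _root_.zpow_mul, mul_comm, _root_.zpow_mul, zpow_natCast, hxn, _root_.one_zpow]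
      have hle : Subgroup.zpowers x ≤ Subgroup.normalizer (P : Subgroup G) := by
        rw [Subgroup.zpowers_le]
        exact hgκ
      have hsup : IsPGroup p (Subgroup.zpowers x ⊔ (P : Subgroup G) : Subgroup G) :=
        IsPGroup.to_sup_of_normal_right' hZ P.isPGroup' hle
      have h6 := P.is_maximal' hsup le_sup_right
      have h7 : x ∈ (Subgroup.zpowers x ⊔ (P : Subgroup G) : Subgroup G) :=
        Subgroup.mem_sup_left (Subgroup.mem_zpowers x)
      rw [h6] at h7
      exact h7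
    have h8 : π κ ∈ (π g • P : Sylow p G) := by
      change π κ ∈ ((π g • P : Sylow p G) : Subgroup G)
      rw [Sylow.coe_subgroup_smul, Subgroup.mem_pointwise_smul_iff_inv_smul_mem]
      have h9 : (MulAut.conj (π g))⁻¹ • π κ = (π g)⁻¹ * π κ * π g := by
        rw [← map_inv, MulAut.smul_def, MulAut.conj_apply, inv_inv]
      rw [h9]
      exact hκ'
    have h10 := sylow_eq hinj P (π g • P) hκ h8 hne
    exact hg (Sylow.smul_eq_iff_mem_normalizer.mp h10.symm)
  · intro g hg
    obtain ⟨n, hn⟩ := P.isPGroup' ⟨π g, hg⟩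
    refine ⟨n, ?_⟩
    rw [← hπ, map_pow]
    exact congrArg Subtype.val hn

end Fermat.Agent.PT.EU
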