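import Fermat.Agent.Coh.Shapiro

/-!
# Global groups with local groups and invariants: the basic pairing
-/

set_option autoImplicit false
set_option linter.unusedSectionVars false
set_option linter.style.haveILetI false

namespace Fermat.Agent.PT

open Fermat.Agent.Coh Module

section reps

variable {k : Type*} [Field k] {Γ : Type*} [Group Γ] {V W : Type*} [AddCommGroup V] [Module k V]
  [AddCommGroup W] [Module k W]

/-- the one dimensional representation attached to a character -/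
def chRep (χ : Γ →* kˣ) : Representation k Γ k where
  toFun g := (χ g : k) • LinearMap.id
  map_one' := by
    ext
    simp
  map_mul' g h := by
    ext
    simp [mul_comm]

@[simp] theorem chRep_apply (χ : Γ →* kˣ) (g : Γ) (a : k) : chRep χ g a = χ g * a := rfl

/-- the twisted dual -/
def dualR (χ : Γ →* kˣ) (ρ : Representation k Γ V) : Representation k Γ (Dual k V) where
  toFun g :=
    { toFun := fun f => (χ g : k) • (f ∘ₗ ρ g⁻¹)
      map_add' := fun f f' => by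
        ext v
        simp [mul_add]
      map_smul' := fun c f => by
        ext v
        simp [mul_left_comm] }
  map_one' := by
    ext f v
    simp
  map_mul' g h := by
    ext f v
    simp [mul_assoc, mul_left_comm]

@[simp] theorem dualR_apply (χ : Γ →* kˣ) (ρ : Representation k Γ V) (g : Γ) (f : Dual k V)
    (v : V) : dualR χ ρ g f v = χ g * f (ρ g⁻¹ v) := rfl

theorem dualR_apply_act (χ : Γ →* kˣ) (ρ : Representation k Γ V) (g : Γ) (f : Dual k V)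
    (v : V) : dualR χ ρ g f (ρ g v) = χ g * f v := by
  rw [dualR_apply, ← Module.End.mul_apply, ← map_mul, inv_mul_cancel, map_one,
    Module.End.one_apply]

end reps

/-- A global group with finitely many local groups and local invariants. -/
structure Frame (k : Type*) [Field k] (Γ : Type*) [Group Γ] where
  /-- the global family -/
  𝓤 : Fam Γ
  /-- the places -/
  ι : Type
  [fin : Fintype ι]
  /-- the local groups -/
  G : ι → Type
  [grp : ∀ v, Group (G v)]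
  /-- the local families -/
  𝓥 : ∀ v, Fam (G v)
  /-- from local to global -/
  r : ∀ v, G v →* Γ
  cont : ∀ v, ∀ U ∈ 𝓤, ∃ U' ∈ 𝓥 v, U' ≤ U.comap (r v)
  /-- the cyclotomic character -/
  χ : Γ →* kˣ
  χ_sm : ∃ U ∈ 𝓤, ∀ u ∈ U, χ u = 1
  /-- the local invariants -/
  inv : ∀ v, H2 (𝓥 v) ((chRep χ).comp (r v)) →ₗ[k] k

attribute [instance] Frame.fin Frame.grp

namespace Frame

variable {k : Type*} [Field k] {Γ : Type*} [Group Γ] (D : Frame k Γ)
variable {V W : Type*} [AddCommGroup V] [Module k V] [AddCommGroup W] [Module k W]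

/-- the local representation -/
abbrev lr (v : D.ι) (ρ : Representation k Γ V) : Representation k (D.G v) V := ρ.comp (D.r v)

/-- the cyclotomic representation -/
abbrev μ : Representation k Γ k := chRep D.χ

/-- the twisted dual -/
abbrev dl (ρ : Representation k Γ V) : Representation k Γ (Dual k V) := dualR D.χ ρ

/-- localisation of `1`-cochains -/
def r1 (v : D.ι) {X : Type*} (f : Γ → X) : D.G v → X := fun g => f (D.r v g)

/-- localisation of `2`-cochains -/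
def r2 (v : D.ι) {X : Type*} (f : Γ × Γ → X) : D.G v × D.G v → X :=
  fun p => f (D.r v p.1, D.r v p.2)

@[simp] theorem r1_apply (v : D.ι) {X : Type*} (f : Γ → X) (g : D.G v) :
    D.r1 v f g = f (D.r v g) := rfl

@[simp] theorem r2_apply (v : D.ι) {X : Type*} (f : Γ × Γ → X) (p : D.G v × D.G v) :
    D.r2 v f p = f (D.r v p.1, D.r v p.2) := rfl

theorem r1_sm {v : D.ι} {X : Type*} {f : Γ → X} (hf : D.𝓤.Sm1 f) : (D.𝓥 v).Sm1 (D.r1 v f) :=
  hf.comp (D.r v) (D.cont v)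

theorem r2_sm {v : D.ι} {X : Type*} {f : Γ × Γ → X} (hf : D.𝓤.Sm2 f) : (D.𝓥 v).Sm2 (D.r2 v f) :=
  hf.comp (D.r v) (D.cont v)

theorem r1_mem {v : D.ι} {ρ : Representation k Γ V} {f : Γ → V} (hf : f ∈ Z1 D.𝓤 ρ) :
    D.r1 v f ∈ Z1 (D.𝓥 v) (D.lr v ρ) :=
  ⟨D.r1_sm hf.1, fun g h => by
    simp only [r1_apply, map_mul]
    exact hf.2 _ _⟩

theorem r2_mem {v : D.ι} {ρ : Representation k Γ V} {f : Γ × Γ → V} (hf : f ∈ Z2 D.𝓤 ρ) :
    D.r2 v f ∈ Z2 (D.𝓥 v) (D.lr v ρ) :=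
  ⟨D.r2_sm hf.1, fun g h j => by
    simp only [r2_apply, map_mul]
    exact hf.2 _ _ _⟩

theorem r2_d1 (v : D.ι) (ρ : Representation k Γ V) (c : Γ → V) :
    D.r2 v (d1 ρ c) = d1 (D.lr v ρ) (D.r1 v c) := by
  funext p
  simp only [r2_apply, d1_apply, r1_apply, map_mul]
  rfl

theorem lr_sm {v : D.ι} {ρ : Representation k Γ V} (h : SmRep D.𝓤 ρ) :
    SmRep (D.𝓥 v) (D.lr v ρ) := by
  intro x
  obtain ⟨U, hU, hx⟩ := h x
  obtain ⟨U', hU', hle⟩ := D.cont v U hU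
  exact ⟨U', hU', fun u hu => hx _ (hle hu)⟩

theorem mu_sm : SmRep D.𝓤 D.μ := by
  intro a
  obtain ⟨U, hU, h⟩ := D.χ_sm
  exact ⟨U, hU, fun u hu => by rw [chRep_apply, h u hu, Units.val_one, one_mul]⟩

open Classical in
/-- the invariant, as a function on all `2`-cochains -/
noncomputable def iv (v : D.ι) (f : D.G v × D.G v → k) : k :=
  if h : f ∈ Z2 (D.𝓥 v) (D.lr v D.μ) then D.inv v (H2.mk (D.𝓥 v) (D.lr v D.μ) ⟨f, h⟩) else 0

variable {D} {v : D.ι}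

theorem iv_eq {f : D.G v × D.G v → k} (h : f ∈ Z2 (D.𝓥 v) (D.lr v D.μ)) :
    D.iv v f = D.inv v (H2.mk (D.𝓥 v) (D.lr v D.μ) ⟨f, h⟩) := by
  rw [iv, dif_pos h]

theorem iv_add {f f' : D.G v × D.G v → k} (h : f ∈ Z2 (D.𝓥 v) (D.lr v D.μ))
    (h' : f' ∈ Z2 (D.𝓥 v) (D.lr v D.μ)) : D.iv v (f + f') = D.iv v f + D.iv v f' := by
  rw [iv_eq h, iv_eq h', iv_eq (add_mem h h'), ← map_add, ← map_add]
  rfl

theorem iv_sub {f f' : D.G v × D.G v → k} (h : f ∈ Z2 (D.𝓥 v) (D.lr v D.μ))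
    (h' : f' ∈ Z2 (D.𝓥 v) (D.lr v D.μ)) : D.iv v (f - f') = D.iv v f - D.iv v f' := by
  rw [iv_eq h, iv_eq h', iv_eq (sub_mem h h'), ← map_sub, ← map_sub]
  rfl

theorem iv_neg {f : D.G v × D.G v → k} (h : f ∈ Z2 (D.𝓥 v) (D.lr v D.μ)) :
    D.iv v (-f) = - D.iv v f := by
  rw [iv_eq h, iv_eq (neg_mem h), ← map_neg, ← map_neg]
  rfl

theorem iv_smul {f : D.G v × D.G v → k} (c : k) (h : f ∈ Z2 (D.𝓥 v) (D.lr v D.μ)) :
    D.iv v (c • f) = c * D.iv v f := by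
  rw [iv_eq h, iv_eq (Submodule.smul_mem _ c h), ← smul_eq_mul, ← map_smul, ← map_smul]
  rfl

theorem iv_of_mem_B2 {f : D.G v × D.G v → k} (h : f ∈ B2 (D.𝓥 v) (D.lr v D.μ)) :
    D.iv v f = 0 := by
  by_cases hf : f ∈ Z2 (D.𝓥 v) (D.lr v D.μ)
  · rw [iv_eq hf]
    have : H2.mk (D.𝓥 v) (D.lr v D.μ) ⟨f, hf⟩ = 0 := by
      rw [Submodule.mkQ_apply, Submodule.Quotient.mk_eq_zero]
      exact h
    rw [this, map_zero]
  · rw [iv, dif_neg hf]

theorem d1_mem_B2 {c : D.G v → k} (hc : (D.𝓥 v).Sm1 c) :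
    d1 (D.lr v D.μ) c ∈ B2 (D.𝓥 v) (D.lr v D.μ) := ⟨c, hc, rfl⟩

theorem d1_mem_Z2' {c : D.G v → k} (hc : (D.𝓥 v).Sm1 c) :
    d1 (D.lr v D.μ) c ∈ Z2 (D.𝓥 v) (D.lr v D.μ) := d1_mem_Z2 (D.lr_sm D.mu_sm) hc

theorem iv_d1 {c : D.G v → k} (hc : (D.𝓥 v).Sm1 c) : D.iv v (d1 (D.lr v D.μ) c) = 0 :=
  iv_of_mem_B2 (d1_mem_B2 hc)

theorem iv_zero : D.iv v 0 = 0 := iv_of_mem_B2 (zero_mem _)

variable (D)

/-- Global reciprocity. -/
def Rec : Prop := ∀ f ∈ Z2 D.𝓤 D.μ, ∑ v, D.iv v (D.r2 v f) = 0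

section pairing

variable (U : Subgroup Γ) [U.FiniteIndex]

/-- finiteness -/
@[instance_reducible]
noncomputable def fq : Fintype (Γ ⧸ U) := Fintype.ofFinite _

attribute [local instance] fq

/-- the linear form on the induced module attached to a function on the quotient -/
noncomputable def bF (F : Γ ⧸ U → Dual k V) : (Γ ⧸ U → V) →ₗ[k] k :=
  ∑ c, (F c) ∘ₗ LinearMap.proj c

variable {U}

theorem bF_apply (F : Γ ⧸ U → Dual k V) (φ : Γ ⧸ U → V) : bF U F φ = ∑ c, F c (φ c) := by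
  rw [bF, LinearMap.sum_apply]
  rfl

variable (ρ : Representation k Γ V)

/-- the trace -/
noncomputable abbrev tr (U : Subgroup Γ) [U.FiniteIndex] : (Γ ⧸ U → V) →ₗ[k] V :=
  sumLin (k := k) U

theorem tr_act (g : Γ) (φ : Γ ⧸ U → V) : tr (k := k) U (indRep U ρ g φ) = ρ g (tr (k := k) U φ) :=
  sumLin_comm U ρ g φ

variable (U) in
/-- cocycles with values in the dual, vanishing on `U` -/
def X : Submodule k (Γ → Dual k V) where
  carrier := {x | x ∈ Z1 D.𝓤 (D.dl ρ) ∧ ∀ u ∈ U, x u = 0}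
  zero_mem' := ⟨zero_mem _, fun _ _ => rfl⟩
  add_mem' := fun {a b} ha hb => ⟨add_mem ha.1 hb.1, fun u hu => by
    rw [Pi.add_apply, ha.2 u hu, hb.2 u hu, add_zero]⟩
  smul_mem' c x hx := ⟨Submodule.smul_mem _ c hx.1, fun u hu => by
    rw [Pi.smul_apply, hx.2 u hu, smul_zero]⟩

variable {D ρ}

theorem X_mul {x : Γ → Dual k V} (hx : x ∈ D.X U ρ) {g u : Γ} (hu : u ∈ U) :
    x (g * u) = x g := by
  rw [hx.1.2, hx.2 u hu, map_zero, zero_add]

theorem X_eq {x : Γ → Dual k V} (hx : x ∈ D.X U ρ) {g h : Γ} (hgh : (g : Γ ⧸ U) = h) :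
    x g = x h := by
  have h1 : g⁻¹ * h ∈ U := QuotientGroup.eq.mp hgh
  have h2 : h = g * (g⁻¹ * h) := by group
  rw [h2, X_mul hx h1]

variable (U) in
/-- the linear form attached to a cocycle -/
noncomputable def bx (x : Γ → Dual k V) : (Γ ⧸ U → V) →ₗ[k] k :=
  - bF U fun c => x (sec U c)

theorem bx_apply (x : Γ → Dual k V) (φ : Γ ⧸ U → V) : bx U x φ = - ∑ c, x (sec U c) (φ c) := by
  rw [bx, LinearMap.neg_apply, bF_apply]

theorem bx_add (x x' : Γ → Dual k V) : bx U (x + x') = bx U x + bx U x' := by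
  ext φ
  simp only [LinearMap.add_apply, bx_apply, Pi.add_apply,
    Finset.sum_add_distrib]
  ring

theorem bx_smul (a : k) (x : Γ → Dual k V) : bx U (a • x) = a • bx U x := by
  ext φ
  simp only [LinearMap.smul_apply, bx_apply, Pi.smul_apply, smul_eq_mul,
    ← Finset.mul_sum]
  ring

theorem bx_act {x : Γ → Dual k V} (hx : x ∈ D.X U ρ) (g : Γ) (φ : Γ ⧸ U → V) :
    bx U x (indRep U ρ g φ) = D.χ g * bx U x φ - x g (ρ g (tr (k := k) U φ)) := by
  rw [bx_apply, bx_apply, sumLin_apply]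
  have h1 : ∑ c, x (sec U c) (indRep U ρ g φ c) = ∑ c, x (sec U (g • c)) (ρ g (φ c)) := by
    refine Fintype.sum_equiv (MulAction.toPerm g⁻¹) _ _ fun c => ?_
    rw [MulAction.toPerm_apply, smul_inv_smul, indRep_apply]
  have h2 : ∀ c : Γ ⧸ U, x (sec U (g • c)) (ρ g (φ c)) =
      D.χ g * x (sec U c) (φ c) + x g (ρ g (φ c)) := by
    intro c
    have h3 : x (sec U (g • c)) = x (g * sec U c) := by
      apply X_eq hx
      rw [mk_sec, ← smul_eq_mul, ← MulAction.Quotient.smul_coe, mk_sec]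
    rw [h3, hx.1.2, LinearMap.add_apply, dualR_apply_act]
  rw [h1, Finset.sum_congr rfl fun c _ => h2 c, Finset.sum_add_distrib, ← Finset.mul_sum,
    map_sum, map_sum]
  ring

theorem bx_act_of_tr {x : Γ → Dual k V} (hx : x ∈ D.X U ρ) (g : Γ) (φ : Γ ⧸ U → V)
    (hφ : tr (k := k) U φ = 0) : bx U x (indRep U ρ g φ) = D.χ g * bx U x φ := by
  rw [bx_act hx, hφ, map_zero, map_zero, sub_zero]

/-- composing with an equivariant form -/
theorem comp_mem_Z2 {v : D.ι} {b : W →ₗ[k] k} {σ : Representation k Γ W}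
    {z : D.G v × D.G v → W} (hz : z ∈ Z2 (D.𝓥 v) (D.lr v σ))
    (hb : ∀ g p, b (σ g (z p)) = D.χ g * b (z p)) :
    (fun p => b (z p)) ∈ Z2 (D.𝓥 v) (D.lr v D.μ) := by
  refine ⟨hz.1.post b, fun g h j => ?_⟩
  rw [← map_add, hz.2, map_add]
  congr 1
  exact hb _ _

theorem comp_mem_Z2g {b : W →ₗ[k] k} {σ : Representation k Γ W}
    {z : Γ × Γ → W} (hz : z ∈ Z2 D.𝓤 σ)
    (hb : ∀ g p, b (σ g (z p)) = D.χ g * b (z p)) :
    (fun p => b (z p)) ∈ Z2 D.𝓤 D.μ := by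
  refine ⟨hz.1.post b, fun g h j => ?_⟩
  rw [← map_add, hz.2, map_add]
  congr 1
  exact hb _ _

variable (D ρ)

variable (U) in
/-- pairs of a global cocycle and local cochains with values in the induced module, with
compatible traces -/
noncomputable def Y : Submodule k ((Γ × Γ → (Γ ⧸ U → V)) × (∀ v, D.G v → (Γ ⧸ U → V))) where
  carrier := {y | y.1 ∈ Z2 D.𝓤 (indRep U ρ) ∧ (∀ v, (D.𝓥 v).Sm1 (y.2 v)) ∧
    ∀ v p, tr (k := k) U (D.r2 v y.1 p) = tr (k := k) U (d1 (D.lr v (indRep U ρ)) (y.2 v) p)}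
  zero_mem' := by
    refine ⟨zero_mem _, fun v => Fam.Sm1.const _ (0 : Γ ⧸ U → V), fun v p => ?_⟩
    simp
  add_mem' := by
    rintro y y' ⟨h1, h2, h3⟩ ⟨h1', h2', h3'⟩
    refine ⟨add_mem h1 h1', fun v => (h2 v).post₂ (h2' v) (· + ·), fun v p => ?_⟩
    have e1 : D.r2 v (y + y').1 p = D.r2 v y.1 p + D.r2 v y'.1 p := rfl
    have e2 : (y + y').2 v = y.2 v + y'.2 v := rfl
    rw [e1, e2, map_add, map_add, Pi.add_apply, map_add, h3, h3']
  smul_mem' := by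
    rintro c y ⟨h1, h2, h3⟩
    refine ⟨Submodule.smul_mem _ c h1, fun v => (h2 v).post (c • ·), fun v p => ?_⟩
    have e1 : D.r2 v (c • y).1 p = c • D.r2 v y.1 p := rfl
    have e2 : (c • y).2 v = c • y.2 v := rfl
    rw [e1, e2, map_smul, map_smul, Pi.smul_apply, map_smul, h3]

/-- the local error -/
noncomputable def err (y : (Γ × Γ → (Γ ⧸ U → V)) × (∀ v, D.G v → (Γ ⧸ U → V))) (v : D.ι) :
    D.G v × D.G v → (Γ ⧸ U → V) :=
  D.r2 v y.1 - d1 (D.lr v (indRep U ρ)) (y.2 v)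

variable {D ρ}

theorem tr_err {y} (hy : y ∈ D.Y U ρ) (v : D.ι) (p : D.G v × D.G v) :
    tr (k := k) U (D.err ρ y v p) = 0 := by
  rw [err, Pi.sub_apply, map_sub, hy.2.2, sub_self]

theorem err_add (y y' : (Γ × Γ → (Γ ⧸ U → V)) × (∀ v, D.G v → (Γ ⧸ U → V))) (v : D.ι) :
    D.err ρ (y + y') v = D.err ρ y v + D.err ρ y' v := by
  have e1 : D.r2 v (y + y').1 = D.r2 v y.1 + D.r2 v y'.1 := rfl
  have e2 : (y + y').2 v = y.2 v + y'.2 v := rfl
  rw [err, e1, e2, map_add, err, err]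
  abel

theorem err_smul (c : k) (y : (Γ × Γ → (Γ ⧸ U → V)) × (∀ v, D.G v → (Γ ⧸ U → V))) (v : D.ι) :
    D.err ρ (c • y) v = c • D.err ρ y v := by
  have e1 : D.r2 v (c • y).1 = c • D.r2 v y.1 := rfl
  have e2 : (c • y).2 v = c • y.2 v := rfl
  rw [err, e1, e2, map_smul, err, smul_sub]

theorem ind_sm (hU : D.𝓤.IsOpen U) (hρ : SmRep D.𝓤 ρ) : SmRep D.𝓤 (indRep U ρ) :=
  smRep_indRep hU hρ

theorem err_mem (hU : D.𝓤.IsOpen U) (hρ : SmRep D.𝓤 ρ) {y} (hy : y ∈ D.Y U ρ) (v : D.ι) :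
    D.err ρ y v ∈ Z2 (D.𝓥 v) (D.lr v (indRep U ρ)) :=
  sub_mem (D.r2_mem hy.1) (d1_mem_Z2 (D.lr_sm (ind_sm hU hρ)) (hy.2.1 v))

theorem bx_err_mem (hU : D.𝓤.IsOpen U) (hρ : SmRep D.𝓤 ρ) {x : Γ → Dual k V} (hx : x ∈ D.X U ρ)
    {y} (hy : y ∈ D.Y U ρ) (v : D.ι) :
    (fun p => bx U x (D.err ρ y v p)) ∈ Z2 (D.𝓥 v) (D.lr v D.μ) :=
  comp_mem_Z2 (err_mem hU hρ hy v) fun g p => bx_act_of_tr hx g _ (tr_err hy v p)

variable (D ρ)

/-- the value of the pairing -/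
noncomputable def pv (x : Γ → Dual k V)
    (y : (Γ × Γ → (Γ ⧸ U → V)) × (∀ v, D.G v → (Γ ⧸ U → V))) : k :=
  ∑ v, D.iv v (fun p => bx U x (D.err ρ y v p))

/-- **The pairing.** -/
noncomputable def P (hU : D.𝓤.IsOpen U) (hρ : SmRep D.𝓤 ρ) :
    ↥(D.X U ρ) →ₗ[k] ↥(D.Y U ρ) →ₗ[k] k :=
  LinearMap.mk₂ k (fun x y => D.pv ρ x.1 y.1)
    (fun x x' y => by
      rw [pv, pv, pv, ← Finset.sum_add_distrib]
      refine Finset.sum_congr rfl fun v _ => ?_
      rw [← iv_add (bx_err_mem hU hρ x.2 y.2 v) (bx_err_mem hU hρ x'.2 y.2 v)]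
      congr 1
      funext p
      rw [Submodule.coe_add, bx_add]
      rfl)
    (fun c x y => by
      rw [pv, pv, smul_eq_mul, Finset.mul_sum]
      refine Finset.sum_congr rfl fun v _ => ?_
      rw [← iv_smul c (bx_err_mem hU hρ x.2 y.2 v)]
      congr 1
      funext p
      rw [Submodule.coe_smul, bx_smul]
      rfl)
    (fun x y y' => by
      rw [pv, pv, pv, ← Finset.sum_add_distrib]
      refine Finset.sum_congr rfl fun v _ => ?_
      rw [← iv_add (bx_err_mem hU hρ x.2 y.2 v) (bx_err_mem hU hρ x.2 y'.2 v)]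
      congr 1
      funext p
      rw [Submodule.coe_add, err_add, Pi.add_apply, Pi.add_apply, map_add])
    (fun c x y => by
      rw [pv, pv, smul_eq_mul, Finset.mul_sum]
      refine Finset.sum_congr rfl fun v _ => ?_
      rw [← iv_smul c (bx_err_mem hU hρ x.2 y.2 v)]
      congr 1
      funext p
      rw [Submodule.coe_smul, err_smul, Pi.smul_apply, Pi.smul_apply, map_smul])

@[simp] theorem P_apply (hU : D.𝓤.IsOpen U) (hρ : SmRep D.𝓤 ρ) (x : ↥(D.X U ρ)) (y : ↥(D.Y U ρ)) :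
    D.P ρ hU hρ x y = D.pv ρ x.1 y.1 := rfl

end pairing

end Frame

end Fermat.Agent.PT
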