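import Fermat.Agent.PT.PTC6
import Fermat.Agent.RT.TWFinal

/-!
# The Greenberg–Wiles inequality for the adjoint representation
-/

set_option autoImplicit false
set_option linter.unusedSectionVars false
set_option linter.style.haveILetI false

namespace Fermat.Agent.PT.GW

open Fermat.Agent.Coh Module Fermat.Agent.GCFT Fermat.Agent.GlobalCFT Fermat.Agent.GalD
  Fermat.Agent.LocalCFT ExtCitation Fermat.Agent.PT.Frame Fermat.Agent.PT.LD Fermat.Agent.RT

/-- The absolute Galois group. -/
local notation "GQ'" => (AlgebraicClosure ℚ ≃ₐ[ℚ] AlgebraicClosure ℚ)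

attribute [local instance] Fermat.Agent.PT.Frame.fq

variable {p : ℕ} [hp : Fact p.Prime] {k : Type} [Field k] [Algebra (ZMod p) k]

section

variable {Γ : Type} [Group Γ] {V : Type} [AddCommGroup V] [Module k V] [Module (ZMod p) V]
  [IsScalarTower (ZMod p) k V]

variable (p) in
/-- restriction of scalars -/
def resR (τ : Representation k Γ V) : Representation (ZMod p) Γ V where
  toFun g := (τ g).restrictScalars (ZMod p)
  map_one' := by
    rw [map_one]
    rfl
  map_mul' g h := by
    rw [map_mul]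
    rfl

theorem resR_apply (τ : Representation k Γ V) (g : Γ) (v : V) : resR p τ g v = τ g v := rfl

end

theorem dim_le_of_inj [Finite k] {X Y : Type*} [AddCommGroup X] [Module (ZMod p) X]
    [Module.Finite (ZMod p) X] [AddCommGroup Y] [Module k Y] (f : Y → X)
    (hf : Function.Injective f) :
    Module.Finite k Y ∧ finrank (ZMod p) k * finrank k Y ≤ finrank (ZMod p) X := by
  haveI : NeZero p := ⟨hp.out.ne_zero⟩
  haveI : Finite X := Module.finite_of_finite (ZMod p)
  haveI : Finite Y := Finite.of_injective f hf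
  haveI : Module.Finite (ZMod p) k := Module.Finite.of_finite
  haveI : Module.Finite k Y := Module.Finite.of_finite
  refine ⟨inferInstance, ?_⟩
  have h1 := Nat.card_le_card_of_injective f hf
  rw [Module.natCard_eq_pow_finrank (K := k) (V := Y),
    Module.natCard_eq_pow_finrank (K := ZMod p) (V := X),
    Module.natCard_eq_pow_finrank (K := ZMod p) (V := k), Nat.card_zmod, ← pow_mul] at h1
  exact (Nat.pow_le_pow_iff_right hp.out.one_lt).mp h1

theorem dim_ge_of_inj [Finite k] {X Y : Type*} [AddCommGroup X] [Module (ZMod p) X]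
    [AddCommGroup Y] [Module k Y] [Module.Finite k Y] (f : X → Y)
    (hf : Function.Injective f) :
    finrank (ZMod p) X ≤ finrank (ZMod p) k * finrank k Y := by
  haveI : NeZero p := ⟨hp.out.ne_zero⟩
  haveI : Finite Y := Module.finite_of_finite k
  haveI : Finite X := Finite.of_injective f hf
  haveI : Module.Finite (ZMod p) k := Module.Finite.of_finite
  haveI : Module.Finite (ZMod p) X := Module.Finite.of_finite
  have h1 := Nat.card_le_card_of_injective f hf
  rw [Module.natCard_eq_pow_finrank (K := k) (V := Y),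
    Module.natCard_eq_pow_finrank (K := ZMod p) (V := X),
    Module.natCard_eq_pow_finrank (K := ZMod p) (V := k), Nat.card_zmod, ← pow_mul] at h1
  exact (Nat.pow_le_pow_iff_right hp.out.one_lt).mp h1

/-- the trace pairing -/
noncomputable def trP (L : k →ₗ[ZMod p] ZMod p) : sl2 k →ₗ[ZMod p] sl2 k →ₗ[ZMod p] ZMod p :=
  LinearMap.mk₂ (ZMod p) (fun X Y => L ((X.1 * Y.1).trace))
    (fun X X' Y => by rw [Submodule.coe_add, add_mul, Matrix.trace_add, map_add])
    (fun t X Y => by
      have : ((t • X : sl2 k) : Matrix (Fin 2) (Fin 2) k) = t • X.1 := rfl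
      rw [this, smul_mul_assoc, Matrix.trace_smul, map_smul])
    (fun X Y Y' => by rw [Submodule.coe_add, mul_add, Matrix.trace_add, map_add])
    (fun t X Y => by
      have : ((t • Y : sl2 k) : Matrix (Fin 2) (Fin 2) k) = t • Y.1 := rfl
      rw [this, mul_smul_comm, Matrix.trace_smul, map_smul])

theorem trP_apply (L : k →ₗ[ZMod p] ZMod p) (X Y : sl2 k) :
    trP L X Y = L ((X.1 * Y.1).trace) := rfl

theorem trP_comm (L : k →ₗ[ZMod p] ZMod p) (X Y : sl2 k) : trP L X Y = trP L Y X := by
  rw [trP_apply, trP_apply, Matrix.trace_mul_comm]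

theorem trP_inj (h2 : (2 : k) ≠ 0) {L : k →ₗ[ZMod p] ZMod p} (hL : L ≠ 0) {X : sl2 k}
    (h : ∀ Y, trP L X Y = 0) : X = 0 := by
  -- the trace vanishes
  have h1 : ∀ Y : sl2 k, (X.1 * Y.1).trace = 0 := by
    intro Y
    by_contra hne
    apply hL
    refine LinearMap.ext fun t => ?_
    have h3 := h (((X.1 * Y.1).trace⁻¹ * t) • Y)
    rw [trP_apply] at h3
    have h4 : (((((X.1 * Y.1).trace⁻¹ * t) • Y : sl2 k)) : Matrix (Fin 2) (Fin 2) k) =
        ((X.1 * Y.1).trace⁻¹ * t) • Y.1 := rfl
    rw [h4, mul_smul_comm, Matrix.trace_smul, smul_eq_mul, mul_right_comm,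
      inv_mul_cancel₀ hne, one_mul] at h3
    rw [h3]
    rfl
  have hX := mem_sl2.mp X.2
  rw [Matrix.trace_fin_two] at hX
  have e1 := h1 ⟨!![0, 1; 0, 0], by rw [mem_sl2, Matrix.trace_fin_two]; simp⟩
  have e2 := h1 ⟨!![0, 0; 1, 0], by rw [mem_sl2, Matrix.trace_fin_two]; simp⟩
  have e3 := h1 ⟨!![1, 0; 0, -1], by rw [mem_sl2, Matrix.trace_fin_two]; simp⟩
  simp only [Matrix.trace_fin_two, Matrix.mul_apply, Fin.sum_univ_two, Matrix.of_apply,
    Matrix.cons_val', Matrix.cons_val_zero, Matrix.cons_val_one, Matrix.cons_val_fin_one,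
    mul_zero, mul_one, add_zero, zero_add, mul_neg] at e1 e2 e3
  have e4 : X.1 0 0 = 0 := by
    have : 2 * X.1 0 0 = 0 := by linear_combination e3 + hX
    exact (mul_eq_zero.mp this).resolve_left h2
  apply Subtype.ext
  ext i j
  fin_cases i <;> fin_cases j
  · exact e4
  · exact e2
  · exact e1
  · change X.1 1 1 = 0
    rw [e4, zero_add] at hX
    exact hX

end Fermat.Agent.PT.GW
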