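import Fermat.Agent.PT.GW1

/-!
# The Greenberg–Wiles inequality for the adjoint representation
-/

set_option autoImplicit false
set_option linter.unusedSectionVars false
set_option linter.style.haveILetI false

namespace Fermat.Agent.PT.GW

open Fermat.Agent.Coh Module Fermat.Agent.GCFT Fermat.Agent.GlobalCFT Fermat.Agent.GalD
  Fermat.Agent.LocalCFT ExtCitation Fermat.Agent.PT.Frame Fermat.Agent.PT.LD Fermat.Agent.RT

/-- The absolute Galois group. -/
local notation "GQ'" => (AlgebraicClosure ℚ ≃ₐ[ℚ] AlgebraicClosure ℚ)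

attribute [local instance] Fermat.Agent.PT.Frame.fq

variable {p : ℕ} [hp : Fact p.Prime] {k : Type} [Field k] [Algebra (ZMod p) k]

section

variable {Γ : Type} [Group Γ] (ρ : Γ →* GL (Fin 2) k) (χ : Γ →* kˣ)

theorem trace_ad (g : Γ) (X Y : sl2 k) :
    ((ad0 ρ g X).1 * (adRep ρ χ g Y).1).trace = (χ g : k) * (X.1 * Y.1).trace := by
  rw [ad0_coe, adRep_coe, mul_smul_comm, Matrix.trace_smul, smul_eq_mul]
  congr 1
  have h1 : (ρ g⁻¹ : Matrix (Fin 2) (Fin 2) k) * (ρ g : Matrix (Fin 2) (Fin 2) k) = 1 := by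
    rw [← Units.val_mul, ← map_mul, inv_mul_cancel, map_one, Units.val_one]
  have h2 : (ρ g : Matrix (Fin 2) (Fin 2) k) * X.1 * (ρ g⁻¹ : Matrix (Fin 2) (Fin 2) k) *
      ((ρ g : Matrix (Fin 2) (Fin 2) k) * Y.1 * (ρ g⁻¹ : Matrix (Fin 2) (Fin 2) k)) =
      (ρ g : Matrix (Fin 2) (Fin 2) k) * (X.1 * ((ρ g⁻¹ : Matrix (Fin 2) (Fin 2) k) *
        (ρ g : Matrix (Fin 2) (Fin 2) k)) * Y.1 * (ρ g⁻¹ : Matrix (Fin 2) (Fin 2) k)) := by
    simp only [mul_assoc]
  rw [h2, h1, mul_one, Matrix.trace_mul_comm, mul_assoc, h1, mul_one]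

end

/-- the duality between `ad⁰` and `ad⁰(1)` -/
noncomputable def dpAd (hp2 : p ≠ 2) {S : Finset Nat.Primes} (hpS : pPrime p ∈ S)
    (h2 : (2 : k) ≠ 0) (ρ : GQ' →* GL (Fin 2) k) (χ : GQ' →* kˣ)
    (hχ : ∀ g, (χ g : k) = algebraMap (ZMod p) k (cycloChar p g)) {L : k →ₗ[ZMod p] ZMod p}
    (hL : L ≠ 0) : DP (fr p hp2 S hpS).μ (resR p (ad0 ρ)) (resR p (adRep ρ χ)) where
  β := trP L
  inj X h := trP_inj h2 hL h
  inj' Y h := trP_inj h2 hL fun X => by rw [trP_comm]; exact h X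
  eqv g X Y := by
    rw [resR_apply, resR_apply, trP_apply, trP_apply, trace_ad, hχ, ← Algebra.smul_def, map_smul]
    rfl

theorem sum_sub {S Q : Finset Nat.Primes} (hQS : Q ⊆ S) (f : Nat.Primes → ℕ) :
    ∑ v ∈ (Finset.univ : Finset ↥S).filter (fun v => v.1 ∈ Q), f v.1 = ∑ q ∈ Q, f q := by
  refine Finset.sum_bij (fun v _ => v.1) (fun v hv => (Finset.mem_filter.mp hv).2)
    (fun v _ w _ h => Subtype.ext h) (fun q hq => ⟨⟨q, hQS hq⟩, ?_, rfl⟩) (fun v _ => rfl)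
  rw [Finset.mem_filter]
  exact ⟨Finset.mem_univ _, hq⟩

theorem aQ_mono {k : Type} [Field k] {Γ : Type} [Group Γ] (D : Frame k Γ) {V : Type}
    [AddCommGroup V] [Module k V] {ρ : Representation k Γ V} [Module.Finite k (H1 D.𝓤 ρ)]
    (Q : Finset D.ι) {A : Submodule k (H1 D.𝓤 ρ)}
    (h : ∀ z : ↥(Z1 D.𝓤 ρ), H1.mk D.𝓤 ρ z ∈ A → ∀ v, v ∉ Q →
      ∃ Y : V, ∀ δ : D.G v, (z : Γ → V) (D.r v δ) = ρ (D.r v δ) Y - Y) :
    finrank k A ≤ finrank k (aQ D ρ Q) := by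
  refine Submodule.finrank_mono fun x hx => ?_
  obtain ⟨z, rfl⟩ := H1.mk_surjective x
  intro v hv
  rw [Mor.mapH1_mk, H1.mk_eq_zero]
  exact h z hx v hv

theorem bQ_triv {k : Type} [Field k] {Γ : Type} [Group Γ] {D : Frame k Γ} {V : Type}
    [AddCommGroup V] [Module k V] {ρ : Representation k Γ V}
    {Q : Finset D.ι} {z : ↥(Z1 D.𝓤 ρ)} (h : H1.mk D.𝓤 ρ z ∈ bQ D ρ Q) (v : D.ι) (hv : v ∈ Q) :
      ∃ Y : V, ∀ δ : D.G v, (z : Γ → V) (D.r v δ) = ρ (D.r v δ) Y - Y := by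
  have h1 := h v hv
  rw [Mor.mapH1_mk, H1.mk_eq_zero] at h1
  exact h1

theorem gw_count' {M N : Type} [AddCommGroup M] [Module (ZMod p) M]
    [FiniteDimensional (ZMod p) M] [AddCommGroup N] [Module (ZMod p) N]
    [FiniteDimensional (ZMod p) N] {ρM : Representation (ZMod p) GQ' M}
    {ρN : Representation (ZMod p) GQ' N} (hp2 : p ≠ 2) {S : Finset Nat.Primes}
    (hpS : pPrime p ∈ S) (B : DP (fr p hp2 S hpS).μ ρM ρN) (hM : SmRep (famS S) ρM)
    {k : Type} [Field k] [Finite k] [CharP k p]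
    (r : GQ' →* GL (Fin 2) k) (hr : (famS S).IsOpen r.ker)
    (ht : ∀ u ∈ r.ker ⊓ (cycloChar p).ker, ∀ v, ρN u v = v)
    {Q T : Finset Nat.Primes} (hQS : Q ⊆ S) (hTS : T ⊆ S) (hQT : Disjoint Q T)
    (hQp : ∀ q ∈ Q, (q : ℕ) ≠ p)
    (hQM : ∀ q ∈ Q, ∀ g ∈ RT.Il (q : ℕ), ∀ m, ρM (rl q g) m = m)
    (hQN : ∀ z ∈ Z1 (famS S) ρN, (∀ q ∈ Q, LocTriv q ρN z) → z ∈ B1 ρN)
    (A : Submodule (ZMod p) (H1 (famS S) ρM))
    (hA : ∀ z : ↥(Z1 (famS S) ρM), H1.mk (famS S) ρM z ∈ A → ∀ v ∈ S, v ∉ Q →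
      LocTriv v ρM (z : GQ' → M)) :
    Module.Finite (ZMod p) (H1 (famS S) ρM) ∧
    finrank (ZMod p) A + finrank (ZMod p) ↥(H0 ρN) +
      finrank (ZMod p) (EU.mns complexConjugation ρN) +
      ∑ v ∈ T, finrank (ZMod p) ↥(H0 (ρM.comp (rl v))) ≤
      finrank (ZMod p) ↥(H0 ρM) + ∑ v ∈ Q, finrank (ZMod p) ↥(H0 (ρN.comp (rl v))) := by
  classical
  let Q' : Finset ↥S := (Finset.univ : Finset ↥S).filter fun v => v.1 ∈ Q
  let T' : Finset ↥S := (Finset.univ : Finset ↥S).filter fun v => v.1 ∈ T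
  have hQ' : ∀ v : ↥S, v ∈ Q' ↔ v.1 ∈ Q := fun v => by
    rw [Finset.mem_filter]
    exact ⟨fun h => h.2, fun h => ⟨Finset.mem_univ _, h⟩⟩
  have hT' : ∀ v : ↥S, v ∈ T' ↔ v.1 ∈ T := fun v => by
    rw [Finset.mem_filter]
    exact ⟨fun h => h.2, fun h => ⟨Finset.mem_univ _, h⟩⟩
  have hd : Disjoint Q' T' := by
    rw [Finset.disjoint_left]
    intro v hv hv'
    exact Finset.disjoint_left.mp hQT ((hQ' v).mp hv) ((hT' v).mp hv')
  have hb : finrank (ZMod p) (bQ (fr p hp2 S hpS) ρN Q') = 0 := by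
    have : bQ (fr p hp2 S hpS) ρN Q' = ⊥ := by
      rw [eq_bot_iff]
      intro x hx
      obtain ⟨z, rfl⟩ := H1.mk_surjective x
      rw [Submodule.mem_bot, H1.mk_eq_zero, ← mem_B1]
      refine hQN z.1 z.2 fun q hq => ?_
      exact bQ_triv (D := fr p hp2 S hpS) hx ⟨q, hQS hq⟩ ((hQ' _).mpr hq)
    rw [this, finrank_bot]
  obtain ⟨h1, h2⟩ := gw_count hp2 hpS B hM r hr ht Q' T' hd
    (fun v hv => hQp v.1 ((hQ' v).mp hv)) (fun v hv => hQM v.1 ((hQ' v).mp hv)) hb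
  refine ⟨h1, ?_⟩
  have h3 : finrank (ZMod p) A ≤ finrank (ZMod p) (aQ (fr p hp2 S hpS) ρM Q') := by
    haveI : Module.Finite (ZMod p) (H1 (fr p hp2 S hpS).𝓤 ρM) := h1
    exact aQ_mono (fr p hp2 S hpS) Q' fun z hx v hv =>
      hA z hx (show ↥S from v).1 (show ↥S from v).2 fun h => hv ((hQ' v).mpr h)
  have h4 := sum_sub hQS (fun q => finrank (ZMod p) ↥(H0 (ρN.comp (rl q))))
  have h5 := sum_sub hTS (fun q => finrank (ZMod p) ↥(H0 (ρM.comp (rl q))))
  rw [← h4, ← h5]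
  refine le_trans ?_ h2
  exact Nat.add_le_add_right (Nat.add_le_add_right (Nat.add_le_add_right h3 _) _) _

theorem trace_cc {ρ : GQ' →* GL (Fin 2) k} (hdet : (ρ complexConjugation).val.det = -1) :
    (ρ complexConjugation).val.trace = 0 := by
  have h1 : (ρ complexConjugation).val * (ρ complexConjugation).val = 1 := by
    rw [← Units.val_mul, ← map_mul, complexConjugation_mul_self, map_one, Units.val_one]
  set A := (ρ complexConjugation).val with hA
  rw [Matrix.det_fin_two] at hdet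
  have e00 := congrFun (congrFun h1 0) 0
  have e01 := congrFun (congrFun h1 0) 1
  have e10 := congrFun (congrFun h1 1) 0
  have e11 := congrFun (congrFun h1 1) 1
  simp only [Matrix.mul_apply, Fin.sum_univ_two, Matrix.one_apply_eq, ne_eq, zero_ne_one,
    one_ne_zero, not_false_eq_true, Matrix.one_apply_ne] at e00 e01 e10 e11
  rw [Matrix.trace_fin_two]
  -- `tr² = tr (A²) + 2 det = 0`
  have h2 : (A 0 0 + A 1 1) * (A 0 0 + A 1 1) = 0 := by
    linear_combination e00 + e11 + 2 * hdet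
  exact mul_self_eq_zero.mp h2

section

variable {Γ : Type} [Group Γ] {V : Type} [AddCommGroup V] [Module k V] [Module (ZMod p) V]
  [IsScalarTower (ZMod p) k V]

/-- cocycles for the restriction of scalars -/
def cvZ {𝓤 : Fam Γ} {τ : Representation k Γ V} (z : ↥(Z1 𝓤 τ)) : ↥(Z1 𝓤 (resR p τ)) :=
  ⟨z.1, z.2.1, z.2.2⟩

theorem cvZ_coe {𝓤 : Fam Γ} {τ : Representation k Γ V} (z : ↥(Z1 𝓤 τ)) :
    ((cvZ (p := p) z : ↥(Z1 𝓤 (resR p τ))) : Γ → V) = z.1 := rfl

theorem mk_eq_of_cvZ {𝓤 : Fam Γ} {τ : Representation k Γ V} {z z' : ↥(Z1 𝓤 τ)}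
    (h : H1.mk 𝓤 (resR p τ) (cvZ z) = H1.mk 𝓤 (resR p τ) (cvZ z')) :
    H1.mk 𝓤 τ z = H1.mk 𝓤 τ z' := by
  rw [← sub_eq_zero, ← map_sub, H1.mk_eq_zero] at h ⊢
  exact h

theorem h0_le [Finite k] (τ : Representation k Γ V) [FiniteDimensional (ZMod p) V] :
    finrank (ZMod p) k * finrank k ↥(H0 τ) ≤ finrank (ZMod p) ↥(H0 (resR p τ)) :=
  (dim_le_of_inj (p := p) (k := k) (Y := ↥(H0 τ)) (X := ↥(H0 (resR p τ)))
    (fun x => ⟨x.1, x.2⟩) fun _ _ h => Subtype.ext (congrArg Subtype.val h)).2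

theorem h0_ge [Finite k] (τ : Representation k Γ V) [FiniteDimensional k V] :
    finrank (ZMod p) ↥(H0 (resR p τ)) ≤ finrank (ZMod p) k * finrank k ↥(H0 τ) :=
  dim_ge_of_inj (p := p) (k := k) (Y := ↥(H0 τ)) (X := ↥(H0 (resR p τ)))
    (fun x => ⟨x.1, x.2⟩) fun _ _ h => Subtype.ext (congrArg Subtype.val h)

end

/-- comparison of the classes with local conditions -/
theorem selK_le [Finite k] {V : Type} [AddCommGroup V] [Module k V] [Module (ZMod p) V]
    [IsScalarTower (ZMod p) k V] (τ : Representation k GQ' V) (S : Finset Nat.Primes)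
    {J : Type} (pl : J → Nat.Primes) [Module.Finite (ZMod p) (H1 (famS S) (resR p τ))] :
    Module.Finite k ↥(selK S τ pl) ∧ finrank (ZMod p) k * finrank k ↥(selK S τ pl) ≤
      finrank (ZMod p) ↥(selK S (resR p τ) pl) := by
  have h1 : ∀ x : ↥(selK S τ pl), ∃ z : ↥(Z1 (famS S) τ), H1.mk (famS S) τ z = x.1 :=
    fun x => H1.mk_surjective x.1
  choose z hz using h1
  have h2 : ∀ x : ↥(selK S τ pl), H1.mk (famS S) (resR p τ) (cvZ (z x)) ∈ selK S (resR p τ) pl := by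
    intro x
    rw [mem_selK]
    intro v
    rw [locMap_mk]
    have h3 := ((mem_selK _).mp x.2) v
    rw [← hz, locMap_mk] at h3
    exact h3
  exact dim_le_of_inj (p := p) (k := k) (fun x => ⟨_, h2 x⟩) fun x y h => by
    apply Subtype.ext
    rw [← hz x, ← hz y]
    exact mk_eq_of_cvZ (congrArg Subtype.val h)

theorem resR_comp {Γ Δ : Type} [Group Γ] [Group Δ] {V : Type} [AddCommGroup V] [Module k V]
    [Module (ZMod p) V] [IsScalarTower (ZMod p) k V] (τ : Representation k Γ V) (f : Δ →* Γ) :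
    (resR p τ).comp f = resR p (τ.comp f) := rfl

set_option maxHeartbeats 800000 in
/-- **The Greenberg–Wiles inequality.** -/
theorem gwineq_aux [Finite k] [CharP k p] (hp2 : p ≠ 2) (ρ : GQ' →* GL (Fin 2) k) (χ : GQ' →* kˣ)
    (hχ : ∀ g, (χ g : k) = (ρ g).val.det)
    (hcyc : ∀ g, (χ g : k) = algebraMap (ZMod p) k (cycloChar p g))
    {T Q : Finset Nat.Primes} (hT : ρ.ker ∈ famS T) (hpT : pPrime p ∈ T) (hQT : Disjoint Q T)
    (hinv : ∀ X : sl2 k, (∀ g, ad0 ρ g X = X) → X = 0)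
    (hQ : ∀ z ∈ Z1 (famS (T ∪ Q)) (adRep ρ χ), (∀ q ∈ Q, LocTriv q (adRep ρ χ) z) →
      z ∈ B1 (adRep ρ χ)) : GWineq ρ χ T Q := by
  haveI : NeZero p := ⟨hp.out.ne_zero⟩
  have h2 : (2 : k) ≠ 0 := by
    intro h
    have h3 : ((2 : ℕ) : k) = 0 := by exact_mod_cast h
    rw [CharP.cast_eq_zero_iff k p, Nat.prime_dvd_prime_iff_eq hp.out Nat.prime_two] at h3
    exact hp2 h3
  haveI : Module.Finite (ZMod p) k := Module.Finite.of_finite
  haveI hfs : Module.Finite (ZMod p) (sl2 k) := Module.Finite.of_finite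
  have hpS : pPrime p ∈ T ∪ Q := Finset.mem_union_left _ hpT
  have hTS : T ⊆ T ∪ Q := Finset.subset_union_left
  have hr : ρ.ker ∈ famS (T ∪ Q) := famS_mono hTS hT
  obtain ⟨L, hL⟩ : ∃ L : k →ₗ[ZMod p] ZMod p, L ≠ 0 := by
    by_contra hcon
    push Not at hcon
    have h3 : (1 : k) = 0 := (Module.forall_dual_apply_eq_zero_iff (ZMod p) (1 : k)).mp fun f => by
      rw [hcon f]
      rfl
    exact one_ne_zero h3
  have hkerχ : ∀ t, ρ t = 1 → χ t = 1 := fun t ht => by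
    apply Units.ext
    rw [hχ, ht, Units.val_one, Matrix.det_one, Units.val_one]
  have hadρ : ∀ t, ρ t = 1 → ∀ X : sl2 k, ad0 ρ t X = X := fun t ht X =>
    adRep_of_one ρ 1 ht rfl X
  have hM : SmRep (famS (T ∪ Q)) (resR p (ad0 ρ)) := fun X => ⟨_, hr, fun u hu => hadρ u hu X⟩
  obtain ⟨hf, hcount⟩ := gw_count' (p := p) hp2 hpS (dpAd hp2 hpS h2 ρ χ hcyc hL) hM ρ
    (Fam.isOpen_of_mem hr) (fun u hu v => adRep_of_one ρ χ hu.1 (hkerχ u hu.1) v)
    (Q := Q) (T := T) Finset.subset_union_right hTS hQT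
    (fun v hv h3 => by
      have h4 : v = pPrime p := Subtype.ext h3
      exact Finset.disjoint_left.mp hQT hv (h4 ▸ hpT))
    (fun v hv g hg m => hadρ _ (hT.2.2 v (fun h => Finset.disjoint_left.mp hQT hv h) _
        (nonunits_padicPlace v) (rl_mem_inertia hg)) m)
    (fun z hz hz' => hQ z ⟨hz.1, hz.2⟩ hz')
    (selK (T ∪ Q) (resR p (ad0 ρ)) (fun v : T => v.1))
    (fun z hz v hv hvQ => by
      have hvT : v ∈ T := (Finset.mem_union.mp hv).resolve_right hvQ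
      exact locMap_mk.mp (((mem_selK _).mp hz) ⟨v, hvT⟩))
  haveI := hf
  obtain ⟨k1, k2⟩ := selK_le (p := p) (ad0 ρ) (T ∪ Q) (fun v : T => v.1)
  refine ⟨k1, ?_⟩
  -- the invariants
  have k3 : finrank (ZMod p) ↥(H0 (resR p (ad0 ρ))) = 0 := by
    have : H0 (resR p (ad0 ρ)) = ⊥ := by
      rw [eq_bot_iff]
      intro X hX
      exact hinv X hX
    rw [this, finrank_bot]
  -- the minus part
  have hdet : (ρ complexConjugation).val.det = -1 := by
    rw [← hχ, hcyc, cycloChar_cc, Units.val_neg, Units.val_one, map_neg, map_one]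
  have k4 : finrank (ZMod p) k ≤ finrank (ZMod p) (EU.mns complexConjugation (resR p (adRep ρ χ))) := by
    set X : sl2 k := ⟨(ρ complexConjugation).val, mem_sl2.mpr (trace_cc hdet)⟩ with hX
    have hXX : adRep ρ χ complexConjugation X = -X := by
      apply Subtype.ext
      rw [adRep_coe, hχ, hdet, hX]
      change (-1 : k) • ((ρ complexConjugation).val * (ρ complexConjugation).val *
        (ρ complexConjugation⁻¹).val) = -(ρ complexConjugation).val
      rw [mul_assoc, ← Units.val_mul (ρ complexConjugation) (ρ complexConjugation⁻¹), ← map_mul,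
        mul_inv_cancel, map_one, Units.val_one, mul_one, neg_smul, one_smul]
    have hX0 : X ≠ 0 := by
      intro h
      have h3 : (ρ complexConjugation).val = 0 := congrArg Subtype.val h
      rw [h3, Matrix.det_zero] at hdet
      exact one_ne_zero (neg_eq_zero.mp hdet.symm)
    have hmem : ∀ t : k, t • X ∈ EU.mns complexConjugation (resR p (adRep ρ χ)) := by
      intro t
      change adRep ρ χ complexConjugation (t • X) = -(t • X)
      rw [map_smul, hXX, smul_neg]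
    have h3 := (dim_le_of_inj (p := p) (k := k) (Y := k)
      (X := EU.mns complexConjugation (resR p (adRep ρ χ))) (fun t => ⟨t • X, hmem t⟩)
      fun s t h => smul_left_injective k hX0 (congrArg Subtype.val h)).2
    rwa [finrank_self, mul_one] at h3
  have k5 : ∀ v : Nat.Primes, finrank (ZMod p) k * finrank k ↥(H0 ((ad0 ρ).comp (rl v))) ≤
      finrank (ZMod p) ↥(H0 ((resR p (ad0 ρ)).comp (rl v))) := fun v => by
    rw [resR_comp]
    exact h0_le _
  have k6 : ∀ v : Nat.Primes, finrank (ZMod p) ↥(H0 ((resR p (adRep ρ χ)).comp (rl v))) ≤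
      finrank (ZMod p) k * finrank k ↥(H0 ((adRep ρ χ).comp (rl v))) := fun v => by
    rw [resR_comp]
    exact h0_ge _
  have k7 : ∑ v : T, finrank k ↥(H0 ((ad0 ρ).comp (rl v.1))) =
      ∑ v ∈ T, finrank k ↥(H0 ((ad0 ρ).comp (rl v))) :=
    Finset.sum_coe_sort T (fun v => finrank k ↥(H0 ((ad0 ρ).comp (rl v))))
  rw [k7]
  have hd : 0 < finrank (ZMod p) k := finrank_pos
  refine Nat.le_of_mul_le_mul_left ?_ hd
  rw [mul_add, mul_add, mul_one, Finset.mul_sum, Finset.mul_sum]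
  have k8 := Finset.sum_le_sum (s := T) fun v _ => k5 v
  have k9 := Finset.sum_le_sum (s := Q) fun v _ => k6 v
  rw [k3] at hcount
  omega

/-- **The Greenberg–Wiles inequality.** -/
theorem gwineq {p : ℕ} [hp : Fact p.Prime] {k : Type} [Field k] [Finite k] [CharP k p]
    (hp2 : p ≠ 2) (ρ : GQ' →* GL (Fin 2) k) (χ : GQ' →* kˣ)
    (hχ : ∀ g, (χ g : k) = (ρ g).val.det)
    (hcyc : ∀ g, (χ g : k) = ZMod.castHom (dvd_refl p) k (cycloChar p g))
    {T Q : Finset Nat.Primes} (hT : ρ.ker ∈ famS T) (hpT : pPrime p ∈ T) (hQT : Disjoint Q T)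
    (hinv : ∀ X : sl2 k, (∀ g, ad0 ρ g X = X) → X = 0)
    (hQ : ∀ z ∈ Z1 (famS (T ∪ Q)) (adRep ρ χ), (∀ q ∈ Q, LocTriv q (adRep ρ χ) z) →
      z ∈ B1 (adRep ρ χ)) : GWineq ρ χ T Q := by
  letI : Algebra (ZMod p) k := ZMod.algebra k p
  exact gwineq_aux hp2 ρ χ hχ hcyc hT hpT hQT hinv hQ

end Fermat.Agent.PT.GW
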