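import Fermat.Agent.PT.GW2
import Fermat.Agent.RT.IndexTwoTW

/-!
# Taylor–Wiles primes, unconditionally
-/

set_option autoImplicit false
set_option linter.unusedSectionVars false
set_option linter.style.haveILetI false

namespace Fermat.Agent.PT.GW

open Fermat.Agent.Coh Module Fermat.Agent.GCFT Fermat.Agent.GlobalCFT Fermat.Agent.GalD
  Fermat.Agent.LocalCFT ExtCitation Fermat.Agent.PT.Frame Fermat.Agent.PT.LD Fermat.Agent.RT
  Fermat.Agent.ESCore

/-- The absolute Galois group. -/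
local notation "GQ'" => (AlgebraicClosure ℚ ≃ₐ[ℚ] AlgebraicClosure ℚ)

attribute [local instance] Fermat.Agent.PT.Frame.fq

/-- the two cyclotomic characters agree -/
theorem cyc_eq_cycloChar (p : ℕ) [hp : Fact p.Prime] (g : GQ') : ESCore.cyc p g = cycloChar p g := by
  have h1 := cyc_spec (m := p) g (zt_spec p).pow_eq_one
  rw [cycloChar_spec] at h1
  have h2 := (zt_spec p).pow_inj (ZMod.val_lt _) (ZMod.val_lt _) h1
  exact Units.ext (ZMod.val_injective p h2).symm

/-- finiteness of the first cohomology group -/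
theorem finite_H1_k {p : ℕ} [hp : Fact p.Prime] {k : Type} [Field k] [Finite k] [CharP k p]
    (hp2 : p ≠ 2) {T : Finset Nat.Primes} (hpT : pPrime p ∈ T) {V : Type} [AddCommGroup V]
    [Module k V] [FiniteDimensional k V] {τ : Representation k GQ' V} (hτ : SmRep (famS T) τ) :
    FiniteDimensional k (H1 (famS T) τ) := by
  letI : Algebra (ZMod p) k := ZMod.algebra k p
  letI : Module (ZMod p) V := Module.compHom V (algebraMap (ZMod p) k)
  haveI : IsScalarTower (ZMod p) k V := IsScalarTower.of_compHom (ZMod p) k V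
  haveI : Finite V := Module.finite_of_finite k
  haveI : Module.Finite (ZMod p) V := Module.Finite.of_finite
  haveI : NeZero p := ⟨hp.out.ne_zero⟩
  haveI := finite_H1 (good_fr (p := p) hp2 hpT) (ρ := resR p τ) hτ
  have h1 : ∀ x : H1 (famS T) τ, ∃ z : ↥(Z1 (famS T) τ), H1.mk (famS T) τ z = x :=
    H1.mk_surjective
  choose z hz using h1
  exact (dim_le_of_inj (p := p) (k := k) (Y := H1 (famS T) τ)
    (X := H1 (fr p hp2 T hpT).𝓤 (resR p τ)) (fun x => H1.mk (famS T) (resR p τ) (cvZ (z x)))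
    fun x y h => by
      rw [← hz x, ← hz y]
      exact mk_eq_of_cvZ h).1

/-- no invariants in `ad⁰` when the image spans the matrix algebra -/
theorem inv_of_span {k : Type*} [Field k] (h2 : (2 : k) ≠ 0) {Γ : Type*} [Group Γ]
    {ρ : Γ →* GL (Fin 2) k} {H : Subgroup Γ} (hspan : Submodule.span k (imgSet ρ H) = ⊤)
    {X : sl2 k} (hX : ∀ g, ad0 ρ g X = X) : X = 0 := by
  have h1 : ∀ M : Matrix (Fin 2) (Fin 2) k, M * X.1 = X.1 * M := by
    intro M
    have hM : M ∈ Submodule.span k (imgSet ρ H) := by rw [hspan]; trivial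
    induction hM using Submodule.span_induction with
    | mem A hA =>
      obtain ⟨g, -, rfl⟩ := hA
      have h3 := congrArg Subtype.val (hX g)
      rw [ad0_coe] at h3
      have h4 : (ρ g⁻¹ : Matrix (Fin 2) (Fin 2) k) * (ρ g : Matrix (Fin 2) (Fin 2) k) = 1 := by
        rw [← Units.val_mul, ← map_mul, inv_mul_cancel, map_one, Units.val_one]
      calc (ρ g).val * X.1 = (ρ g).val * X.1 * ((ρ g⁻¹).val * (ρ g).val) := by rw [h4, mul_one]
        _ = ((ρ g).val * X.1 * (ρ g⁻¹).val) * (ρ g).val := by rw [mul_assoc _ _ (ρ g).val]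
        _ = X.1 * (ρ g).val := by rw [h3]
    | zero => rw [zero_mul, mul_zero]
    | add A B _ _ hA hB => rw [add_mul, mul_add, hA, hB]
    | smul t A _ hA => rw [smul_mul_assoc, mul_smul_comm, hA]
  have hX := mem_sl2.mp X.2
  rw [Matrix.trace_fin_two] at hX
  have e1 := h1 !![0, 1; 0, 0]
  have e2 := h1 !![0, 0; 1, 0]
  have f1 := congrFun (congrFun e1 0) 0
  have f2 := congrFun (congrFun e2 0) 0
  have f3 := congrFun (congrFun e1 0) 1
  simp only [Matrix.mul_apply, Fin.sum_univ_two, Matrix.of_apply,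
    Matrix.cons_val', Matrix.cons_val_zero, Matrix.cons_val_one, Matrix.cons_val_fin_one,
    mul_zero, mul_one, add_zero, zero_add, zero_mul, one_mul] at f1 f2 f3
  have e4 : X.1 0 0 = 0 := by
    have : 2 * X.1 0 0 = 0 := by linear_combination hX - f3
    exact (mul_eq_zero.mp this).resolve_left h2
  apply Subtype.ext
  ext i j
  fin_cases i <;> fin_cases j
  · exact e4
  · exact f2.symm
  · exact f1
  · change X.1 1 1 = 0
    rw [e4, zero_add] at hX
    exact hX

/-- **Taylor–Wiles primes.** -/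
theorem exists_TW {p : ℕ} [hp : Fact p.Prime] {k : Type} [Field k] [Finite k] [CharP k p]
    (hp2 : p ≠ 2) (ρ : GQ' →* GL (Fin 2) k) (χ : GQ' →* kˣ)
    (hχ : ∀ g, (χ g : k) = (ρ g).val.det)
    (hcyc : ∀ g, (χ g : k) = ZMod.castHom (dvd_refl p) k (ESCore.cyc p g))
    {T : Finset Nat.Primes} (hT : ρ.ker ∈ famS T) (hpT : pPrime p ∈ T)
    (hvan : ∀ c ∈ Z1 (famS T) (adRep ρ χ), (∀ t, ρ t = 1 → c t = 0) → c ∈ B1 (adRep ρ χ))
    (hspan : ∀ n, Submodule.span k (imgSet ρ (ESCore.cyc (p ^ n)).ker) = ⊤) {n : ℕ} (hn : 0 < n)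
    (bad : Finset Nat.Primes) :
    ∃ Q : Finset Nat.Primes, Q.card = finrank k (H1 (famS T) (adRep ρ χ)) ∧
      Disjoint Q (T ∪ bad) ∧ (∀ q ∈ Q, IsTW ρ p n q) ∧
      FiniteDimensional k (selK (T ∪ Q) (ad0 ρ) (fun v : T => v.1)) ∧
      Module.finrank k (selK (T ∪ Q) (ad0 ρ) (fun v : T => v.1)) +
        ∑ v : T, Module.finrank k (H0 ((ad0 ρ).comp (rl v.1))) + 1 ≤
          finrank k (H1 (famS T) (adRep ρ χ)) := by
  have h2 : (2 : k) ≠ 0 := by
    intro h
    have h3 : ((2 : ℕ) : k) = 0 := by exact_mod_cast h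
    rw [CharP.cast_eq_zero_iff k p, Nat.prime_dvd_prime_iff_eq hp.out Nat.prime_two] at h3
    exact hp2 h3
  have hkerχ : ∀ t, ρ t = 1 → χ t = 1 := fun t ht => by
    apply Units.ext
    rw [hχ, ht, Units.val_one, Matrix.det_one, Units.val_one]
  haveI : Module.Finite k (sl2 k) := inferInstance
  haveI := finite_H1_k (p := p) hp2 hpT (τ := adRep ρ χ)
    (fun X => ⟨_, hT, fun u hu => adRep_of_one ρ χ hu (hkerχ u hu) X⟩)
  refine exists_TW_numerical h2 (fun g hg => ?_) hχ hT hvan (fun Q hQT hQ => ?_) le_rfl hn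
    (hspan n) bad
  · rw [← hχ, hcyc, hg, Units.val_one, map_one]
  · exact gwineq hp2 ρ χ hχ (fun g => by rw [hcyc, cyc_eq_cycloChar]) hT hpT hQT
      (fun X hX => inv_of_span h2 (hspan 0) hX) hQ

set_option maxHeartbeats 1000000 in
/-- **Taylor–Wiles primes** for the `p`-torsion of a semistable curve. -/
theorem exists_TW_semistable {W : WeierstrassCurve ℤ} (hΔ : W.Δ ≠ 0) (hW : W.IsSemistableModel)
    {p : ℕ} [hp : Fact p.Prime] (hp2 : p ≠ 2) (hirr : W.ModRepIsIrreducible p)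
    (b : Module.Basis (Fin 2) (ZMod p) (EC.TorsP (W.map (Int.castRingHom ℚ)) p))
    {k : Type} [Field k] [Finite k] [Algebra (ZMod p) k] (ρ : GQ' →* GL (Fin 2) k)
    (hρ : ρ = bc (k := ZMod p) k (modRep b)) {χ : GQ' →* kˣ}
    (hχ : ∀ g, (χ g : k) = (ρ g).val.det)
    {T : Finset Nat.Primes} (hT : ρ.ker ∈ famS T) (hpT : pPrime p ∈ T)
    {n : ℕ} (hn : 0 < n) (bad : Finset Nat.Primes) :
    ∃ Q : Finset Nat.Primes, Q.card = finrank k (H1 (famS T) (adRep ρ χ)) ∧
      Disjoint Q (T ∪ bad) ∧ (∀ q ∈ Q, IsTW ρ p n q) ∧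
      FiniteDimensional k (selK (T ∪ Q) (ad0 ρ) (fun v : T => v.1)) ∧
      Module.finrank k (selK (T ∪ Q) (ad0 ρ) (fun v : T => v.1)) +
        ∑ v : T, Module.finrank k (H0 ((ad0 ρ).comp (rl v.1))) + 1 ≤
          finrank k (H1 (famS T) (adRep ρ χ)) := by
  haveI : CharP k p := charP_of_algebra
  have h1 : ∀ g, (χ g : k) = ZMod.castHom (dvd_refl p) k (ESCore.cyc p g) := by
    intro g
    rw [hχ, hρ, det_bc_modRep hΔ b g]
    exact RingHom.congr_fun (Subsingleton.elim _ _) _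
  have h2 : ∀ c ∈ Z1 (famS T) (adRep ρ χ),
      (∀ t, ρ t = 1 → c t = 0) → c ∈ B1 (adRep ρ χ) := by
    subst hρ
    exact fun c hc hker => hvan_semistable hΔ hp2 hirr b hχ hc.2 hker
  have h3 : ∀ n, Submodule.span k (imgSet ρ (ESCore.cyc (p ^ n)).ker) = ⊤ := by
    subst hρ
    exact fun n => span_imgSet_semistable hΔ hW hp2 hirr b n
  exact exists_TW hp2 ρ χ hχ h1 hT hpT h2 h3 hn bad

end Fermat.Agent.PT.GW
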