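import Fermat.Agent.PT.EFfr
import Fermat.Agent.PT.Main
import Fermat.Agent.GCFT.Rec2

/-!
# The concrete frame is good, given (Q0)
-/

set_option autoImplicit false

namespace Fermat.Agent.PT

open Fermat.Agent.Coh Fermat.Agent.GCFT ExtCitation

/-- The absolute Galois group. -/
local notation "GQ" => (AlgebraicClosure ℚ ≃ₐ[ℚ] AlgebraicClosure ℚ)

variable {p : ℕ} [hp : Fact p.Prime] (hp2 : p ≠ 2) {S : Finset Nat.Primes} (hpS : pPrime p ∈ S)

/-- The concrete frame is good, given (Q0). -/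
theorem good_of (hQ : ∀ (U : Subgroup GQ) [U.FiniteIndex], U ∈ famS S →
    (∀ u ∈ U, cycloChar p u = 1) → (fr p hp2 S hpS).Q0 U) : (fr p hp2 S hpS).Good where
  recip := rec_fr hp2 hpS
  ln := ln_fr p hp2 S hpS
  q0 := hQ
  ef := fun _ hU hχ => ef_fr hp2 hpS hU hχ

end Fermat.Agent.PT
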