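import Fermat.Agent.PT.Conc

/-!
# Krasner's lemma: every finite extension of `ℚ_l` comes from a number field
-/

set_option autoImplicit false
set_option linter.unusedSectionVars false
set_option linter.style.haveILetI false

namespace Fermat.Agent.PT

open Fermat.Agent.Coh Fermat.Agent.GCFT Fermat.Agent.GlobalCFT Fermat.Agent.GalD
  Fermat.Agent.LocalCFT Module ExtCitation Polynomial

/-- The field of algebraic numbers. -/
local notation "Qb" => AlgebraicClosure ℚ
/-- The absolute Galois group. -/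
local notation "GQ" => (AlgebraicClosure ℚ ≃ₐ[ℚ] AlgebraicClosure ℚ)

/-- algebraic numbers are dense in the algebraic closure of `ℚ_l` -/
theorem exists_close (l : Nat.Primes) (a : Om l) {δ : ℝ} (hδ : 0 < δ) :
    ∃ b : Qb, ‖a - il l b‖ < δ := by
  have hint : IsIntegral ℚ_[(l : ℕ)] a := Algebra.IsIntegral.isIntegral _
  set f : ℚ_[(l : ℕ)][X] := minpoly ℚ_[(l : ℕ)] a with hf
  have fmon : f.Monic := minpoly.monic hint
  have fa0 : f.aeval a = 0 := minpoly.aeval _ _
  have fnatdeg0 : f.natDegree ≠ 0 := (minpoly.natDegree_pos hint).ne'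
  have hε : (δ / (max ‖a‖ 1)) ^ f.natDegree / (f.natDegree + 1) > 0 := by positivity
  have hi : DenseRange (algebraMap ℚ ℚ_[(l : ℕ)]) := Padic.denseRange_ratCast (l : ℕ)
  obtain ⟨g, gmon, gdeg, gcoeff⟩ :=
    exists_monic_and_natDegree_eq_and_norm_map_algebraMap_coeff_sub_lt hi fmon hε
  obtain ⟨b, hb, hab⟩ := exists_aroots_norm_sub_lt_of_norm_coeff_sub_lt (L := Om l)
      hε fa0 fmon (gmon.map _) (gdeg ▸ (g.natDegree_map _)) gcoeff
      (IsAlgClosed.splits _)
  have hab : ‖a - b‖ < δ := by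
    rw [← Real.rpow_natCast, ← mul_comm_div, div_self, one_mul,
        ← Real.rpow_mul (div_pos hδ (by positivity)).le, mul_inv_cancel₀] at hab
    · simpa [mul_assoc, div_mul_cancel₀ _ (by positivity : (max ‖a‖ 1) > 0).ne'] using hab
    · simp [fnatdeg0]
    · positivity
  have hcomp : (algebraMap ℚ_[(l : ℕ)] (Om l)).comp (algebraMap ℚ ℚ_[(l : ℕ)]) =
      ((il l : Qb →ₐ[ℚ] Om l) : Qb →+* Om l).comp (algebraMap ℚ Qb) := Subsingleton.elim _ _
  have hb' : b ∈ (g.map (((il l : Qb →ₐ[ℚ] Om l) : Qb →+* Om l).comp (algebraMap ℚ Qb))).roots := by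
    rw [← hcomp, ← Polynomial.map_map]
    exact hb
  rw [← Polynomial.map_map, Splits.roots_map (IsAlgClosed.splits _), Multiset.mem_map] at hb'
  obtain ⟨c, _, rfl⟩ := hb'
  exact ⟨c, hab⟩

/-- every element of the algebraic closure of `ℚ_l` is contained in `ℚ_l(b)`, `b` algebraic
over `ℚ` -/
theorem exists_mem_adjoin (l : Nat.Primes) (a : Om l) :
    ∃ b : Qb, a ∈ IntermediateField.adjoin ℚ_[(l : ℕ)] {il l b} := by
  classical
  have hint : IsIntegral ℚ_[(l : ℕ)] a := Algebra.IsIntegral.isIntegral _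
  set f : ℚ_[(l : ℕ)][X] := minpoly ℚ_[(l : ℕ)] a with hf
  let S : Finset (Om l) := {x ∈ (f.rootSet (Om l)).toFinset | x ≠ a}
  let δ : ℝ := if hS : S.Nonempty then Finset.min' (S.image fun x => ‖a - x‖)
      (Finset.image_nonempty.mpr hS) else 1
  have norm_sub_le : ∀ a' : Om l, IsConjRoot ℚ_[(l : ℕ)] a a' → a ≠ a' → δ ≤ ‖a - a'‖ := by
    intro a' conj ne
    have hS' : a' ∈ S := by
      simp only [S, Finset.mem_filter, Set.mem_toFinset]
      exact ⟨(isConjRoot_iff_mem_minpoly_rootSet hint).1 conj, ne.symm⟩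
    have hS : S.Nonempty := ⟨a', hS'⟩
    simp only [hS, ↓reduceDIte, δ]
    apply Finset.min'_le (S.image fun x => ‖a - x‖) (‖a - a'‖)
    exact Finset.mem_image_of_mem _ hS'
  have δpos : δ > 0 := by
    by_cases hS : S.Nonempty <;> simp only [hS, ↓reduceDIte, δ]
    · simp only [gt_iff_lt, Finset.lt_min'_iff, Finset.mem_image, forall_exists_index, and_imp,
        forall_apply_eq_imp_iff₂]
      rintro a' ha'
      simp only [Finset.mem_filter, Set.mem_toFinset, S] at ha'
      rw [norm_pos_iff, sub_ne_zero]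
      exact ha'.2.symm
    · linarith
  obtain ⟨b, hb⟩ := exists_close l a δpos
  refine ⟨b, ?_⟩
  exact IsKrasner.krasner (minpoly.irreducible hint).separable
    (IsAlgClosed.splits _) (Algebra.IsIntegral.isIntegral _)
    fun a' h1 h2 ↦ lt_of_lt_of_le hb (norm_sub_le a' h1 h2)

/-- open subgroups of the local Galois group contain the preimages of the Galois groups of
number fields -/
theorem exists_level (l : Nat.Primes) {W : Subgroup (Gl l)} (hW : (LF (l : ℕ)).IsOpen W) :
    ∃ F : IntermediateField ℚ Qb, FiniteDimensional ℚ F ∧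
      ∀ δ : Gl l, rl l δ ∈ F.fixingSubgroup → δ ∈ W := by
  obtain ⟨W', hW', hle⟩ := hW
  obtain ⟨E, hE1, hE2, rfl⟩ := hW'
  obtain ⟨θ, hθ⟩ := Field.exists_primitive_element ℚ_[(l : ℕ)] E
  obtain ⟨b, hb⟩ := exists_mem_adjoin l (θ : Om l)
  have hint : IsIntegral ℚ b := Algebra.IsIntegral.isIntegral _
  refine ⟨IntermediateField.adjoin ℚ {b}, IntermediateField.adjoin.finiteDimensional hint,
    fun δ hδ => hle ?_⟩
  have h1 : rl l δ b = b := hδ ⟨b, IntermediateField.mem_adjoin_simple_self ℚ _⟩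
  have h2 : δ (il l b) = il l b := by rw [← il_rl, h1]
  have h3 : ∀ x ∈ IntermediateField.adjoin ℚ_[(l : ℕ)] {il l b}, δ x = x := by
    intro y hy
    induction hy using IntermediateField.adjoin_induction with
    | mem x hx =>
      rw [Set.mem_singleton_iff] at hx
      rw [hx, h2]
    | algebraMap x => exact δ.commutes x
    | add x y _ _ hx hy => rw [map_add, hx, hy]
    | inv x _ hx => rw [map_inv₀, hx]
    | mul x y _ _ hx hy => rw [map_mul, hx, hy]
  have h4 : δ (θ : Om l) = θ := h3 _ hb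
  rw [IntermediateField.mem_fixingSubgroup_iff]
  intro x hx
  have h5 : (⟨x, hx⟩ : E) ∈ IntermediateField.adjoin ℚ_[(l : ℕ)] {θ} := by
    rw [hθ]
    exact IntermediateField.mem_top
  have h6 : ∀ y : E, y ∈ IntermediateField.adjoin ℚ_[(l : ℕ)] {θ} → δ (y : Om l) = y := by
    intro y hy
    induction hy using IntermediateField.adjoin_induction with
    | mem x hx =>
      rw [Set.mem_singleton_iff] at hx
      rw [hx, h4]
    | algebraMap x => exact δ.commutes x
    | add x y _ _ hx hy =>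
      have e : ((x + y : E) : Om l) = x + y := rfl
      rw [e, map_add, hx, hy]
    | inv x _ hx =>
      have e : ((x⁻¹ : E) : Om l) = (x : Om l)⁻¹ := rfl
      rw [e, map_inv₀, hx]
    | mul x y _ _ hx hy =>
      have e : ((x * y : E) : Om l) = x * y := rfl
      rw [e, map_mul, hx, hy]
  exact h6 _ h5

end Fermat.Agent.PT
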