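import Fermat.Agent.Coh.Cyclic

/-!
# Local duality, abstract form, part 1: the data and the induced modules
-/

set_option autoImplicit false
set_option linter.unusedSectionVars false
set_option linter.style.haveILetI false

namespace Fermat.Agent.PT.LD

open Fermat.Agent.Coh Module

variable {k : Type} [Field k] {G : Type} [Group G] {𝓥 : Fam G} {μ : Representation k G k}
variable {V V' : Type} [AddCommGroup V] [Module k V] [AddCommGroup V'] [Module k V']

section liv

variable (inv : H2 𝓥 μ →ₗ[k] k)

open Classical in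
/-- the invariant, as a function on all `2`-cochains -/
noncomputable def liv (f : G × G → k) : k :=
  if h : f ∈ Z2 𝓥 μ then inv (H2.mk 𝓥 μ ⟨f, h⟩) else 0

variable {inv}

theorem liv_eq {f : G × G → k} (h : f ∈ Z2 𝓥 μ) : liv inv f = inv (H2.mk 𝓥 μ ⟨f, h⟩) := by
  rw [liv, dif_pos h]

theorem liv_add {f f' : G × G → k} (h : f ∈ Z2 𝓥 μ) (h' : f' ∈ Z2 𝓥 μ) :
    liv inv (f + f') = liv inv f + liv inv f' := by
  rw [liv_eq h, liv_eq h', liv_eq (add_mem h h'), ← map_add, ← map_add]
  rfl

theorem liv_sub {f f' : G × G → k} (h : f ∈ Z2 𝓥 μ) (h' : f' ∈ Z2 𝓥 μ) :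
    liv inv (f - f') = liv inv f - liv inv f' := by
  rw [liv_eq h, liv_eq h', liv_eq (sub_mem h h'), ← map_sub, ← map_sub]
  rfl

theorem liv_smul {f : G × G → k} (c : k) (h : f ∈ Z2 𝓥 μ) :
    liv inv (c • f) = c * liv inv f := by
  rw [liv_eq h, liv_eq (Submodule.smul_mem _ c h), ← smul_eq_mul, ← map_smul, ← map_smul]
  rfl

theorem liv_of_mem_B2 {f : G × G → k} (h : f ∈ B2 𝓥 μ) : liv inv f = 0 := by
  by_cases hf : f ∈ Z2 𝓥 μ
  · rw [liv_eq hf]
    have : H2.mk 𝓥 μ ⟨f, hf⟩ = 0 := by
      rw [Submodule.mkQ_apply, Submodule.Quotient.mk_eq_zero]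
      exact h
    rw [this, map_zero]
  · rw [liv, dif_neg hf]

theorem liv_d1 {c : G → k} (hc : 𝓥.Sm1 c) : liv inv (d1 μ c) = 0 :=
  liv_of_mem_B2 ⟨c, hc, rfl⟩

end liv

/-- perfect equivariant pairings -/
structure DP (μ : Representation k G k) (σ : Representation k G V) (σ' : Representation k G V') where
  /-- the pairing -/
  β : V →ₗ[k] V' →ₗ[k] k
  inj : ∀ v, (∀ v', β v v' = 0) → v = 0
  inj' : ∀ v', (∀ v, β v v' = 0) → v' = 0
  eqv : ∀ g v v', β (σ g v) (σ' g v') = μ g (β v v')

namespace DP

variable {σ : Representation k G V} {σ' : Representation k G V'} (B : DP μ σ σ')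

/-- the opposite pairing -/
def op : DP μ σ' σ where
  β := B.β.flip
  inj := B.inj'
  inj' := B.inj
  eqv g v v' := B.eqv g v' v

theorem surj [FiniteDimensional k V] (f : Dual k V') [FiniteDimensional k V'] :
    ∃ v, ∀ v', B.β v v' = f v' := by
  have h1 : Function.Injective B.β := by
    rw [← LinearMap.ker_eq_bot, LinearMap.ker_eq_bot']
    intro v hv
    exact B.inj v fun v' => by rw [hv]; rfl
  have h2 : Function.Injective B.β.flip := by
    rw [← LinearMap.ker_eq_bot, LinearMap.ker_eq_bot']
    intro v hv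
    exact B.inj' v fun v' => by
      have := LinearMap.congr_fun hv v'
      simpa using this
  have h3 : finrank k V = finrank k (Dual k V') := by
    rw [Subspace.dual_finrank_eq]
    apply le_antisymm
    · rw [← Subspace.dual_finrank_eq (V := V')]
      exact LinearMap.finrank_le_finrank_of_injective h1
    · rw [← Subspace.dual_finrank_eq (V := V)]
      exact LinearMap.finrank_le_finrank_of_injective h2
  obtain ⟨v, hv⟩ := (LinearMap.injective_iff_surjective_of_finrank_eq_finrank h3).mp h1 f
  exact ⟨v, fun v' => by rw [hv]⟩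

/-- the cup product of cochains -/
def cup (x : G → V) (w : G → V') : G × G → k := fun q => B.β (x q.1) (σ' q.1 (w q.2))

theorem cup_apply (x : G → V) (w : G → V') (q : G × G) :
    B.cup x w q = B.β (x q.1) (σ' q.1 (w q.2)) := rfl

theorem sm_cup (hσ' : SmRep 𝓥 σ') {x : G → V} {w : G → V'} (hx : 𝓥.Sm1 x) (hw : 𝓥.Sm1 w) :
    𝓥.Sm2 (B.cup x w) :=
  (hx.sm2_fst).post₂ (hσ'.sm2_act hw) (fun a b => B.β a b)

theorem cup_mem (hσ' : SmRep 𝓥 σ') {x : G → V} {w : G → V'} (hx : x ∈ Z1 𝓥 σ)
    (hw : w ∈ Z1 𝓥 σ') : B.cup x w ∈ Z2 𝓥 μ := by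
  refine ⟨B.sm_cup hσ' hx.1 hw.1, fun g h j => ?_⟩
  simp only [cup_apply]
  rw [hx.2, hw.2 h j, ← B.eqv, map_add, map_mul, map_add, LinearMap.add_apply,
    Module.End.mul_apply, map_add]
  abel

theorem cup_add_left (x x' : G → V) (w : G → V') : B.cup (x + x') w = B.cup x w + B.cup x' w := by
  funext q
  simp only [cup_apply, Pi.add_apply, map_add, LinearMap.add_apply]

theorem cup_add_right (x : G → V) (w w' : G → V') :
    B.cup x (w + w') = B.cup x w + B.cup x w' := by
  funext q
  simp only [cup_apply, Pi.add_apply, map_add]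

theorem cup_smul_left (c : k) (x : G → V) (w : G → V') : B.cup (c • x) w = c • B.cup x w := by
  funext q
  simp only [cup_apply, Pi.smul_apply, map_smul, LinearMap.smul_apply]

theorem cup_smul_right (c : k) (x : G → V) (w : G → V') : B.cup x (c • w) = c • B.cup x w := by
  funext q
  simp only [cup_apply, Pi.smul_apply, map_smul]

/-- cup product of a cocycle with a coboundary -/
theorem cup_d0_right {x : G → V} (hx : ∀ g h, x (g * h) = σ g (x h) + x g) (v' : V') :
    B.cup x (d0 σ' v') = - d1 μ (fun g => B.β (x g) (σ' g v')) + 0 := by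
  funext q
  simp only [cup_apply, d0_apply, Pi.neg_apply, d1_apply, Pi.add_apply, Pi.zero_apply, add_zero]
  rw [hx, ← B.eqv, map_add, map_mul, LinearMap.add_apply, map_sub, map_sub, Module.End.mul_apply]
  abel

theorem cup_d0_left {w : G → V'} (hw : ∀ g h, w (g * h) = σ' g (w h) + w g) (v : V) :
    B.cup (d0 σ v) w = d1 μ (fun g => B.β v (w g)) := by
  funext q
  simp only [cup_apply, d0_apply, d1_apply]
  rw [hw, ← B.eqv, map_add, map_sub, LinearMap.sub_apply]
  abel

section ind

variable (W : Subgroup G) [Fintype (G ⧸ W)]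

/-- the pairing of the induced modules -/
def ind : DP μ (indRep W σ) (indRep W σ') where
  β := LinearMap.mk₂ k (fun φ f => ∑ c, B.β (φ c) (f c))
    (fun φ φ' f => by
      rw [← Finset.sum_add_distrib]
      exact Finset.sum_congr rfl fun c _ => by rw [Pi.add_apply, map_add]; rfl)
    (fun a φ f => by
      rw [Finset.smul_sum]
      exact Finset.sum_congr rfl fun c _ => by rw [Pi.smul_apply, map_smul]; rfl)
    (fun φ f f' => by
      rw [← Finset.sum_add_distrib]
      exact Finset.sum_congr rfl fun c _ => by rw [Pi.add_apply, map_add])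
    (fun a φ f => by
      rw [Finset.smul_sum]
      exact Finset.sum_congr rfl fun c _ => by rw [Pi.smul_apply, map_smul])
  inj φ h := by
    classical
    funext c
    apply B.inj
    intro v'
    have h1 := h (Pi.single c v')
    rw [LinearMap.mk₂_apply, Finset.sum_eq_single c] at h1
    · rwa [Pi.single_eq_same] at h1
    · intro c' _ hc'
      rw [Pi.single_eq_of_ne hc', map_zero]
    · intro h2
      exact absurd (Finset.mem_univ c) h2
  inj' f h := by
    classical
    funext c
    apply B.inj'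
    intro v
    have h1 := h (Pi.single c v)
    rw [LinearMap.mk₂_apply, Finset.sum_eq_single c] at h1
    · rwa [Pi.single_eq_same] at h1
    · intro c' _ hc'
      rw [Pi.single_eq_of_ne hc', map_zero]
      rfl
    · intro h2
      exact absurd (Finset.mem_univ c) h2
  eqv g φ f := by
    rw [LinearMap.mk₂_apply, LinearMap.mk₂_apply, map_sum]
    refine Fintype.sum_equiv (MulAction.toPerm g⁻¹) _ _ fun c => ?_
    rw [MulAction.toPerm_apply, indRep_apply, indRep_apply, B.eqv]

theorem ind_β (φ : G ⧸ W → V) (f : G ⧸ W → V') :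
    (B.ind W).β φ f = ∑ c, B.β (φ c) (f c) := rfl

theorem ind_const (v : V) (f : G ⧸ W → V') :
    (B.ind W).β (constLin (k := k) W v) f = B.β v (sumLin (k := k) W f) := by
  rw [ind_β, sumLin_apply, map_sum]
  rfl

end ind

end DP

end Fermat.Agent.PT.LD
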