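import Fermat.Agent.PT.LD1
import Fermat.Agent.Coh.Rel

/-!
# Local duality, abstract form, part 2: the induced modules
-/

set_option autoImplicit false
set_option linter.unusedSectionVars false
set_option linter.style.haveILetI false

namespace Fermat.Agent.PT.LD

open Fermat.Agent.Coh Module

variable {k : Type} [Field k] {G : Type} [Group G] {𝓥 : Fam G} {μ : Representation k G k}
variable {V V' X : Type} [AddCommGroup V] [Module k V] [AddCommGroup V'] [Module k V']
  [AddCommGroup X] [Module k X]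

section gcup

variable {σ : Representation k G V} {σ' : Representation k G V'} {τ : Representation k G X}
  (b : V →ₗ[k] V' →ₗ[k] X)

theorem gcup11 (hb : ∀ g v v', b (σ g v) (σ' g v') = τ g (b v v')) (hσ' : SmRep 𝓥 σ')
    {x : G → V} {w : G → V'} (hx : x ∈ Z1 𝓥 σ) (hw : w ∈ Z1 𝓥 σ') :
    (fun q : G × G => b (x q.1) (σ' q.1 (w q.2))) ∈ Z2 𝓥 τ := by
  refine ⟨(hx.1.sm2_fst).post₂ (hσ'.sm2_act hw.1) (fun a b' => b a b'), fun g h j => ?_⟩
  simp only
  rw [hx.2, hw.2 h j, ← hb, map_add, map_mul, map_add, LinearMap.add_apply,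
    Module.End.mul_apply, map_add]
  abel

theorem gcup02 (hb : ∀ g v v', b (σ g v) (σ' g v') = τ g (b v v')) {v : V} (hv : v ∈ H0 σ)
    {F : G × G → V'} (hF : F ∈ Z2 𝓥 σ') : (fun q : G × G => b v (F q)) ∈ Z2 𝓥 τ := by
  refine ⟨hF.1.post (b v), fun g h j => ?_⟩
  rw [← map_add, hF.2, map_add, ← hb, (mem_H0 σ).mp hv g]

theorem gcup20 (hb : ∀ g v v', b (σ g v) (σ' g v') = τ g (b v v')) {v' : V'} (hv' : v' ∈ H0 σ')
    {F : G × G → V} (hF : F ∈ Z2 𝓥 σ) : (fun q : G × G => b (F q) v') ∈ Z2 𝓥 τ := by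
  refine ⟨hF.1.post (fun v => b v v'), fun g h j => ?_⟩
  rw [← LinearMap.add_apply, ← map_add, hF.2, map_add, LinearMap.add_apply, ← hb,
    (mem_H0 σ').mp hv' g]

end gcup

/-- the data at a level `W` -/
structure Lev (inv : H2 𝓥 μ →ₗ[k] k) (W : Subgroup G) [Fintype (G ⧸ W)] where
  mem : W ∈ 𝓥
  triv : ∀ w ∈ W, ∀ a, μ w a = a
  /-- the invariant of `W` -/
  invW : H2 (𝓥.res W) (rep μ W) →ₗ[k] k
  bij : Function.Bijective invW
  tr : ∀ Z : ↥(Z2 𝓥 (indRep W μ)),
    liv inv (fun q => sumLin (k := k) W ((Z : G × G → (G ⧸ W → k)) q)) =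
      invW (H2.mk (𝓥.res W) (rep μ W) ((sh 𝓥 W μ).mapZ2 Z))
  nd : ∀ a ∈ Z1 (𝓥.res W) (rep μ W), (∀ y ∈ Z1 (𝓥.res W) (rep μ W),
    liv invW (fun q : W × W => a q.1 * y q.2) = 0) → a = 0
  fin : FiniteDimensional k (H1 (𝓥.res W) (rep μ W))

variable {inv : H2 𝓥 μ →ₗ[k] k} {W : Subgroup G} [Fintype (G ⧸ W)] (L : Lev inv W)
variable {σ : Representation k G V} {σ' : Representation k G V'} (B : DP μ σ σ')

/-- pointwise pairing of the induced modules -/
def pp (W : Subgroup G) : (G ⧸ W → V) →ₗ[k] (G ⧸ W → V') →ₗ[k] (G ⧸ W → k) :=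
  LinearMap.mk₂ k (fun φ f c => B.β (φ c) (f c))
    (fun φ φ' f => funext fun c => by simp)
    (fun a φ f => funext fun c => by simp)
    (fun φ f f' => funext fun c => by simp)
    (fun a φ f => funext fun c => by simp)

theorem pp_apply (φ : G ⧸ W → V) (f : G ⧸ W → V') (c : G ⧸ W) :
    pp B W φ f c = B.β (φ c) (f c) := rfl

theorem pp_eqv (g : G) (φ : G ⧸ W → V) (f : G ⧸ W → V') :
    pp B W (indRep W σ g φ) (indRep W σ' g f) = indRep W μ g (pp B W φ f) := by
  funext c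
  rw [pp_apply, indRep_apply, indRep_apply, indRep_apply, pp_apply, B.eqv]

theorem sum_pp (φ : G ⧸ W → V) (f : G ⧸ W → V') :
    sumLin (k := k) W (pp B W φ f) = (B.ind W).β φ f := by
  rw [sumLin_apply, DP.ind_β]
  rfl

section W

variable (hσ : ∀ w ∈ W, ∀ v, σ w v = v) (hσ' : ∀ w ∈ W, ∀ v, σ' w v = v)

include L in
theorem Lev.isOpen : 𝓥.IsOpen W := Fam.isOpen_of_mem L.mem

include hσ in
theorem exists_H0 (𝓥 : Fam G) (v : V) : ∃ φ ∈ H0 (indRep W σ), φ ((1 : G) : G ⧸ W) = v := by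
  obtain ⟨φ, hφ⟩ := sh_H0_surjective (𝓤 := 𝓥) (U := W) (ρ := σ) ⟨v, fun g => hσ g g.2 v⟩
  exact ⟨φ.1, φ.2, congrArg Subtype.val hφ⟩

include L hσ' in
/-- functionals on `H²` of the induced module -/
theorem exists_of_H2 [FiniteDimensional k V] [FiniteDimensional k V'] (hσ : ∀ w ∈ W, ∀ v, σ w v = v)
    (Λ : H2 𝓥 (indRep W σ') →ₗ[k] k) :
    ∃ φ ∈ H0 (indRep W σ), ∀ F : ↥(Z2 𝓥 (indRep W σ')),
      Λ (H2.mk 𝓥 (indRep W σ') F) =
        liv inv (fun q => (B.ind W).β φ ((F : G × G → (G ⧸ W → V')) q)) := by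
  -- a generator at level `W`
  obtain ⟨y₀, hy₀⟩ := L.bij.2 1
  obtain ⟨z₀, rfl⟩ := H2.mk_surjective y₀
  let Λ₁ : H2 (𝓥.res W) (rep σ' W) →ₗ[k] k := Λ ∘ₗ (shEquiv2 L.isOpen σ').symm.toLinearMap
  let tz : V' →ₗ[k] ↥(Z2 (𝓥.res W) (rep σ' W)) :=
    { toFun := fun v' => ⟨fun q => (z₀ : W × W → k) q • v', z₀.2.1.post (· • v'), fun g h j => by
          have h1 := z₀.2.2 g h j
          have h2 : (rep μ W) g ((z₀ : W × W → k) (h, j)) = (z₀ : W × W → k) (h, j) :=
            L.triv g g.2 _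
          rw [h2] at h1
          have h3 : (rep σ' W) g ((z₀ : W × W → k) (h, j) • v') = (z₀ : W × W → k) (h, j) • v' :=
            hσ' g g.2 _
          simp only
          rw [h3, ← add_smul, ← add_smul, h1]⟩
      map_add' := fun v v' => by
        apply Subtype.ext
        funext q
        simp [smul_add]
      map_smul' := fun a v => by
        apply Subtype.ext
        funext q
        exact smul_comm _ _ _ }
  let f : Dual k V' := Λ₁ ∘ₗ H2.mk (𝓥.res W) (rep σ' W) ∘ₗ tz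
  obtain ⟨v₀, hv₀⟩ := B.surj f
  obtain ⟨φ, hφ, hφ1⟩ := exists_H0 hσ 𝓥 v₀
  refine ⟨φ, hφ, fun F => ?_⟩
  -- the right hand side
  have hZ : (fun q : G × G => pp B W φ ((F : G × G → (G ⧸ W → V')) q)) ∈ Z2 𝓥 (indRep W μ) :=
    gcup02 (σ := indRep W σ) (σ' := indRep W σ') (pp B W) (pp_eqv B) hφ F.2
  have h1 := L.tr ⟨_, hZ⟩
  have h2 : (fun q => sumLin (k := k) W (pp B W φ ((F : G × G → (G ⧸ W → V')) q))) =
      fun q => (B.ind W).β φ ((F : G × G → (G ⧸ W → V')) q) := funext fun q => sum_pp B φ _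
  rw [← h2]
  refine Eq.trans ?_ h1.symm
  -- the left hand side
  set F₁ := (sh 𝓥 W σ').mapZ2 F with hF₁
  have h3 : Λ (H2.mk 𝓥 (indRep W σ') F) = Λ₁ (H2.mk (𝓥.res W) (rep σ' W) F₁) := by
    change _ = Λ ((shEquiv2 L.isOpen σ').symm (shEquiv2 L.isOpen σ' (H2.mk 𝓥 (indRep W σ') F)))
    rw [LinearEquiv.symm_apply_apply]
  rw [h3]
  let bb := Module.finBasis k V'
  have hco : ∀ i, (fun q => bb.repr ((F₁ : W × W → V') q) i) ∈ Z2 (𝓥.res W) (rep μ W) := by
    intro i
    refine ⟨F₁.2.1.post (fun v => bb.repr v i), fun g h j => ?_⟩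
    have h4 := congrArg (fun v => bb.repr v i) (F₁.2.2 g h j)
    rw [map_add, map_add, Finsupp.add_apply, Finsupp.add_apply] at h4
    have h5 : (rep σ' W) g ((F₁ : W × W → V') (h, j)) = (F₁ : W × W → V') (h, j) := hσ' g g.2 _
    have h6 : (rep μ W) g (bb.repr ((F₁ : W × W → V') (h, j)) i) =
      bb.repr ((F₁ : W × W → V') (h, j)) i := L.triv g g.2 _
    rw [h5] at h4
    rw [h6]
    exact h4
  have hmk : ∀ i, H2.mk (𝓥.res W) (rep μ W) ⟨_, hco i⟩ =
      (L.invW (H2.mk (𝓥.res W) (rep μ W) ⟨_, hco i⟩)) • H2.mk (𝓥.res W) (rep μ W) z₀ := by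
    intro i
    apply L.bij.1
    rw [map_smul, hy₀, smul_eq_mul, mul_one]
  have htens : ∀ i, H2.mk (𝓥.res W) (rep σ' W) (tz (bb i)) = (Mor.coeff (𝓤 := 𝓥.res W)
      (ρ := rep μ W) (σ := rep σ' W) (LinearMap.toSpanSingleton k V' (bb i)) (fun g a => by
        have e1 : (rep μ W) g a = a := L.triv g g.2 a
        have e2 : (rep σ' W) g (LinearMap.toSpanSingleton k V' (bb i) a) =
          LinearMap.toSpanSingleton k V' (bb i) a := hσ' g g.2 _
        rw [e1, e2])).mapH2 (H2.mk (𝓥.res W) (rep μ W) z₀) := fun i => rfl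
  have hsum : H2.mk (𝓥.res W) (rep σ' W) F₁ =
      ∑ i, (L.invW (H2.mk (𝓥.res W) (rep μ W) ⟨_, hco i⟩)) •
        H2.mk (𝓥.res W) (rep σ' W) (tz (bb i)) := by
    have e1 : F₁ = ∑ i, (Mor.coeff (𝓤 := 𝓥.res W) (ρ := rep μ W) (σ := rep σ' W)
        (LinearMap.toSpanSingleton k V' (bb i)) (fun g a => by
        have e1 : (rep μ W) g a = a := L.triv g g.2 a
        have e2 : (rep σ' W) g (LinearMap.toSpanSingleton k V' (bb i) a) =
          LinearMap.toSpanSingleton k V' (bb i) a := hσ' g g.2 _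
        rw [e1, e2])).mapZ2 ⟨_, hco i⟩ := by
      apply Subtype.ext
      funext q
      rw [AddSubmonoidClass.coe_finsetSum, Finset.sum_apply]
      simp only [Mor.coeff_mapZ2, LinearMap.toSpanSingleton_apply]
      exact (bb.sum_repr _).symm
    refine (congrArg (H2.mk (𝓥.res W) (rep σ' W)) e1).trans ?_
    rw [map_sum]
    refine Finset.sum_congr rfl fun i _ => ?_
    rw [htens, ← map_smul, ← hmk i]
    rfl
  rw [hsum, map_sum]
  have hR : H2.mk (𝓥.res W) (rep μ W) ((sh 𝓥 W μ).mapZ2 ⟨_, hZ⟩) =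
      ∑ i, B.β v₀ (bb i) • H2.mk (𝓥.res W) (rep μ W) ⟨_, hco i⟩ := by
    rw [← Finset.sum_congr rfl (fun i _ => map_smul (H2.mk (𝓥.res W) (rep μ W)) _ _), ← map_sum]
    congr 1
    apply Subtype.ext
    funext q
    rw [AddSubmonoidClass.coe_finsetSum, Finset.sum_apply]
    change B.β (φ ((1 : G) : G ⧸ W)) ((F₁ : W × W → V') q) = ∑ i, B.β v₀ (bb i) *
      bb.repr ((F₁ : W × W → V') q) i
    rw [hφ1]
    conv_lhs => rw [← bb.sum_repr ((F₁ : W × W → V') q)]
    rw [map_sum]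
    refine Finset.sum_congr rfl fun i _ => ?_
    rw [map_smul, smul_eq_mul, mul_comm]
  rw [hR, map_sum]
  refine Finset.sum_congr rfl fun i _ => ?_
  rw [map_smul, map_smul, smul_eq_mul, smul_eq_mul, mul_comm, hv₀]
  rfl

include L in
/-- a class of the induced module is trivial if it is orthogonal to the invariants -/
theorem mem_B2_of_orth [FiniteDimensional k V] [FiniteDimensional k V']
    (hσ : ∀ w ∈ W, ∀ v, σ w v = v) (hσ' : ∀ w ∈ W, ∀ v, σ' w v = v)
    {z : G × G → (G ⧸ W → V)} (hz : z ∈ Z2 𝓥 (indRep W σ))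
    (h : ∀ f ∈ H0 (indRep W σ'), liv inv (fun q => (B.ind W).β (z q) f) = 0) :
    z ∈ B2 𝓥 (indRep W σ) := by
  have hinj := sh_H2_injective L.isOpen (ρ := σ)
  have key : H2.mk 𝓥 (indRep W σ) ⟨z, hz⟩ = 0 := by
    apply hinj
    rw [map_zero, Mor.mapH2_mk]
    set z₁ := (sh 𝓥 W σ).mapZ2 ⟨z, hz⟩ with hz₁
    let bb := Module.finBasis k V'
    have hco : ∀ v', (fun q => B.β ((z₁ : W × W → V) q) v') ∈ B2 (𝓥.res W) (rep μ W) := by
      intro v'
      obtain ⟨f, hf, hf1⟩ := exists_H0 hσ' 𝓥 v'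
      have hZ : (fun q : G × G => pp B W (z q) f) ∈ Z2 𝓥 (indRep W μ) :=
        gcup20 (σ := indRep W σ) (σ' := indRep W σ') (pp B W) (pp_eqv B) hf hz
      have h1 := L.tr ⟨_, hZ⟩
      have h2 : (fun q => sumLin (k := k) W (pp B W (z q) f)) = fun q => (B.ind W).β (z q) f :=
        funext fun q => sum_pp B _ f
      have h3 : liv inv (fun q => sumLin (k := k) W (pp B W (z q) f)) = 0 := by
        rw [h2]
        exact h f hf
      have h4 := L.bij.1 ((h1.symm.trans h3).trans (map_zero L.invW).symm)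
      rw [Submodule.mkQ_apply, Submodule.Quotient.mk_eq_zero, Submodule.mem_comap] at h4
      have h5 : ((Z2 (𝓥.res W) (rep μ W)).subtype ((sh 𝓥 W μ).mapZ2 ⟨_, hZ⟩) : W × W → k) =
          fun q => B.β ((z₁ : W × W → V) q) v' := by
        funext q
        change B.β (z (q.1, q.2) ((1 : G) : G ⧸ W)) (f ((1 : G) : G ⧸ W)) = _
        rw [hf1]
        rfl
      rw [h5] at h4
      exact h4
    choose c hc hcz using fun i => mem_B2.mp (hco (bb i))
    choose u hu using fun i => B.surj (bb.coord i)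
    rw [H2.mk_eq_zero]
    refine ⟨fun g => ∑ i, c i g • u i, ?_, fun g g' => ?_⟩
    · have hfin : ∀ t : Finset (Fin (finrank k V')), (𝓥.res W).Sm1 fun g => ∑ i ∈ t, c i g • u i := by
        intro t
        classical
        induction t using Finset.induction_on with
        | empty =>
          simp only [Finset.sum_empty]
          exact Fam.Sm1.const _ (0 : V)
        | insert a t ha ih =>
          simp only [Finset.sum_insert ha]
          exact ((hc a).post (· • u a)).post₂ ih (· + ·)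
      exact hfin Finset.univ
    · -- compare through the pairing
      have h6 : ∀ v : V, v = ∑ i, B.β v (bb i) • u i := by
        intro v
        rw [← sub_eq_zero]
        apply B.inj
        intro v'
        rw [map_sub, LinearMap.sub_apply, map_sum, LinearMap.sum_apply]
        simp only [map_smul, LinearMap.smul_apply, hu, Basis.coord_apply, smul_eq_mul]
        conv_lhs => enter [1]; rw [← bb.sum_repr v', map_sum]
        rw [sub_eq_zero]
        refine Finset.sum_congr rfl fun i _ => ?_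
        rw [map_smul, smul_eq_mul, mul_comm]
      rw [h6 ((z₁ : W × W → V) (g, g'))]
      have h7 : (rep σ W) g (∑ i, c i g' • u i) = ∑ i, c i g' • u i := hσ g g.2 _
      have h8 : ∀ a, (rep μ W) g a = a := fun a => L.triv g g.2 a
      rw [h7, ← Finset.sum_sub_distrib, ← Finset.sum_add_distrib]
      refine Finset.sum_congr rfl fun i _ => ?_
      rw [hcz i g g', h8, add_smul, sub_smul]
  rw [Submodule.mkQ_apply, Submodule.Quotient.mk_eq_zero] at key
  exact key

include L in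
/-- left nondegeneracy in degree one for the induced module -/
theorem mem_B1_of_orth
    (hσ : ∀ w ∈ W, ∀ v, σ w v = v) (hσ' : ∀ w ∈ W, ∀ v, σ' w v = v) (hs : SmRep 𝓥 σ')
    {x : G → (G ⧸ W → V)} (hx : x ∈ Z1 𝓥 (indRep W σ))
    (h : ∀ w ∈ Z1 𝓥 (indRep W σ'), liv inv ((B.ind W).cup x w) = 0) :
    x ∈ B1 (indRep W σ) := by
  have key : H1.mk 𝓥 (indRep W σ) ⟨x, hx⟩ = 0 := by
    apply sh_H1_injective
    rw [map_zero, Mor.mapH1_mk, H1.mk_eq_zero]
    set x₁ := (sh 𝓥 W σ).mapZ1 ⟨x, hx⟩ with hx₁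
    refine ⟨0, fun g => ?_⟩
    rw [map_zero, sub_zero]
    apply B.inj
    intro v'
    have ha : (fun g => B.β ((x₁ : W → V) g) v') ∈ Z1 (𝓥.res W) (rep μ W) := by
      refine ⟨x₁.2.1.post (fun v => B.β v v'), fun g h => ?_⟩
      have e1 := x₁.2.2 g h
      have e2 : (rep σ W) g ((x₁ : W → V) h) = (x₁ : W → V) h := hσ g g.2 _
      have e3 : (rep μ W) g (B.β ((x₁ : W → V) h) v') = B.β ((x₁ : W → V) h) v' := L.triv g g.2 _
      rw [e2] at e1
      rw [e3]
      change B.β ((x₁ : W → V) (g * h)) v' = B.β ((x₁ : W → V) h) v' + B.β ((x₁ : W → V) g) v'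
      rw [e1, map_add, LinearMap.add_apply]
    have h0 := L.nd _ ha ?_
    · exact congrFun h0 g
    intro y hy
    have hyv : (fun g => y g • v') ∈ Z1 (𝓥.res W) (rep σ' W) := by
      refine ⟨hy.1.post (· • v'), fun g h => ?_⟩
      have e1 := hy.2 g h
      have e2 : (rep μ W) g (y h) = y h := L.triv g g.2 _
      have e3 : (rep σ' W) g (y h • v') = y h • v' := hσ' g g.2 _
      rw [e2] at e1
      rw [e3]
      change y (g * h) • v' = y h • v' + y g • v'
      rw [e1, add_smul]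
    obtain ⟨ω, hω⟩ := sh_H1_surjective L.isOpen (H1.mk (𝓥.res W) (rep σ' W) ⟨_, hyv⟩)
    obtain ⟨w, rfl⟩ := H1.mk_surjective ω
    rw [Mor.mapH1_mk, H1.mk_eq_mk] at hω
    obtain ⟨m, hm⟩ := hω
    have hw : ∀ g : W, (w : G → (G ⧸ W → V')) g ((1 : G) : G ⧸ W) = y g • v' := by
      intro g
      have e1 := hm g
      have e2 : (σ'.comp W.subtype) g m = m := hσ' g g.2 _
      rw [e2, sub_self, add_zero] at e1
      exact e1
    have hZ : (fun q : G × G => pp B W (x q.1) (indRep W σ' q.1 ((w : G → (G ⧸ W → V')) q.2))) ∈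
        Z2 𝓥 (indRep W μ) :=
      gcup11 (σ := indRep W σ) (σ' := indRep W σ') (pp B W) (pp_eqv B)
        (smRep_indRep L.isOpen hs) hx w.2
    have h1 := L.tr ⟨_, hZ⟩
    have h2 : (fun q : G × G => sumLin (k := k) W (pp B W (x q.1)
        (indRep W σ' q.1 ((w : G → (G ⧸ W → V')) q.2)))) = (B.ind W).cup x w :=
      funext fun q => sum_pp B _ _
    have h3 : liv inv (fun q : G × G => sumLin (k := k) W (pp B W (x q.1)
        (indRep W σ' q.1 ((w : G → (G ⧸ W → V')) q.2)))) = 0 := by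
      rw [h2]
      exact h _ w.2
    have h4 := h1.symm.trans h3
    have h5 : ((sh 𝓥 W μ).mapZ2 ⟨_, hZ⟩ : W × W → k) =
        fun q : W × W => B.β ((x₁ : W → V) q.1) v' * y q.2 := by
      funext q
      change B.β (x q.1 ((1 : G) : G ⧸ W)) (σ' q.1 ((w : G → (G ⧸ W → V')) q.2
        ((q.1 : G)⁻¹ • ((1 : G) : G ⧸ W)))) = _
      rw [coe_inv_smul_one, hσ' _ q.1.2, hw, map_smul, smul_eq_mul, mul_comm]
      rfl
    have hmem : (fun q : W × W => B.β ((x₁ : W → V) q.1) v' * y q.2) ∈ Z2 (𝓥.res W) (rep μ W) := by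
      rw [← h5]
      exact ((sh 𝓥 W μ).mapZ2 ⟨_, hZ⟩).2
    rw [liv_eq hmem, ← h4]
    congr 2
    exact Subtype.ext h5.symm
  rw [Submodule.mkQ_apply, Submodule.Quotient.mk_eq_zero] at key
  exact key

include L in
/-- finiteness of the cohomology of the induced module -/
theorem finite_H1_ind [FiniteDimensional k V] (hσ : ∀ w ∈ W, ∀ v, σ w v = v) :
    FiniteDimensional k (H1 𝓥 (indRep W σ)) := by
  haveI := L.fin
  let bb := Module.finBasis k V
  let F : Fin (finrank k V) → (H1 (𝓥.res W) (rep σ W) →ₗ[k] H1 (𝓥.res W) (rep μ W)) := fun i =>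
    (Mor.coeff (𝓤 := 𝓥.res W) (ρ := rep σ W) (σ := rep μ W) (bb.coord i) (fun g v => by
      have e1 : (rep σ W) g v = v := hσ g g.2 v
      have e2 : (rep μ W) g (bb.coord i v) = bb.coord i v := L.triv g g.2 _
      rw [e1, e2])).mapH1
  have hinj : Function.Injective (LinearMap.pi F) := by
    rw [← LinearMap.ker_eq_bot, LinearMap.ker_eq_bot']
    intro x hx
    obtain ⟨z, rfl⟩ := H1.mk_surjective x
    rw [H1.mk_eq_zero]
    refine ⟨0, fun g => ?_⟩
    rw [map_zero, sub_zero]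
    apply bb.ext_elem
    intro i
    have h1 : F i (H1.mk (𝓥.res W) (rep σ W) z) = 0 := congrFun hx i
    rw [Mor.mapH1_mk, H1.mk_eq_zero] at h1
    obtain ⟨m, hm⟩ := h1
    have h2 := hm g
    have e2 : (rep μ W) g m = m := L.triv g g.2 _
    rw [e2, sub_self] at h2
    rw [map_zero]
    exact h2
  haveI : FiniteDimensional k (H1 (𝓥.res W) (rep σ W)) := FiniteDimensional.of_injective _ hinj
  exact Module.Finite.equiv (shEquiv1 L.isOpen σ).symm

end W

end Fermat.Agent.PT.LD
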