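import Fermat.Agent.PT.LD2

/-!
# Local duality, abstract form, part 3: degree one
-/

set_option autoImplicit false
set_option linter.unusedSectionVars false
set_option linter.style.haveILetI false

namespace Fermat.Agent.PT.LD

open Fermat.Agent.Coh Module

variable {k : Type} [Field k] {G : Type} [Group G] {𝓥 : Fam G} {μ : Representation k G k}
variable {V V' : Type} [AddCommGroup V] [Module k V] [AddCommGroup V'] [Module k V']

/-- a local class formation modulo `p` -/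
structure LocD (inv : H2 𝓥 μ →ₗ[k] k) : Prop where
  sm : SmRep 𝓥 μ
  ln : ∀ (V : Type) [AddCommGroup V] [Module k V] (σ : Representation k G V), SmRep 𝓥 σ →
    ∀ b : V →ₗ[k] k, (∀ g v, b (σ g v) = μ g (b v)) → b ≠ 0 →
      ∃ z ∈ Z2 𝓥 σ, liv inv (fun q => b (z q)) ≠ 0
  lev : ∀ U ∈ 𝓥, ∃ (W : Subgroup G) (_ : Fintype (G ⧸ W)), W ≤ U ∧ Nonempty (Lev inv W)

variable {inv : H2 𝓥 μ →ₗ[k] k}
variable {σ : Representation k G V} {σ' : Representation k G V'}

/-- extension of functionals -/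
theorem exists_extend' {A C : Type*} [AddCommGroup A] [Module k A] [AddCommGroup C] [Module k C]
    (i : A →ₗ[k] C) (Λ : A →ₗ[k] k) (h : ∀ a, i a = 0 → Λ a = 0) :
    ∃ Λ' : C →ₗ[k] k, ∀ a, Λ' (i a) = Λ a := by
  have h1 : Λ ∈ (LinearMap.ker i).dualAnnihilator := by
    rw [Submodule.mem_dualAnnihilator]
    exact fun a ha => h a ha
  rw [← LinearMap.range_dualMap_eq_dualAnnihilator_ker] at h1
  obtain ⟨Λ', rfl⟩ := h1
  exact ⟨Λ', fun a => rfl⟩

/-- a finite dimensional smooth representation is trivial on a member of the family -/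
theorem exists_triv_mem [FiniteDimensional k V] (hσ : SmRep 𝓥 σ) :
    ∃ U ∈ 𝓥, ∀ u ∈ U, ∀ v, σ u v = v := by
  let b := Module.finBasis k V
  obtain ⟨U, hU, h⟩ := hσ.finite (Set.finite_range b)
  refine ⟨U, hU, fun u hu v => ?_⟩
  have : σ u = LinearMap.id := b.ext fun i => h u hu _ ⟨i, rfl⟩
  rw [this]
  rfl

theorem LocD.exists_lev (hD : LocD inv) [FiniteDimensional k V] [FiniteDimensional k V']
    (hσ : SmRep 𝓥 σ) (hσ' : SmRep 𝓥 σ') : ∃ (W : Subgroup G) (_ : Fintype (G ⧸ W))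
    (_ : Lev inv W), (∀ w ∈ W, ∀ v, σ w v = v) ∧ (∀ w ∈ W, ∀ v, σ' w v = v) := by
  obtain ⟨U, hU, h1⟩ := exists_triv_mem hσ
  obtain ⟨U', hU', h2⟩ := exists_triv_mem hσ'
  obtain ⟨W, fW, hW, ⟨L⟩⟩ := hD.lev _ (𝓥.inf_mem _ hU _ hU')
  exact ⟨W, fW, L, fun w hw => h1 w (hW hw).1, fun w hw => h2 w (hW hw).2⟩

theorem post_mem {X : Type} [AddCommGroup X] [Module k X] {τ : Representation k G X}
    (T : V →ₗ[k] X) (hT : ∀ g v, T (σ g v) = τ g (T v))
    {z : G × G → V} (hz : z ∈ Z2 𝓥 σ) : (fun q => T (z q)) ∈ Z2 𝓥 τ :=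
  ((Mor.coeff (𝓤 := 𝓥) T hT).mapZ2 ⟨z, hz⟩).2

/-- orthogonal of the trace kernel -/
theorem eq_const_of_orth (B : DP μ σ σ') (W : Subgroup G) [Fintype (G ⧸ W)] {φ : G ⧸ W → V}
    (h : ∀ f : G ⧸ W → V', sumLin (k := k) W f = 0 → (B.ind W).β φ f = 0) :
    φ = constLin (k := k) W (φ ((1 : G) : G ⧸ W)) := by
  classical
  funext c
  change φ c = φ ((1 : G) : G ⧸ W)
  rw [← sub_eq_zero]
  apply B.inj
  intro v'
  have h1 := h (Pi.single c v' - Pi.single ((1 : G) : G ⧸ W) v') (by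
    rw [map_sub, sumLin_apply, sumLin_apply, Finset.sum_pi_single', Finset.sum_pi_single']
    simp)
  rw [map_sub, DP.ind_β, DP.ind_β, Finset.sum_eq_single c, Finset.sum_eq_single ((1 : G) : G ⧸ W),
    Pi.single_eq_same, Pi.single_eq_same] at h1
  · rw [map_sub, LinearMap.sub_apply, h1]
  · intro c' _ hc'
    rw [Pi.single_eq_of_ne hc', map_zero]
  · intro h2
    exact absurd (Finset.mem_univ _) h2
  · intro c' _ hc'
    rw [Pi.single_eq_of_ne hc', map_zero]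
  · intro h2
    exact absurd (Finset.mem_univ _) h2

/-- **Left nondegeneracy in degree one.** -/
theorem left_nondeg (hD : LocD inv) [FiniteDimensional k V] [FiniteDimensional k V']
    (hσ : SmRep 𝓥 σ) (hσ' : SmRep 𝓥 σ') (B : DP μ σ σ') {x : G → V} (hx : x ∈ Z1 𝓥 σ)
    (h : ∀ w ∈ Z1 𝓥 σ', liv inv (B.cup x w) = 0) : x ∈ B1 σ := by
  obtain ⟨W, fW, L, ht, ht'⟩ := hD.exists_lev hσ hσ'
  haveI : W.Normal := 𝓥.normal W L.mem
  -- Step A
  have hcx : (fun g => constLin (k := k) W (x g)) ∈ Z1 𝓥 (indRep W σ) :=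
    ((Mor.coeff (𝓤 := 𝓥) (constLin W) (constLin_comm W σ)).mapZ1 ⟨x, hx⟩).2
  have hA := mem_B1_of_orth L B ht ht' hσ' hcx (fun w hw => by
    have hsw : (fun g => sumLin (k := k) W (w g)) ∈ Z1 𝓥 σ' :=
      ((Mor.coeff (𝓤 := 𝓥) (sumLin W) (sumLin_comm W σ')).mapZ1 ⟨w, hw⟩).2
    rw [← h _ hsw]
    congr 1
    funext q
    rw [DP.cup_apply, DP.cup_apply, DP.ind_const, sumLin_comm])
  obtain ⟨φ, hφ⟩ := mem_B1.mp hA
  -- Step B
  have hb : ∀ g (f : trKer (k := k) (V := V') W), (B.ind W).β φ (trKerRep W σ' g f : G ⧸ W → V') =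
      μ g ((B.ind W).β φ (f : G ⧸ W → V')) := by
    intro g f
    have h1 : φ = indRep W σ g φ - constLin (k := k) W (x g) := by
      have := hφ g
      rw [this]
      abel
    conv_lhs => rw [h1]
    rw [map_sub, LinearMap.sub_apply, coe_subRep, (B.ind W).eqv, DP.ind_const, sumLin_comm,
      (LinearMap.mem_ker.mp f.2 : sumLin (k := k) W (f : G ⧸ W → V') = 0), map_zero, map_zero,
      sub_zero]
  let b : trKer (k := k) (V := V') W →ₗ[k] k := (B.ind W).β φ ∘ₗ (trKer (k := k) (V := V') W).subtype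
  let Λ : H2 𝓥 (trKerRep W σ') →ₗ[k] k := inv ∘ₗ (Mor.coeff (𝓤 := 𝓥) (σ := μ) b hb).mapH2
  let iM : Mor 𝓥 𝓥 (trKerRep W σ') (indRep W σ') := (cycSES2 W σ').iMor 𝓥
  have hΛ : ∀ y, iM.mapH2 y = 0 → Λ y = 0 := by
    intro y hy
    obtain ⟨y, rfl⟩ := H2.mk_surjective y
    obtain ⟨Y, hY, hYy⟩ := H2.mk_eq_zero.mp hy
    have hYy' : ∀ g g', ((y : G × G → trKer (k := k) (V := V') W) (g, g') : G ⧸ W → V') =
        indRep W σ' g (Y g') - Y (g * g') + Y g := hYy
    have hw : (fun g => sumLin (k := k) W (Y g)) ∈ Z1 𝓥 σ' := by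
      refine ⟨hY.post _, fun g g' => ?_⟩
      have h1 := congrArg (sumLin (k := k) W) (hYy' g g')
      have h0 : sumLin (k := k) W ((y : G × G → trKer (k := k) (V := V') W) (g, g') : G ⧸ W → V') = 0 :=
        LinearMap.mem_ker.mp ((y : G × G → trKer (k := k) (V := V') W) (g, g')).2
      rw [map_add, map_sub, sumLin_comm, h0] at h1
      rw [← sub_eq_zero]
      have h2 : (sumLin (k := k) W) (Y (g * g')) - (σ' g ((sumLin (k := k) W) (Y g')) +
        (sumLin (k := k) W) (Y g)) = - (σ' g ((sumLin (k := k) W) (Y g')) -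
        (sumLin (k := k) W) (Y (g * g')) + (sumLin (k := k) W) (Y g)) := by abel
      rw [h2, ← h1, neg_zero]
    have hfun : (fun q => b ((y : G × G → trKer (k := k) (V := V') W) q)) =
        d1 μ (fun g => (B.ind W).β φ (Y g)) - B.cup x (fun g => sumLin (k := k) W (Y g)) := by
      funext q
      change (B.ind W).β φ ((y : G × G → trKer (k := k) (V := V') W) (q.1, q.2) : G ⧸ W → V') = _
      rw [hYy', Pi.sub_apply, d1_apply, DP.cup_apply, ← (B.ind W).eqv]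
      have h1 : indRep W σ q.1 φ = φ + constLin (k := k) W (x q.1) := by
        have := hφ q.1
        rw [this]
        abel
      rw [h1, map_add, map_add, map_sub, LinearMap.add_apply, DP.ind_const, sumLin_comm]
      ring
    change inv (H2.mk 𝓥 μ ((Mor.coeff (𝓤 := 𝓥) (σ := μ) b hb).mapZ2 y)) = 0
    have hmem : (fun q => b ((y : G × G → trKer (k := k) (V := V') W) q)) ∈ Z2 𝓥 μ :=
      ((Mor.coeff (𝓤 := 𝓥) (σ := μ) b hb).mapZ2 y).2
    have e1 : inv (H2.mk 𝓥 μ ((Mor.coeff (𝓤 := 𝓥) (σ := μ) b hb).mapZ2 y)) =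
        liv inv (fun q => b ((y : G × G → trKer (k := k) (V := V') W) q)) := (liv_eq hmem).symm
    rw [e1, hfun, liv_sub (d1_mem_Z2 hD.sm (hY.post _)) (B.cup_mem hσ' hx hw),
      liv_d1 (hY.post _), h _ hw, sub_zero]
  obtain ⟨Λ', hΛ'⟩ := exists_extend' iM.mapH2 Λ hΛ
  obtain ⟨φ₀, hφ₀, hF⟩ := exists_of_H2 L B ht' ht Λ'
  -- Step C
  have hb₀ : ∀ g (f : trKer (k := k) (V := V') W),
      (B.ind W).β φ₀ (trKerRep W σ' g f : G ⧸ W → V') = μ g ((B.ind W).β φ₀ (f : G ⧸ W → V')) := by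
    intro g f
    conv_lhs => rw [← (mem_H0 (indRep W σ)).mp hφ₀ g]
    rw [coe_subRep, (B.ind W).eqv]
  let b₀ : trKer (k := k) (V := V') W →ₗ[k] k :=
    (B.ind W).β φ₀ ∘ₗ (trKer (k := k) (V := V') W).subtype
  have hzero : b - b₀ = 0 := by
    by_contra hne
    obtain ⟨z, hz, hz0⟩ := hD.ln _ (trKerRep W σ')
      ((cycSES2 W σ').smRep_left (smRep_indRep L.isOpen hσ')) (b - b₀) (fun g v => by
        rw [LinearMap.sub_apply, LinearMap.sub_apply, map_sub]
        exact congrArg₂ (· - ·) (hb g v) (hb₀ g v)) hne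
    apply hz0
    have h1 : (fun q => (b - b₀) (z q)) = (fun q => b (z q)) - (fun q => b₀ (z q)) := rfl
    have m1 : (fun q => b (z q)) ∈ Z2 𝓥 μ := post_mem b hb hz
    have m2 : (fun q => b₀ (z q)) ∈ Z2 𝓥 μ := post_mem b₀ hb₀ hz
    rw [h1, liv_sub m1 m2, sub_eq_zero]
    have h2 := hΛ' (H2.mk 𝓥 (trKerRep W σ') ⟨z, hz⟩)
    have h3 := hF (iM.mapZ2 ⟨z, hz⟩)
    rw [liv_eq m1]
    exact h2.symm.trans h3
  -- Step D
  have hconst := eq_const_of_orth B W (φ := φ - φ₀) (fun f hf => by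
    have := LinearMap.congr_fun hzero ⟨f, hf⟩
    rw [map_sub, LinearMap.sub_apply]
    exact this)
  rw [mem_B1]
  refine ⟨(φ - φ₀) ((1 : G) : G ⧸ W), fun g => ?_⟩
  apply constLin_injective (k := k) W
  rw [map_sub, constLin_comm, ← hconst, hφ g, map_sub, (mem_H0 (indRep W σ)).mp hφ₀ g]
  abel

end Fermat.Agent.PT.LD
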