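import Fermat.Agent.PT.LD3

/-!
# Local duality, abstract form, part 4: the pairing in degree one, degree two
-/

set_option autoImplicit false
set_option linter.unusedSectionVars false
set_option linter.style.haveILetI false

namespace Fermat.Agent.PT.LD

open Fermat.Agent.Coh Module

variable {k : Type} [Field k] {G : Type} [Group G] {𝓥 : Fam G} {μ : Representation k G k}
variable {V V' : Type} [AddCommGroup V] [Module k V] [AddCommGroup V'] [Module k V']
variable {inv : H2 𝓥 μ →ₗ[k] k}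
variable {σ : Representation k G V} {σ' : Representation k G V'}

/-- finiteness of `H¹` -/
theorem finite_H1 (hD : LocD inv) [FiniteDimensional k V] (hσ : SmRep 𝓥 σ) :
    FiniteDimensional k (H1 𝓥 σ) := by
  obtain ⟨W, fW, L, ht, _⟩ := hD.exists_lev hσ hσ
  haveI := finite_H1_ind (σ := σ) L ht
  let E := indSES W σ
  have hr : LinearMap.ker (E.iMor 𝓥).mapH1 ≤ LinearMap.range (E.delta0 (𝓤 := 𝓥) (smRep_indRep L.isOpen hσ)) := by
    intro x hx
    obtain ⟨w, hw⟩ := (E.exact_delta0_H1 (smRep_indRep L.isOpen hσ) x).mp hx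
    exact ⟨w, hw⟩
  haveI : FiniteDimensional k ↥(LinearMap.ker (E.iMor 𝓥).mapH1) :=
    Submodule.finiteDimensional_of_le hr
  haveI : FiniteDimensional k ↥(LinearMap.range (E.iMor 𝓥).mapH1) := inferInstance
  haveI : FiniteDimensional k (H1 𝓥 σ ⧸ LinearMap.ker (E.iMor 𝓥).mapH1) :=
    Module.Finite.equiv (LinearMap.quotKerEquivRange (E.iMor 𝓥).mapH1).symm
  exact Module.Finite.of_submodule_quotient (LinearMap.ker (E.iMor 𝓥).mapH1)

section pair

variable (B : DP μ σ σ') (inv) (hμ : SmRep 𝓥 μ) (hσ' : SmRep 𝓥 σ')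

/-- the pairing on cocycles -/
noncomputable def pairZ : ↥(Z1 𝓥 σ) →ₗ[k] ↥(Z1 𝓥 σ') →ₗ[k] k :=
  LinearMap.mk₂ k (fun x w => liv inv (B.cup x w))
    (fun x x' w => by
      rw [← liv_add (B.cup_mem hσ' x.2 w.2) (B.cup_mem hσ' x'.2 w.2), ← B.cup_add_left]
      rfl)
    (fun c x w => by
      rw [smul_eq_mul, ← liv_smul c (B.cup_mem hσ' x.2 w.2), ← B.cup_smul_left]
      rfl)
    (fun x w w' => by
      rw [← liv_add (B.cup_mem hσ' x.2 w.2) (B.cup_mem hσ' x.2 w'.2), ← B.cup_add_right]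
      rfl)
    (fun c x w => by
      rw [smul_eq_mul, ← liv_smul c (B.cup_mem hσ' x.2 w.2), ← B.cup_smul_right]
      rfl)

theorem pairZ_apply (x : ↥(Z1 𝓥 σ)) (w : ↥(Z1 𝓥 σ')) :
    pairZ inv B hσ' x w = liv inv (B.cup x w) := rfl

include hμ in
theorem pairZ_right {x : ↥(Z1 𝓥 σ)} {w : ↥(Z1 𝓥 σ')} (hw : (w : G → V') ∈ B1 σ') :
    pairZ inv B hσ' x w = 0 := by
  obtain ⟨v, hv⟩ := hw
  rw [pairZ_apply, ← hv, B.cup_d0_right x.2.2, add_zero]
  have hs : 𝓥.Sm1 (fun g => B.β ((x : G → V) g) (σ' g v)) := by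
    obtain ⟨U, hU, h⟩ := hσ' v
    obtain ⟨U', hU', h'⟩ := x.2.1
    refine ⟨U ⊓ U', 𝓥.inf_mem _ hU _ hU', fun g u hu => ?_⟩
    simp only
    rw [h' g u hu.2, map_mul, Module.End.mul_apply, h u hu.1]
  have h1 : (- d1 μ (fun g => B.β ((x : G → V) g) (σ' g v))) =
      d1 μ (- (fun g => B.β ((x : G → V) g) (σ' g v))) := by rw [map_neg]
  rw [h1]
  exact liv_d1 (hs.post (fun a => -a))

include hμ in
theorem pairZ_left {x : ↥(Z1 𝓥 σ)} {w : ↥(Z1 𝓥 σ')} (hx : (x : G → V) ∈ B1 σ) :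
    pairZ inv B hσ' x w = 0 := by
  obtain ⟨v, hv⟩ := hx
  rw [pairZ_apply, ← hv, B.cup_d0_left w.2.2]
  exact liv_d1 (w.2.1.post _)

/-- the pairing, descended in the second variable -/
noncomputable def pairA : ↥(Z1 𝓥 σ) →ₗ[k] (H1 𝓥 σ' →ₗ[k] k) where
  toFun x := Submodule.liftQ _ (pairZ inv B hσ' x) (fun w hw => by
    rw [LinearMap.mem_ker]
    exact pairZ_right inv B hμ hσ' hw)
  map_add' x x' := by
    refine LinearMap.ext fun w => ?_
    obtain ⟨w, rfl⟩ := H1.mk_surjective w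
    change pairZ inv B hσ' (x + x') w = pairZ inv B hσ' x w + pairZ inv B hσ' x' w
    rw [map_add]
    rfl
  map_smul' c x := by
    refine LinearMap.ext fun w => ?_
    obtain ⟨w, rfl⟩ := H1.mk_surjective w
    change pairZ inv B hσ' (c • x) w = c • pairZ inv B hσ' x w
    rw [map_smul]
    rfl

/-- **The pairing in degree one.** -/
noncomputable def pair : H1 𝓥 σ →ₗ[k] H1 𝓥 σ' →ₗ[k] k :=
  Submodule.liftQ _ (pairA inv B hμ hσ') (fun x hx => by
    rw [LinearMap.mem_ker]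
    refine LinearMap.ext fun w => ?_
    obtain ⟨w, rfl⟩ := H1.mk_surjective w
    exact pairZ_left inv B hμ hσ' hx)

theorem pair_mk (x : ↥(Z1 𝓥 σ)) (w : ↥(Z1 𝓥 σ')) :
    pair inv B hμ hσ' (H1.mk 𝓥 σ x) (H1.mk 𝓥 σ' w) = liv inv (B.cup x w) := rfl

end pair

theorem pair_injective (hD : LocD inv) [FiniteDimensional k V] [FiniteDimensional k V']
    (hσ : SmRep 𝓥 σ) (hσ' : SmRep 𝓥 σ') (B : DP μ σ σ') :
    Function.Injective (pair inv B hD.sm hσ') := by
  rw [← LinearMap.ker_eq_bot, LinearMap.ker_eq_bot']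
  intro x hx
  obtain ⟨x, rfl⟩ := H1.mk_surjective x
  rw [Submodule.mkQ_apply, Submodule.Quotient.mk_eq_zero]
  exact left_nondeg hD hσ hσ' B x.2 fun w hw => LinearMap.congr_fun hx (H1.mk 𝓥 σ' ⟨w, hw⟩)

theorem finrank_H1_le (hD : LocD inv) [FiniteDimensional k V] [FiniteDimensional k V']
    (hσ : SmRep 𝓥 σ) (hσ' : SmRep 𝓥 σ') (B : DP μ σ σ') :
    finrank k (H1 𝓥 σ) ≤ finrank k (H1 𝓥 σ') := by
  haveI := finite_H1 hD hσ'
  rw [← Subspace.dual_finrank_eq (V := H1 𝓥 σ')]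
  exact LinearMap.finrank_le_finrank_of_injective (pair_injective hD hσ hσ' B)

theorem finrank_H1_eq (hD : LocD inv) [FiniteDimensional k V] [FiniteDimensional k V']
    (hσ : SmRep 𝓥 σ) (hσ' : SmRep 𝓥 σ') (B : DP μ σ σ') :
    finrank k (H1 𝓥 σ) = finrank k (H1 𝓥 σ') :=
  le_antisymm (finrank_H1_le hD hσ hσ' B) (finrank_H1_le hD hσ' hσ B.op)

/-- every functional is given by the pairing -/
theorem pair_surjective (hD : LocD inv) [FiniteDimensional k V] [FiniteDimensional k V']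
    (hσ : SmRep 𝓥 σ) (hσ' : SmRep 𝓥 σ') (B : DP μ σ σ') :
    Function.Surjective (pair inv B hD.sm hσ') := by
  haveI := finite_H1 hD hσ'
  haveI := finite_H1 hD hσ
  refine (LinearMap.injective_iff_surjective_of_finrank_eq_finrank ?_).mp
    (pair_injective hD hσ hσ' B)
  rw [finrank_H1_eq hD hσ hσ' B]
  exact Subspace.dual_finrank_eq.symm

section quot

variable (B : DP μ σ σ') (W : Subgroup G) [W.Normal] [Fintype (G ⧸ W)]

/-- the pairing between the quotient of the induced module and the trace kernel -/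
noncomputable def DP.quot : DP μ (indQuot W σ) (trKerRep W σ') where
  β := Submodule.liftQ _ ((B.ind W).β.compl₂ (trKer (k := k) (V := V') W).subtype) (by
    rintro _ ⟨v, rfl⟩
    rw [LinearMap.mem_ker]
    refine LinearMap.ext fun f => ?_
    rw [LinearMap.compl₂_apply, DP.ind_const]
    have : sumLin (k := k) W ((trKer (k := k) (V := V') W).subtype f) = 0 := LinearMap.mem_ker.mp f.2
    rw [this, map_zero]
    rfl)
  inj c h := by
    obtain ⟨φ, rfl⟩ := Submodule.mkQ_surjective _ c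
    rw [Submodule.mkQ_apply, Submodule.Quotient.mk_eq_zero]
    refine ⟨φ ((1 : G) : G ⧸ W), (eq_const_of_orth B W fun f hf => ?_).symm⟩
    exact h ⟨f, hf⟩
  inj' f h := by
    apply Subtype.ext
    apply (B.ind W).inj'
    intro φ
    exact h (Submodule.mkQ _ φ)
  eqv g c f := by
    obtain ⟨φ, rfl⟩ := Submodule.mkQ_surjective _ c
    exact (B.ind W).eqv g φ f

theorem DP.quot_mk (φ : G ⧸ W → V) (f : trKer (k := k) (V := V') W) :
    (B.quot W).β (Submodule.mkQ _ φ) f = (B.ind W).β φ (f : G ⧸ W → V') := rfl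

end quot

end Fermat.Agent.PT.LD
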