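import Fermat.Agent.PT.LD4

/-!
# Local duality, abstract form, part 5: degree two
-/

set_option autoImplicit false
set_option linter.unusedSectionVars false
set_option linter.style.haveILetI false

namespace Fermat.Agent.PT.LD

open Fermat.Agent.Coh Module

variable {k : Type} [Field k] {G : Type} [Group G] {𝓥 : Fam G} {μ : Representation k G k}
variable {V V' : Type} [AddCommGroup V] [Module k V] [AddCommGroup V'] [Module k V']
variable {inv : H2 𝓥 μ →ₗ[k] k}
variable {σ : Representation k G V} {σ' : Representation k G V'}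

section cupY

variable (B : DP μ σ σ') (W : Subgroup G) [W.Normal] [Fintype (G ⧸ W)]
variable {z : G × G → V} {Y : G → (G ⧸ W → V)}

theorem cupY_mem (hs : SmRep 𝓥 (indRep W σ')) (hY : 𝓥.Sm1 Y)
    (hYz : ∀ g h, constLin (k := k) W (z (g, h)) = indRep W σ g (Y h) - Y (g * h) + Y g)
    {w : G → trKer (k := k) (V := V') W} (hw : w ∈ Z1 𝓥 (trKerRep W σ')) :
    (B.ind W).cup Y (fun g => (w g : G ⧸ W → V')) ∈ Z2 𝓥 μ := by
  refine ⟨(B.ind W).sm_cup hs hY (hw.1.post _), fun g h j => ?_⟩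
  simp only [DP.cup_apply]
  have h1 : ((w (h * j) : trKer (k := k) (V := V') W) : G ⧸ W → V') =
      indRep W σ' h (w j : G ⧸ W → V') + (w h : G ⧸ W → V') := congrArg Subtype.val (hw.2 h j)
  have h2 : Y (g * h) = indRep W σ g (Y h) + Y g - constLin (k := k) W (z (g, h)) := by
    rw [hYz]
    abel
  rw [h1, h2, ← (B.ind W).eqv, map_mul, Module.End.mul_apply]
  simp only [map_add, map_sub, LinearMap.add_apply, LinearMap.sub_apply]
  rw [DP.ind_const, sumLin_comm, sumLin_comm,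
    (LinearMap.mem_ker.mp (w j).2 : sumLin (k := k) W (w j : G ⧸ W → V') = 0), map_zero, map_zero,
    map_zero]
  ring

/-- cup product with a coboundary -/
theorem cupY_d0 (hYz : ∀ g h, constLin (k := k) W (z (g, h)) =
      indRep W σ g (Y h) - Y (g * h) + Y g) (f : G ⧸ W → V') (hf : sumLin (k := k) W f ∈ H0 σ') :
    (B.ind W).cup Y (d0 (indRep W σ') f) =
      (fun q => B.β (z q) (sumLin (k := k) W f)) -
        d1 μ (fun g => (B.ind W).β (Y g) (indRep W σ' g f)) := by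
  funext q
  obtain ⟨g, h⟩ := q
  simp only [DP.cup_apply, d0_apply, Pi.sub_apply, d1_apply]
  have h1 : indRep W σ g (Y h) = constLin (k := k) W (z (g, h)) + Y (g * h) - Y g := by
    rw [hYz]
    abel
  rw [← (B.ind W).eqv, h1]
  simp only [map_add, map_sub, LinearMap.add_apply, LinearMap.sub_apply, map_mul,
    Module.End.mul_apply]
  rw [DP.ind_const, sumLin_comm, sumLin_comm, (mem_H0 σ').mp hf, (mem_H0 σ').mp hf]
  ring

theorem sm_aux (hs : SmRep 𝓥 (indRep W σ')) (hY : 𝓥.Sm1 Y) (f : G ⧸ W → V') :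
    𝓥.Sm1 (fun g => (B.ind W).β (Y g) (indRep W σ' g f)) := by
  obtain ⟨U, hU, h⟩ := hs f
  obtain ⟨U', hU', h'⟩ := hY
  refine ⟨U ⊓ U', 𝓥.inf_mem _ hU _ hU', fun g u hu => ?_⟩
  simp only
  rw [h' g u hu.2, map_mul, Module.End.mul_apply, h u hu.1]

end cupY

/-- **Degree two**: a class orthogonal to the invariants of the dual vanishes. -/
theorem mem_B2_of_orth' (hD : LocD inv) [FiniteDimensional k V] [FiniteDimensional k V']
    (hσ : SmRep 𝓥 σ) (hσ' : SmRep 𝓥 σ') (B : DP μ σ σ') {z : G × G → V} (hz : z ∈ Z2 𝓥 σ)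
    (h : ∀ f ∈ H0 σ', liv inv (fun q => B.β (z q) f) = 0) : z ∈ B2 𝓥 σ := by
  obtain ⟨W, fW, L, ht, ht'⟩ := hD.exists_lev hσ hσ'
  haveI : W.Normal := 𝓥.normal W L.mem
  have hsI := smRep_indRep L.isOpen hσ
  have hsI' := smRep_indRep L.isOpen hσ'
  -- Step A
  have hcz : (fun q => constLin (k := k) W (z q)) ∈ Z2 𝓥 (indRep W σ) :=
    post_mem (constLin W) (constLin_comm W σ) hz
  have hA := mem_B2_of_orth L B ht ht' hcz (fun f hf => by
    have hsf : sumLin (k := k) W f ∈ H0 σ' := by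
      rw [mem_H0]
      intro g
      rw [← sumLin_comm, (mem_H0 (indRep W σ')).mp hf g]
    rw [← h _ hsf]
    congr 1
    funext q
    rw [DP.ind_const])
  obtain ⟨Y, hY, hYz⟩ := mem_B2.mp hA
  -- Step B
  let ι := trKer (k := k) (V := V') W
  let Λ : ↥(Z1 𝓥 (trKerRep W σ')) →ₗ[k] k :=
    { toFun := fun w => liv inv ((B.ind W).cup Y (fun g => ((w : G → ι) g : G ⧸ W → V')))
      map_add' := fun w w' => by
        rw [← liv_add (cupY_mem B W hsI' hY hYz w.2) (cupY_mem B W hsI' hY hYz w'.2),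
          ← DP.cup_add_right]
        rfl
      map_smul' := fun c w => by
        rw [RingHom.id_apply, smul_eq_mul, ← liv_smul c (cupY_mem B W hsI' hY hYz w.2),
          ← DP.cup_smul_right]
        rfl }
  have hΛ : ∀ w : ↥(Z1 𝓥 (trKerRep W σ')), ∀ f : G ⧸ W → V',
      (∀ g, ((w : G → ι) g : G ⧸ W → V') = indRep W σ' g f - f) → Λ w = 0 := by
    intro w f hf
    have hsf : sumLin (k := k) W f ∈ H0 σ' := by
      rw [mem_H0]
      intro g
      have h0 : sumLin (k := k) W ((w : G → ι) g : G ⧸ W → V') = 0 :=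
        LinearMap.mem_ker.mp ((w : G → ι) g).2
      have h1 := congrArg (sumLin (k := k) W) (hf g)
      rw [h0, map_sub, sumLin_comm] at h1
      exact (sub_eq_zero.mp h1.symm)
    have h2 : (fun g => ((w : G → ι) g : G ⧸ W → V')) = d0 (indRep W σ') f := funext hf
    change liv inv ((B.ind W).cup Y (fun g => ((w : G → ι) g : G ⧸ W → V'))) = 0
    rw [h2, cupY_d0 B W hYz f hsf]
    have m1 : (fun q => B.β (z q) (sumLin (k := k) W f)) ∈ Z2 𝓥 μ :=
      gcup20 (σ := σ) (σ' := σ') B.β B.eqv hsf hz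
    rw [liv_sub m1 (d1_mem_Z2 hD.sm (sm_aux B W hsI' hY f)), h _ hsf,
      liv_d1 (sm_aux B W hsI' hY f), sub_zero]
  let Λ₁ : H1 𝓥 (trKerRep W σ') →ₗ[k] k := Submodule.liftQ _ Λ (by
    intro w hw
    rw [LinearMap.mem_ker]
    obtain ⟨f, hf⟩ := mem_B1.mp hw
    exact hΛ w f fun g => congrArg Subtype.val (hf g))
  obtain ⟨Λ', hΛ'⟩ := exists_extend' ((cycSES2 W σ').iMor 𝓥).mapH1 Λ₁ (by
    intro w hw
    obtain ⟨w, rfl⟩ := H1.mk_surjective w
    obtain ⟨f, hf⟩ := H1.mk_eq_zero.mp hw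
    exact hΛ w f hf)
  obtain ⟨y₀, hy₀⟩ := pair_surjective hD hsI hsI' (B.ind W) Λ'
  obtain ⟨Y₀, rfl⟩ := H1.mk_surjective y₀
  -- Step D
  have hsQ : SmRep 𝓥 (indQuot W σ) := (indSES W σ).smRep_right hsI
  have hsK : SmRep 𝓥 (trKerRep W σ') := (cycSES2 W σ').smRep_left hsI'
  have hX : (fun g => Submodule.mkQ (LinearMap.range (constLin (k := k) (V := V) W))
      (Y g - (Y₀ : G → (G ⧸ W → V)) g)) ∈ Z1 𝓥 (indQuot W σ) := by
    refine ⟨(hY.post₂ Y₀.2.1 (· - ·)).post _, fun g h' => ?_⟩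
    change Submodule.mkQ _ (Y (g * h') - (Y₀ : G → (G ⧸ W → V)) (g * h')) =
      Submodule.mkQ _ (indRep W σ g (Y h' - (Y₀ : G → (G ⧸ W → V)) h')) +
      Submodule.mkQ _ (Y g - (Y₀ : G → (G ⧸ W → V)) g)
    rw [← map_add, ← sub_eq_zero, ← map_sub, Submodule.mkQ_apply, Submodule.Quotient.mk_eq_zero]
    refine ⟨- z (g, h'), ?_⟩
    rw [map_neg, hYz, Y₀.2.2 g h', map_sub]
    abel
  have hX1 := left_nondeg hD hsQ hsK (B.quot W) hX (fun w hw => by
    have h1 := hΛ' (H1.mk 𝓥 (trKerRep W σ') ⟨w, hw⟩)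
    rw [← hy₀] at h1
    have h2 : liv inv ((B.ind W).cup (Y₀ : G → (G ⧸ W → V)) (fun g => (w g : G ⧸ W → V'))) =
        liv inv ((B.ind W).cup Y (fun g => (w g : G ⧸ W → V'))) := h1
    have h3 : (B.quot W).cup (fun g => Submodule.mkQ (LinearMap.range (constLin (k := k) (V := V) W))
        (Y g - (Y₀ : G → (G ⧸ W → V)) g)) w =
        (B.ind W).cup Y (fun g => (w g : G ⧸ W → V')) -
        (B.ind W).cup (Y₀ : G → (G ⧸ W → V)) (fun g => (w g : G ⧸ W → V')) := by
      funext q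
      rw [DP.cup_apply, DP.quot_mk, Pi.sub_apply, DP.cup_apply, DP.cup_apply, map_sub,
        LinearMap.sub_apply]
      rfl
    have m2 : (B.ind W).cup (Y₀ : G → (G ⧸ W → V)) (fun g => (w g : G ⧸ W → V')) ∈ Z2 𝓥 μ :=
      (B.ind W).cup_mem hsI' Y₀.2 (((cycSES2 W σ').iMor 𝓥).mapZ1 ⟨w, hw⟩).2
    rw [h3, liv_sub (cupY_mem B W hsI' hY hYz hw) m2, h2, sub_self])
  obtain ⟨c, hc⟩ := mem_B1.mp hX1
  obtain ⟨φ, rfl⟩ := Submodule.mkQ_surjective _ c
  have hn : ∀ g, ∃ v, constLin (k := k) W v =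
      Y g - (Y₀ : G → (G ⧸ W → V)) g - (indRep W σ g φ - φ) := by
    intro g
    have h1 := hc g
    change Submodule.mkQ _ _ = Submodule.mkQ _ (indRep W σ g φ) - Submodule.mkQ _ φ at h1
    rw [← map_sub, ← sub_eq_zero, ← map_sub, Submodule.mkQ_apply,
      Submodule.Quotient.mk_eq_zero] at h1
    exact h1
  have hn' : ∀ g, constLin (k := k) W ((Y g - (Y₀ : G → (G ⧸ W → V)) g - (indRep W σ g φ - φ))
      ((1 : G) : G ⧸ W)) = Y g - (Y₀ : G → (G ⧸ W → V)) g - (indRep W σ g φ - φ) := by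
    intro g
    obtain ⟨v, hv⟩ := hn g
    rw [← hv]
    rfl
  rw [mem_B2]
  refine ⟨fun g => (Y g - (Y₀ : G → (G ⧸ W → V)) g - (indRep W σ g φ - φ))
      ((1 : G) : G ⧸ W), ?_, fun g h' => ?_⟩
  · have h1 : 𝓥.Sm1 (fun g => indRep W σ g φ - φ) := (d0_mem_Z1 hsI φ).1
    exact ((hY.post₂ Y₀.2.1 (· - ·)).post₂ h1 (· - ·)).post (fun f => f ((1 : G) : G ⧸ W))
  · apply constLin_injective (k := k) W
    rw [map_add, map_sub, constLin_comm, hn', hn', hn', hYz, Y₀.2.2 g h']
    simp only [map_sub, map_mul, Module.End.mul_apply]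
    abel

/-- orthogonality in degree `(2, 0)` -/
theorem finrank_H2_le (hD : LocD inv) [FiniteDimensional k V] [FiniteDimensional k V']
    (hσ : SmRep 𝓥 σ) (hσ' : SmRep 𝓥 σ') (B : DP μ σ σ') :
    FiniteDimensional k (H2 𝓥 σ) ∧ finrank k (H2 𝓥 σ) = finrank k ↥(H0 σ') := by
  let P : H2 𝓥 σ →ₗ[k] (↥(H0 σ') →ₗ[k] k) := LinearMap.flip
    { toFun := fun f => inv ∘ₗ (Mor.coeff (𝓤 := 𝓥) (ρ := σ) (σ := μ) (B.β.flip (f : V')) (fun g v => by
        have h1 : B.β (σ g v) (f : V') = μ g (B.β v (f : V')) := by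
          rw [← B.eqv, (mem_H0 σ').mp f.2 g]
        exact h1)).mapH2
      map_add' := fun f f' => by
        refine LinearMap.ext fun x => ?_
        obtain ⟨z, rfl⟩ := H2.mk_surjective x
        rw [LinearMap.add_apply, LinearMap.comp_apply, LinearMap.comp_apply, LinearMap.comp_apply,
          ← map_add, Mor.mapH2_mk, Mor.mapH2_mk, Mor.mapH2_mk, ← map_add]
        congr 2
        apply Subtype.ext
        funext q
        exact map_add (B.β ((z : G × G → V) q)) _ _
      map_smul' := fun c f => by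
        refine LinearMap.ext fun x => ?_
        obtain ⟨z, rfl⟩ := H2.mk_surjective x
        rw [LinearMap.smul_apply, LinearMap.comp_apply, LinearMap.comp_apply, ← map_smul,
          Mor.mapH2_mk, Mor.mapH2_mk, ← map_smul]
        congr 2
        apply Subtype.ext
        funext q
        exact map_smul (B.β ((z : G × G → V) q)) _ _ }
  have hP : ∀ (z : ↥(Z2 𝓥 σ)) (f : ↥(H0 σ')), P (H2.mk 𝓥 σ z) f =
      liv inv (fun q => B.β ((z : G × G → V) q) f) := by
    intro z f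
    have m1 : (fun q => B.β ((z : G × G → V) q) (f : V')) ∈ Z2 𝓥 μ :=
      gcup20 (σ := σ) (σ' := σ') B.β B.eqv f.2 z.2
    rw [liv_eq m1]
    rfl
  have hinj : Function.Injective P := by
    rw [← LinearMap.ker_eq_bot, LinearMap.ker_eq_bot']
    intro x hx
    obtain ⟨z, rfl⟩ := H2.mk_surjective x
    rw [Submodule.mkQ_apply, Submodule.Quotient.mk_eq_zero]
    refine mem_B2_of_orth' hD hσ hσ' B z.2 fun f hf => ?_
    exact (hP z ⟨f, hf⟩).symm.trans (by rw [hx]; rfl)
  haveI : FiniteDimensional k (H2 𝓥 σ) := FiniteDimensional.of_injective _ hinj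
  refine ⟨inferInstance, le_antisymm ?_ ?_⟩
  · rw [← Subspace.dual_finrank_eq (V := ↥(H0 σ'))]
    exact LinearMap.finrank_le_finrank_of_injective hinj
  · rw [← Subspace.dual_finrank_eq (V := H2 𝓥 σ)]
    have hinj' : Function.Injective P.flip := by
      rw [← LinearMap.ker_eq_bot, LinearMap.ker_eq_bot']
      intro f hf
      by_contra hne
      have hbf : B.β.flip (f : V') ≠ 0 := by
        intro h0
        apply hne
        apply Subtype.ext
        exact B.inj' _ fun v => LinearMap.congr_fun h0 v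
      obtain ⟨z, hz, hz0⟩ := hD.ln V σ hσ (B.β.flip (f : V')) (fun g v => by
        have h1 : B.β (σ g v) (f : V') = μ g (B.β v (f : V')) := by
          rw [← B.eqv, (mem_H0 σ').mp f.2 g]
        exact h1) hbf
      apply hz0
      have h1 := LinearMap.congr_fun hf (H2.mk 𝓥 σ ⟨z, hz⟩)
      rw [LinearMap.flip_apply, hP] at h1
      exact h1
    exact LinearMap.finrank_le_finrank_of_injective hinj'

end Fermat.Agent.PT.LD
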