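import Fermat.Agent.PT.Conc
import Fermat.Agent.LocalCFT.KumBound
import Fermat.Agent.GlobalCFT.Semi

/-!
# The dimension of the first cohomology of `μ_p` of a local field
-/

set_option autoImplicit false
set_option linter.unusedSectionVars false
set_option linter.style.haveILetI false

namespace Fermat.Agent.PT

open Fermat.Agent.Coh Fermat.Agent.GCFT Fermat.Agent.GlobalCFT Fermat.Agent.GalD
  Fermat.Agent.LocalCFT Module ExtCitation

section locdim

variable {p : ℕ} [hp : Fact p.Prime] {l : Nat.Primes} {V : Subgroup (Gl l)}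

/-- Kummer theory: a cocycle is given by a root -/
theorem exists_root_of_cocycle (z : ↥(Z1 ((LF (l : ℕ)).res V) (rep (muL p l) V))) :
    ∃ y : Additive (Om l)ˣ, (∀ g : V, jl p l ((z : V → ZMod p) g) = LU (l : ℕ) (g : Gl l) y - y) ∧
      uval y ^ p ∈ fld V := by
  obtain ⟨y, hy⟩ := h90_local l V (fun g => jl p l ((z : V → ZMod p) g)) (z.2.1.post _)
    (fun g h => by
      have h1 : (z : V → ZMod p) (g * h) = rep (muL p l) V g ((z : V → ZMod p) h) +
        (z : V → ZMod p) g := z.2.2 g h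
      simp only [h1, map_add]
      congr 1
      exact jl_comm p l (g : Gl l) _)
  refine ⟨y, hy, mem_fld.mpr fun g hg => ?_⟩
  have h0 : jl p l ((z : V → ZMod p) ⟨g, hg⟩) = LU (l : ℕ) g y - y := hy ⟨g, hg⟩
  have h1 : p • LU (l : ℕ) g y - p • y = 0 := by
    rw [← nsmul_sub, ← h0, nsmul_jl]
  have h2 := congrArg uval (sub_eq_zero.mp h1)
  rw [uval_nsmul, uval_nsmul] at h2
  rw [map_pow]
  exact h2

/-- the Kummer class of a root -/
noncomputable def kumCl (y : Additive (Om l)ˣ) (hy : uval y ^ p ∈ fld V) :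
    (fld V)ˣ ⧸ (powMonoidHom p : (fld V)ˣ →* (fld V)ˣ).range :=
  QuotientGroup.mk (Units.mk0 (⟨uval y ^ p, hy⟩ : fld V) (by
    intro h
    exact pow_ne_zero p (uval_ne_zero y) (congrArg Subtype.val h)))

theorem exists_of_kumCl_eq {y y' : Additive (Om l)ˣ} (hy : uval y ^ p ∈ fld V)
    (hy' : uval y' ^ p ∈ fld V) (h : kumCl y hy = kumCl y' hy') :
    ∃ (a : Additive (Om l)ˣ) (b : ZMod p), (∀ g ∈ V, LU (l : ℕ) g a = a) ∧
      y' = y + a + jl p l b := by
  obtain ⟨a, ha⟩ := QuotientGroup.eq.mp h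
  have ha0 : (((a : (fld V)ˣ) : fld V) : Om l) ≠ 0 := by
    intro h0
    exact Units.ne_zero a (Subtype.ext h0)
  set a' : Additive (Om l)ˣ := umk (((a : (fld V)ˣ) : fld V) : Om l) ha0 with ha'
  have h1 : uval a' ^ p * uval y ^ p = uval y' ^ p := by
    have h2 := congrArg (fun u : (fld V)ˣ => ((u : fld V) : Om l)) ha
    simp only [powMonoidHom_apply, Units.val_pow_eq_pow_val, Units.val_mul,
      Units.val_inv_eq_inv_val] at h2
    rw [ha', uval_umk]
    have h3 : ((((a : (fld V)ˣ) : fld V) ^ p : fld V) : Om l) = (((a : (fld V)ˣ) : fld V) : Om l) ^ p :=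
      rfl
    rw [← h3, h2]
    have h4 : uval y ^ p ≠ 0 := pow_ne_zero p (uval_ne_zero y)
    change (uval y ^ p)⁻¹ * uval y' ^ p * uval y ^ p = uval y' ^ p
    rw [mul_comm, mul_inv_cancel_left₀ h4]
  have h5 : p • (y' - y - a') = 0 := by
    apply uval_injective
    rw [uval_nsmul, uval_zero, uval_sub, uval_sub, div_pow, div_pow, ← h1]
    have h4 : uval y ^ p ≠ 0 := pow_ne_zero p (uval_ne_zero y)
    have h6 : uval a' ^ p ≠ 0 := pow_ne_zero p (uval_ne_zero a')
    rw [mul_div_assoc, div_self h4, mul_one, div_self h6]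
  obtain ⟨b, hb⟩ := exists_jl p l _ h5
  refine ⟨a', b, fun g hg => ?_, ?_⟩
  · apply uval_injective
    rw [uval_unitsRep, ha', uval_umk]
    exact mem_fld.mp ((a : (fld V)ˣ) : fld V).2 g hg
  · rw [hb]
    abel

/-- The Kummer map on classes. -/
noncomputable def kumF (c : H1 ((LF (l : ℕ)).res V) (rep (muL p l) V)) :
    (fld V)ˣ ⧸ (powMonoidHom p : (fld V)ˣ →* (fld V)ˣ).range :=
  kumCl (exists_root_of_cocycle (H1.mk_surjective c).choose).choose
    (exists_root_of_cocycle (H1.mk_surjective c).choose).choose_spec.2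

theorem kumF_injective : Function.Injective
    (kumF : H1 ((LF (l : ℕ)).res V) (rep (muL p l) V) → _) := by
  intro c c' h
  have hz := (H1.mk_surjective c).choose_spec
  have hz' := (H1.mk_surjective c').choose_spec
  unfold kumF at h
  set z := (H1.mk_surjective c).choose
  set z' := (H1.mk_surjective c').choose
  have hy := (exists_root_of_cocycle z).choose_spec
  have hy' := (exists_root_of_cocycle z').choose_spec
  set y := (exists_root_of_cocycle z).choose
  set y' := (exists_root_of_cocycle z').choose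
  obtain ⟨a, b, ha, hab⟩ := exists_of_kumCl_eq hy.2 hy'.2 h
  rw [← hz, ← hz']
  refine (H1.mk_eq_mk.mpr ⟨b, fun g => ?_⟩).symm
  apply jl_injective p l
  have h1 := hy.1 g
  have h2 := hy'.1 g
  have h3 : jl p l (rep (muL p l) V g b) = LU (l : ℕ) (g : Gl l) (jl p l b) :=
    jl_comm p l (g : Gl l) b
  rw [h2, map_add, map_sub, h1, h3, hab, map_add, map_add, ha g g.2]
  abel

noncomputable instance normedAlgFld (V : Subgroup (Gl l)) : NormedAlgebra ℚ_[(l : ℕ)] (fld V) :=
  { (inferInstance : Algebra ℚ_[(l : ℕ)] (fld V)) with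
    norm_smul_le := fun r x => by
      change ‖((r • x : fld V) : PadicAlgCl (l : ℕ))‖ ≤ ‖r‖ * ‖(x : PadicAlgCl (l : ℕ))‖
      have : ((r • x : fld V) : PadicAlgCl (l : ℕ)) = r • (x : PadicAlgCl (l : ℕ)) := rfl
      rw [this]
      exact norm_smul_le _ _ }

variable (p) in
theorem index_fld (hV : (LF (l : ℕ)).IsOpen V) :
    (powMonoidHom p : (fld V)ˣ →* (fld V)ˣ).range.index ≠ 0 ∧
    (powMonoidHom p : (fld V)ˣ →* (fld V)ˣ).range.index ≤
      p ^ (2 + if (l : ℕ) = p then V.index else 0) := by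
  have := finiteDimensional_fld hV
  have h1 := index_pow_units_le (l : ℕ) (fld V) p
  rw [finrank_fld hV] at h1
  exact h1

/-- **Dimension bound** -/
theorem locdim (hV : (LF (l : ℕ)).IsOpen V) :
    Module.Finite (ZMod p) (H1 ((LF (l : ℕ)).res V) (rep (muL p l) V)) ∧
    finrank (ZMod p) (H1 ((LF (l : ℕ)).res V) (rep (muL p l) V)) ≤
      2 + if (l : ℕ) = p then V.index else 0 := by
  obtain ⟨h1, h2⟩ := index_fld p hV
  have h3 : Finite ((fld V)ˣ ⧸ (powMonoidHom p : (fld V)ˣ →* (fld V)ˣ).range) :=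
    Nat.finite_of_card_ne_zero h1
  have h4 : Finite (H1 ((LF (l : ℕ)).res V) (rep (muL p l) V)) :=
    Finite.of_injective _ kumF_injective
  have h5 : Module.Finite (ZMod p) (H1 ((LF (l : ℕ)).res V) (rep (muL p l) V)) :=
    Module.Finite.of_finite
  refine ⟨h5, ?_⟩
  have h6 : Nat.card (H1 ((LF (l : ℕ)).res V) (rep (muL p l) V)) =
      p ^ finrank (ZMod p) (H1 ((LF (l : ℕ)).res V) (rep (muL p l) V)) := by
    rw [Module.natCard_eq_pow_finrank (K := ZMod p), Nat.card_zmod]
  have h7 : Nat.card (H1 ((LF (l : ℕ)).res V) (rep (muL p l) V)) ≤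
      (powMonoidHom p : (fld V)ˣ →* (fld V)ˣ).range.index :=
    Nat.card_le_card_of_injective _ kumF_injective
  have h8 := h7.trans h2
  rw [h6] at h8
  exact (Nat.pow_le_pow_iff_right hp.out.one_lt).mp h8

end locdim

end Fermat.Agent.PT
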