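import Fermat.Agent.PT.LD5
import Fermat.Agent.PT.LNfr
import Fermat.Agent.PT.LocDim

/-!
# Local duality for the local Galois groups
-/

set_option autoImplicit false
set_option linter.unusedSectionVars false
set_option linter.style.haveILetI false

namespace Fermat.Agent.PT.LD

open Fermat.Agent.Coh Fermat.Agent.GCFT Fermat.Agent.GlobalCFT Fermat.Agent.GalD
  Fermat.Agent.LocalCFT Module ExtCitation

attribute [local instance] Frame.fq

section

variable {p : ℕ} [hp : Fact p.Prime] {l : Nat.Primes} (hp2 : p ≠ 2)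
variable {U : Subgroup (Gl l)} (hU : (LF (l : ℕ)).IsOpen U)

theorem inv_bij : Function.Bijective (invU hp2 hU) := by
  constructor
  · rw [← LinearMap.ker_eq_bot, LinearMap.ker_eq_bot']
    intro x hx
    obtain ⟨f, rfl⟩ := H2.mk_surjective x
    have h1 : (cycCF (l : ℕ) p hp2).inv hU (toTor f) = 0 := (invU_mk hp2 hU f).symm.trans hx
    have h2 : toTor f = 0 := (cycCF (l : ℕ) p hp2).inv_injective hU (h1.trans (map_zero _).symm)
    have h3 : H2.mk ((LF (l : ℕ)).res U) (rep (LU (l : ℕ)) U) (jZ f) = 0 :=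
      congrArg Subtype.val h2
    obtain ⟨c, hc, h4⟩ := H2.mk_eq_zero.mp h3
    have h4' : ∀ g h, jl p l ((f : U × U → ZMod p) (g, h)) =
        LU (l : ℕ) (g : Gl l) (c h) - c (g * h) + c g := fun g h => h4 g h
    obtain ⟨y, hy⟩ := h90_local l U (fun g => p • c g) (hc.post _) (fun g h => by
      have h5 := congrArg (fun t => p • t) (h4' g h)
      simp only [nsmul_jl] at h5
      rw [nsmul_add, nsmul_sub, ← map_nsmul] at h5
      rw [eq_comm, ← sub_eq_zero]
      rw [← h5.symm]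
      abel)
    obtain ⟨y', hy'⟩ := exists_div (l := l) p y
    have h6 : ∀ g : U, ∃ e, jl p l e = c g - (LU (l : ℕ) (g : Gl l) y' - y') := by
      intro g
      apply exists_jl
      have h7 : p • c g = LU (l : ℕ) (g : Gl l) y - y := hy g
      rw [nsmul_sub, nsmul_sub, ← map_nsmul, hy', h7, sub_self]
    choose e he using h6
    refine H2.mk_eq_zero.mpr ⟨e, ?_, fun g h => ?_⟩
    · have h8 : ((LF (l : ℕ)).res U).Sm1 (fun g : U => c g - (LU (l : ℕ) (g : Gl l) y' - y')) := by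
        refine hc.post₂ ?_ (· - ·)
        exact (d0_mem_Z1 ((unitsRep_smooth (k := ℚ_[(l : ℕ)])
          (Ω := PadicAlgCl (l : ℕ))).comp U.subtype) y').1
      obtain ⟨W, hW, h9⟩ := h8
      exact ⟨W, hW, fun g u hu => jl_injective p l (by rw [he, he]; exact h9 g u hu)⟩
    · apply jl_injective p l
      rw [h4', map_add, map_sub, he, he]
      have h10 : jl p l (rep (muL p l) U g (e h)) = LU (l : ℕ) (g : Gl l) (jl p l (e h)) :=
        jl_comm p l (g : Gl l) _
      rw [h10, he]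
      have h11 : ((g * h : U) : Gl l) = (g : Gl l) * (h : Gl l) := rfl
      rw [h11, map_mul, Module.End.mul_apply, map_sub, map_sub]
      abel
  · intro a
    obtain ⟨y, hy⟩ := invU_surjective hp2 hU
    exact ⟨a • H2.mk ((LF (l : ℕ)).res U) (rep (muL p l) U) y, by
      rw [map_smul, hy, smul_eq_mul, mul_one]⟩

variable (p) in
theorem exists_cyc (V₀ : Subgroup (Gl l)) (hV₀ : V₀ ∈ LF (l : ℕ)) :
    ∃ W ∈ LF (l : ℕ), W ≤ V₀ ∧ ∀ w ∈ W, (cycloChar p).comp (rl l) w = 1 := by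
  have h1 := rl_cont (l := l) (isOpen_of_famS (Fam.isOpen_of_mem
    (cycloChar_open (p := p) (Finset.mem_singleton_self (pPrime p)))))
  obtain ⟨W, hW, hle⟩ := h1
  exact ⟨V₀ ⊓ W, (LF (l : ℕ)).inf_mem _ hV₀ _ hW, inf_le_left, fun w hw => hle hw.2⟩

theorem smMu : SmRep (LF (l : ℕ)) (muL p l) := by
  obtain ⟨W, hW, -, h⟩ := exists_cyc p (l := l) _ (LF (l : ℕ)).nonempty.choose_spec
  refine fun v => ⟨W, hW, fun u hu => ?_⟩
  have h1 : muL p l u v = (((cycloChar p).comp (rl l) u : (ZMod p)ˣ) : ZMod p) * v := rfl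
  rw [h1, h u hu, Units.val_one, one_mul]

theorem nsmul_aux {A : Type*} [AddCommGroup A] {T b : A} {m n c p x : ℕ} (h : p • T = b)
    (h' : x + p * c = m + n) : c • b + x • T = m • T + n • T := by
  rw [← h, ← add_nsmul, ← h', add_nsmul, mul_nsmul, add_comm]

/-- nondegeneracy at a level with trivial action: Kummer theory -/
theorem nd_aux (ht : ∀ w ∈ U, (cycloChar p).comp (rl l) w = 1)
    {a : U → ZMod p} (ha : a ∈ Z1 ((LF (l : ℕ)).res U) (rep (muL p l) U))
    (hy : ∀ y ∈ Z1 ((LF (l : ℕ)).res U) (rep (muL p l) U),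
      liv (invU hp2 hU) (fun q : U × U => a q.1 * y q.2) = 0) : a = 0 := by
  have htr : ∀ (u : U) (b : ZMod p), rep (muL p l) U u b = b := by
    intro u b
    have h1 : rep (muL p l) U u b = (((cycloChar p).comp (rl l) (u : Gl l) : (ZMod p)ˣ) : ZMod p) * b := rfl
    rw [h1, ht _ u.2, Units.val_one, one_mul]
  have htr' : ∀ (u : U) (b : ZMod p), LU (l : ℕ) (u : Gl l) (jl p l b) = jl p l b := by
    intro u b
    rw [← jl_comm p l (u : Gl l) b, ht _ u.2, Units.val_one, one_mul]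
  have hadd : ∀ g h : U, a (g * h) = a g + a h := by
    intro g h
    rw [ha.2 g h, htr, add_comm]
  by_contra hne
  let χ : Chr ((LF (l : ℕ)).res U) (ZMod p) := ⟨a, ha.1, hadd⟩
  have hχ : χ ≠ 0 := fun h0 => hne (congrArg (fun χ : Chr ((LF (l : ℕ)).res U) (ZMod p) => χ.1) h0)
  obtain ⟨b, hb⟩ := (cycCF (l : ℕ) p hp2).exists_sym_ne_zero hU χ hχ
  obtain ⟨β, hβ⟩ := exists_div (l := l) p (b : Additive (Om l)ˣ)
  have hbf : ∀ g : U, LU (l : ℕ) (g : Gl l) (b : Additive (Om l)ˣ) = b := fun g => b.2 g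
  have h6 : ∀ g : U, ∃ e, jl p l e = LU (l : ℕ) (g : Gl l) β - β := by
    intro g
    apply exists_jl
    rw [nsmul_sub, ← map_nsmul, hβ, hbf, sub_self]
  choose y hyj using h6
  have hyZ : y ∈ Z1 ((LF (l : ℕ)).res U) (rep (muL p l) U) := by
    refine ⟨?_, fun g h => ?_⟩
    · obtain ⟨W, hW, h9⟩ := (d0_mem_Z1 ((unitsRep_smooth (k := ℚ_[(l : ℕ)])
        (Ω := PadicAlgCl (l : ℕ))).comp U.subtype) β).1
      exact ⟨W, hW, fun g u hu => jl_injective p l (by rw [hyj, hyj]; exact h9 g u hu)⟩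
    · apply jl_injective p l
      rw [map_add, htr, hyj, hyj, hyj]
      have h11 : ((g * h : U) : Gl l) = (g : Gl l) * (h : Gl l) := rfl
      have h12 : LU (l : ℕ) (g : Gl l) (LU (l : ℕ) (h : Gl l) β) = LU (l : ℕ) (g : Gl l) β +
          (LU (l : ℕ) (h : Gl l) β - β) := by
        rw [← hyj h, ← htr' g, hyj h, map_sub]
        abel
      rw [h11, map_mul, Module.End.mul_apply, h12]
      abel
  have h1 := hy y hyZ
  have hm : (fun q : U × U => a q.1 * y q.2) ∈ Z2 ((LF (l : ℕ)).res U) (rep (muL p l) U) := by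
    refine ⟨(ha.1.sm2_fst).post₂ (?_ : ((LF (l : ℕ)).res U).Sm2 (fun q : U × U => y q.2)) (· * ·),
      fun g h j => ?_⟩
    · have h2 := ((smMu (p := p) (l := l)).comp U.subtype).sm2_act hyZ.1
      have h3 : (fun q : U × U => y q.2) = fun q : U × U => rep (muL p l) U q.1 (y q.2) :=
        funext fun q => (htr _ _).symm
      rw [h3]
      exact h2
    · simp only
      rw [htr, hadd, hyZ.2 h j, htr]
      ring
  rw [liv_eq hm] at h1
  have h2 : (cycCF (l : ℕ) p hp2).inv hU (toTor ⟨_, hm⟩) = 0 := (invU_mk hp2 hU ⟨_, hm⟩).symm.trans h1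
  have h3 : toTor ⟨_, hm⟩ = 0 :=
    (cycCF (l : ℕ) p hp2).inv_injective hU (h2.trans (map_zero _).symm)
  have h4 : H2.mk ((LF (l : ℕ)).res U) (rep (LU (l : ℕ)) U) (jZ ⟨_, hm⟩) = 0 :=
    congrArg Subtype.val h3
  apply hb
  rw [sym_apply]
  refine Eq.trans ?_ h4
  have : NeZero p := ⟨hp.out.ne_zero⟩
  rw [H2.mk_eq_mk]
  refine ⟨fun g => (a g).val • LU (l : ℕ) (g : Gl l) β, ?_, fun g h => ?_⟩
  · have h8 := (d0_mem_Z1 ((unitsRep_smooth (k := ℚ_[(l : ℕ)])
        (Ω := PadicAlgCl (l : ℕ))).comp U.subtype) β).1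
    have h9 := ha.1.post₂ h8 (fun (i : ZMod p) (t : Additive (Om l)ˣ) => i.val • (t + β))
    obtain ⟨W, hW, h10⟩ := h9
    refine ⟨W, hW, fun g u hu => ?_⟩
    have h11 := h10 g u hu
    have h12 : ∀ g : U, (d0 (rep (LU (l : ℕ)) U) β) g + β = LU (l : ℕ) (g : Gl l) β := by
      intro g
      change LU (l : ℕ) (g : Gl l) β - β + β = _
      rw [sub_add_cancel]
    simp only [h12] at h11
    exact h11
  · have e1 : (symZ χ b : U × U → Additive (Om l)ˣ) (g, h) = carry (a g) (a h) • (b : Additive (Om l)ˣ) :=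
      rfl
    have e2 : (jZ ⟨_, hm⟩ : U × U → Additive (Om l)ˣ) (g, h) = (a g).val • jl p l (y h) := by
      have e3 : a g * y h = (a g).val • y h := by rw [nsmul_eq_mul, ZMod.natCast_zmod_val]
      have e4 : (jZ ⟨_, hm⟩ : U × U → Additive (Om l)ˣ) (g, h) = jl p l (a g * y h) := rfl
      rw [e4, e3, map_nsmul]
    have e5 : rep (LU (l : ℕ)) U g ((a h).val • LU (l : ℕ) (h : Gl l) β) =
        (a h).val • LU (l : ℕ) ((g * h : U) : Gl l) β := by
      have e6 : ((g * h : U) : Gl l) = (g : Gl l) * (h : Gl l) := rfl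
      rw [e6, map_mul, Module.End.mul_apply]
      exact map_nsmul (LU (l : ℕ) (g : Gl l)) _ _
    have e7 : LU (l : ℕ) ((g * h : U) : Gl l) β = jl p l (y h) + LU (l : ℕ) (g : Gl l) β := by
      have e6 : ((g * h : U) : Gl l) = (g : Gl l) * (h : Gl l) := rfl
      rw [e6, map_mul, Module.End.mul_apply]
      have e8 : LU (l : ℕ) (h : Gl l) β = jl p l (y h) + β := by rw [hyj, sub_add_cancel]
      rw [e8, map_add, htr' g]
    have e9 : p • LU (l : ℕ) ((g * h : U) : Gl l) β = (b : Additive (Om l)ˣ) := by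
      rw [← map_nsmul, hβ, hbf]
    rw [e1, e2, e5]
    have e10 := carry_spec (a g) (a h)
    have e11 : (a (g * h)).val + p * carry (a g) (a h) = (a g).val + (a h).val := by
      rw [hadd]
      exact e10.symm
    have e12 : carry (a g) (a h) • (b : Additive (Om l)ˣ) + (a (g * h)).val •
        LU (l : ℕ) ((g * h : U) : Gl l) β = (a g).val • LU (l : ℕ) ((g * h : U) : Gl l) β +
        (a h).val • LU (l : ℕ) ((g * h : U) : Gl l) β := by
      exact nsmul_aux e9 e11
    have e13 : carry (a g) (a h) • (b : Additive (Om l)ˣ) =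
        (a g).val • LU (l : ℕ) ((g * h : U) : Gl l) β +
        (a h).val • LU (l : ℕ) ((g * h : U) : Gl l) β -
        (a (g * h)).val • LU (l : ℕ) ((g * h : U) : Gl l) β := by
      rw [← e12, add_sub_cancel_right]
    rw [e13]
    have e14 : (a g).val • LU (l : ℕ) ((g * h : U) : Gl l) β =
        (a g).val • jl p l (y h) + (a g).val • LU (l : ℕ) (g : Gl l) β := by
      rw [e7, nsmul_add]
    rw [e14]
    abel

/-- the level data -/
noncomputable def levOf (W : Subgroup (Gl l)) (hW : W ∈ LF (l : ℕ))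
    (ht : ∀ w ∈ W, (cycloChar p).comp (rl l) w = 1) :
    haveI := (LF (l : ℕ)).finiteIndex W hW
    Lev (invL hp2 l) W :=
  haveI := (LF (l : ℕ)).finiteIndex W hW
  { mem := hW
    triv := fun w hw a => by
      have h1 : muL p l w a = (((cycloChar p).comp (rl l) w : (ZMod p)ˣ) : ZMod p) * a := rfl
      rw [h1, ht w hw, Units.val_one, one_mul]
    invW := invU hp2 (Fam.isOpen_of_mem hW)
    bij := inv_bij hp2 (Fam.isOpen_of_mem hW)
    tr := fun Z => by
      have hZt : (fun q => sumLin (k := ZMod p) W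
          ((Z : Gl l × Gl l → (Gl l ⧸ W → ZMod p)) q)) ∈ Z2 (LF (l : ℕ)) (muL p l) :=
        Frame.post_mem_Z2 (sumLin (k := ZMod p) W) (sumLin_comm W (muL p l)) Z.2
      exact (liv_eq hZt).trans (invL_tr hp2 (Fam.isOpen_of_mem hW) Z hZt)
    nd := fun a ha h => nd_aux hp2 (Fam.isOpen_of_mem hW) ht ha h
    fin := (locdim (Fam.isOpen_of_mem hW)).1 }

/-- **The local class formation.** -/
theorem locD (l : Nat.Primes) : LocD (invL hp2 l) where
  sm := smMu
  ln := by
    intro V _ _ σ hσ b hb hb0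
    have h0 : ∃ w, b w ≠ 0 := by
      by_contra hcon
      push Not at hcon
      exact hb0 (LinearMap.ext hcon)
    obtain ⟨w, hw⟩ := h0
    set w₀ : V := (b w)⁻¹ • w with hw₀
    have hbw : b w₀ = 1 := by rw [hw₀, map_smul, smul_eq_mul, inv_mul_cancel₀ hw]
    obtain ⟨U₀, hU₀, hT⟩ := hσ w₀
    obtain ⟨U, hU, hle, hχ⟩ := exists_cyc p U₀ hU₀
    haveI := (LF (l : ℕ)).finiteIndex U hU
    have hUo : (LF (l : ℕ)).IsOpen U := Fam.isOpen_of_mem hU
    obtain ⟨Z, hZt, hZ⟩ := exists_tr_ne (p := p) hp2 hUo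
    have hσU : ∀ u ∈ U, σ u w₀ = w₀ := fun u hu => hT _ (hle hu)
    let T := TT ((cycloChar p).comp (rl l)) σ U w₀
    have hTa : ∀ g ψ, T (indRep U (muL p l) g ψ) = σ g (T ψ) :=
      TT_act (fun g a => rfl) hχ hσU
    have hTZ : (fun q => T ((Z : Gl l × Gl l → (Gl l ⧸ U → ZMod p)) q)) ∈
        Z2 (LF (l : ℕ)) σ := Frame.post_mem_Z2 T hTa Z.2
    refine ⟨_, hTZ, ?_⟩
    have h1 : (fun q => b (T ((Z : Gl l × Gl l → (Gl l ⧸ U → ZMod p)) q))) =
        fun q => sumLin (k := ZMod p) U ((Z : Gl l × Gl l → (Gl l ⧸ U → ZMod p)) q) := by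
      funext q
      have h2 := b_TT (χ := (cycloChar p).comp (rl l)) (σ := σ)
        (U := U) (w₀ := w₀) (b := b) (fun g w => hb _ w) ((Z : Gl l × Gl l →
          (Gl l ⧸ U → ZMod p)) q)
      rw [hbw, mul_one] at h2
      exact h2
    rw [h1, liv_eq hZt, hZ]
    exact one_ne_zero
  lev := by
    intro V₀ hV₀
    obtain ⟨W, hW, hle, ht⟩ := exists_cyc p V₀ hV₀
    haveI := (LF (l : ℕ)).finiteIndex W hW
    exact ⟨W, Frame.fq W, hle, ⟨levOf hp2 W hW ht⟩⟩

end

end Fermat.Agent.PT.LD
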