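import Fermat.Agent.PT.Nondeg

/-!
# Left nondegeneracy of the basic pairing, continued
-/

set_option autoImplicit false
set_option linter.unusedSectionVars false
set_option linter.style.haveILetI false

namespace Fermat.Agent.PT

open Fermat.Agent.Coh Module

namespace Frame

attribute [local instance] fq

variable {k : Type} [Field k] {Γ : Type} [Group Γ] (D : Frame k Γ)
variable {V : Type} [AddCommGroup V] [Module k V]
variable (U : Subgroup Γ) [U.FiniteIndex]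

/-- **(LN)** local nondegeneracy at some place -/
def LN : Prop := ∃ v₀ : D.ι, ∀ (V : Type) [AddCommGroup V] [Module k V] [FiniteDimensional k V]
  (σ : Representation k Γ V), SmRep D.𝓤 σ → ∀ b : V →ₗ[k] k,
    (∀ g w, b (σ g w) = D.χ g * b w) → b ≠ 0 →
    ∃ z ∈ Z2 (D.𝓥 v₀) (D.lr v₀ σ), D.iv v₀ (fun p => b (z p)) ≠ 0

variable {D}
variable (D) in
/-- families of local cocycles with trace zero -/
noncomputable def RK (ρ : Representation k Γ V) :
    Submodule k (∀ v, D.G v × D.G v → (Γ ⧸ U → V)) where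
  carrier := {z | ∀ v, z v ∈ Z2 (D.𝓥 v) (D.lr v (indRep U ρ)) ∧ ∀ p, tr (k := k) U (z v p) = 0}
  zero_mem' v := ⟨zero_mem _, fun p => map_zero _⟩
  add_mem' := fun {a b} ha hb v => ⟨add_mem (ha v).1 (hb v).1, fun p => by
    rw [Pi.add_apply, Pi.add_apply, map_add, (ha v).2, (hb v).2, add_zero]⟩
  smul_mem' c a ha v := ⟨Submodule.smul_mem _ c (ha v).1, fun p => by
    rw [Pi.smul_apply, Pi.smul_apply, map_smul, (ha v).2, smul_zero]⟩

variable (D) in
/-- linear forms which are equivariant on the trace kernel -/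
noncomputable def BB (ρ : Representation k Γ V) : Submodule k ((Γ ⧸ U → V) →ₗ[k] k) where
  carrier := {b | ∀ g φ, tr (k := k) U φ = 0 → b (indRep U ρ g φ) = D.χ g * b φ}
  zero_mem' g φ _ := by simp
  add_mem' := fun {a b} ha hb g φ h => by
    rw [LinearMap.add_apply, LinearMap.add_apply, ha g φ h, hb g φ h, mul_add]
  smul_mem' c a ha g φ h := by
    rw [LinearMap.smul_apply, LinearMap.smul_apply, ha g φ h, smul_eq_mul, smul_eq_mul]
    ring

variable {U} {ρ : Representation k Γ V}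

theorem BB_comp_mem {b : (Γ ⧸ U → V) →ₗ[k] k} (hb : b ∈ D.BB U ρ)
    {z : ∀ v, D.G v × D.G v → (Γ ⧸ U → V)} (hz : z ∈ D.RK U ρ) (v : D.ι) :
    (fun p => b (z v p)) ∈ Z2 (D.𝓥 v) (D.lr v D.μ) :=
  comp_mem_Z2 (hz v).1 fun g p => hb g _ ((hz v).2 p)

variable (D U ρ) in
/-- the local pairing -/
noncomputable def LL : ↥(D.BB U ρ) →ₗ[k] ↥(D.RK U ρ) →ₗ[k] k :=
  LinearMap.mk₂ k (fun b z => ∑ v, D.iv v (fun p => (b : (Γ ⧸ U → V) →ₗ[k] k)
      ((z : ∀ v, D.G v × D.G v → (Γ ⧸ U → V)) v p)))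
    (fun b b' z => by
      rw [← Finset.sum_add_distrib]
      refine Finset.sum_congr rfl fun v _ => ?_
      rw [← iv_add (BB_comp_mem b.2 z.2 v) (BB_comp_mem b'.2 z.2 v)]
      rfl)
    (fun c b z => by
      rw [smul_eq_mul, Finset.mul_sum]
      refine Finset.sum_congr rfl fun v _ => ?_
      rw [← iv_smul c (BB_comp_mem b.2 z.2 v)]
      rfl)
    (fun b z z' => by
      rw [← Finset.sum_add_distrib]
      refine Finset.sum_congr rfl fun v _ => ?_
      rw [← iv_add (BB_comp_mem b.2 z.2 v) (BB_comp_mem b.2 z'.2 v)]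
      congr 1
      funext p
      exact map_add _ _ _)
    (fun c b z => by
      rw [smul_eq_mul, Finset.mul_sum]
      refine Finset.sum_congr rfl fun v _ => ?_
      rw [← iv_smul c (BB_comp_mem b.2 z.2 v)]
      congr 1
      funext p
      exact LinearMap.map_smul (b : (Γ ⧸ U → V) →ₗ[k] k) c _)

theorem LL_apply (b : ↥(D.BB U ρ)) (z : ↥(D.RK U ρ)) :
    D.LL U ρ b z = ∑ v, D.iv v (fun p => (b : (Γ ⧸ U → V) →ₗ[k] k)
      ((z : ∀ v, D.G v × D.G v → (Γ ⧸ U → V)) v p)) := rfl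

theorem bx_mem_BB {x : Γ → Dual k V} (hx : x ∈ D.X U ρ) : bx U x ∈ D.BB U ρ :=
  fun g φ h => bx_act_of_tr hx g φ h

theorem be_mem_BB (h : D.Triv U ρ) (β : Dual k V) : D.be U ρ β ∈ D.BB U ρ :=
  fun g φ _ => be_act h β g φ

/-- the map `β ↦ be β` -/
noncomputable def beL (h : D.Triv U ρ) : Dual k V →ₗ[k] ↥(D.BB U ρ) where
  toFun β := ⟨D.be U ρ β, be_mem_BB h β⟩
  map_add' β β' := Subtype.ext (be_add β β')
  map_smul' a β := Subtype.ext (be_smul a β)

/-- A finite dimensional space of functionals contains every functional vanishing on its common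
kernel. -/
theorem mem_range_of_annihilates {A B : Type} [AddCommGroup A] [Module k A] [AddCommGroup B]
    [Module k B] [FiniteDimensional k A] (L : A →ₗ[k] Dual k B) (f : Dual k B)
    (h : ∀ z, (∀ a, L a z = 0) → f z = 0) : f ∈ LinearMap.range L := by
  have h1 : f ∈ (LinearMap.range L).dualCoannihilator.dualAnnihilator := by
    rw [Submodule.mem_dualAnnihilator]
    intro z hz
    rw [Submodule.mem_dualCoannihilator] at hz
    exact h z fun a => hz _ ⟨a, rfl⟩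
  rwa [Subspace.dualCoannihilator_dualAnnihilator_eq] at h1

theorem exists_eq_be (hQ : D.Q0 U) (h : D.Triv U ρ) [FiniteDimensional k V] {x : Γ → Dual k V}
    (hx : x ∈ D.X U ρ) (h0 : ∀ y ∈ D.Y U ρ, D.pv ρ x y = 0) :
    ∃ β, D.LL U ρ (beL h β) = D.LL U ρ ⟨bx U x, bx_mem_BB hx⟩ := by
  apply mem_range_of_annihilates ((D.LL U ρ) ∘ₗ (beL h))
  intro z hz
  obtain ⟨f, hf, hfz⟩ := Q0_gen hQ h (z : ∀ v, D.G v × D.G v → (Γ ⧸ U → V))
    (fun v => (z.2 v).1) hz
  choose c hc1 hc2 using hfz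
  have hcz : ∀ v, D.r2 v f - d1 (D.lr v (indRep U ρ)) (c v) =
      (z : ∀ v, D.G v × D.G v → (Γ ⧸ U → V)) v := fun v => by
    rw [hc2 v, sub_sub_cancel]
  have hy : ((f, c) : D.CC (Γ ⧸ U → V)) ∈ D.Y U ρ := by
    refine ⟨hf, hc1, fun v p => ?_⟩
    change tr (k := k) U (D.r2 v f p) = tr (k := k) U (d1 (D.lr v (indRep U ρ)) (c v) p)
    have h1 := congrFun (hcz v) p
    rw [Pi.sub_apply] at h1
    rw [← sub_eq_zero, ← map_sub, h1, (z.2 v).2]
  have h2 := h0 _ hy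
  rw [LL_apply, ← h2, pv]
  refine Finset.sum_congr rfl fun v _ => ?_
  congr 1
  funext p
  have h3 : D.err ρ ((f, c) : D.CC (Γ ⧸ U → V)) v =
      (z : ∀ v, D.G v × D.G v → (Γ ⧸ U → V)) v := hcz v
  rw [h3]

theorem eq_zero_of_LL [U.Normal] [FiniteDimensional k V] (hLN : D.LN) (hU : D.𝓤.IsOpen U)
    (hρ : SmRep D.𝓤 ρ) {b : (Γ ⧸ U → V) →ₗ[k] k} (hb : b ∈ D.BB U ρ)
    (h : D.LL U ρ ⟨b, hb⟩ = 0) (φ : Γ ⧸ U → V) (hφ : tr (k := k) U φ = 0) : b φ = 0 := by
  classical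
  obtain ⟨v₀, hLN⟩ := hLN
  by_contra hne
  have hsm : SmRep D.𝓤 (trKerRep U ρ) := (cycSES2 U ρ).smRep_left (ind_sm hU hρ)
  obtain ⟨z, hz, hz0⟩ := hLN (trKer (k := k) (V := V) U) (trKerRep U ρ) hsm
    (b ∘ₗ (trKer (k := k) (V := V) U).subtype) (fun g w => hb g _ w.2) (fun h' => hne
      (LinearMap.congr_fun h' ⟨φ, hφ⟩))
  apply hz0
  let z' : ∀ v, D.G v × D.G v → (Γ ⧸ U → V) := Function.update 0 v₀ fun p => (z p : Γ ⧸ U → V)
  have hz1 : (fun p => (z p : Γ ⧸ U → V)) ∈ Z2 (D.𝓥 v₀) (D.lr v₀ (indRep U ρ)) :=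
    post_mem_Z2 (ρ' := D.lr v₀ (trKerRep U ρ)) (σ' := D.lr v₀ (indRep U ρ))
      (trKer (k := k) (V := V) U).subtype (fun _ _ => rfl) hz
  have hz' : z' ∈ D.RK U ρ := by
    intro v
    by_cases hv : v = v₀
    · subst hv
      simp only [z', Function.update_self]
      exact ⟨hz1, fun p => (z p).2⟩
    · have : z' v = 0 := Function.update_of_ne hv _ _
      rw [this]
      exact ⟨zero_mem _, fun p => map_zero _⟩
  have h1 : D.LL U ρ ⟨b, hb⟩ ⟨z', hz'⟩ = 0 := by rw [h]; rfl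
  rw [LL_apply, Finset.sum_eq_single v₀] at h1
  · simp only [z', Function.update_self] at h1
    exact h1
  · intro v _ hv
    have : z' v = 0 := Function.update_of_ne hv _ _
    change D.iv v (fun p => b (z' v p)) = 0
    rw [this]
    have h2 : (fun p => b ((0 : D.G v × D.G v → (Γ ⧸ U → V)) p)) = 0 := by
      funext p
      exact map_zero b
    rw [h2]
    exact iv_zero
  · intro hv
    exact absurd (Finset.mem_univ _) hv

/-- **(P3)**: the basic pairing is left nondegenerate modulo coboundaries. -/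
theorem exists_coboundary [U.Normal] (hQ : D.Q0 U) (hLN : D.LN) (hU : D.𝓤.IsOpen U) (hρ : SmRep D.𝓤 ρ)
    (h : D.Triv U ρ) [FiniteDimensional k V] {x : Γ → Dual k V}
    (hx : x ∈ D.X U ρ) (h0 : ∀ y ∈ D.Y U ρ, D.pv ρ x y = 0) :
    ∃ β : Dual k V, ∀ g, x g = D.dl ρ g β - β := by
  obtain ⟨β, hβ⟩ := exists_eq_be hQ h hx h0
  have hb : bx U x - D.be U ρ β ∈ D.BB U ρ := sub_mem (bx_mem_BB hx) (be_mem_BB h β)
  have hb0 : D.LL U ρ ⟨_, hb⟩ = 0 := by
    have h1 : (⟨_, hb⟩ : ↥(D.BB U ρ)) + beL h β = ⟨bx U x, bx_mem_BB hx⟩ :=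
      Subtype.ext (sub_add_cancel _ _)
    have h2 : D.LL U ρ ⟨_, hb⟩ + D.LL U ρ (beL h β) = D.LL U ρ ⟨bx U x, bx_mem_BB hx⟩ := by
      rw [← map_add, h1]
    rwa [hβ, add_eq_right] at h2
  have h2 := eq_zero_of_LL hLN hU hρ hb hb0
  set c := bx U x - D.be U ρ β with hc
  set β' : Dual k V := c ∘ₗ sg (k := k) U with hβ'
  have h3 : ∀ φ, c φ = β' (tr (k := k) U φ) := by
    intro φ
    have h4 := h2 (φ - sg (k := k) U (tr (k := k) U φ)) (by rw [map_sub, tr_sg, sub_self])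
    rw [map_sub, sub_eq_zero] at h4
    exact h4
  refine ⟨β', fun g => ?_⟩
  ext w
  set v := ρ g⁻¹ w with hv
  have hw : w = ρ g v := by
    rw [hv, ← Module.End.mul_apply, ← map_mul, mul_inv_cancel, map_one, Module.End.one_apply]
  have h5 := h3 (indRep U ρ g (sg (k := k) U v))
  have h6 := h3 (sg (k := k) U v)
  rw [tr_sg] at h6
  rw [tr_act, tr_sg, hc, LinearMap.sub_apply, bx_act hx, be_act h, tr_sg] at h5
  rw [hc, LinearMap.sub_apply] at h6
  rw [LinearMap.sub_apply, hw, dualR_apply_act, ← h5, ← h6]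
  ring

end Frame

end Fermat.Agent.PT
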