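import Fermat.Agent.PT.LD6
import Fermat.Agent.PT.Main

/-!
# Counting with the global duality: orthogonality of the images
-/

set_option autoImplicit false
set_option linter.unusedSectionVars false
set_option linter.style.haveILetI false

namespace Fermat.Agent.PT.Frame

open Fermat.Agent.Coh Module Fermat.Agent.PT.LD

variable {k : Type} [Field k] {Γ : Type} [Group Γ] {D : Frame k Γ}
variable {V : Type} [AddCommGroup V] [Module k V] [FiniteDimensional k V]

theorem iv_eq_liv (v : D.ι) (f : D.G v × D.G v → k) : D.iv v f = liv (D.inv v) f := rfl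

variable {V' : Type} [AddCommGroup V'] [Module k V'] [FiniteDimensional k V']
variable {ρ : Representation k Γ V} {ρ' : Representation k Γ V'}

variable (D) in
/-- the evaluation pairing -/
def evP (ρ : Representation k Γ V) : DP D.μ ρ (D.dl ρ) where
  β := Dual.eval k V
  inj w h := (Module.evalEquiv k V).injective (LinearMap.ext fun f => by
    rw [map_zero]
    exact h f)
  inj' f h := LinearMap.ext fun w => h w
  eqv g w f := dualR_apply_act D.χ ρ g f w

/-- localisation of a pairing -/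
def lp (v : D.ι) (B : DP D.μ ρ ρ') : DP (D.lr v D.μ) (D.lr v ρ) (D.lr v ρ') where
  β := B.β
  inj := B.inj
  inj' := B.inj'
  eqv g := B.eqv (D.r v g)

theorem recip_cup (hR : D.Rec) (hρ' : SmRep D.𝓤 ρ') (B : DP D.μ ρ ρ')
    {x : Γ → V} (hx : x ∈ Z1 D.𝓤 ρ) {y : Γ → V'} (hy : y ∈ Z1 D.𝓤 ρ') :
    ∑ v, liv (D.inv v) ((lp v B).cup (D.r1 v x) (D.r1 v y)) = 0 :=
  hR _ (B.cup_mem hρ' hx hy)

section count

variable (D ρ) in
/-- classes which are trivial outside `Q` -/
def aQ (Q : Finset D.ι) : Submodule k (H1 D.𝓤 ρ) where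
  carrier := {x | ∀ v, v ∉ Q → (D.loc v ρ).mapH1 x = 0}
  zero_mem' := fun v _ => map_zero _
  add_mem' := fun {a b} ha hb v hv => by rw [map_add, ha v hv, hb v hv, add_zero]
  smul_mem' := fun t a ha v hv => by rw [map_smul, ha v hv, smul_zero]

variable (D ρ) in
/-- classes which are trivial at `Q` -/
def bQ (Q : Finset D.ι) : Submodule k (H1 D.𝓤 ρ) where
  carrier := {x | ∀ v, v ∈ Q → (D.loc v ρ).mapH1 x = 0}
  zero_mem' := fun v _ => map_zero _
  add_mem' := fun {a b} ha hb v hv => by rw [map_add, ha v hv, hb v hv, add_zero]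
  smul_mem' := fun t a ha v hv => by rw [map_smul, ha v hv, smul_zero]

/-- linear algebra: orthogonal images -/
theorem orth_count {A B P P' : Type*} [AddCommGroup A] [Module k A] [AddCommGroup B] [Module k B]
    [AddCommGroup P] [Module k P] [AddCommGroup P'] [Module k P'] [FiniteDimensional k A]
    [FiniteDimensional k B] [FiniteDimensional k P] (f : A →ₗ[k] P) (g : B →ₗ[k] P')
    (π : P →ₗ[k] P' →ₗ[k] k) (hπ : ∀ y, (∀ x, π x y = 0) → y = 0)
    (h : ∀ a b, π (f a) (g b) = 0) :
    finrank k A + finrank k B ≤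
      finrank k (LinearMap.ker f) + finrank k (LinearMap.ker g) + finrank k P := by
  have h1 := LinearMap.finrank_range_add_finrank_ker f
  have h2 := LinearMap.finrank_range_add_finrank_ker g
  let Φ : LinearMap.range g →ₗ[k] (LinearMap.range f).dualAnnihilator :=
    { toFun := fun y => ⟨π.flip y, by
        rw [Submodule.mem_dualAnnihilator]
        rintro _ ⟨a, rfl⟩
        obtain ⟨b, hb⟩ := y.2
        rw [LinearMap.flip_apply, ← hb]
        exact h a b⟩
      map_add' := fun y y' => Subtype.ext (map_add _ _ _)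
      map_smul' := fun t y => Subtype.ext (map_smul _ _ _) }
  have hΦ : Function.Injective Φ := by
    intro y y' hy
    apply Subtype.ext
    rw [← sub_eq_zero]
    apply hπ
    intro x
    have h3 : π.flip (y : P') x = π.flip (y' : P') x :=
      LinearMap.congr_fun (congrArg Subtype.val hy) x
    rw [map_sub, sub_eq_zero]
    exact h3
  have h3 := LinearMap.finrank_le_finrank_of_injective hΦ
  have h4 := Subspace.finrank_add_finrank_dualAnnihilator_eq (LinearMap.range f)
  omega

/-- linear algebra: orthogonal images, families -/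
theorem orth_countF {J : Type} [Fintype J] [DecidableEq J] {A B : Type*} [AddCommGroup A]
    [Module k A] [AddCommGroup B] [Module k B] {E E' : J → Type} [∀ j, AddCommGroup (E j)]
    [∀ j, Module k (E j)] [∀ j, AddCommGroup (E' j)] [∀ j, Module k (E' j)]
    [∀ j, FiniteDimensional k (E j)] [FiniteDimensional k A]
    [FiniteDimensional k B] (f : ∀ j, A →ₗ[k] E j) (g : ∀ j, B →ₗ[k] E' j)
    (π : ∀ j, E j →ₗ[k] E' j →ₗ[k] k) (hπ : ∀ j y, (∀ x, π j x y = 0) → y = 0)
    (h : ∀ a b, ∑ j, π j (f j a) (g j b) = 0) (KA : Submodule k A)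
    (hKA : ∀ a, (∀ j, f j a = 0) → a ∈ KA) (KB : Submodule k B)
    (hKB : ∀ b, (∀ j, g j b = 0) → b ∈ KB) :
    finrank k A + finrank k B ≤ finrank k KA + finrank k KB + ∑ j, finrank k (E j) := by
  let PP : (∀ j, E j) →ₗ[k] (∀ j, E' j) →ₗ[k] k :=
    LinearMap.mk₂ k (fun x y => ∑ j, π j (x j) (y j))
      (fun x x' y => by
        simp only [Pi.add_apply, map_add, LinearMap.add_apply, Finset.sum_add_distrib])
      (fun t x y => by
        simp only [Pi.smul_apply, map_smul, LinearMap.smul_apply, Finset.smul_sum])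
      (fun x y y' => by
        simp only [Pi.add_apply, map_add, Finset.sum_add_distrib])
      (fun t x y => by
        simp only [Pi.smul_apply, map_smul, Finset.smul_sum])
  have hPP : ∀ y, (∀ x, PP x y = 0) → y = 0 := by
    intro y hy
    funext j
    apply hπ
    intro x
    have h2 : ∑ i, π i ((Pi.single j x : ∀ j, E j) i) (y i) = 0 := hy (Pi.single j x)
    rw [Finset.sum_eq_single j] at h2
    · rwa [Pi.single_eq_same] at h2
    · intro w _ hw
      rw [Pi.single_eq_of_ne hw, map_zero, LinearMap.zero_apply]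
    · intro h
      exact absurd (Finset.mem_univ _) h
  have hc := orth_count (LinearMap.pi f) (LinearMap.pi g) PP hPP h
  have k1 : finrank k (LinearMap.ker (LinearMap.pi f)) ≤ finrank k KA :=
    Submodule.finrank_mono fun a ha => hKA a fun j => congrFun (LinearMap.mem_ker.mp ha) j
  have k2 : finrank k (LinearMap.ker (LinearMap.pi g)) ≤ finrank k KB :=
    Submodule.finrank_mono fun a ha => hKB a fun j => congrFun (LinearMap.mem_ker.mp ha) j
  rw [finrank_pi_fintype] at hc
  omega

/-- **The count.** -/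
theorem count_QQ (hR : D.Rec) (hL : ∀ v, LocD (D.inv v)) (hρ : SmRep D.𝓤 ρ) (hρ' : SmRep D.𝓤 ρ')
    (B : DP D.μ ρ ρ')
    [FiniteDimensional k (H1 D.𝓤 ρ)] [FiniteDimensional k (H1 D.𝓤 ρ')] (Q : Finset D.ι) :
    finrank k (aQ D ρ Q) + finrank k (H1 D.𝓤 ρ') ≤
      finrank k (D.sha1 ρ) + finrank k (bQ D ρ' Q) +
        ∑ v ∈ Q, finrank k (H1 (D.𝓥 v) (D.lr v ρ)) := by
  classical
  haveI : ∀ v, FiniteDimensional k (H1 (D.𝓥 v) (D.lr v ρ)) := fun v =>
    LD.finite_H1 (hL v) (D.lr_sm hρ)
  let KA : Submodule k (aQ D ρ Q) := (D.sha1 ρ).comap (aQ D ρ Q).subtype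
  have hfin := orth_countF (k := k) (J := Q) (A := aQ D ρ Q) (B := H1 D.𝓤 ρ')
    (E := fun v => H1 (D.𝓥 v.1) (D.lr v.1 ρ)) (E' := fun v => H1 (D.𝓥 v.1) (D.lr v.1 ρ'))
    (fun v => (D.loc v.1 ρ).mapH1 ∘ₗ (aQ D ρ Q).subtype) (fun v => (D.loc v.1 ρ').mapH1)
    (fun v => pair (D.inv v.1) (lp v.1 B) (hL v.1).sm (D.lr_sm hρ'))
    (by
      intro v y hy
      haveI := LD.finite_H1 (hL v.1) (D.lr_sm (v := v.1) hρ')
      refine (Module.forall_dual_apply_eq_zero_iff k _).mp fun Λ => ?_
      obtain ⟨x, rfl⟩ := pair_surjective (hL v.1) (D.lr_sm hρ) (D.lr_sm hρ') (lp v.1 B) Λ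
      exact hy x)
    (by
      rintro ⟨a, ha⟩ b
      obtain ⟨x, rfl⟩ := H1.mk_surjective a
      obtain ⟨y, rfl⟩ := H1.mk_surjective b
      have h1 := recip_cup hR hρ' B x.2 y.2
      refine Eq.trans (Finset.sum_coe_sort Q (fun v => liv (D.inv v) ((lp v B).cup (D.r1 v x)
        (D.r1 v y)))) ?_
      rw [← h1]
      refine Finset.sum_subset (Finset.subset_univ _) fun v _ hv => ?_
      have h3 := ha v hv
      have h4 : pair (D.inv v) (lp v B) (hL v).sm (D.lr_sm hρ')
        ((D.loc v ρ).mapH1 (H1.mk D.𝓤 ρ x)) ((D.loc v ρ').mapH1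
          (H1.mk D.𝓤 ρ' y)) = 0 := by
        rw [h3, map_zero, LinearMap.zero_apply]
      exact h4)
    KA
    (by
      intro a ha
      rw [Submodule.mem_comap, mem_sha1_iff]
      intro v
      by_cases hv : v ∈ Q
      · exact ha ⟨v, hv⟩
      · exact a.2 v hv)
    (bQ D ρ' Q)
    (by
      intro b hb v hv
      exact hb ⟨v, hv⟩)
  have k1 : finrank k KA ≤ finrank k (D.sha1 ρ) := by
    let Φ : KA →ₗ[k] D.sha1 ρ :=
      ((aQ D ρ Q).subtype ∘ₗ KA.subtype).codRestrict _ (fun x => x.2)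
    refine LinearMap.finrank_le_finrank_of_injective (f := Φ) fun a b h => ?_
    exact Subtype.ext (Subtype.ext (congrArg (fun z : D.sha1 ρ => (z : H1 D.𝓤 ρ)) h))
  have k3 : ∑ v : Q, finrank k (H1 (D.𝓥 v.1) (D.lr v.1 ρ)) =
      ∑ v ∈ Q, finrank k (H1 (D.𝓥 v) (D.lr v ρ)) :=
    Finset.sum_coe_sort Q (fun v => finrank k (H1 (D.𝓥 v) (D.lr v ρ)))
  omega

end count

end Fermat.Agent.PT.Frame
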