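import Fermat.Agent.PT.PTC1

/-!
# The cokernel of the localisation map in degree two
-/

set_option autoImplicit false
set_option linter.unusedSectionVars false
set_option linter.style.haveILetI false

namespace Fermat.Agent.PT

open Fermat.Agent.Coh Module

namespace LD

variable {k : Type} [Field k] {G : Type} [Group G] {𝓥 : Fam G} {μ : Representation k G k}
variable {V V' : Type} [AddCommGroup V] [Module k V] [AddCommGroup V'] [Module k V']
variable {inv : H2 𝓥 μ →ₗ[k] k}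
variable {σ : Representation k G V} {σ' : Representation k G V'}

/-- every functional on `H²` comes from an invariant of the dual -/
theorem exists_functional (hD : LocD inv) [FiniteDimensional k V] [FiniteDimensional k V']
    (hσ : SmRep 𝓥 σ) (hσ' : SmRep 𝓥 σ') (B : DP μ σ σ') (Λ : H2 𝓥 σ →ₗ[k] k) :
    ∃ f ∈ H0 σ', ∀ z : ↥(Z2 𝓥 σ), Λ (H2.mk 𝓥 σ z) =
      liv inv (fun q => B.β ((z : G × G → V) q) f) := by
  obtain ⟨hf, he⟩ := finrank_H2_le hD hσ hσ' B
  have hm : ∀ (f : ↥(H0 σ')) (z : ↥(Z2 𝓥 σ)),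
      (fun q => B.β ((z : G × G → V) q) (f : V')) ∈ Z2 𝓥 μ := fun f z =>
    gcup20 (σ := σ) (σ' := σ') B.β B.eqv f.2 z.2
  have hc : ∀ (f : ↥(H0 σ')) g v, B.β.flip (f : V') (σ g v) = μ g (B.β.flip (f : V') v) := by
    intro f g v
    have h1 : B.β (σ g v) (f : V') = μ g (B.β v (f : V')) := by
      rw [← B.eqv, (mem_H0 σ').mp f.2 g]
    exact h1
  let Ψ : ↥(H0 σ') →ₗ[k] (H2 𝓥 σ →ₗ[k] k) :=
    { toFun := fun f => inv ∘ₗ (Mor.coeff (𝓤 := 𝓥) (ρ := σ) (σ := μ) (B.β.flip (f : V'))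
        (hc f)).mapH2
      map_add' := fun f f' => by
        refine LinearMap.ext fun x => ?_
        obtain ⟨z, rfl⟩ := H2.mk_surjective x
        rw [LinearMap.add_apply, LinearMap.comp_apply, LinearMap.comp_apply, LinearMap.comp_apply,
          ← map_add, Mor.mapH2_mk, Mor.mapH2_mk, Mor.mapH2_mk, ← map_add]
        congr 2
        apply Subtype.ext
        funext q
        exact map_add (B.β ((z : G × G → V) q)) _ _
      map_smul' := fun c f => by
        refine LinearMap.ext fun x => ?_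
        obtain ⟨z, rfl⟩ := H2.mk_surjective x
        rw [LinearMap.smul_apply, LinearMap.comp_apply, LinearMap.comp_apply, ← map_smul,
          Mor.mapH2_mk, Mor.mapH2_mk, ← map_smul]
        congr 2
        apply Subtype.ext
        funext q
        exact map_smul (B.β ((z : G × G → V) q)) _ _ }
  have hΨ : ∀ (f : ↥(H0 σ')) (z : ↥(Z2 𝓥 σ)), Ψ f (H2.mk 𝓥 σ z) =
      liv inv (fun q => B.β ((z : G × G → V) q) f) := by
    intro f z
    rw [liv_eq (hm f z)]
    rfl
  have hinj : Function.Injective Ψ := by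
    intro f f' h
    apply Subtype.ext
    rw [← sub_eq_zero]
    by_contra hne
    have h0 : (f : V') - f' ∈ H0 σ' := sub_mem f.2 f'.2
    have hbf : B.β.flip ((f : V') - f') ≠ 0 := by
      intro h1
      apply hne
      exact B.inj' _ fun v => LinearMap.congr_fun h1 v
    obtain ⟨z, hz, hz0⟩ := hD.ln V σ hσ (B.β.flip ((f : V') - f')) (hc ⟨_, h0⟩) hbf
    apply hz0
    have h1 := hΨ ⟨_, h0⟩ ⟨z, hz⟩
    have h2 : (⟨(f : V') - f', h0⟩ : ↥(H0 σ')) = f - f' := rfl
    rw [h2, map_sub, h, sub_self] at h1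
    exact h1.symm
  have hsurj : Function.Surjective Ψ := by
    refine (LinearMap.injective_iff_surjective_of_finrank_eq_finrank ?_).mp hinj
    rw [← he]
    exact Subspace.dual_finrank_eq.symm
  obtain ⟨f, rfl⟩ := hsurj Λ
  exact ⟨f, f.2, hΨ f⟩

end LD

namespace Frame

open LD

attribute [local instance] fq

variable {k : Type} [Field k] {Γ : Type} [Group Γ] {D : Frame k Γ}
variable {V : Type} [AddCommGroup V] [Module k V] [FiniteDimensional k V]
variable {ρ : Representation k Γ V}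

/-- linear algebra: a functional vanishing on the kernel is represented -/
theorem exists_repr {A B : Type} [AddCommGroup A] [Module k A] [AddCommGroup B] [Module k B]
    [FiniteDimensional k A] (L : A →ₗ[k] Dual k B) (Φ : Dual k A)
    (h : ∀ a, L a = 0 → Φ a = 0) : ∃ b, ∀ a, Φ a = L a b := by
  have h1 : Φ ∈ LinearMap.range L.flip := by
    have h2 : Φ ∈ (LinearMap.range L.flip).dualCoannihilator.dualAnnihilator := by
      rw [Submodule.mem_dualAnnihilator]
      intro a ha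
      apply h
      refine LinearMap.ext fun b => ?_
      rw [Submodule.mem_dualCoannihilator] at ha
      exact ha _ ⟨b, rfl⟩
    rwa [Subspace.dualCoannihilator_dualAnnihilator_eq] at h2
  obtain ⟨b, hb⟩ := h1
  exact ⟨b, fun a => by rw [← hb]; rfl⟩

section lift

variable {U : Subgroup Γ} [U.FiniteIndex]

/-- local lifting to the induced module -/
theorem exists_lift_ind (v : D.ι) (hL : LocD (D.inv v)) (hρ : SmRep D.𝓤 ρ) (hU : D.𝓤.IsOpen U)
    {z : D.G v × D.G v → V} (hz : z ∈ Z2 (D.𝓥 v) (D.lr v ρ)) :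
    ∃ y ∈ Z2 (D.𝓥 v) (D.lr v (indRep U ρ)),
      (fun p => tr (k := k) U (y p)) - z ∈ B2 (D.𝓥 v) (D.lr v ρ) := by
  have hs := D.lr_sm (v := v) hρ
  have hs' := D.lr_sm (v := v) (dl_sm hρ)
  let T : Mor (D.𝓥 v) (D.𝓥 v) (D.lr v (indRep U ρ)) (D.lr v ρ) :=
    Mor.coeff (tr (k := k) (V := V) U) (fun g φ => tr_act ρ (D.r v g) φ)
  have hsurj : LinearMap.range T.mapH2 = ⊤ := by
    by_contra hne
    obtain ⟨Λ, hΛ0, hΛ⟩ := Submodule.exists_le_ker_of_lt_top _ (lt_top_iff_ne_top.mpr hne)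
    obtain ⟨f, hf, hfz⟩ := exists_functional hL hs hs' (lp v (evP D ρ)) Λ
    apply hΛ0
    refine LinearMap.ext fun x => ?_
    obtain ⟨w, rfl⟩ := H2.mk_surjective x
    rw [hfz]
    -- `f ∘ tr = 0`
    have hft : f ∘ₗ tr (k := k) U = 0 := by
      by_contra hne'
      obtain ⟨y, hy, hy0⟩ := hL.ln _ _ (D.lr_sm (ind_sm hU hρ)) (f ∘ₗ tr (k := k) (V := V) U)
        (fun g φ => by
          have h1 := congrArg (fun e : Dual k V => e (ρ (D.r v g) (tr (k := k) U φ)))
            ((mem_H0 _).mp hf g)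
          change D.dl ρ (D.r v g) f (ρ (D.r v g) (tr (k := k) U φ)) = _ at h1
          rw [dualR_apply_act] at h1
          change f (tr (k := k) U (indRep U ρ (D.r v g) φ)) = D.χ (D.r v g) * f (tr (k := k) U φ)
          rw [tr_act]
          exact h1.symm) hne'
      apply hy0
      have h2 : T.mapH2 (H2.mk (D.𝓥 v) (D.lr v (indRep U ρ)) ⟨y, hy⟩) ∈ LinearMap.ker Λ :=
        hΛ ⟨_, rfl⟩
      have h3 := hfz (T.mapZ2 ⟨y, hy⟩)
      have h4 : Λ (H2.mk (D.𝓥 v) (D.lr v ρ) (T.mapZ2 ⟨y, hy⟩)) = 0 := h2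
      rw [h4] at h3
      exact h3.symm
    have hf0 : f = 0 := by
      refine LinearMap.ext fun x => ?_
      have := LinearMap.congr_fun hft (sg (k := k) U x)
      rw [LinearMap.comp_apply, tr_sg] at this
      exact this
    rw [hf0, LinearMap.zero_apply]
    have h5 : (fun q : D.G v × D.G v => (lp v (evP D ρ)).β ((w : D.G v × D.G v → V) q)
        (0 : Dual k V)) = 0 := by
      funext q
      exact map_zero _
    rw [h5]
    exact liv_of_mem_B2 (zero_mem _)
  obtain ⟨y, hy⟩ := (LinearMap.range_eq_top.mp hsurj) (H2.mk (D.𝓥 v) (D.lr v ρ) ⟨z, hz⟩)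
  obtain ⟨y, rfl⟩ := H2.mk_surjective y
  refine ⟨y, y.2, ?_⟩
  rw [Mor.mapH2_mk, ← sub_eq_zero, ← map_sub, Submodule.mkQ_apply,
    Submodule.Quotient.mk_eq_zero] at hy
  exact hy

/-- a functional of the induced module which factors through the trace -/
theorem inv_of_be (h : D.Triv U ρ) {β : Dual k V}
    (hβ : ∀ φ : Γ ⧸ U → V, tr (k := k) U φ = 0 → D.be U ρ β φ = 0) (g : Γ) :
    D.dl ρ g β = β := by
  classical
  refine LinearMap.ext fun w => ?_
  have key : ∀ c : Γ ⧸ U, D.dl ρ (sec U c) β w = D.dl ρ (sec U ((1 : Γ) : Γ ⧸ U)) β w := by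
    intro c
    have h1 := hβ (Pi.single c w - Pi.single ((1 : Γ) : Γ ⧸ U) w) (by
      rw [map_sub, sumLin_apply, sumLin_apply, Finset.sum_pi_single', Finset.sum_pi_single']
      simp)
    rw [map_sub, sub_eq_zero, be_apply, be_apply, Finset.sum_eq_single c,
      Finset.sum_eq_single ((1 : Γ) : Γ ⧸ U), Pi.single_eq_same, Pi.single_eq_same] at h1
    · exact h1
    · intro c' _ hc'
      rw [Pi.single_eq_of_ne hc', map_zero]
    · intro hc
      exact absurd (Finset.mem_univ _) hc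
    · intro c' _ hc'
      rw [Pi.single_eq_of_ne hc', map_zero]
    · intro hc
      exact absurd (Finset.mem_univ _) hc
  have e1 : D.dl ρ g β = D.dl ρ (sec U (g : Γ ⧸ U)) β := h.dl_eq (mk_sec _ _).symm β
  have e2 : β = D.dl ρ (sec U ((1 : Γ) : Γ ⧸ U)) β := by
    rw [h.dl_eq (mk_sec U ((1 : Γ) : Γ ⧸ U)) β, map_one]
    rfl
  rw [e1, key]
  exact (LinearMap.congr_fun e2 w).symm

theorem be_of_inv {β : Dual k V} (hβ : ∀ g, D.dl ρ g β = β) (φ : Γ ⧸ U → V) :
    D.be U ρ β φ = β (tr (k := k) U φ) := by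
  rw [be_apply, sumLin_apply, map_sum]
  exact Finset.sum_congr rfl fun c _ => by rw [hβ]

end lift

/-- **(b)**: the cokernel of the localisation map in degree two. -/
theorem exists_global (hG : D.Good) (hL : ∀ v, LocD (D.inv v)) (hρ : SmRep D.𝓤 ρ)
    (z : ∀ v, D.G v × D.G v → V) (hz : ∀ v, z v ∈ Z2 (D.𝓥 v) (D.lr v ρ))
    (h0 : ∀ β : Dual k V, (∀ g, D.dl ρ g β = β) → ∑ v, D.iv v (fun p => β (z v p)) = 0) :
    ∃ f ∈ Z2 D.𝓤 ρ, ∀ v, D.r2 v f - z v ∈ B2 (D.𝓥 v) (D.lr v ρ) := by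
  obtain ⟨U, hU, hT⟩ := exists_triv hρ
  have h := hT U le_rfl
  haveI := D.𝓤.finiteIndex U hU
  haveI : U.Normal := D.𝓤.normal U hU
  have hUo : D.𝓤.IsOpen U := D.𝓤.isOpen_of_mem hU
  choose y hy hyz using fun v => exists_lift_ind (U := U) v (hL v) hρ hUo (hz v)
  -- the functional
  have hbe : ∀ (β : Dual k V) v, (fun p => D.be U ρ β (y v p)) ∈ Z2 (D.𝓥 v) (D.lr v D.μ) :=
    fun β v => comp_mem_Z2 (hy v) fun g p => be_act h β g _
  let Φ : Dual k (Dual k V) :=
    { toFun := fun β => ∑ v, D.iv v (fun p => D.be U ρ β (y v p))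
      map_add' := fun β β' => by
        rw [← Finset.sum_add_distrib]
        refine Finset.sum_congr rfl fun v _ => ?_
        rw [← iv_add (hbe β v) (hbe β' v)]
        congr 1
        funext p
        rw [be_add]
        rfl
      map_smul' := fun c β => by
        rw [RingHom.id_apply, smul_eq_mul, Finset.mul_sum]
        refine Finset.sum_congr rfl fun v _ => ?_
        rw [← iv_smul c (hbe β v)]
        congr 1
        funext p
        rw [be_smul]
        rfl }
  obtain ⟨w, hw⟩ := exists_repr ((D.LL U ρ) ∘ₗ (beL h)) Φ (by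
    intro β hβ
    have h1 := fun φ hφ => eq_zero_of_LL (hG.ln) hUo hρ (be_mem_BB h β) hβ φ hφ
    have h2 := inv_of_be h h1
    have h3 := h0 β h2
    change ∑ v, D.iv v (fun p => D.be U ρ β (y v p)) = 0
    rw [← h3]
    refine Finset.sum_congr rfl fun v _ => ?_
    have h4 : (fun p => D.be U ρ β (y v p)) = fun p => β (tr (k := k) U (y v p)) :=
      funext fun p => be_of_inv h2 _
    have hβe : ∀ (g : D.G v) w, β (D.lr v ρ g w) = D.lr v D.μ g (β w) := by
      intro g w
      have h5 := LinearMap.congr_fun (h2 (D.r v g)) (ρ (D.r v g) w)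
      rw [dualR_apply_act] at h5
      exact h5.symm
    have m1 : (fun p => β (tr (k := k) U (y v p))) ∈ Z2 (D.𝓥 v) (D.lr v D.μ) := by
      rw [← h4]
      exact hbe β v
    have m2 : (fun p => β (z v p)) ∈ Z2 (D.𝓥 v) (D.lr v D.μ) := post_mem_Z2 β hβe (hz v)
    rw [h4, ← sub_eq_zero, ← iv_sub m1 m2]
    have h6 : (fun p => β (((fun p => tr (k := k) U (y v p)) - z v) p)) ∈
      B2 (D.𝓥 v) (D.lr v D.μ) := post_mem_B2 β hβe (hyz v)
    have h7 : (fun p => β (tr (k := k) U (y v p))) - (fun p => β (z v p)) =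
        (fun p => β (((fun p => tr (k := k) U (y v p)) - z v) p)) := by
      funext p
      rw [Pi.sub_apply, Pi.sub_apply, map_sub]
    rw [h7]
    exact iv_of_mem_B2 h6)
  -- correct
  have hyw : ∀ v, y v - (w : ∀ v, D.G v × D.G v → (Γ ⧸ U → V)) v ∈
      Z2 (D.𝓥 v) (D.lr v (indRep U ρ)) := fun v => sub_mem (hy v) (w.2 v).1
  obtain ⟨f, hf, hfz⟩ := Q0_gen (hG.q0 U hU h.1) h
    (fun v => y v - (w : ∀ v, D.G v × D.G v → (Γ ⧸ U → V)) v) hyw (by
      intro β
      have h1 := hw β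
      have h2 : ∑ v, D.iv v (fun p => D.be U ρ β (y v p)) =
        ∑ v, D.iv v (fun p => D.be U ρ β ((w : ∀ v, D.G v × D.G v → (Γ ⧸ U → V)) v p)) := h1
      rw [← sub_eq_zero, ← Finset.sum_sub_distrib] at h2
      rw [← h2]
      refine Finset.sum_congr rfl fun v _ => ?_
      have m1 : (fun p => D.be U ρ β ((w : ∀ v, D.G v × D.G v → (Γ ⧸ U → V)) v p)) ∈
          Z2 (D.𝓥 v) (D.lr v D.μ) := comp_mem_Z2 (w.2 v).1 fun g p => be_act h β g _
      rw [← iv_sub (hbe β v) m1]
      congr 1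
      funext p
      simp only [Pi.sub_apply]
      rw [map_sub])
  refine ⟨fun p => tr (k := k) U (f p), post_mem_Z2 _ (tr_act ρ) hf, fun v => ?_⟩
  have h8 : (fun p => tr (k := k) U ((D.r2 v f - (y v -
      (w : ∀ v, D.G v × D.G v → (Γ ⧸ U → V)) v)) p)) ∈ B2 (D.𝓥 v) (D.lr v ρ) :=
    post_mem_B2 _ (fun g φ => tr_act ρ (D.r v g) φ) (hfz v)
  have h9 := add_mem h8 (hyz v)
  convert h9 using 1
  funext p
  simp only [Pi.sub_apply, Pi.add_apply, r2_apply]
  rw [map_sub, map_sub, (w.2 v).2, sub_zero]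
  abel

/-- finiteness from a family of maps -/
theorem finF {J : Type} [Fintype J] {A : Type} [AddCommGroup A] [Module k A]
    {E : J → Type} [∀ j, AddCommGroup (E j)] [∀ j, Module k (E j)]
    [∀ j, FiniteDimensional k (E j)] (f : ∀ j, A →ₗ[k] E j) (KA : Submodule k A)
    [FiniteDimensional k KA] (hKA : ∀ a, (∀ j, f j a = 0) → a ∈ KA) : FiniteDimensional k A := by
  let F : A →ₗ[k] (∀ j, E j) := LinearMap.pi f
  haveI : FiniteDimensional k (LinearMap.ker F) := by
    have h1 : LinearMap.ker F ≤ KA := fun x hx =>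
      hKA x fun v => congrFun (LinearMap.mem_ker.mp hx) v
    exact Submodule.finiteDimensional_of_le h1
  haveI : Module.Finite k (A ⧸ LinearMap.ker F) :=
    Module.Finite.equiv (LinearMap.quotKerEquivRange _).symm
  exact Module.Finite.of_submodule_quotient (LinearMap.ker F)

/-- counting from a family of maps -/
theorem countF2 {J : Type} [Fintype J] {A C : Type} [AddCommGroup A] [Module k A]
    [AddCommGroup C] [Module k C] [FiniteDimensional k C] [FiniteDimensional k A]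
    {E : J → Type} [∀ j, AddCommGroup (E j)] [∀ j, Module k (E j)]
    [∀ j, FiniteDimensional k (E j)] (f : ∀ j, A →ₗ[k] E j) (KA : Submodule k A)
    (hKA : ∀ a ∈ KA, ∀ j, f j a = 0) (g : ∀ j, E j →ₗ[k] Dual k C)
    (h : ∀ x : ∀ j, E j, (∀ c, ∑ j, g j (x j) c = 0) → ∃ a, ∀ j, f j a = x j) :
    finrank k KA + ∑ j, finrank k (E j) ≤ finrank k A + finrank k C := by
  let F : A →ₗ[k] (∀ j, E j) := LinearMap.pi f
  let Φ : (∀ j, E j) →ₗ[k] Dual k C :=
    { toFun := fun x => ∑ j, g j (x j)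
      map_add' := fun x x' => by
        simp only [Pi.add_apply, map_add, Finset.sum_add_distrib]
      map_smul' := fun t x => by
        simp only [Pi.smul_apply, map_smul, Finset.smul_sum, RingHom.id_apply] }
  have h1 := LinearMap.finrank_range_add_finrank_ker F
  have h2 : finrank k KA ≤ finrank k (LinearMap.ker F) :=
    Submodule.finrank_mono fun a ha => LinearMap.mem_ker.mpr (funext fun j => hKA a ha j)
  have h3 : LinearMap.ker Φ ≤ LinearMap.range F := by
    intro x hx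
    obtain ⟨a, ha⟩ := h x fun c => by
      have h4 : (∑ j, g j (x j)) c = 0 := LinearMap.congr_fun (LinearMap.mem_ker.mp hx) c
      rwa [LinearMap.sum_apply] at h4
    exact ⟨a, funext ha⟩
  have h6 := Submodule.finrank_mono h3
  have h7 := LinearMap.finrank_range_add_finrank_ker Φ
  have h8 : finrank k (LinearMap.range Φ) ≤ finrank k C := by
    rw [← Subspace.dual_finrank_eq (V := C)]
    exact Submodule.finrank_le _
  rw [finrank_pi_fintype] at h7
  omega

/-- finiteness of the second cohomology -/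
theorem finite_H2 (hG : D.Good) (hL : ∀ v, LocD (D.inv v)) (hρ : SmRep D.𝓤 ρ) :
    FiniteDimensional k (H2 D.𝓤 ρ) := by
  haveI := (finrank_sha_eq hG hρ).2.1
  haveI : ∀ v, FiniteDimensional k (H2 (D.𝓥 v) (D.lr v ρ)) := fun v =>
    (finrank_H2_le (hL v) (D.lr_sm hρ) (D.lr_sm (dl_sm hρ)) (lp v (evP D ρ))).1
  exact finF (E := fun v => H2 (D.𝓥 v) (D.lr v ρ)) (fun v => (D.loc v ρ).mapH2) (D.sha2 ρ)
    (fun a ha => mem_sha2_iff.mpr ha)

theorem inv_eqv (β : ↥(H0 (D.dl ρ))) (v : D.ι) (g : D.G v) (w : V) :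
    (β : Dual k V) (D.lr v ρ g w) = D.lr v D.μ g ((β : Dual k V) w) := by
  have h5 := LinearMap.congr_fun ((mem_H0 _).mp β.2 (D.r v g)) (ρ (D.r v g) w)
  rw [dualR_apply_act] at h5
  exact h5.symm

variable (D ρ) in
/-- the pairing with the global invariants of the dual -/
noncomputable def gpair (v : D.ι) : H2 (D.𝓥 v) (D.lr v ρ) →ₗ[k] Dual k ↥(H0 (D.dl ρ)) :=
  LinearMap.flip
    { toFun := fun β => D.inv v ∘ₗ (Mor.coeff (𝓤 := D.𝓥 v) (β : Dual k V) (inv_eqv β v)).mapH2
      map_add' := fun β β' => by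
        refine LinearMap.ext fun x => ?_
        obtain ⟨z, rfl⟩ := H2.mk_surjective x
        rw [LinearMap.add_apply, LinearMap.comp_apply, LinearMap.comp_apply, LinearMap.comp_apply,
          Mor.mapH2_mk, Mor.mapH2_mk, Mor.mapH2_mk, ← map_add, ← map_add]
        rfl
      map_smul' := fun t β => by
        refine LinearMap.ext fun x => ?_
        obtain ⟨z, rfl⟩ := H2.mk_surjective x
        rw [RingHom.id_apply, LinearMap.smul_apply, LinearMap.comp_apply, LinearMap.comp_apply,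
          Mor.mapH2_mk, Mor.mapH2_mk, ← map_smul, ← map_smul]
        rfl }

theorem gpair_mk (v : D.ι) (z : ↥(Z2 (D.𝓥 v) (D.lr v ρ))) (β : ↥(H0 (D.dl ρ))) :
    gpair D ρ v (H2.mk (D.𝓥 v) (D.lr v ρ) z) β =
      D.iv v (fun p => (β : Dual k V) ((z : D.G v × D.G v → V) p)) :=
  (iv_eq ((Mor.coeff (𝓤 := D.𝓥 v) (β : Dual k V) (inv_eqv β v)).mapZ2 z).2).symm

/-- **The count in degree two.** -/
theorem count_H2 (hG : D.Good) (hL : ∀ v, LocD (D.inv v)) (hρ : SmRep D.𝓤 ρ) :
    finrank k (D.sha2 ρ) + ∑ v, finrank k (H2 (D.𝓥 v) (D.lr v ρ)) ≤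
      finrank k (H2 D.𝓤 ρ) + finrank k ↥(H0 (D.dl ρ)) := by
  haveI := finite_H2 hG hL hρ
  haveI : ∀ v, FiniteDimensional k (H2 (D.𝓥 v) (D.lr v ρ)) := fun v =>
    (finrank_H2_le (hL v) (D.lr_sm hρ) (D.lr_sm (dl_sm hρ)) (lp v (evP D ρ))).1
  refine countF2 (C := ↥(H0 (D.dl ρ))) (E := fun v => H2 (D.𝓥 v) (D.lr v ρ)) (fun v => (D.loc v ρ).mapH2) (D.sha2 ρ)
    (fun a ha => mem_sha2_iff.mp ha) (gpair D ρ) (fun x hx => ?_)
  choose z hz using fun v => H2.mk_surjective (x v)
  obtain ⟨f, hf, hfz⟩ := exists_global hG hL hρ (fun v => (z v : D.G v × D.G v → V))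
    (fun v => (z v).2) (by
      intro β hβ
      have h4 := hx ⟨β, hβ⟩
      refine Eq.trans ?_ h4
      refine Finset.sum_congr rfl fun v _ => ?_
      rw [← hz v]
      exact (gpair_mk v (z v) ⟨β, hβ⟩).symm)
  refine ⟨H2.mk D.𝓤 ρ ⟨f, hf⟩, fun v => ?_⟩
  rw [← hz v, Mor.mapH2_mk, ← sub_eq_zero, ← map_sub, Submodule.mkQ_apply,
    Submodule.Quotient.mk_eq_zero]
  exact hfz v

end Frame

end Fermat.Agent.PT
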