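import Fermat.Agent.PT.PTC2
import Fermat.Agent.PT.EU6
import Fermat.Agent.PT.EFfr
import Fermat.Agent.PT.GoodOf
import Fermat.Agent.GCFT.Q0f

/-!
# The upper bound for the Euler characteristic at a level
-/

set_option autoImplicit false
set_option linter.unusedSectionVars false
set_option linter.style.haveILetI false

namespace Fermat.Agent.PT

open Fermat.Agent.Coh Module

namespace Frame

open LD

attribute [local instance] fq

variable {k : Type} [Field k] {Γ : Type} [Group Γ] {D : Frame k Γ}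
variable {V : Type} [AddCommGroup V] [Module k V] [FiniteDimensional k V]
variable {V' : Type} [AddCommGroup V'] [Module k V'] [FiniteDimensional k V']
variable {ρ : Representation k Γ V} {ρ' : Representation k Γ V'}

/-- the identification with the twisted dual -/
noncomputable def dpEquiv (B : DP D.μ ρ ρ') : V' ≃ₗ[k] Dual k V :=
  LinearEquiv.ofBijective B.β.flip (by
    have h2 : Function.Injective B.β.flip := by
      rw [← LinearMap.ker_eq_bot, LinearMap.ker_eq_bot']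
      intro v hv
      exact B.inj' v fun v' => LinearMap.congr_fun hv v'
    refine ⟨h2, fun f => ?_⟩
    obtain ⟨v', hv'⟩ := B.op.surj f
    exact ⟨v', LinearMap.ext hv'⟩)

theorem dpEquiv_apply (B : DP D.μ ρ ρ') (v' : V') (v : V) : dpEquiv B v' v = B.β v v' := rfl

theorem dpEquiv_comm (B : DP D.μ ρ ρ') (g : Γ) (v' : V') :
    dpEquiv B (ρ' g v') = D.dl ρ g (dpEquiv B v') := by
  refine LinearMap.ext fun v => ?_
  rw [dualR_apply, dpEquiv_apply, dpEquiv_apply]
  have h1 := B.eqv g (ρ g⁻¹ v) v'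
  rw [← Module.End.mul_apply, ← map_mul, mul_inv_cancel, map_one, Module.End.one_apply] at h1
  exact h1

theorem dpEquiv_symm_comm (B : DP D.μ ρ ρ') (g : Γ) (f : Dual k V) :
    (dpEquiv B).symm (D.dl ρ g f) = ρ' g ((dpEquiv B).symm f) := by
  rw [LinearEquiv.symm_apply_eq, dpEquiv_comm, LinearEquiv.apply_symm_apply]

/-- **Duality for the locally trivial classes**, with a perfect pairing. -/
theorem finrank_sha1_eq (hG : D.Good) (hρ : SmRep D.𝓤 ρ) (hρ' : SmRep D.𝓤 ρ')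
    (B : DP D.μ ρ ρ') : finrank k ↥(D.sha1 ρ') = finrank k ↥(D.sha2 ρ) := by
  obtain ⟨h1, h2, h3⟩ := finrank_sha_eq hG hρ
  haveI := h1
  haveI := finite_H1 hG hρ'
  haveI : FiniteDimensional k ↥(D.sha1 ρ') := inferInstance
  rw [← h3]
  exact le_antisymm (finrank_sha1_mono (dpEquiv B) (dpEquiv_comm B))
    (finrank_sha1_mono (dpEquiv B).symm (dpEquiv_symm_comm B))

theorem finrank_H0_dl (B : DP D.μ ρ ρ') :
    finrank k ↥(H0 (D.dl ρ)) = finrank k ↥(H0 ρ') :=
  (LinearEquiv.ofBijective _ (EU.mapH0_bij (dpEquiv B) (dpEquiv_comm B) D.𝓤)).finrank_eq.symm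

/-- **The Euler characteristic count.** -/
theorem e3_le_of_self (hG : D.Good) (hL : ∀ v, LocD (D.inv v)) (hρ : SmRep D.𝓤 ρ)
    (B : DP D.μ ρ ρ) :
    2 * EU.e3 D.𝓤 ρ + 2 * ∑ v, (finrank k ↥(H0 (D.lr v ρ)) : ℤ) ≤
      ∑ v, (finrank k (H1 (D.𝓥 v) (D.lr v ρ)) : ℤ) := by
  haveI := finite_H1 hG hρ
  haveI := finite_H2 hG hL hρ
  have h1 := count_QQ hG.recip hL hρ hρ B Finset.univ
  have h2 := count_H2 hG hL hρ
  have h3 := finrank_sha1_eq hG hρ hρ B
  have h4 := finrank_H0_dl B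
  have h5 : finrank k (aQ D ρ Finset.univ) = finrank k (H1 D.𝓤 ρ) := by
    have : aQ D ρ Finset.univ = ⊤ := by
      rw [eq_top_iff]
      intro x _ v hv
      exact absurd (Finset.mem_univ v) hv
    rw [this, finrank_top]
  have h6 : finrank k (bQ D ρ Finset.univ) ≤ finrank k (D.sha1 ρ) := by
    refine Submodule.finrank_mono fun x hx => ?_
    rw [mem_sha1_iff]
    exact fun v => hx v (Finset.mem_univ v)
  have h7 : ∑ v, finrank k (H2 (D.𝓥 v) (D.lr v ρ)) = ∑ v, finrank k ↥(H0 (D.lr v ρ)) :=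
    Finset.sum_congr rfl fun v _ =>
      (finrank_H2_le (hL v) (D.lr_sm hρ) (D.lr_sm hρ) (lp v B)).2
  unfold EU.e3
  have h8 : (∑ v, (finrank k ↥(H0 (D.lr v ρ)) : ℤ)) =
      ((∑ v, finrank k ↥(H0 (D.lr v ρ)) : ℕ) : ℤ) := by push_cast; rfl
  have h9 : (∑ v, (finrank k (H1 (D.𝓥 v) (D.lr v ρ)) : ℤ)) =
      ((∑ v, finrank k (H1 (D.𝓥 v) (D.lr v ρ)) : ℕ) : ℤ) := by push_cast; rfl
  rw [h8, h9]
  omega

section self

variable {U : Subgroup Γ} [U.FiniteIndex]

/-- the cyclotomic character on the cosets -/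
noncomputable def chU (D : Frame k Γ) (U : Subgroup Γ) (x : Γ ⧸ U) : kˣ := D.χ x.out

theorem chU_mk (hχ : ∀ u ∈ U, D.χ u = 1) (g : Γ) : chU D U (g : Γ ⧸ U) = D.χ g := by
  have h1 : ((g : Γ ⧸ U).out)⁻¹ * g ∈ U := QuotientGroup.eq.mp (QuotientGroup.out_eq' _)
  have h2 := hχ _ h1
  rw [map_mul, map_inv, inv_mul_eq_one] at h2
  exact h2

theorem chU_smul (hχ : ∀ u ∈ U, D.χ u = 1) (g : Γ) (x : Γ ⧸ U) :
    chU D U (g • x) = D.χ g * chU D U x := by
  obtain ⟨y, rfl⟩ := QuotientGroup.mk_surjective x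
  have h1 : g • (y : Γ ⧸ U) = ((g * y : Γ) : Γ ⧸ U) := rfl
  rw [h1, chU_mk hχ, chU_mk hχ, map_mul]

/-- the self pairing of the induced module -/
noncomputable def selfP (hχ : ∀ u ∈ U, D.χ u = 1) :
    DP D.μ (indRep U D.μ) (indRep U D.μ) where
  β := LinearMap.mk₂ k (fun F F' => ∑ x, (((chU D U x)⁻¹ : kˣ) : k) * (F x * F' x))
    (fun F F' F'' => by
      rw [← Finset.sum_add_distrib]
      exact Finset.sum_congr rfl fun x _ => by rw [Pi.add_apply]; ring)
    (fun t F F' => by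
      rw [smul_eq_mul, Finset.mul_sum]
      exact Finset.sum_congr rfl fun x _ => by rw [Pi.smul_apply, smul_eq_mul]; ring)
    (fun F F' F'' => by
      rw [← Finset.sum_add_distrib]
      exact Finset.sum_congr rfl fun x _ => by rw [Pi.add_apply]; ring)
    (fun t F F' => by
      rw [smul_eq_mul, Finset.mul_sum]
      exact Finset.sum_congr rfl fun x _ => by rw [Pi.smul_apply, smul_eq_mul]; ring)
  inj F h := by
    classical
    funext x
    have h1 := h (Pi.single x 1)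
    rw [LinearMap.mk₂_apply, Finset.sum_eq_single x] at h1
    · rw [Pi.single_eq_same, mul_one] at h1
      exact (mul_eq_zero.mp h1).resolve_left (Units.ne_zero _)
    · intro y _ hy
      rw [Pi.single_eq_of_ne hy, mul_zero, mul_zero]
    · intro hx
      exact absurd (Finset.mem_univ _) hx
  inj' F h := by
    classical
    funext x
    have h1 := h (Pi.single x 1)
    rw [LinearMap.mk₂_apply, Finset.sum_eq_single x] at h1
    · rw [Pi.single_eq_same, one_mul] at h1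
      exact (mul_eq_zero.mp h1).resolve_left (Units.ne_zero _)
    · intro y _ hy
      rw [Pi.single_eq_of_ne hy, zero_mul, mul_zero]
    · intro hx
      exact absurd (Finset.mem_univ _) hx
  eqv g F F' := by
    rw [LinearMap.mk₂_apply, LinearMap.mk₂_apply, chRep_apply, Finset.mul_sum]
    refine Fintype.sum_equiv (MulAction.toPerm g⁻¹) _ _ fun x => ?_
    rw [MulAction.toPerm_apply, indRep_apply, indRep_apply, chRep_apply, chRep_apply]
    have h1 : chU D U x = D.χ g * chU D U (g⁻¹ • x) := by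
      rw [← chU_smul hχ, smul_inv_smul]
    rw [h1, mul_inv, Units.val_mul]
    have h2 : (((D.χ g)⁻¹ : kˣ) : k) * (D.χ g : k) = 1 := Units.inv_mul _
    linear_combination ((((chU D U (g⁻¹ • x))⁻¹ : kˣ) : k) * (D.χ g * (F (g⁻¹ • x) *
      F' (g⁻¹ • x)))) * h2

end self

end Frame

open Fermat.Agent.GCFT Fermat.Agent.GlobalCFT Fermat.Agent.GalD
  Fermat.Agent.LocalCFT ExtCitation

/-- The absolute Galois group. -/
local notation "GQ'" => (AlgebraicClosure ℚ ≃ₐ[ℚ] AlgebraicClosure ℚ)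

variable {p : ℕ} [hp : Fact p.Prime] {S : Finset Nat.Primes}
  {U : Subgroup (AlgebraicClosure ℚ ≃ₐ[ℚ] AlgebraicClosure ℚ)}

variable (hp2 : p ≠ 2) (hpS : pPrime p ∈ S)

theorem good_fr : (fr p hp2 S hpS).Good :=
  PT.good_of hp2 hpS (fun _ _ hU _ => GCFT.q0_fr hp2 hpS hU)

theorem locD_fr (v : (fr p hp2 S hpS).ι) : LD.LocD ((fr p hp2 S hpS).inv v) := LD.locD hp2 v.1

/-- the local invariants of the induced module -/
theorem card_Pl_le_H0 (hU : U ∈ famS S) (hχ : ∀ u ∈ U, cycloChar p u = 1) (l : Nat.Primes) :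
    Nat.card (Pl (rl l) U) ≤
      finrank (ZMod p) ↥(H0 ((indRep U (muQ p)).comp (rl l))) := by
  classical
  haveI := (famS S).normal U hU
  haveI := (famS S).finiteIndex U hU
  haveI := finite_Pl (rl l) U
  haveI := Fintype.ofFinite (Pl (rl l) U)
  haveI : FiniteDimensional (ZMod p) (GQ' ⧸ U → ZMod p) := by
    haveI := Fintype.ofFinite (GQ' ⧸ U)
    infer_instance
  have hcl : ∀ g : GQ', ∀ u ∈ U, cl (rl l) U (g * u) = cl (rl l) U g := fun g u hu =>
    ((cl_eq_iff (rl l) U).mpr ⟨1, u, hu, by simp⟩).symm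
  have hcl2 : ∀ (g : GQ'), cl (rl l) U ((g : GQ' ⧸ U).out) = cl (rl l) U g := by
    intro g
    have h1 : ((g : GQ' ⧸ U).out)⁻¹ * g ∈ U := QuotientGroup.eq.mp (QuotientGroup.out_eq' _)
    have h2 := hcl (g : GQ' ⧸ U).out _ h1
    rw [mul_inv_cancel_left] at h2
    exact h2.symm
  have hχ2 : ∀ (g : GQ'), cycloChar p ((g : GQ' ⧸ U).out) = cycloChar p g := by
    intro g
    have h1 : ((g : GQ' ⧸ U).out)⁻¹ * g ∈ U := QuotientGroup.eq.mp (QuotientGroup.out_eq' _)
    have h2 := hχ _ h1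
    rw [map_mul, map_inv, inv_mul_eq_one] at h2
    exact h2
  let Φ : (Pl (rl l) U → ZMod p) →ₗ[ZMod p] ↥(H0 ((indRep U (muQ p)).comp (rl l))) :=
    { toFun := fun f => ⟨fun x => (cycloChar p x.out : ZMod p) * f (cl (rl l) U x.out), by
        rw [mem_H0]
        intro δ
        funext x
        obtain ⟨g, rfl⟩ := QuotientGroup.mk_surjective x
        have e1 : (rl l δ)⁻¹ • (g : GQ' ⧸ U) = (((rl l δ)⁻¹ * g : GQ') : GQ' ⧸ U) := rfl
        change (cycloChar p (rl l δ) : ZMod p) * ((cycloChar p ((rl l δ)⁻¹ • (g : GQ' ⧸ U)).out :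
          ZMod p) * f (cl (rl l) U ((rl l δ)⁻¹ • (g : GQ' ⧸ U)).out)) =
          (cycloChar p (g : GQ' ⧸ U).out : ZMod p) * f (cl (rl l) U (g : GQ' ⧸ U).out)
        rw [e1, hχ2, hχ2, hcl2, hcl2]
        have e2 : cl (rl l) U ((rl l δ)⁻¹ * g) = cl (rl l) U g :=
          (cl_eq_iff (rl l) U).mpr ⟨δ, 1, U.one_mem, by group⟩
        rw [e2, map_mul, Units.val_mul, map_inv, ← mul_assoc, ← mul_assoc, Units.mul_inv, one_mul]⟩
      map_add' := fun f f' => by
        apply Subtype.ext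
        funext x
        exact mul_add _ _ _
      map_smul' := fun t f => by
        apply Subtype.ext
        funext x
        exact mul_left_comm _ _ _ }
  have hinj : Function.Injective Φ := by
    intro f f' h
    funext c
    obtain ⟨g, rfl⟩ : ∃ g, cl (rl l) U g = c := Quotient.exists_rep c
    have h1 := congrFun (congrArg Subtype.val h) (g : GQ' ⧸ U)
    change (cycloChar p (g : GQ' ⧸ U).out : ZMod p) * f (cl (rl l) U (g : GQ' ⧸ U).out) =
      (cycloChar p (g : GQ' ⧸ U).out : ZMod p) * f' (cl (rl l) U (g : GQ' ⧸ U).out) at h1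
    rw [hcl2] at h1
    exact mul_left_cancel₀ (Units.ne_zero _) h1
  have h2 := LinearMap.finrank_le_finrank_of_injective hinj
  rwa [finrank_fintype_fun_eq_card, ← Nat.card_eq_fintype_card] at h2

include hp2 hpS in
/-- **The upper bound at level `U`.** -/
theorem hTot_fr (hU : U ∈ famS S) (hχ : ∀ u ∈ U, cycloChar p u = 1) :
    2 * EU.e3 ((famS S).res U) (rep (chRep (cycloChar p)) U) ≤ U.index := by
  haveI := (famS S).finiteIndex U hU
  have hUo : (famS S).IsOpen U := Fam.isOpen_of_mem hU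
  have hμ : SmRep (famS S) (muQ p) := (fr p hp2 S hpS).mu_sm
  haveI := Fintype.ofFinite (GQ' ⧸ U)
  have h1 := Frame.e3_le_of_self (good_fr hp2 hpS) (locD_fr hp2 hpS)
    (smRep_indRep hUo hμ) (Frame.selfP (D := fr p hp2 S hpS) (U := U) hχ)
  have h2 : ∑ v : ↥S, (finrank (ZMod p) (H1 (LF (v.1 : ℕ)) ((indRep U (muQ p)).comp (rl v.1))) : ℤ)
      ≤ U.index + 2 * ∑ l ∈ S, (Nat.card (Pl (rl l) U) : ℤ) := by
    have := local_bound hpS hU hχ
    exact_mod_cast this
  have h3 : ∑ l ∈ S, (Nat.card (Pl (rl l) U) : ℤ) ≤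
      ∑ v : ↥S, (finrank (ZMod p) ↥(H0 ((indRep U (muQ p)).comp (rl v.1))) : ℤ) := by
    rw [← Finset.sum_coe_sort S (fun l => (Nat.card (Pl (rl l) U) : ℤ))]
    refine Finset.sum_le_sum fun v _ => ?_
    exact_mod_cast card_Pl_le_H0 hU hχ v.1
  have h4 : EU.e3 ((famS S).res U) (rep (chRep (cycloChar p)) U) =
      EU.e3 (famS S) (indRep U (muQ p)) := by
    unfold EU.e3
    rw [(shEquiv0 (famS S) U (muQ p)).finrank_eq, (shEquiv1 hUo (muQ p)).finrank_eq,
      (shEquiv2 hUo (muQ p)).finrank_eq]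
  have h5 : 2 * EU.e3 (famS S) (indRep U (muQ p)) +
      2 * ∑ v : ↥S, (finrank (ZMod p) ↥(H0 ((indRep U (muQ p)).comp (rl v.1))) : ℤ) ≤
      ∑ v : ↥S, (finrank (ZMod p) (H1 (LF (v.1 : ℕ)) ((indRep U (muQ p)).comp (rl v.1))) : ℤ) := h1
  rw [h4]
  linarith

end Fermat.Agent.PT
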