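import Fermat.Agent.PT.PTC3
import Fermat.Agent.PT.EU7
import Fermat.Agent.PT.EU8

/-!
# The Euler inequality over `ℚ`
-/

set_option autoImplicit false
set_option linter.unusedSectionVars false
set_option linter.style.haveILetI false

namespace Fermat.Agent.PT

open Fermat.Agent.Coh Module Fermat.Agent.GCFT Fermat.Agent.GlobalCFT Fermat.Agent.GalD
  Fermat.Agent.LocalCFT ExtCitation

/-- The absolute Galois group. -/
local notation "GQ'" => (AlgebraicClosure ℚ ≃ₐ[ℚ] AlgebraicClosure ℚ)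

/-- the equivariant input, at all levels -/
def XAll (p : ℕ) [Fact p.Prime] (S : Finset Nat.Primes) : Prop :=
  ∀ (H U : Subgroup GQ') (hn : ∀ h ∈ H, ∀ u ∈ U, h * u * h⁻¹ ∈ U), (famS S).IsOpen U → U ≤ H →
    (∀ u ∈ U, cycloChar p u = 1) → XProp p S H U hn

variable {p : ℕ} [hp : Fact p.Prime] {S : Finset Nat.Primes}

theorem two_ne (hp2 : p ≠ 2) : (2 : ZMod p) ≠ 0 := by
  intro h
  have h1 : ((2 : ℕ) : ZMod p) = 0 := by exact_mod_cast h
  rw [ZMod.natCast_eq_zero_iff, Nat.prime_dvd_prime_iff_eq hp.out Nat.prime_two] at h1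
  exact hp2 h1

theorem cc_root {m : ℕ} (hm : m ≠ 0) {ζ : AlgebraicClosure ℚ} (hζ : ζ ^ m = 1) :
    complexConjugation ζ = ζ⁻¹ := by
  apply complexEmbedding.injective
  change complexEmbedding (complexConjugation ζ) = complexEmbedding ζ⁻¹
  rw [complexEmbedding_complexConjugation, map_inv₀]
  have h1 : (complexEmbedding ζ) ^ m = 1 := by rw [← map_pow, hζ, map_one]
  have h2 := Complex.norm_eq_one_of_pow_eq_one h1 hm
  rw [Complex.inv_def, Complex.normSq_eq_norm_sq, h2]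
  simp

theorem cycloChar_cc : cycloChar p complexConjugation = -1 := by
  haveI : NeZero p := ⟨hp.out.ne_zero⟩
  have h1 := cycloChar_spec p complexConjugation
  rw [cc_root hp.out.ne_zero (zt_spec p).pow_eq_one] at h1
  have h2 : (zt p) ^ (p - 1) = (zt p)⁻¹ := by
    symm
    refine inv_eq_of_mul_eq_one_left ?_
    rw [← pow_succ, Nat.sub_add_cancel hp.out.one_lt.le, (zt_spec p).pow_eq_one]
  rw [← h2] at h1
  have h3 := (zt_spec p).pow_inj (Nat.sub_lt hp.out.pos Nat.one_pos) (ZMod.val_lt _) h1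
  apply Units.ext
  rw [← ZMod.natCast_zmod_val (cycloChar p complexConjugation : ZMod p), ← h3,
    Nat.cast_sub hp.out.one_lt.le, ZMod.natCast_self]
  simp

section

variable (hp2 : p ≠ 2) (hpS : pPrime p ∈ S)

include hp2 hpS in
theorem finAll_fr : EU.FinAll (ZMod p) (famS S) := by
  intro V _ _ _ τ hτ
  have h1 := Frame.finite_H1 (good_fr hp2 hpS) (ρ := τ) hτ
  have h2 := Frame.finite_H2 (good_fr hp2 hpS) (locD_fr hp2 hpS) (ρ := τ) hτ
  exact ⟨h1, h2⟩

/-- finiteness for the cohomology of `μ` at a level -/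
theorem finite_level {k : Type} [Field k] {Γ : Type} [Group Γ] {𝓤 : Fam Γ}
    (hF : EU.FinAll k 𝓤) {K : Subgroup Γ} (hK : 𝓤.IsOpen K) {V : Type} [AddCommGroup V] [Module k V]
    [FiniteDimensional k V] {ρ : Representation k Γ V} (hρ : SmRep 𝓤 ρ) :
    FiniteDimensional k (H1 (𝓤.res K) (rep ρ K)) ∧ FiniteDimensional k (H2 (𝓤.res K) (rep ρ K)) := by
  haveI := hK.finiteIndex
  haveI := Fintype.ofFinite (Γ ⧸ K)
  have h1 := hF _ (indRep K ρ) (smRep_indRep hK hρ)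
  haveI := h1.1
  haveI := h1.2
  exact ⟨Module.Finite.equiv (shEquiv1 hK ρ), Module.Finite.equiv (shEquiv2 hK ρ)⟩

/-- finiteness for the cohomology of an open subgroup -/
theorem finAll_res {k : Type} [Field k] {Γ : Type} [Group Γ] {𝓤 : Fam Γ} {χ : Γ →* kˣ}
    (hχ : ∃ U ∈ 𝓤, ∀ u ∈ U, χ u = 1)
    (hF : EU.FinAll k 𝓤) {H : Subgroup Γ} (hH : 𝓤.IsOpen H) : EU.FinAll k (𝓤.res H) := by
  obtain ⟨U₁, hU₁, h1⟩ := hχ
  have hμ : SmRep 𝓤 (chRep χ) := fun a => ⟨U₁, hU₁, fun u hu => by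
    rw [chRep_apply, h1 u hu, Units.val_one, one_mul]⟩
  intro V _ _ _ τ hτ
  refine EU.fin_of_small (fun U hU => ?_) V τ hτ
  obtain ⟨U₀, hU₀, rfl⟩ := hU
  obtain ⟨U₂, hU₂, h2⟩ := hH
  set W := U₀ ⊓ (U₁ ⊓ U₂) with hW
  have hWm : W ∈ 𝓤 := 𝓤.inf_mem _ hU₀ _ (𝓤.inf_mem _ hU₁ _ hU₂)
  have hWH : W ≤ H := fun g hg => h2 hg.2.2
  have hWχ : ∀ u ∈ W, χ u = 1 := fun u hu => h1 u hu.2.1
  obtain ⟨f1, f2⟩ := finite_level hF (Fam.isOpen_of_mem hWm) hμ
  haveI := f1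
  haveI := f2
  refine ⟨W.subgroupOf H, ⟨W, hWm, rfl⟩, fun g hg => hg.1, rep (chRep (EU.rχ χ H)) (W.subgroupOf H),
    fun g v => ?_, ?_, ?_⟩
  · change (χ ((g : H) : Γ) : k) * v = v
    have h3 : χ ((g : H) : Γ) = 1 := hWχ _ g.2
    rw [h3, Units.val_one, one_mul]
  · exact Module.Finite.of_surjective (EU.upC 𝓤 χ hWH).mapH1
      (Function.RightInverse.surjective (EU.upC_dnC_H1 (𝓤 := 𝓤) (χ := χ) hWH))
  · exact Module.Finite.of_surjective (EU.upC 𝓤 χ hWH).mapH2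
      (Function.RightInverse.surjective (EU.upC_dnC_H2 (𝓤 := 𝓤) (χ := χ) hWH))

/-- an open normal subgroup belongs to the family -/
theorem mem_famS_of_isOpen {U : Subgroup GQ'} [hn : U.Normal] (hU : (famS S).IsOpen U) :
    U ∈ famS S := by
  obtain ⟨W, hW, hWU⟩ := hU
  exact ⟨hn, Subgroup.isOpen_mono hWU hW.2.1, fun q hq A hA => (hW.2.2 q hq A hA).trans hWU⟩

include hp2 hpS in
/-- **The Euler inequality for Galois modules coming from a two dimensional representation.** -/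
theorem euler_fr (hX : XAll p S) {k : Type} [Field k] [Finite k] [CharP k p]
    (r : GQ' →* GL (Fin 2) k) (hr : (famS S).IsOpen r.ker)
    {R : Type} [AddCommGroup R] [Module (ZMod p) R] [FiniteDimensional (ZMod p) R]
    {ρ : Representation (ZMod p) GQ' R}
    (ht : ∀ u ∈ r.ker ⊓ (cycloChar p).ker, ∀ v, ρ u v = v) :
    (finrank (ZMod p) (EU.mns complexConjugation ρ) : ℤ) ≤ EU.e3 (famS S) ρ := by
  obtain ⟨K, H, hUK, hKH, hn, hKχ, hidx, hTI, hKU⟩ := EU.exists_KH (p := p) r (cycloChar p)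
  have hcO : (famS S).IsOpen (cycloChar p).ker := Fam.isOpen_of_mem (cycloChar_open hpS)
  have hU : (famS S).IsOpen (r.ker ⊓ (cycloChar p).ker) := hr.inf hcO
  have hKo : (famS S).IsOpen K := hU.mono hUK
  have hρ : SmRep (famS S) ρ := by
    intro v
    obtain ⟨W, hW, hle⟩ := hU
    exact ⟨W, hW, fun u hu => ht u (hle hu) v⟩
  have hμ : SmRep (famS S) (chRep (cycloChar p)) := (fr p hp2 S hpS).mu_sm
  have hF := finAll_fr (S := S) hp2 hpS
  have hFH := finAll_res (χ := cycloChar p) ⟨_, cycloChar_open hpS, fun _ hu => hu⟩ hF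
    (hKo.mono hKH)
  obtain ⟨fK1, fK2⟩ := finite_level hF hKo hμ
  obtain ⟨fU1, fU2⟩ := finite_level hF hU hμ
  haveI := fK1
  haveI := fK2
  haveI := fU1
  haveI := fU2
  have hnt : ∀ h ∈ (⊤ : Subgroup GQ'), ∀ u ∈ r.ker ⊓ (cycloChar p).ker,
      h * u * h⁻¹ ∈ r.ker ⊓ (cycloChar p).ker := fun h _ u hu =>
    (inferInstance : (r.ker ⊓ (cycloChar p).ker).Normal).conj_mem u hu h
  have h0 := EU.f1_nonneg (p := p) (𝓤 := famS S) (χ := cycloChar p) (c := complexConjugation)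
    (ρ := ρ) (U := r.ker ⊓ (cycloChar p).ker) (K := K) (H := H) (two_ne hp2) hUK hKH hn hnt
    cycloChar_cc complexConjugation_mul_self hKχ hU ht hρ hidx hTI hKU hF hFH
    (fun P _ _ _ σ hσ => hX H K hn hKo hKH hKχ P σ hσ)
    (fun P _ _ _ σ hσ => hX ⊤ _ hnt hU le_top (fun u hu => hu.2) P σ hσ)
    (hTot_fr hp2 hpS (mem_famS_of_isOpen hU) fun u hu => hu.2)
  unfold EU.f1 at h0
  linarith

end

end Fermat.Agent.PT
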