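import Fermat.Agent.PT.PTC3
import Fermat.Agent.RT.LocGen3

/-!
# Local dimension bound for unramified modules
-/

set_option autoImplicit false
set_option linter.unusedSectionVars false
set_option linter.style.haveILetI false

namespace Fermat.Agent.PT

open Fermat.Agent.Coh Module Fermat.Agent.GCFT Fermat.Agent.GlobalCFT Fermat.Agent.GalD
  Fermat.Agent.LocalCFT ExtCitation

/-- The absolute Galois group. -/
local notation "GQ'" => (AlgebraicClosure ℚ ≃ₐ[ℚ] AlgebraicClosure ℚ)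

variable {p : ℕ} [hp : Fact p.Prime] {l : Nat.Primes}

theorem cyc_il (hpl : (l : ℕ) ≠ p) {g : Gl l} (hg : g ∈ RT.Il (l : ℕ)) :
    cycloChar p (rl l g) = 1 := by
  rw [← MonoidHom.mem_ker, mem_ker_cycloChar]
  exact ESCore.inertia_root (nonunits_padicPlace l) l.2 (RT.rl_mem_inertia hg)
    (fun h => hpl ((Nat.prime_dvd_prime_iff_eq l.2 hp.out).mp h)) (zt_spec p).pow_eq_one

theorem cyc_frob (hpl : (l : ℕ) ≠ p) {φ : Gl l} (hφ : RT.IsFrobL φ) :
    ((cycloChar p (rl l φ) : (ZMod p)ˣ) : ZMod p) = (l : ℕ) := by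
  have h1 := ESCore.frob_root (nonunits_padicPlace l) l.2 (RT.rl_isFrobeniusAt hφ)
    (fun h => hpl ((Nat.prime_dvd_prime_iff_eq l.2 hp.out).mp h)) (zt_spec p).pow_eq_one
  have h2 := cycloChar_spec p (rl l φ)
  rw [h1] at h2
  have hu : IsUnit (zt p) := (zt_spec p).isUnit hp.out.ne_zero
  have h3 : hu.unit ^ (l : ℕ) = hu.unit ^ (cycloChar p (rl l φ) : ZMod p).val := by
    apply Units.ext
    rw [Units.val_pow_eq_pow_val, Units.val_pow_eq_pow_val, IsUnit.unit_spec, h2]
  rw [pow_eq_pow_iff_modEq, ← orderOf_units, IsUnit.unit_spec, ← (zt_spec p).eq_orderOf,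
    ← ZMod.natCast_eq_natCast_iff, ZMod.natCast_zmod_val] at h3
  exact h3.symm

section

variable {M : Type} [AddCommGroup M] [Module (ZMod p) M] {ρ : Representation (ZMod p) (Gl l) M}

/-- the affine action attached to a cocycle -/
noncomputable def affP (z : ↥(Z1 (LF (l : ℕ)) ρ)) : Gl l →* Equiv.Perm M :=
  MonoidHom.toHomPerm
    { toFun := fun g => (fun m => ρ g m + (z : Gl l → M) g : M → M)
      map_one' := by
        funext m
        change ρ 1 m + (z : Gl l → M) 1 = m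
        have h1 := z.2.2 1 1
        rw [mul_one, map_one, Module.End.one_apply] at h1
        rw [left_eq_add.mp h1, map_one, add_zero, Module.End.one_apply]
      map_mul' := fun g h => by
        funext m
        change ρ (g * h) m + (z : Gl l → M) (g * h) = ρ g (ρ h m + (z : Gl l → M) h) + (z : Gl l → M) g
        rw [z.2.2 g h, map_mul, Module.End.mul_apply, map_add, add_assoc] }

theorem affP_apply (z : ↥(Z1 (LF (l : ℕ)) ρ)) (g : Gl l) (m : M) :
    affP z g m = ρ g m + (z : Gl l → M) g := rfl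

theorem affP_pow (z : ↥(Z1 (LF (l : ℕ)) ρ)) {g : Gl l} (hg : ∀ m, ρ g m = m) (n : ℕ) (m : M) :
    (affP z g ^ n) m = m + n • (z : Gl l → M) g := by
  induction n generalizing m with
  | zero => rw [pow_zero, zero_nsmul, add_zero]; rfl
  | succ n ih =>
    rw [pow_succ, Equiv.Perm.mul_apply, ih, affP_apply, hg, succ_nsmul']
    abel

theorem affP_zpow (z : ↥(Z1 (LF (l : ℕ)) ρ)) {g : Gl l} (hg : ∀ m, ρ g m = m) (n : ℤ) (m : M) :
    (affP z g ^ n) m = m + n • (z : Gl l → M) g := by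
  obtain ⟨n, rfl | rfl⟩ := n.eq_nat_or_neg
  · rw [zpow_natCast, affP_pow z hg, natCast_zsmul]
  · rw [zpow_neg, zpow_natCast, neg_smul, natCast_zsmul, Equiv.Perm.inv_def, Equiv.symm_apply_eq,
      affP_pow z hg]
    abel

variable [FiniteDimensional (ZMod p) M]

/-- **Local dimension bound.** -/
theorem h1_unram (hpl : (l : ℕ) ≠ p) (hρ : SmRep (LF (l : ℕ)) ρ)
    (hI : ∀ g ∈ RT.Il (l : ℕ), ∀ m, ρ g m = m) :
    finrank (ZMod p) (H1 (LF (l : ℕ)) ρ) ≤ finrank (ZMod p) ↥(H0 ρ) +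
      finrank (ZMod p) ↥(H0 (dualR ((cycloChar p).comp (rl l)) ρ)) := by
  obtain ⟨τ, hτI, hτ⟩ := RT.exists_tame_gen (l : ℕ) hp.out (Ne.symm hpl)
  obtain ⟨φ, hφ⟩ := RT.exists_isFrobL (l : ℕ)
  obtain ⟨W, hW, hWρ⟩ := LD.exists_triv_mem hρ
  -- the bound for the cocycles
  let E : Submodule (ZMod p) M := LinearMap.ker (ρ φ - ((l : ℕ) : ZMod p) • LinearMap.id)
  have hz0 : ∀ z : ↥(Z1 (LF (l : ℕ)) ρ), ∃ W' ∈ LF (l : ℕ), (∀ g ∈ W', affP z g = 1) ∧
      ∀ g, ∀ u ∈ W', (z : Gl l → M) (g * u) = (z : Gl l → M) g := by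
    intro z
    obtain ⟨W₁, hW₁, h1⟩ := z.2.1
    refine ⟨W ⊓ W₁, (LF (l : ℕ)).inf_mem _ hW _ hW₁, fun g hg => Equiv.ext fun m => ?_,
      fun g u hu => h1 g u hu.2⟩
    rw [affP_apply, hWρ g hg.1]
    have h2 := h1 1 g hg.2
    rw [one_mul] at h2
    have h3 := z.2.2 1 1
    rw [mul_one, map_one, Module.End.one_apply] at h3
    rw [h2, left_eq_add.mp h3, add_zero]
    rfl
  have hpp : ∀ z : ↥(Z1 (LF (l : ℕ)) ρ), ∀ g ∈ RT.Il (l : ℕ), ∃ n, affP z g ^ p ^ n = 1 := by
    intro z g hg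
    refine ⟨1, Equiv.ext fun m => ?_⟩
    rw [pow_one, affP_pow z (hI g hg)]
    have : (p : ℕ) • (z : Gl l → M) g = 0 := by
      rw [← Nat.cast_smul_eq_nsmul (ZMod p), ZMod.natCast_self, zero_smul]
    rw [this, add_zero]
    rfl
  have hE : ∀ z : ↥(Z1 (LF (l : ℕ)) ρ), (z : Gl l → M) τ ∈ E := by
    intro z
    obtain ⟨W', hW', h1, -⟩ := hz0 z
    have h2 := RT.frob_tame (h := affP z) hp.out (Ne.symm hpl) (Fam.isOpen_of_mem hW') h1 (hpp z)
      hφ hτI
    have h3 := congrArg (fun e : Equiv.Perm M => e 0) h2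
    simp only [affP_pow z (hI τ hτI), affP_apply, map_zero, zero_add] at h3
    have h4 := z.2.2 φ (τ * φ⁻¹)
    have h5 := z.2.2 τ φ⁻¹
    have h6 := z.2.2 φ φ⁻¹
    rw [mul_inv_cancel] at h6
    have h7 := z.2.2 1 1
    rw [mul_one, map_one, Module.End.one_apply] at h7
    rw [left_eq_add.mp h7] at h6
    rw [LinearMap.mem_ker, LinearMap.sub_apply, LinearMap.smul_apply, LinearMap.id_apply,
      Nat.cast_smul_eq_nsmul, ← h3, mul_assoc, h4, h5, hI τ hτI, map_add, sub_eq_zero]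
    have h8 : ρ φ ((z : Gl l → M) φ⁻¹) = - (z : Gl l → M) φ := eq_neg_of_add_eq_zero_left h6.symm
    rw [h8]
    abel
  let Φ : ↥(Z1 (LF (l : ℕ)) ρ) →ₗ[ZMod p] M × E :=
    { toFun := fun z => ((z : Gl l → M) φ, ⟨(z : Gl l → M) τ, hE z⟩)
      map_add' := fun _ _ => rfl
      map_smul' := fun _ _ => rfl }
  have hΦ : Function.Injective Φ := by
    rw [← LinearMap.ker_eq_bot, LinearMap.ker_eq_bot']
    intro z hz
    have e1 : (z : Gl l → M) φ = 0 := congrArg Prod.fst hz
    have e2 : (z : Gl l → M) τ = 0 := congrArg (fun x => ((Prod.snd x : E) : M)) hz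
    obtain ⟨W', hW', h1, h1'⟩ := hz0 z
    have e3 : ∀ s ∈ RT.Il (l : ℕ), (z : Gl l → M) s = 0 := by
      intro s hs
      obtain ⟨n, hn⟩ := Subgroup.mem_zpowers_iff.mp
        (hτ _ (affP z) W' (Fam.isOpen_of_mem hW') h1 (hpp z) s hs)
      have h2 := congrArg (fun e : Equiv.Perm M => e 0) hn
      simp only [affP_zpow z (hI τ hτI), affP_apply, map_zero, zero_add, e2, smul_zero] at h2
      exact h2.symm
    have e4 : ∀ n : ℕ, (z : Gl l → M) (φ ^ n) = 0 := by
      intro n
      induction n with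
      | zero =>
        have h7 := z.2.2 1 1
        rw [mul_one, map_one, Module.End.one_apply] at h7
        rw [pow_zero]
        exact left_eq_add.mp h7
      | succ n ih => rw [pow_succ, z.2.2, e1, ih, map_zero, add_zero]
    apply Subtype.ext
    funext g
    obtain ⟨n, s, hs, w, hw, rfl⟩ := RT.exists_frob_mul (Fam.isOpen_of_mem hW') hφ g
    rw [h1' _ w hw, z.2.2, e3 s hs, e4, map_zero, add_zero]
    rfl
  have k1 : finrank (ZMod p) ↥(Z1 (LF (l : ℕ)) ρ) ≤ finrank (ZMod p) M + finrank (ZMod p) E := by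
    have := LinearMap.finrank_le_finrank_of_injective hΦ
    rwa [Module.finrank_prod] at this
  haveI hfZ : FiniteDimensional (ZMod p) ↥(Z1 (LF (l : ℕ)) ρ) :=
    FiniteDimensional.of_injective Φ hΦ
  -- coboundaries
  let D0 : M →ₗ[ZMod p] ↥(Z1 (LF (l : ℕ)) ρ) :=
    { toFun := fun m => ⟨d0 ρ m, d0_mem_Z1 hρ m⟩
      map_add' := fun a b => Subtype.ext (map_add (d0 ρ) a b)
      map_smul' := fun t a => Subtype.ext (map_smul (d0 ρ) t a) }
  have k2 := LinearMap.finrank_range_add_finrank_ker D0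
  have k3 := LinearMap.finrank_range_add_finrank_ker (H1.mk (LF (l : ℕ)) ρ)
  rw [LinearMap.range_eq_top.mpr H1.mk_surjective, finrank_top] at k3
  have k4 : finrank (ZMod p) (LinearMap.range D0) ≤
      finrank (ZMod p) (LinearMap.ker (H1.mk (LF (l : ℕ)) ρ)) := by
    refine Submodule.finrank_mono ?_
    rintro _ ⟨m, rfl⟩
    rw [LinearMap.mem_ker, H1.mk_eq_zero]
    exact ⟨m, fun _ => rfl⟩
  have k5 : finrank (ZMod p) (LinearMap.ker D0) ≤ finrank (ZMod p) ↥(H0 ρ) := by
    refine Submodule.finrank_mono fun m hm => ?_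
    rw [mem_H0]
    intro g
    have h1 : d0 ρ m = 0 := congrArg Subtype.val (LinearMap.mem_ker.mp hm)
    have h2 : ρ g m - m = 0 := congrFun h1 g
    exact sub_eq_zero.mp h2
  -- the dual
  have k6 : finrank (ZMod p) E ≤
      finrank (ZMod p) ↥(H0 (dualR ((cycloChar p).comp (rl l)) ρ)) := by
    set A := ρ φ - ((l : ℕ) : ZMod p) • LinearMap.id with hA
    have h1 := LinearMap.finrank_range_add_finrank_ker A
    have h2 := Subspace.finrank_add_finrank_dualAnnihilator_eq (LinearMap.range A)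
    have h3 : finrank (ZMod p) (LinearMap.range A).dualAnnihilator ≤
        finrank (ZMod p) ↥(H0 (dualR ((cycloChar p).comp (rl l)) ρ)) := by
      refine Submodule.finrank_mono fun f hf => ?_
      rw [Submodule.mem_dualAnnihilator] at hf
      have hfφ : ∀ v, f (ρ φ v) = (cycloChar p (rl l φ) : ZMod p) * f v := by
        intro v
        have h4 := hf (A v) ⟨v, rfl⟩
        rw [hA, LinearMap.sub_apply, LinearMap.smul_apply, LinearMap.id_apply, map_sub,
          map_smul, smul_eq_mul, sub_eq_zero] at h4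
        rw [h4, cyc_frob hpl hφ]
      have hfn : ∀ (n : ℕ) (v : M), f (ρ (φ ^ n) v) = (cycloChar p (rl l (φ ^ n)) : ZMod p) * f v := by
        intro n
        induction n with
        | zero => intro v; rw [pow_zero, map_one, map_one, map_one, Units.val_one, one_mul]; rfl
        | succ n ih =>
          intro v
          rw [pow_succ, map_mul, Module.End.mul_apply, ih, hfφ, map_mul, map_mul, Units.val_mul,
            mul_assoc]
      obtain ⟨W₁, hW₁, -, hW₂⟩ := LD.exists_cyc p (l := l) W hW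
      have hWW : (LF (l : ℕ)).IsOpen (W ⊓ W₁) := ⟨_, (LF (l : ℕ)).inf_mem _ hW _ hW₁, le_rfl⟩
      rw [mem_H0]
      intro g
      have h5 : ∀ v, f (ρ g v) = (cycloChar p (rl l g) : ZMod p) * f v := by
        intro v
        obtain ⟨n, s, hs, w, hw, rfl⟩ := RT.exists_frob_mul hWW hφ g
        have h6 : cycloChar p (rl l w) = 1 := hW₂ w hw.2
        rw [map_mul, Module.End.mul_apply, hWρ w hw.1, map_mul, Module.End.mul_apply, hI s hs, hfn,
          map_mul, map_mul, map_mul, map_mul, h6, cyc_il hpl hs, mul_one, mul_one]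
      refine LinearMap.ext fun v => ?_
      have h6 := dualR_apply_act ((cycloChar p).comp (rl l)) ρ g f (ρ g⁻¹ v)
      have h7 : ρ g (ρ g⁻¹ v) = v := by
        rw [← Module.End.mul_apply, ← map_mul, mul_inv_cancel, map_one, Module.End.one_apply]
      rw [h7] at h6
      rw [h6]
      have h8 := h5 (ρ g⁻¹ v)
      rw [h7] at h8
      exact h8.symm
    have h4 : finrank (ZMod p) E = finrank (ZMod p) (LinearMap.ker A) := rfl
    omega
  omega

end

end Fermat.Agent.PT
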