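import Fermat.Agent.PT.PTC4
import Fermat.Agent.PT.PTC5
import Fermat.Agent.EqEu.Final

/-!
# The Greenberg–Wiles count
-/

set_option autoImplicit false
set_option linter.unusedSectionVars false
set_option linter.style.haveILetI false

namespace Fermat.Agent.PT

open Fermat.Agent.Coh Module Fermat.Agent.GCFT Fermat.Agent.GlobalCFT Fermat.Agent.GalD
  Fermat.Agent.LocalCFT ExtCitation Frame LD

/-- The absolute Galois group. -/
local notation "GQ'" => (AlgebraicClosure ℚ ≃ₐ[ℚ] AlgebraicClosure ℚ)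

attribute [local instance] Fermat.Agent.PT.Frame.fq

variable {p : ℕ} [hp : Fact p.Prime] {S : Finset Nat.Primes}

theorem lr_sm {k : Type} [Field k] {Γ : Type} [Group Γ] (D : Frame k Γ) {v : D.ι} {V : Type}
    [AddCommGroup V] [Module k V] {ρ : Representation k Γ V} (h : SmRep D.𝓤 ρ) :
    SmRep (D.𝓥 v) (D.lr v ρ) := D.lr_sm h

theorem xAll (hp2 : p ≠ 2) (hpS : pPrime p ∈ S) : XAll p S :=
  fun _ _ hn hU _ hUp => EqEu.xprop hn hp2 hU hUp hpS

section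

variable (hp2 : p ≠ 2) (hpS : pPrime p ∈ S) {M N : Type} [AddCommGroup M] [Module (ZMod p) M]
  [FiniteDimensional (ZMod p) M] [AddCommGroup N] [Module (ZMod p) N]
  [FiniteDimensional (ZMod p) N] {ρM : Representation (ZMod p) GQ' M}
  {ρN : Representation (ZMod p) GQ' N}

/-- **The Greenberg–Wiles count**, for modules over `𝔽_p`. -/
theorem gw_count (B : DP (fr p hp2 S hpS).μ ρM ρN) (hM : SmRep (famS S) ρM)
    {k : Type} [Field k] [Finite k] [CharP k p]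
    (r : GQ' →* GL (Fin 2) k) (hr : (famS S).IsOpen r.ker)
    (ht : ∀ u ∈ r.ker ⊓ (cycloChar p).ker, ∀ v, ρN u v = v)
    (Q Qc : Finset (fr p hp2 S hpS).ι) (hQc : Disjoint Q Qc)
    (hQp : ∀ v : ↥S, v ∈ Q → (v.1 : ℕ) ≠ p)
    (hQM : ∀ v : ↥S, v ∈ Q → ∀ g ∈ RT.Il (v.1 : ℕ), ∀ m, ρM (rl v.1 g) m = m)
    (hQN : finrank (ZMod p) (bQ (fr p hp2 S hpS) ρN Q) = 0) :
    Module.Finite (ZMod p) (H1 (famS S) ρM) ∧
    finrank (ZMod p) (aQ (fr p hp2 S hpS) ρM Q) + finrank (ZMod p) ↥(H0 ρN) +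
      finrank (ZMod p) (EU.mns complexConjugation ρN) +
      ∑ v ∈ Qc, finrank (ZMod p) ↥(H0 ((fr p hp2 S hpS).lr v ρM)) ≤
      finrank (ZMod p) ↥(H0 ρM) + ∑ v ∈ Q, finrank (ZMod p) ↥(H0 ((fr p hp2 S hpS).lr v ρN)) := by
  classical
  have hG := good_fr (p := p) hp2 hpS
  have hL := locD_fr (p := p) hp2 hpS
  have hN : SmRep (famS S) ρN := by
    intro v
    obtain ⟨W, hW, hle⟩ := hr.inf (Fam.isOpen_of_mem (cycloChar_open hpS))
    exact ⟨W, hW, fun u hu => ht u (hle hu) v⟩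
  haveI f1 := finite_H1 hG hM
  haveI f2 := finite_H1 hG hN
  haveI f3 := finite_H2 hG hL hN
  have h1 := count_QQ hG.recip hL hM hN B Q
  have h2 := finrank_sha1_eq hG hN hM B.op
  have h3 := count_H2 hG hL hN
  have h4 := finrank_H0_dl B.op
  have h5 : ∑ v, finrank (ZMod p) (H2 ((fr p hp2 S hpS).𝓥 v) ((fr p hp2 S hpS).lr v ρN)) =
      ∑ v, finrank (ZMod p) ↥(H0 ((fr p hp2 S hpS).lr v ρM)) :=
    Finset.sum_congr rfl fun v _ =>
      (finrank_H2_le (hL v) (lr_sm _ hN) (lr_sm _ hM) (lp v B.op)).2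
  have h6 := euler_fr hp2 hpS (xAll hp2 hpS) r hr ht
  have h7 : ∑ v ∈ Q, finrank (ZMod p) (H1 ((fr p hp2 S hpS).𝓥 v) ((fr p hp2 S hpS).lr v ρM)) ≤
      ∑ v ∈ Q, (finrank (ZMod p) ↥(H0 ((fr p hp2 S hpS).lr v ρM)) +
        finrank (ZMod p) ↥(H0 ((fr p hp2 S hpS).lr v ρN))) := by
    refine Finset.sum_le_sum fun v hv => ?_
    have h8 := h1_unram (ρ := (fr p hp2 S hpS).lr v ρM) (hQp v hv) (lr_sm (fr p hp2 S hpS) (v := v) hM)
      (fun g hg m => hQM v hv g hg m)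
    refine h8.trans (Nat.add_le_add_left (le_of_eq ?_) _)
    have h9 : ∀ (g : Gl v.1) (w : N), dpEquiv B ((fr p hp2 S hpS).lr v ρN g w) =
        dualR ((cycloChar p).comp (rl v.1)) ((fr p hp2 S hpS).lr v ρM) g (dpEquiv B w) := by
      intro g w
      refine LinearMap.ext fun m => ?_
      have h10 := LinearMap.congr_fun (dpEquiv_comm B (rl v.1 g) w) m
      rw [dualR_apply, ← map_inv] at h10
      exact h10
    exact (LinearEquiv.ofBijective _ (EU.mapH0_bij (dpEquiv B) h9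
      (LF (v.1 : ℕ)))).finrank_eq.symm
  have h8 : ∑ v ∈ Q, finrank (ZMod p) ↥(H0 ((fr p hp2 S hpS).lr v ρM)) +
      ∑ v ∈ Qc, finrank (ZMod p) ↥(H0 ((fr p hp2 S hpS).lr v ρM)) ≤
      ∑ v, finrank (ZMod p) ↥(H0 ((fr p hp2 S hpS).lr v ρM)) := by
    rw [← Finset.sum_union hQc]
    exact Finset.sum_le_sum_of_subset (Finset.subset_univ _)
  rw [Finset.sum_add_distrib] at h7
  change ((finrank (ZMod p) (EU.mns complexConjugation ρN) : ℕ) : ℤ) ≤
    EU.e3 (fr p hp2 S hpS).𝓤 ρN at h6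
  unfold EU.e3 at h6
  refine ⟨f1, ?_⟩
  omega

end

end Fermat.Agent.PT
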