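import Fermat.Agent.PT.St1

/-!
# Every functional on the second cohomology of the cone of an induced module is represented
-/

set_option autoImplicit false
set_option linter.unusedSectionVars false
set_option linter.style.haveILetI false

namespace Fermat.Agent.PT

open Fermat.Agent.Coh Module

namespace Frame

attribute [local instance] fq

section count

variable {k : Type} [Field k] {Γ : Type} [Group Γ] (D : Frame k Γ)
variable {V W : Type} [AddCommGroup V] [Module k V] [AddCommGroup W] [Module k W]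
variable (σ : Representation k Γ V)

/-- `H²` of the cone -/
abbrev Hc2 : Type _ := ↥(D.Zc2 σ) ⧸ (D.Bc2 σ).comap (D.Zc2 σ).subtype

/-- forgetting the local part, on cocycles -/
def aZ : ↥(D.Zc2 σ) →ₗ[k] ↥(Z2 D.𝓤 σ) :=
  ((LinearMap.fst k _ _) ∘ₗ (D.Zc2 σ).subtype).codRestrict (Z2 D.𝓤 σ) fun z => z.2.1

@[simp] theorem coe_aZ (z : ↥(D.Zc2 σ)) : (D.aZ σ z : Γ × Γ → V) = (z : D.CC V).1 := rfl

/-- forgetting the local part -/
def aH : D.Hc2 σ →ₗ[k] H2 D.𝓤 σ :=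
  Submodule.mapQ _ _ (D.aZ σ) (by
    rintro ⟨z, hz⟩ ⟨η, m, h1, h2, h3⟩
    exact ⟨η, h1, h2.symm⟩)

/-- local cocycles give classes in the cone -/
def bZ : (∀ v, ↥(Z1 (D.𝓥 v) (D.lr v σ))) →ₗ[k] ↥(D.Zc2 σ) where
  toFun n := ⟨((0 : Γ × Γ → V), fun v => (n v : D.G v → V)), zero_mem _, fun v => (n v).2.1,
    fun v => by
      funext p
      exact (d1_eq_zero_iff.mpr (n v).2.2 p.1 p.2).symm⟩
  map_add' n n' := Subtype.ext (Prod.ext (add_zero (0 : Γ × Γ → V)).symm rfl)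
  map_smul' c n := Subtype.ext (Prod.ext (smul_zero c).symm rfl)

variable {D σ}

theorem mem_sha1_iff {c : H1 D.𝓤 σ} : c ∈ D.sha1 σ ↔ ∀ v, (D.loc v σ).mapH1 c = 0 := by
  rw [sha1, Submodule.mem_iInf]
  exact Iff.rfl

theorem mem_sha2_iff {c : H2 D.𝓤 σ} : c ∈ D.sha2 σ ↔ ∀ v, (D.loc v σ).mapH2 c = 0 := by
  rw [sha2, Submodule.mem_iInf]
  exact Iff.rfl

variable (D σ)

theorem finrank_Hc2 [FiniteDimensional k (H1 D.𝓤 σ)] [FiniteDimensional k ↥(D.sha2 σ)]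
    [∀ v, FiniteDimensional k (H1 (D.𝓥 v) (D.lr v σ))] :
    FiniteDimensional k (D.Hc2 σ) ∧
      finrank k (D.Hc2 σ) + finrank k (H1 D.𝓤 σ) ≤ finrank k ↥(D.sha2 σ) +
        ∑ v, finrank k (H1 (D.𝓥 v) (D.lr v σ)) + finrank k ↥(D.sha1 σ) := by
  let q : ↥(D.Zc2 σ) →ₗ[k] D.Hc2 σ := Submodule.mkQ _
  let b : (∀ v, ↥(Z1 (D.𝓥 v) (D.lr v σ))) →ₗ[k] D.Hc2 σ := q ∘ₗ D.bZ σ
  have hq0 : ∀ n : (∀ v, ↥(Z1 (D.𝓥 v) (D.lr v σ))),
      (∀ v, H1.mk (D.𝓥 v) (D.lr v σ) (n v) = 0) → b n = 0 := by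
    intro n hn
    have h1 : ∀ v, ∃ m, ∀ g, (n v : D.G v → V) g = D.lr v σ g m - m := fun v =>
      H1.mk_eq_zero.mp (hn v)
    choose m hm using h1
    refine (Submodule.Quotient.mk_eq_zero _).mpr ⟨0, fun v => - m v, Fam.Sm1.const _ (0 : V),
      ?_, fun v => ?_⟩
    · rw [map_zero]; rfl
    · funext g
      change (n v : D.G v → V) g = (0 : V) - d0 (D.lr v σ) (- m v) g
      rw [hm, d0_apply, map_neg]
      abel
  have hγ : ∀ z : ↥(Z1 D.𝓤 σ), b (fun v => (D.loc v σ).mapZ1 z) = 0 := by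
    intro z
    refine (Submodule.Quotient.mk_eq_zero _).mpr ⟨z, 0, z.2.1, ?_, fun v => ?_⟩
    · funext p
      exact (d1_eq_zero_iff.mpr z.2.2 p.1 p.2).symm
    · rw [Pi.zero_apply, map_zero, sub_zero]
      rfl
  obtain ⟨f2', e2⟩ := LA.count (k := k) (Z := fun v => ↥(Z1 (D.𝓥 v) (D.lr v σ)))
    (E := fun v => H1 (D.𝓥 v) (D.lr v σ)) (X := ↥(Z1 D.𝓤 σ)) (H := H1 D.𝓤 σ) (C := D.Hc2 σ)
    (fun v => H1.mk (D.𝓥 v) (D.lr v σ)) (fun v => Submodule.mkQ_surjective _)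
    (H1.mk D.𝓤 σ) (Submodule.mkQ_surjective _) b hq0 (fun v => (D.loc v σ).mapZ1) hγ (D.sha1 σ)
    (fun z hz => mem_sha1_iff.mpr hz)
  have hker : LinearMap.ker (D.aH σ) ≤ LinearMap.range b := by
    intro c hc
    obtain ⟨⟨z, hz⟩, rfl⟩ := Submodule.mkQ_surjective _ c
    have h1 : H2.mk D.𝓤 σ (D.aZ σ ⟨z, hz⟩) = 0 := hc
    obtain ⟨η, hη, h2⟩ := H2.mk_eq_zero.mp h1
    have h2' : z.1 = d1 σ η := funext fun p => h2 p.1 p.2
    have h3 : ∀ v, z.2 v - D.r1 v η ∈ Z1 (D.𝓥 v) (D.lr v σ) := by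
      intro v
      refine ⟨(hz.2.1 v).post₂ (D.r1_sm hη) (· - ·), ?_⟩
      apply d1_eq_zero_iff.mp
      intro g h
      rw [map_sub, ← hz.2.2 v, ← r2_d1, ← h2', sub_self]
      rfl
    refine ⟨fun v => ⟨_, h3 v⟩, ?_⟩
    refine (Submodule.Quotient.eq _).mpr ⟨-η, 0, hη.post (- ·), ?_, fun v => ?_⟩
    · rw [map_neg, ← h2']
      exact zero_sub _
    · rw [Pi.zero_apply, map_zero, sub_zero]
      change z.2 v - D.r1 v η - z.2 v = - D.r1 v η
      abel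
  have hra : LinearMap.range (D.aH σ) ≤ D.sha2 σ := by
    rintro _ ⟨c, rfl⟩
    obtain ⟨⟨z, hz⟩, rfl⟩ := Submodule.mkQ_surjective _ c
    exact mk_mem_sha2.mpr fun v => ⟨z.2 v, hz.2.1 v, (hz.2.2 v).symm⟩
  haveI f1 : FiniteDimensional k ↥(LinearMap.range (D.aH σ)) :=
    Submodule.finiteDimensional_of_le hra
  haveI f2 : FiniteDimensional k ↥(LinearMap.ker (D.aH σ)) :=
    Submodule.finiteDimensional_of_le hker
  haveI f3 : FiniteDimensional k (D.Hc2 σ) := by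
    haveI : Module.Finite k (D.Hc2 σ ⧸ LinearMap.ker (D.aH σ)) :=
      Module.Finite.equiv (D.aH σ).quotKerEquivRange.symm
    exact Module.Finite.of_submodule_quotient (LinearMap.ker (D.aH σ))
  refine ⟨f3, ?_⟩
  have e1 := LinearMap.finrank_range_add_finrank_ker (D.aH σ)
  have i1 := Submodule.finrank_mono hra
  have i2 := Submodule.finrank_mono hker
  omega

section congr

variable {D} {ρ : Representation k Γ V} {τ : Representation k Γ W} (e : V ≃ₗ[k] W)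
  (he : ∀ g v, e (ρ g v) = τ g (e v))

include he in
theorem symm_comm (g : Γ) (w : W) : e.symm (τ g w) = ρ g (e.symm w) := by
  apply e.injective
  rw [e.apply_symm_apply, he, e.apply_symm_apply]

/-- equivalence on `H¹` -/
noncomputable def eH1 : H1 D.𝓤 ρ ≃ₗ[k] H1 D.𝓤 τ :=
  LinearEquiv.ofLinearMap (Mor.coeff (𝓤 := D.𝓤) e.toLinearMap he).mapH1
    (Mor.coeff (𝓤 := D.𝓤) e.symm.toLinearMap (symm_comm e he)).mapH1
    (LinearMap.ext fun c => by
      obtain ⟨z, rfl⟩ := H1.mk_surjective c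
      exact congrArg (H1.mk D.𝓤 τ) (Subtype.ext (funext fun g => e.apply_symm_apply _)))
    (LinearMap.ext fun c => by
      obtain ⟨z, rfl⟩ := H1.mk_surjective c
      exact congrArg (H1.mk D.𝓤 ρ) (Subtype.ext (funext fun g => e.symm_apply_apply _)))

/-- equivalence on `H²` -/
noncomputable def eH2 : H2 D.𝓤 ρ ≃ₗ[k] H2 D.𝓤 τ :=
  LinearEquiv.ofLinearMap (Mor.coeff (𝓤 := D.𝓤) e.toLinearMap he).mapH2
    (Mor.coeff (𝓤 := D.𝓤) e.symm.toLinearMap (symm_comm e he)).mapH2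
    (LinearMap.ext fun c => by
      obtain ⟨z, rfl⟩ := H2.mk_surjective c
      exact congrArg (H2.mk D.𝓤 τ) (Subtype.ext (funext fun g => e.apply_symm_apply _)))
    (LinearMap.ext fun c => by
      obtain ⟨z, rfl⟩ := H2.mk_surjective c
      exact congrArg (H2.mk D.𝓤 ρ) (Subtype.ext (funext fun g => e.symm_apply_apply _)))

theorem eH1_mk (z : ↥(Z1 D.𝓤 ρ)) : eH1 (D := D) e he (H1.mk D.𝓤 ρ z) =
    H1.mk D.𝓤 τ ((Mor.coeff (𝓤 := D.𝓤) e.toLinearMap he).mapZ1 z) := rfl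

theorem eH2_mk (z : ↥(Z2 D.𝓤 ρ)) : eH2 (D := D) e he (H2.mk D.𝓤 ρ z) =
    H2.mk D.𝓤 τ ((Mor.coeff (𝓤 := D.𝓤) e.toLinearMap he).mapZ2 z) := rfl

theorem sha1_le : (D.sha1 ρ).map (eH1 (D := D) e he).toLinearMap ≤ D.sha1 τ := by
  rintro _ ⟨c, hc, rfl⟩
  obtain ⟨z, rfl⟩ := H1.mk_surjective c
  apply mk_mem_sha1.mpr
  intro v
  obtain ⟨m, hm⟩ := mk_mem_sha1.mp hc v
  refine ⟨e m, funext fun g => ?_⟩
  have h1 := congrFun hm g
  rw [d0_apply] at h1 ⊢
  change τ (D.r v g) (e m) - e m = e ((z : Γ → V) (D.r v g))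
  rw [← he, ← map_sub]
  congr 1

theorem sha2_le : (D.sha2 ρ).map (eH2 (D := D) e he).toLinearMap ≤ D.sha2 τ := by
  rintro _ ⟨c, hc, rfl⟩
  obtain ⟨z, rfl⟩ := H2.mk_surjective c
  apply mk_mem_sha2.mpr
  intro v
  obtain ⟨c, hc, hm⟩ := mk_mem_sha2.mp hc v
  refine ⟨fun g => e (c g), Fam.Sm1.post hc e, funext fun p => ?_⟩
  have h1 := congrFun hm p
  have h2 := map_d1 (ρ' := D.lr v ρ) (σ' := D.lr v τ) e.toLinearMap (fun g => he _) c p
  exact h2.symm.trans (congrArg e h1)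

include he in
theorem finrank_sha1_mono [FiniteDimensional k ↥(D.sha1 τ)] :
    finrank k ↥(D.sha1 ρ) ≤ finrank k ↥(D.sha1 τ) := by
  rw [← LinearEquiv.finrank_map_eq (eH1 (D := D) e he) (D.sha1 ρ)]
  exact Submodule.finrank_mono (sha1_le e he)

include he in
theorem finrank_sha2_mono [FiniteDimensional k ↥(D.sha2 τ)] :
    finrank k ↥(D.sha2 ρ) ≤ finrank k ↥(D.sha2 τ) := by
  rw [← LinearEquiv.finrank_map_eq (eH2 (D := D) e he) (D.sha2 ρ)]
  exact Submodule.finrank_mono (sha2_le e he)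

include he in
theorem finite_sha2 [FiniteDimensional k ↥(D.sha2 τ)] : FiniteDimensional k ↥(D.sha2 ρ) := by
  have h1 : FiniteDimensional k ↥((D.sha2 ρ).map (eH2 (D := D) e he).toLinearMap) :=
    Submodule.finiteDimensional_of_le (sha2_le e he)
  exact Module.Finite.equiv (Submodule.equivMapOfInjective _
    (eH2 (D := D) e he).injective (D.sha2 ρ)).symm

include he in
theorem finrank_H1_congr : finrank k (H1 D.𝓤 ρ) = finrank k (H1 D.𝓤 τ) :=
  (eH1 (D := D) e he).finrank_eq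

end congr

section self

variable {D} {U : Subgroup Γ} [U.FiniteIndex]

variable (D U) in
/-- the map from the induced module to its dual -/
noncomputable def sdL : (Γ ⧸ U → k) →ₗ[k] Dual k (Γ ⧸ U → k) where
  toFun ψ := ∑ c, ((((D.χ (sec U c))⁻¹ : kˣ) : k) * ψ c) • LinearMap.proj c
  map_add' ψ ψ' := by
    rw [← Finset.sum_add_distrib]
    refine Finset.sum_congr rfl fun c _ => ?_
    rw [Pi.add_apply, mul_add, add_smul]
  map_smul' a ψ := by
    rw [RingHom.id_apply, Finset.smul_sum]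
    refine Finset.sum_congr rfl fun c _ => ?_
    rw [Pi.smul_apply, smul_eq_mul, smul_smul]
    congr 1
    ring

theorem sdL_apply (ψ φ : Γ ⧸ U → k) : D.sdL U ψ φ =
    ∑ c, (((D.χ (sec U c))⁻¹ : kˣ) : k) * ψ c * φ c := by
  simp [sdL]

theorem sdL_injective : Function.Injective (D.sdL U) := by
  classical
  rw [← LinearMap.ker_eq_bot, LinearMap.ker_eq_bot']
  intro ψ hψ
  funext c
  have h1 := LinearMap.congr_fun hψ (Pi.single c 1)
  rw [sdL_apply, LinearMap.zero_apply, Finset.sum_eq_single c] at h1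
  · rw [Pi.single_eq_same, mul_one] at h1
    exact (mul_eq_zero.mp h1).resolve_left (Units.ne_zero _)
  · intro c' _ hc'
    rw [Pi.single_eq_of_ne hc', mul_zero]
  · intro hc
    exact absurd (Finset.mem_univ _) hc

variable (D U) in
/-- the induced module is self dual -/
noncomputable def sd : (Γ ⧸ U → k) ≃ₗ[k] Dual k (Γ ⧸ U → k) :=
  LinearEquiv.ofInjectiveOfFinrankEq (D.sdL U) sdL_injective (by
    rw [Subspace.dual_finrank_eq])

@[simp] theorem sd_apply (ψ φ : Γ ⧸ U → k) : D.sd U ψ φ =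
    ∑ c, (((D.χ (sec U c))⁻¹ : kˣ) : k) * ψ c * φ c := sdL_apply ψ φ

theorem chi_sec (h : ∀ u ∈ U, D.χ u = 1) (g : Γ) (c : Γ ⧸ U) :
    D.χ (sec U (g • c)) = D.χ g * D.χ (sec U c) := by
  rw [← map_mul]
  have h1 : (sec U (g • c))⁻¹ * (g * sec U c) ∈ U := QuotientGroup.eq.mp (sec_smul g c)
  have h2 : g * sec U c = sec U (g • c) * ((sec U (g • c))⁻¹ * (g * sec U c)) := by group
  rw [h2, map_mul, h _ h1, mul_one]

theorem sd_comm (h : ∀ u ∈ U, D.χ u = 1) (g : Γ) (ψ : Γ ⧸ U → k) :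
    D.sd U (indRep U D.μ g ψ) = D.dl (indRep U D.μ) g (D.sd U ψ) := by
  refine LinearMap.ext fun φ => ?_
  rw [sd_apply, dualR_apply, sd_apply, Finset.mul_sum]
  refine Fintype.sum_equiv (MulAction.toPerm g⁻¹) _ _ fun c => ?_
  rw [MulAction.toPerm_apply, indRep_apply, indRep_apply, chRep_apply, chRep_apply, inv_inv,
    smul_inv_smul, chi_sec h, map_inv, mul_inv, inv_inv, Units.val_mul]
  have h2 : (D.χ g : k) * ((D.χ g)⁻¹ : kˣ) = 1 := Units.mul_inv _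
  linear_combination (-1 : k) * (((D.χ (sec U c))⁻¹ : kˣ) : k) * ψ (g⁻¹ • c) * φ c *
    ((D.χ g : k)) * h2

end self

end count

end Frame

end Fermat.Agent.PT
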