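import Fermat.Agent.PT.Q1

/-!
# Every functional on the second cohomology of the cone of an induced module is represented
-/

set_option autoImplicit false
set_option linter.unusedSectionVars false
set_option linter.style.haveILetI false

namespace Fermat.Agent.PT

open Fermat.Agent.Coh Module

namespace Frame

attribute [local instance] fq

variable {k : Type} [Field k] {Γ : Type} [Group Γ] {D : Frame k Γ}
variable {V W : Type} [AddCommGroup V] [Module k V] [AddCommGroup W] [Module k W]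

theorem finite_H1_ind {U : Subgroup Γ} [U.FiniteIndex] {ρ : Representation k Γ V}
    [FiniteDimensional k V] (h : D.Triv U ρ)
    [FiniteDimensional k (H1 D.𝓤 (indRep U D.μ))] :
    FiniteDimensional k (H1 D.𝓤 (indRep U ρ)) := by
  classical
  let b := Module.finBasis k V
  let I : ∀ j, Mor D.𝓤 D.𝓤 (indRep U D.μ) (indRep U ρ) := fun j =>
    Mor.coeff (D.Im U ρ (b j)) (Im_act h (b j))
  let J : ∀ j, Mor D.𝓤 D.𝓤 (indRep U ρ) (indRep U D.μ) := fun j =>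
    Mor.coeff (D.Jm U ρ (b.coord j)) (Jm_act h (b.coord j))
  have h1 : ∀ x : H1 D.𝓤 (indRep U ρ), x = ∑ j, (I j).mapH1 ((J j).mapH1 x) := by
    intro x
    obtain ⟨z, rfl⟩ := H1.mk_surjective x
    have h2 : z = ∑ j, (I j).mapZ1 ((J j).mapZ1 z) := by
      apply Subtype.ext
      funext g
      rw [Submodule.coe_sum, Finset.sum_apply]
      exact (sum_Im_Jm b _).symm
    conv_lhs => rw [h2, map_sum]
    rfl
  have h3 : (⊤ : Submodule k (H1 D.𝓤 (indRep U ρ))) ≤ ⨆ j, LinearMap.range (I j).mapH1 := by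
    intro x _
    rw [h1 x]
    exact sum_mem fun j _ => Submodule.mem_iSup_of_mem j ⟨_, rfl⟩
  haveI : FiniteDimensional k ↥(⨆ j, LinearMap.range (I j).mapH1) :=
    Submodule.finiteDimensional_iSup _
  haveI h4 : FiniteDimensional k ↥(⊤ : Submodule k (H1 D.𝓤 (indRep U ρ))) :=
    Submodule.finiteDimensional_of_le h3
  exact Module.Finite.equiv (Submodule.topEquiv (R := k) (M := H1 D.𝓤 (indRep U ρ)))

theorem finite_H1 (hG : D.Good) {ρ : Representation k Γ V} [FiniteDimensional k V]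
    (hρ : SmRep D.𝓤 ρ) : FiniteDimensional k (H1 D.𝓤 ρ) := by
  obtain ⟨U, hU, h1⟩ := exists_triv hρ
  have hT : D.Triv U ρ := h1 U le_rfl
  haveI := D.𝓤.finiteIndex U hU
  have hUo : D.𝓤.IsOpen U := D.𝓤.isOpen_of_mem hU
  haveI := (hG.ef U hU hT.1).1
  haveI := finite_H1_ind hT
  have hle : LinearMap.ker ((indSES U ρ).iMor D.𝓤).mapH1 ≤
      LinearMap.range ((indSES U ρ).delta0 (ind_sm hUo hρ)) := by
    intro x hx
    exact ((indSES U ρ).exact_delta0_H1 (ind_sm hUo hρ) x).mp hx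
  haveI : FiniteDimensional k ((Γ ⧸ U → V) ⧸ LinearMap.range (constLin (k := k) (V := V) U)) :=
    inferInstance
  haveI : FiniteDimensional k ↥(LinearMap.ker ((indSES U ρ).iMor D.𝓤).mapH1) :=
    Submodule.finiteDimensional_of_le hle
  haveI : Module.Finite k (H1 D.𝓤 ρ ⧸ LinearMap.ker ((indSES U ρ).iMor D.𝓤).mapH1) :=
    Module.Finite.equiv ((indSES U ρ).iMor D.𝓤).mapH1.quotKerEquivRange.symm
  exact Module.Finite.of_submodule_quotient (LinearMap.ker ((indSES U ρ).iMor D.𝓤).mapH1)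

theorem dl_sm {ρ : Representation k Γ V} [FiniteDimensional k V]
    (hρ : SmRep D.𝓤 ρ) : SmRep D.𝓤 (D.dl ρ) := by
  obtain ⟨U, hU, h1⟩ := exists_triv hρ
  haveI := D.𝓤.finiteIndex U hU
  exact fun f => ⟨U, hU, fun u hu => (h1 U le_rfl).dl hu f⟩

variable (D) in
/-- the trace, as a map to the cone -/
noncomputable def trY (U : Subgroup Γ) [U.FiniteIndex] (ρ : Representation k Γ V) :
    ↥(D.Y U ρ) →ₗ[k] ↥(D.Zc2 ρ) :=
  ((D.mapC (tr (k := k) U)) ∘ₗ (D.Y U ρ).subtype).codRestrict (D.Zc2 ρ) fun y => tr_mem_Zc2 y.2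

@[simp] theorem coe_trY (U : Subgroup Γ) [U.FiniteIndex] (ρ : Representation k Γ V)
    (y : ↥(D.Y U ρ)) : (D.trY U ρ y : D.CC V) = D.mapC (tr (k := k) U) y.1 := rfl

variable (D) in
/-- every functional on the second cohomology of the cone is represented -/
def Rep1 (σ : Representation k Γ V) : Prop :=
  ∀ lam : ↥(D.Zc2 σ) →ₗ[k] k, (∀ z : ↥(D.Zc2 σ), (z : D.CC V) ∈ D.Bc2 σ → lam z = 0) →
    ∃ U₀ ∈ D.𝓤, ∀ (U₂ : Subgroup Γ) [U₂.FiniteIndex], U₂ ∈ D.𝓤 → U₂ ≤ U₀ →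
      ∃ x ∈ D.X U₂ σ, ∀ y : ↥(D.Y U₂ σ), D.pv σ x y.1 = lam (D.trY U₂ σ y)

theorem rep1_ind_mu (hG : D.Good) {U : Subgroup Γ} (hU : U ∈ D.𝓤) (hχ : ∀ u ∈ U, D.χ u = 1) :
    D.Rep1 (indRep U D.μ) := by
  haveI := D.𝓤.finiteIndex U hU
  have hUo : D.𝓤.IsOpen U := D.𝓤.isOpen_of_mem hU
  obtain ⟨hf1, hf2, hf3, hc⟩ := hG.ef U hU hχ
  haveI := hf1
  haveI := hf2
  haveI := hf3
  have he := sd_comm (D := D) (U := U) hχ
  generalize hσ : indRep U D.μ = σ at *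
  intro lam hlam
  have hσs : SmRep D.𝓤 σ := hσ ▸ ind_sm hUo D.mu_sm
  haveI : FiniteDimensional k (H1 D.𝓤 (D.dl σ)) :=
    Module.Finite.equiv (eH1 (D := D) (D.sd U) he)
  have i1 := finrank_sha1_le hG hσs
  have i2 := finrank_sha1_mono (D := D) (D.sd U) he
  have i3 := finrank_H1_congr (D := D) (D.sd U) he
  obtain ⟨i4, i5⟩ := D.finrank_Hc2 σ
  haveI := i4
  have i6 : finrank k (D.Hc2 σ) ≤ finrank k (H1 D.𝓤 (D.dl σ)) := by
    omega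
  obtain ⟨U₁, hU₁, h1⟩ := exists_triv hσs
  obtain ⟨U₂, hU₂, h2⟩ := exists_mem_X (D := D) (ρ := σ)
  refine ⟨U₁ ⊓ U₂, D.𝓤.inf_mem _ hU₁ _ hU₂, fun U₃ _ hU₃ hle => ?_⟩
  haveI := D.𝓤.normal U₃ hU₃
  have hU₃o : D.𝓤.IsOpen U₃ := D.𝓤.isOpen_of_mem hU₃
  have hT : D.Triv U₃ σ := h1 U₃ (hle.trans inf_le_left)
  let q : ↥(D.Zc2 σ) →ₗ[k] D.Hc2 σ := Submodule.mkQ _
  let πX : ↥(D.X U₃ σ) →ₗ[k] H1 D.𝓤 (D.dl σ) :=
    (H1.mk D.𝓤 (D.dl σ)) ∘ₗ Submodule.inclusion (fun x hx => hx.1 : D.X U₃ σ ≤ Z1 D.𝓤 (D.dl σ))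
  have hπX : LinearMap.range πX = ⊤ := by
    rw [LinearMap.range_eq_top]
    intro c
    obtain ⟨x, hx, hc⟩ := h2 U₃ (hle.trans inf_le_right) c
    exact ⟨⟨x, hx⟩, hc⟩
  obtain ⟨x, hx⟩ := LA.exists_eq (X := ↥(D.X U₃ σ)) (Y := ↥(D.Y U₃ σ)) (A := H1 D.𝓤 (D.dl σ))
    (C := D.Hc2 σ) (P := D.P σ hU₃o hσs) (πX := πX) (πY := q ∘ₗ D.trY U₃ σ)
    (fun y hy x => by
      have h3 : D.mapC (tr (k := k) U₃) y.1 ∈ D.Bc2 σ :=
        (Submodule.Quotient.mk_eq_zero ((D.Bc2 σ).comap (D.Zc2 σ).subtype)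
          (x := D.trY U₃ σ y)).mp hy
      exact pv_eq_zero hG.recip hU₃o hσs x.2 y.2 h3)
    (fun x hx => by
      obtain ⟨β, hβ⟩ := exists_coboundary (hG.q0 U₃ hU₃ hT.1) hG.ln hU₃o hσs hT x.2
        fun y hy => hx ⟨y, hy⟩
      exact H1.mk_eq_zero.mpr ⟨β, hβ⟩)
    (by
      rw [hπX, finrank_top]
      exact (Submodule.finrank_le _).trans i6)
    (lam ∘ₗ D.trY U₃ σ) (fun y hy => by
      have h3 : D.mapC (tr (k := k) U₃) y.1 ∈ D.Bc2 σ :=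
        (Submodule.Quotient.mk_eq_zero ((D.Bc2 σ).comap (D.Zc2 σ).subtype)
          (x := D.trY U₃ σ y)).mp hy
      exact hlam (D.trY U₃ σ y) h3)
  exact ⟨x, x.2, hx⟩

/-- the map on cone cocycles -/
def mapCZ {ρ : Representation k Γ V} {σ : Representation k Γ W} (C : V →ₗ[k] W)
    (hC : ∀ g φ, C (ρ g φ) = σ g (C φ)) : ↥(D.Zc2 ρ) →ₗ[k] ↥(D.Zc2 σ) :=
  ((D.mapC C) ∘ₗ (D.Zc2 ρ).subtype).codRestrict (D.Zc2 σ) fun y => mapC_mem_Zc2 C hC y.2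

@[simp] theorem coe_mapCZ {ρ : Representation k Γ V} {σ : Representation k Γ W} (C : V →ₗ[k] W)
    (hC : ∀ g φ, C (ρ g φ) = σ g (C φ)) (z : ↥(D.Zc2 ρ)) :
    (mapCZ C hC z : D.CC W) = D.mapC C z.1 := rfl

theorem pv_sum {U : Subgroup Γ} [U.FiniteIndex] {ρ : Representation k Γ V} (hU : D.𝓤.IsOpen U)
    (hρ : SmRep D.𝓤 ρ) {ι : Type*} (s : Finset ι) (x : ι → (Γ → Dual k V))
    (hx : ∀ i, x i ∈ D.X U ρ) {y : D.CC (Γ ⧸ U → V)} (hy : y ∈ D.Y U ρ) :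
    D.pv ρ (∑ i ∈ s, x i) y = ∑ i ∈ s, D.pv ρ (x i) y := by
  have h1 := congrArg (fun f => f ⟨y, hy⟩) (map_sum (D.P ρ hU hρ) (fun i => ⟨x i, hx i⟩) s)
  simp only [LinearMap.sum_apply, P_apply, Submodule.coe_sum] at h1
  exact h1

theorem pv_sub {U : Subgroup Γ} [U.FiniteIndex] {ρ : Representation k Γ V} (hU : D.𝓤.IsOpen U)
    (hρ : SmRep D.𝓤 ρ) {x x' : Γ → Dual k V}
    (hx : x ∈ D.X U ρ) (hx' : x' ∈ D.X U ρ) {y : D.CC (Γ ⧸ U → V)} (hy : y ∈ D.Y U ρ) :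
    D.pv ρ (x - x') y = D.pv ρ x y - D.pv ρ x' y := by
  have h0 : (⟨x - x', sub_mem hx hx'⟩ : ↥(D.X U ρ)) + ⟨x', hx'⟩ = ⟨x, hx⟩ :=
    Subtype.ext (sub_add_cancel _ _)
  have h1 : D.P ρ hU hρ ⟨x - x', sub_mem hx hx'⟩ ⟨y, hy⟩ + D.P ρ hU hρ ⟨x', hx'⟩ ⟨y, hy⟩ =
      D.P ρ hU hρ ⟨x, hx⟩ ⟨y, hy⟩ := by
    rw [← LinearMap.add_apply, ← map_add, h0]
  exact eq_sub_of_add_eq h1

theorem rep1_ind (hG : D.Good) {U : Subgroup Γ} [U.FiniteIndex] (hU : U ∈ D.𝓤)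
    {ρ : Representation k Γ V} [FiniteDimensional k V] (hρ : SmRep D.𝓤 ρ)
    (h : D.Triv U ρ) : D.Rep1 (indRep U ρ) := by
  classical
  intro lam hlam
  have hUo : D.𝓤.IsOpen U := D.𝓤.isOpen_of_mem hU
  have hR := rep1_ind_mu hG hU h.1
  let b := Module.finBasis k V
  let I : ∀ j, ↥(D.Zc2 (indRep U D.μ)) →ₗ[k] ↥(D.Zc2 (indRep U ρ)) := fun j =>
    mapCZ (D.Im U ρ (b j)) (Im_act h (b j))
  choose F hF hF' using fun j => hR (lam ∘ₗ I j) fun z hz =>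
    hlam _ (mapC_mem_Bc2 _ (Im_act h (b j)) hz)
  obtain ⟨U₀, hU₀, hle⟩ := D.𝓤.exists_le_forall Finset.univ F fun i _ => hF i
  refine ⟨U₀, hU₀, fun U₂ _ hU₂ hU₂0 => ?_⟩
  have hU₂o : D.𝓤.IsOpen U₂ := D.𝓤.isOpen_of_mem hU₂
  choose x hx hx' using fun j => hF' j U₂ hU₂ (hU₂0.trans (hle j (Finset.mem_univ _)))
  have hxm : ∀ j, pb (D.Jm U ρ (b.coord j)) (x j) ∈ D.X U₂ (indRep U ρ) := fun j =>
    pb_mem _ (Jm_act h _) (hx j)
  refine ⟨∑ j, pb (D.Jm U ρ (b.coord j)) (x j), sum_mem fun j _ => hxm j, fun y => ?_⟩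
  rw [pv_sum hU₂o (ind_sm hUo hρ) _ _ hxm y.2]
  have h1 : ∀ j, D.pv (indRep U ρ) (pb (D.Jm U ρ (b.coord j)) (x j)) y.1 =
      lam (mapCZ (D.Im U ρ (b j)) (Im_act h (b j))
        (mapCZ (D.Jm U ρ (b.coord j)) (Jm_act h (b.coord j)) (D.trY U₂ _ y))) := by
    intro j
    rw [← pv_indMap (σ := indRep U D.μ) (D.Jm U ρ (b.coord j)) (Jm_act h _)]
    have h2 := hx' j ⟨D.mapC (indMap U₂ (D.Jm U ρ (b.coord j))) y.1,
      mapC_mem_Y _ (indMap_act _ (Jm_act h _)) _ (tr_indMap _) y.2⟩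
    rw [h2, LinearMap.comp_apply]
    congr 2
    apply Subtype.ext
    exact tr_mapC (indMap U₂ (D.Jm U ρ (b.coord j))) (D.Jm U ρ (b.coord j)) (tr_indMap _) y.1
  rw [Finset.sum_congr rfl fun j _ => h1 j, ← map_sum]
  congr 1
  apply Subtype.ext
  rw [Submodule.coe_sum]
  refine Prod.ext ?_ ?_
  · rw [Prod.fst_sum]
    funext p
    rw [Finset.sum_apply]
    exact sum_Im_Jm b _
  · rw [Prod.snd_sum]
    funext v g
    rw [Finset.sum_apply, Finset.sum_apply]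
    exact sum_Im_Jm b _

end Frame

end Fermat.Agent.PT
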