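import Fermat.Agent.PT.Dict2
import Fermat.Agent.PT.EFfr
import Fermat.Agent.GCFT.Rec2

/-!
# Statement S55 from (R), (Q0)
-/

set_option autoImplicit false
set_option linter.unusedSectionVars false
set_option linter.style.haveILetI false

namespace Fermat.Agent.PT

open Fermat.Agent.Coh Fermat.Agent.GCFT Fermat.Agent.GlobalCFT Fermat.Agent.GalD
  Fermat.Agent.LocalCFT Module ExtCitation Polynomial CategoryTheory

/-- The field of algebraic numbers. -/
local notation "Qb" => AlgebraicClosure ℚ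
/-- The absolute Galois group. -/
local notation "GQ" => (AlgebraicClosure ℚ ≃ₐ[ℚ] AlgebraicClosure ℚ)

variable {p : ℕ} [hp : Fact p.Prime] (hp2 : p ≠ 2) (S : Finset Nat.Primes) (hpS : pPrime p ∈ S)

theorem smRep_of (M : Rep.{0, 0, 0} (ZMod p) GQ) [FiniteDimensional (ZMod p) M]
    (hsm : ∀ m : M, ∃ F : IntermediateField ℚ (AlgebraicClosure ℚ), FiniteDimensional ℚ F ∧
      ∀ s ∈ F.fixingSubgroup, M.ρ s m = m)
    (hMur : ∀ q : Nat.Primes, q ∉ S → ∀ A : ValuationSubring (AlgebraicClosure ℚ),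
      A.LiesOverPrime (q : ℕ) → ∀ g ∈ A.inertiaSubgroupIn ℚ, M.ρ g = 1) :
    SmRep (famS S) M.ρ := by
  have hfin : Finite M := Module.finite_of_finite (ZMod p)
  have hopen : IsOpen (M.ρ.ker : Set GQ) := by
    choose F hF1 hF2 using hsm
    have hle : (⨅ m, (F m).fixingSubgroup) ≤ M.ρ.ker := by
      intro g hg
      rw [MonoidHom.mem_ker]
      ext m
      exact hF2 m g (Subgroup.mem_iInf.mp hg m)
    refine Subgroup.isOpen_mono hle ?_
    rw [Subgroup.coe_iInf]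
    refine isOpen_iInter_of_finite fun m => ?_
    have := hF1 m
    exact IntermediateField.fixingSubgroup_isOpen _
  have hmem : M.ρ.ker ∈ famS S :=
    ⟨inferInstance, hopen, fun q hq A hA g hg => hMur q hq A hA g hg⟩
  exact fun m => ⟨_, hmem, fun u hu => by
    rw [MonoidHom.mem_ker.mp hu]
    rfl⟩

theorem dual_eq (M : Rep.{0, 0, 0} (ZMod p) GQ) :
    (M.dualTwist (cycloChar p)).ρ = (fr p hp2 S hpS).dl M.ρ := by
  ext g f m
  rfl

theorem sha_fin (hG : (fr p hp2 S hpS).Good)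
    (M : Rep.{0, 0, 0} (ZMod p) GQ) [FiniteDimensional (ZMod p) M] (hS : SmRep (famS S) M.ρ) :
    FiniteDimensional (ZMod p) ↥(shS1 hp2 S hpS (M.dualTwist (cycloChar p))) ∧
    FiniteDimensional (ZMod p) ↥(shS2 hp2 S hpS M) ∧
    finrank (ZMod p) ↥(shS1 hp2 S hpS (M.dualTwist (cycloChar p))) =
      finrank (ZMod p) ↥(shS2 hp2 S hpS M) :=
  Frame.finrank_sha_eq (D := fr p hp2 S hpS) (ρ := M.ρ) hG hS

theorem s55_of (hG : (fr p hp2 S hpS).Good)
    (M : Rep.{0, 0, 0} (ZMod p) GQ) [FiniteDimensional (ZMod p) M]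
    (hsm : ∀ m : M, ∃ F : IntermediateField ℚ (AlgebraicClosure ℚ), FiniteDimensional ℚ F ∧
      ∀ s ∈ F.fixingSubgroup, M.ρ s m = m)
    (hMur : ∀ q : Nat.Primes, q ∉ S → ∀ A : ValuationSubring (AlgebraicClosure ℚ),
      A.LiesOverPrime (q : ℕ) → ∀ g ∈ A.inertiaSubgroupIn ℚ, M.ρ g = 1) :
    ∃ B : groupCohomology.sha₁ S (M.dualTwist (cycloChar p)) →ₗ[ZMod p]
        groupCohomology.sha₂ S M →ₗ[ZMod p] ZMod p,
      (∀ y, (∀ x, B y x = 0) → y = 0) ∧ (∀ x, (∀ y, B y x = 0) → x = 0) := by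
  have hS := smRep_of S M hsm hMur
  obtain ⟨h1, h2, h3⟩ := sha_fin hp2 S hpS hG M hS
  have e1 := shaEquiv1 hp2 S hpS (M.dualTwist (cycloChar p))
  have e2 := shaEquiv2 hp2 S hpS M
  haveI := Module.Finite.equiv e1
  haveI := Module.Finite.equiv e2
  have h4 := (e1.finrank_eq.symm.trans h3).trans e2.finrank_eq
  exact LA.exists_pairing h4

end Fermat.Agent.PT
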