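import Fermat.Agent.PT.Q1b

/-!
# The second inequality
-/

set_option autoImplicit false
set_option linter.unusedSectionVars false
set_option linter.style.haveILetI false

namespace Fermat.Agent.PT

open Fermat.Agent.Coh Module

namespace Frame

attribute [local instance] fq

variable {k : Type} [Field k] {Γ : Type} [Group Γ] {D : Frame k Γ}
variable {V W : Type} [AddCommGroup V] [Module k V] [AddCommGroup W] [Module k W]
variable {U : Subgroup Γ} [U.FiniteIndex] [U.Normal] {ρ : Representation k Γ V}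

variable (k V U) in
/-- the inclusion of the trace kernel -/
noncomputable abbrev ik : ↥(trKer (k := k) (V := V) U) →ₗ[k] (Γ ⧸ U → V) := (trKer (k := k) (V := V) U).subtype

theorem ik_comm (g : Γ) (w : ↥(trKer (k := k) (V := V) U)) :
    ik k V U (trKerRep U ρ g w) = indRep U ρ g (ik k V U w) := rfl

theorem tr_ik (w : ↥(trKer (k := k) (V := V) U)) : tr (k := k) U (ik k V U w) = 0 := w.2

theorem rep_inv_apply (σ : Representation k Γ V) (g : Γ) (v : V) : σ g⁻¹ (σ g v) = v := by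
  rw [← Module.End.mul_apply, ← map_mul, inv_mul_cancel, map_one, Module.End.one_apply]

theorem rep_apply_inv (σ : Representation k Γ V) (g : Γ) (v : V) : σ g (σ g⁻¹ v) = v := by
  rw [← Module.End.mul_apply, ← map_mul, mul_inv_cancel, map_one, Module.End.one_apply]

/-- **(S1)** -/
theorem pv_eq_zero_S1 (hR : D.Rec) (hU : D.𝓤.IsOpen U) (hρ : SmRep D.𝓤 ρ)
    {x : Γ × Γ → Dual k V} (hxl : ∀ v, D.r2 v x ∈ B2 (D.𝓥 v) (D.lr v (D.dl ρ)))
    {ct : Γ → Dual k (Γ ⧸ U → V)} (hct : D.𝓤.Sm1 ct)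
    (hd : ∀ p φ, d1 (D.dl (indRep U ρ)) ct p φ = x p (tr (k := k) U φ))
    {U₁ : Subgroup Γ} [U₁.FiniteIndex] (hU₁ : D.𝓤.IsOpen U₁)
    (hc : pb (ik k V U) ct ∈ D.X U₁ (trKerRep U ρ))
    {y : D.CC (Γ ⧸ U₁ → ↥(trKer (k := k) (V := V) U))} (hy : y ∈ D.Y U₁ (trKerRep U ρ))
    {F : Γ → (Γ ⧸ U → V)} (hF : D.𝓤.Sm1 F) {M : D.ι → (Γ ⧸ U → V)}
    (h1 : ∀ p, ik k V U (tr (k := k) U₁ (y.1 p)) = d1 (indRep U ρ) F p)
    (h2 : ∀ v g, ik k V U (tr (k := k) U₁ (y.2 v g)) = F (D.r v g) -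
      (indRep U ρ (D.r v g) (M v) - M v))
    {m : V} (hm : ∀ g, tr (k := k) U (F g) = ρ g m - m) :
    D.pv (trKerRep U ρ) (pb (ik k V U) ct) y = 0 := by
  set I := indRep U ρ with hI
  set κ := trKerRep U ρ with hκ
  have hIs : SmRep D.𝓤 I := ind_sm hU hρ
  have hκs : SmRep D.𝓤 κ := (cycSES2 U ρ).smRep_left (ind_sm hU hρ)
  set c := pb (ik k V U) ct with hcdef
  set F' : Γ → (Γ ⧸ U → V) := fun g => F g - (I g (sg (k := k) U m) - sg (k := k) U m) with hF'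
  have hF's : D.𝓤.Sm1 F' := hF.post₂ (d0_mem_Z1 hIs (sg (k := k) U m)).1 (· - ·)
  set M' : D.ι → (Γ ⧸ U → V) := fun v => M v - sg (k := k) U m with hM'
  have hF't : ∀ g, tr (k := k) U (F' g) = 0 := by
    intro g
    rw [hF', map_sub, map_sub, hI, tr_act, tr_sg, hm, sub_self]
  set F'' : Γ → ↥(trKer (k := k) (V := V) U) := fun g => ⟨F' g, hF't g⟩ with hF''
  have hF''s : D.𝓤.Sm1 F'' := by
    obtain ⟨U', hU', h⟩ := hF's
    exact ⟨U', hU', fun g u hu => Subtype.ext (h g u hu)⟩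
  have hd1 : d1 I F' = d1 I F := by
    have h3 : F' = F - d0 I (sg (k := k) U m) := rfl
    rw [h3, map_sub, d1_d0, sub_zero]
  have h1' : ∀ p, tr (k := k) U₁ (y.1 p) = d1 κ F'' p := by
    intro p
    apply Subtype.ext
    have h3 := map_d1 (ik k V U) (ρ' := κ) (σ' := I) (fun g φ => ik_comm g φ) F'' p
    have h4 : d1 I (fun g => ik k V U (F'' g)) = d1 I F := hd1
    rw [h4, ← h1] at h3
    exact h3.symm
  have h2' : ∀ v g, ik k V U (tr (k := k) U₁ (y.2 v g)) = F' (D.r v g) -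
      (I (D.r v g) (M' v) - M' v) := by
    intro v g
    rw [h2, hF', hM']
    simp only [map_sub]
    abel
  set e : D.ι → V := fun v => tr (k := k) U (M' v) with he
  have hev : ∀ v (g : D.G v), ρ (D.r v g) (e v) = e v := by
    intro v g
    have h3 := congrArg (tr (k := k) U) (h2' v g)
    rw [tr_ik, map_sub, hF't, map_sub, hI, tr_act, zero_sub, eq_comm, neg_eq_zero,
      sub_eq_zero] at h3
    exact h3
  set η' : Γ → (Γ ⧸ U₁ → ↥(trKer (k := k) (V := V) U)) := fun g => sg (k := k) U₁ (F'' g) with hη'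
  have hη's : D.𝓤.Sm1 η' := hF''s.post _
  set z1 : Γ × Γ → (Γ ⧸ U₁ → ↥(trKer (k := k) (V := V) U)) := y.1 - d1 (indRep U₁ κ) η' with hz1
  set k1 : ∀ v, D.G v → (Γ ⧸ U₁ → ↥(trKer (k := k) (V := V) U)) :=
    fun v => y.2 v - D.r1 v η' with hk1
  have hz1tr : ∀ p, tr (k := k) U₁ (z1 p) = 0 := by
    intro p
    rw [hz1, Pi.sub_apply, map_sub, map_d1 _ (tr_act κ), h1']
    simp only [hη', tr_sg, sub_self]
  have hk1tr : ∀ v g, ik k V U (tr (k := k) U₁ (k1 v g)) = M' v - I (D.r v g) (M' v) := by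
    intro v g
    have h3 : tr (k := k) U₁ (k1 v g) = tr (k := k) U₁ (y.2 v g) - F'' (D.r v g) := by
      change tr (k := k) U₁ (y.2 v g - sg (k := k) U₁ (F'' (D.r v g))) = _
      rw [map_sub, tr_sg]
    rw [h3, map_sub, h2']
    change F' (D.r v g) - (I (D.r v g) (M' v) - M' v) - F' (D.r v g) = _
    abel
  have hz1m : z1 ∈ Z2 D.𝓤 (indRep U₁ κ) :=
    sub_mem hy.1 (d1_mem_Z2 (ind_sm hU₁ hκs) hη's)
  have hk1s : ∀ v, (D.𝓥 v).Sm1 (k1 v) := fun v => (hy.2.1 v).post₂ (D.r1_sm hη's) (· - ·)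
  have herr : ∀ v, D.err κ y v = D.r2 v z1 - d1 (D.lr v (indRep U₁ κ)) (k1 v) := by
    intro v
    have e1 : D.r2 v z1 = D.r2 v y.1 - D.r2 v (d1 (indRep U₁ κ) η') := rfl
    rw [err, hk1, e1, r2_d1]
    simp only [map_sub]
    abel
  have hbz : (fun p => bx U₁ c (z1 p)) ∈ Z2 D.𝓤 D.μ :=
    comp_mem_Z2g hz1m fun g p => bx_act_of_tr hc g _ (hz1tr p)
  choose β hβs hβ using hxl
  have key : ∀ v, D.iv v (fun p => bx U₁ c (D.err κ y v p)) =
      D.iv v (D.r2 v fun p => bx U₁ c (z1 p)) := by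
    intro v
    set ψ : D.G v → k := fun g => ct (D.r v g) (I (D.r v g) (M' v)) with hψ
    set θ : D.G v → k := fun g => bx U₁ c (k1 v g) - ψ g + β v g (e v) with hθ
    have hθs : (D.𝓥 v).Sm1 θ := by
      have s1 : (D.𝓥 v).Sm1 (fun g => bx U₁ c (k1 v g)) := (hk1s v).post _
      have s2 : (D.𝓥 v).Sm1 (fun g : D.G v => I (D.r v g) (M' v)) := by
        obtain ⟨U', hU', h⟩ := (D.lr_sm hIs (v := v)) (M' v)
        refine ⟨U', hU', fun g u hu => ?_⟩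
        have h3 : I (D.r v u) (M' v) = M' v := h u hu
        change I (D.r v (g * u)) (M' v) = I (D.r v g) (M' v)
        rw [map_mul, map_mul, Module.End.mul_apply, h3]
      have s3 : (D.𝓥 v).Sm1 ψ := (D.r1_sm hct (v := v)).post₂ s2 (fun f φ => f φ)
      have s4 : (D.𝓥 v).Sm1 (fun g => β v g (e v)) := Fam.Sm1.post (hβs v) (fun f => f (e v))
      exact (s1.post₂ s3 (· - ·)).post₂ s4 (· + ·)
    have e2 : (fun p => bx U₁ c (D.err κ y v p)) = D.r2 v (fun p => bx U₁ c (z1 p)) -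
        d1 (D.lr v D.μ) θ := by
      funext p
      obtain ⟨g, h⟩ := p
      rw [herr, Pi.sub_apply, map_sub, Pi.sub_apply]
      congr 1
      have a1 : bx U₁ c (indRep U₁ κ (D.r v g) (k1 v h)) = D.χ (D.r v g) * bx U₁ c (k1 v h) -
          ct (D.r v g) (I (D.r v g) (M' v - I (D.r v h) (M' v))) := by
        rw [bx_act hc, ← hk1tr]
        rfl
      have a2 := hd (D.r v g, D.r v h) (I (D.r v g) (I (D.r v h) (M' v)))
      have a3 : tr (k := k) U (I (D.r v g) (I (D.r v h) (M' v))) = e v := by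
        rw [hI, tr_act, tr_act]
        change ρ (D.r v g) (ρ (D.r v h) (e v)) = e v
        rw [hev, hev]
      rw [a3, d1_apply, LinearMap.add_apply, LinearMap.sub_apply, dualR_apply,
        rep_inv_apply] at a2
      have a4 : I (D.r v g) (I (D.r v h) (M' v)) = I (D.r v (g * h)) (M' v) := by
        rw [map_mul, map_mul, Module.End.mul_apply]
      have a5 : x (D.r v g, D.r v h) (e v) = D.χ (D.r v g) * β v h (e v) - β v (g * h) (e v) +
          β v g (e v) := by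
        have h5 : d1 (D.lr v (D.dl ρ)) (β v) (g, h) = x (D.r v g, D.r v h) :=
          congrFun (hβ v) (g, h)
        rw [← h5, d1_apply, LinearMap.add_apply, LinearMap.sub_apply]
        change D.χ (D.r v g) * β v h (ρ (D.r v g)⁻¹ (e v)) - _ + _ = _
        have h6 : ρ (D.r v g)⁻¹ (e v) = e v := by
          conv_lhs => rw [← hev v g]
          exact rep_inv_apply ρ _ _
        rw [h6]
      rw [d1_apply, d1_apply, map_add, map_sub]
      change bx U₁ c (indRep U₁ κ (D.r v g) (k1 v h)) - bx U₁ c (k1 v (g * h)) +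
        bx U₁ c (k1 v g) = D.χ (D.r v g) * θ h - θ (g * h) + θ g
      rw [a1, map_sub, map_sub]
      rw [a5] at a2
      have a6 : ct (D.r v g * D.r v h) (I (D.r v g) (I (D.r v h) (M' v))) = ψ (g * h) := by
        rw [a4, hψ]
        simp only [map_mul]
      rw [a6] at a2
      have a7 : ct (D.r v g) (I (D.r v g) (M' v)) = ψ g := rfl
      have a8 : ct (D.r v h) (I (D.r v h) (M' v)) = ψ h := rfl
      have a9 : ∀ g, θ g = bx U₁ c (k1 v g) - ψ g + β v g (e v) := fun g => rfl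
      rw [a8] at a2
      rw [a7, a9, a9, a9]
      linear_combination a2
    rw [e2, iv_sub (D.r2_mem hbz) (d1_mem_Z2' hθs), iv_d1 hθs, sub_zero]
  rw [pv, Finset.sum_congr rfl fun v _ => key v]
  exact hR _ hbz

theorem dl_comp (σ : Representation k Γ V) (g : Γ) (f : Dual k V) (v : V) :
    D.dl σ g f v = D.χ g * f (σ g⁻¹ v) := rfl

/-- **(S2)** -/
theorem exists_S2 (hG : D.Good) (hU : U ∈ D.𝓤) (hρ : SmRep D.𝓤 ρ) [FiniteDimensional k V]
    (hT : D.Triv U ρ)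
    {x : Γ × Γ → Dual k V}
    {ct : Γ → Dual k (Γ ⧸ U → V)} (hct : D.𝓤.Sm1 ct)
    (hd : ∀ p φ, d1 (D.dl (indRep U ρ)) ct p φ = x p (tr (k := k) U φ))
    {U₁ : Subgroup Γ} [U₁.FiniteIndex] (hU₁ : U₁ ∈ D.𝓤)
    (hc : pb (ik k V U) ct ∈ D.X U₁ (trKerRep U ρ))
    (h0 : ∀ y ∈ D.Y U₁ (trKerRep U ρ), D.mapC (ik k V U) (D.mapC (tr (k := k) U₁) y) ∈
      D.Bc2 (indRep U ρ) → D.pv (trKerRep U ρ) (pb (ik k V U) ct) y = 0) :
    ∃ e : Γ → Dual k V, D.𝓤.Sm1 e ∧ d1 (D.dl ρ) e = x := by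
  have hUo : D.𝓤.IsOpen U := D.𝓤.isOpen_of_mem hU
  have hU₁o : D.𝓤.IsOpen U₁ := D.𝓤.isOpen_of_mem hU₁
  have hIs : SmRep D.𝓤 (indRep U ρ) := ind_sm hUo hρ
  have hκs : SmRep D.𝓤 (trKerRep U ρ) := (cycSES2 U ρ).smRep_left hIs
  set c := pb (ik k V U) ct with hcdef
  -- the functional
  let q : ↥(D.Zc2 (indRep U ρ)) →ₗ[k] D.Hc2 (indRep U ρ) := Submodule.mkQ _
  let T : ↥(D.Y U₁ (trKerRep U ρ)) →ₗ[k] D.Hc2 (indRep U ρ) :=
    q ∘ₗ (mapCZ (ρ := trKerRep U ρ) (σ := indRep U ρ) (ik k V U) (fun g w => ik_comm g w)) ∘ₗ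
      D.trY U₁ (trKerRep U ρ)
  have hT0 : ∀ y, T y = 0 → D.P (trKerRep U ρ) hU₁o hκs ⟨c, hc⟩ y = 0 := by
    intro y hy
    refine h0 y.1 y.2 ?_
    exact (Submodule.Quotient.mk_eq_zero ((D.Bc2 (indRep U ρ)).comap
      (D.Zc2 (indRep U ρ)).subtype) (x := mapCZ (ρ := trKerRep U ρ) (σ := indRep U ρ)
        (ik k V U) (fun g w => ik_comm g w) (D.trY U₁ (trKerRep U ρ) y))).mp hy
  obtain ⟨lam, hlam⟩ := LA.exists_factor (X := ↥(D.Y U₁ (trKerRep U ρ)))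
    (A := D.Hc2 (indRep U ρ)) T (D.P (trKerRep U ρ) hU₁o hκs ⟨c, hc⟩) hT0
  obtain ⟨U₀, hU₀, hrep⟩ := rep1_ind hG hU hρ hT (lam ∘ₗ q) (fun z hz => by
    have h1 : q z = 0 := (Submodule.Quotient.mk_eq_zero ((D.Bc2 (indRep U ρ)).comap
      (D.Zc2 (indRep U ρ)).subtype)).mpr hz
    rw [LinearMap.comp_apply, h1, map_zero])
  obtain ⟨U₃, hU₃, hU₃T⟩ := exists_triv hκs
  set U₂ := U₀ ⊓ (U₁ ⊓ U₃) with hU₂def
  have hU₂ : U₂ ∈ D.𝓤 := D.𝓤.inf_mem _ hU₀ _ (D.𝓤.inf_mem _ hU₁ _ hU₃)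
  haveI := D.𝓤.finiteIndex U₂ hU₂
  haveI := D.𝓤.normal U₂ hU₂
  have hU₂o : D.𝓤.IsOpen U₂ := D.𝓤.isOpen_of_mem hU₂
  have hT₂ : D.Triv U₂ (trKerRep U ρ) := hU₃T U₂ (inf_le_right.trans inf_le_right)
  have hle : U₂ ≤ U₁ := inf_le_right.trans inf_le_left
  obtain ⟨b, hb, hb'⟩ := hrep U₂ hU₂ inf_le_left
  have hbX : pb (ik k V U) b ∈ D.X U₂ (trKerRep U ρ) :=
    pb_mem (ρ := trKerRep U ρ) (σ := indRep U ρ) (ik k V U) (fun g w => ik_comm g w) hb
  have hcX : c ∈ D.X U₂ (trKerRep U ρ) := X_mono hle hc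
  have hx0 : ∀ y ∈ D.Y U₂ (trKerRep U ρ), D.pv (trKerRep U ρ) (c - pb (ik k V U) b) y = 0 := by
    intro y hy
    rw [pv_sub hU₂o hκs hcX hbX hy, sub_eq_zero, ← pv_cl hle hc y,
      ← pv_indMap (ρ := trKerRep U ρ) (σ := indRep U ρ) (ik k V U) (fun g w => ik_comm g w) b y]
    have h2 := hlam ⟨_, cl_mem_Y hle hy⟩
    have h3 := hb' ⟨D.mapC (indMap U₂ (ik k V U)) y,
      mapC_mem_Y (ρ := trKerRep U ρ) (σ := indRep U ρ) _
        (indMap_act (ik k V U) (fun g w => ik_comm g w)) (ik k V U) (tr_indMap _) hy⟩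
    change D.pv (indRep U ρ) b (D.mapC (indMap U₂ (ik k V U)) y) = _ at h3
    rw [h3]
    change _ = D.pv (trKerRep U ρ) c (D.mapC (cl k _ hle) y) at h2
    rw [← h2, LinearMap.comp_apply]
    refine congrArg lam (congrArg q (Subtype.ext ?_))
    change D.mapC (ik k V U) (D.mapC (tr (k := k) U₁) (D.mapC (cl k _ hle) y)) =
      D.mapC (tr (k := k) U₂) (D.mapC (indMap U₂ (ik k V U)) y)
    rw [tr_cl_mapC, tr_mapC _ (ik k V U) (tr_indMap _)]
  obtain ⟨β, hβ⟩ := exists_coboundary (hG.q0 U₂ hU₂ hT₂.1) hG.ln hU₂o hκs hT₂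
    (sub_mem hcX hbX) hx0
  obtain ⟨βt, hβt⟩ := LinearMap.exists_extend β
  set E : Γ → Dual k (Γ ⧸ U → V) := fun g =>
    ct g - b g - (D.dl (indRep U ρ) g βt - βt) with hE
  have hE0 : ∀ g φ, tr (k := k) U φ = 0 → E g φ = 0 := by
    intro g φ hφ
    have h1 := LinearMap.congr_fun (hβ g) ⟨φ, hφ⟩
    have h2 : (c - pb (ik k V U) b) g ⟨φ, hφ⟩ = ct g φ - b g φ := rfl
    have h3 : (D.dl (trKerRep U ρ) g β - β) ⟨φ, hφ⟩ =
        D.dl (indRep U ρ) g βt φ - βt φ := by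
      rw [LinearMap.sub_apply, dl_comp, dl_comp]
      congr 1
      · congr 1
        exact (LinearMap.congr_fun hβt _).symm
      · exact (LinearMap.congr_fun hβt _).symm
    rw [h2, h3] at h1
    rw [hE]
    simp only [LinearMap.sub_apply]
    rw [h1, sub_self]
  have hEt : ∀ g φ, E g φ = E g (sg (k := k) U (tr (k := k) U φ)) := by
    intro g φ
    rw [← sub_eq_zero, ← map_sub]
    apply hE0
    rw [map_sub, tr_sg, sub_self]
  have hEs : D.𝓤.Sm1 E :=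
    (hct.post₂ hb.1.1 (· - ·)).post₂ (d0_mem_Z1 (dl_sm hIs) βt).1 (· - ·)
  have hdE : ∀ p, d1 (D.dl (indRep U ρ)) E p = d1 (D.dl (indRep U ρ)) ct p := by
    intro p
    have h1 : E = ct - b - d0 (D.dl (indRep U ρ)) βt := rfl
    have h2 : d1 (D.dl (indRep U ρ)) b p = 0 := d1_eq_zero_iff.mpr hb.1.2 p.1 p.2
    rw [h1, map_sub, map_sub, d1_d0, sub_zero, Pi.sub_apply, h2, sub_zero]
  refine ⟨fun g => (E g) ∘ₗ sg (k := k) U, Fam.Sm1.post hEs (fun f => f ∘ₗ sg (k := k) U),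
    funext fun p => ?_⟩
  obtain ⟨g, h⟩ := p
  ext v
  have h1 := hd (g, h) (sg (k := k) U v)
  rw [tr_sg, ← hdE] at h1
  rw [← h1, d1_apply, d1_apply]
  simp only [LinearMap.add_apply, LinearMap.sub_apply, LinearMap.comp_apply, dl_comp]
  congr 3
  rw [hEt h (indRep U ρ g⁻¹ (sg (k := k) U v)), tr_act, tr_sg]

end Frame

end Fermat.Agent.PT
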