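import Fermat.Agent.PT.St2

/-!
# The second inequality, continued
-/

set_option autoImplicit false
set_option linter.unusedSectionVars false
set_option linter.style.haveILetI false

namespace Fermat.Agent.PT

open Fermat.Agent.Coh Module

namespace Frame

attribute [local instance] fq

variable {k : Type} [Field k] {Γ : Type} [Group Γ] {D : Frame k Γ}
variable {V W : Type} [AddCommGroup V] [Module k V] [AddCommGroup W] [Module k W]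
variable {U : Subgroup Γ} [U.FiniteIndex] {ρ : Representation k Γ V}

variable (k V U) in
/-- functions with values in the dual are functionals on functions -/
noncomputable def bFL : (Γ ⧸ U → Dual k V) →ₗ[k] Dual k (Γ ⧸ U → V) where
  toFun F := bF U F
  map_add' F F' := by
    ext φ
    simp only [LinearMap.add_apply, bF_apply, Pi.add_apply, Finset.sum_add_distrib]
  map_smul' c F := by
    ext φ
    simp only [LinearMap.smul_apply, bF_apply, Pi.smul_apply, Finset.smul_sum, RingHom.id_apply]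

theorem bFL_apply (F : Γ ⧸ U → Dual k V) (φ : Γ ⧸ U → V) : bFL k V U F φ = ∑ c, F c (φ c) :=
  bF_apply F φ

theorem bFL_comm (g : Γ) (F : Γ ⧸ U → Dual k V) :
    bFL k V U (indRep U (D.dl ρ) g F) = D.dl (indRep U ρ) g (bFL k V U F) := by
  refine LinearMap.ext fun φ => ?_
  rw [bFL_apply, dl_comp, bFL_apply, Finset.mul_sum]
  refine Fintype.sum_equiv (MulAction.toPerm g⁻¹) _ _ fun c => ?_
  rw [MulAction.toPerm_apply, indRep_apply, indRep_apply, inv_inv, smul_inv_smul, dl_comp]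

theorem bFL_const (f : Dual k V) (φ : Γ ⧸ U → V) :
    bFL k V U (constLin (k := k) U f) φ = f (tr (k := k) U φ) := by
  rw [bFL_apply, sumLin_apply, map_sum]
  rfl

/-- a trivialisation of a cocycle vanishing on `U` -/
theorem exists_ct (hU : U ∈ D.𝓤) {x : Γ × Γ → Dual k V} (hx : x ∈ Z2 D.𝓤 (D.dl ρ))
    (hx0 : ∀ u ∈ U, ∀ v ∈ U, x (u, v) = 0) :
    ∃ ct : Γ → Dual k (Γ ⧸ U → V), D.𝓤.Sm1 ct ∧
      ∀ p φ, d1 (D.dl (indRep U ρ)) ct p φ = x p (tr (k := k) U φ) := by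
  have hUo : D.𝓤.IsOpen U := D.𝓤.isOpen_of_mem hU
  have h1 : (sh D.𝓤 U (D.dl ρ)).mapH2 ((constMor (𝓤 := D.𝓤) U (D.dl ρ)).mapH2
      (H2.mk D.𝓤 (D.dl ρ) ⟨x, hx⟩)) = 0 := by
    rw [sh_const_H2]
    refine H2.mk_eq_zero.mpr ⟨0, Fam.Sm1.const _ (0 : Dual k V), fun g h => ?_⟩
    change x (g, h) = _
    rw [hx0 _ g.2 _ h.2]
    simp
  have h2 : (constMor (𝓤 := D.𝓤) U (D.dl ρ)).mapH2 (H2.mk D.𝓤 (D.dl ρ) ⟨x, hx⟩) = 0 :=
    sh_H2_injective hUo (by rw [h1, map_zero])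
  obtain ⟨c', hc', h3⟩ := H2.mk_eq_zero.mp h2
  refine ⟨fun g => bFL k V U (c' g), hc'.post _, fun p φ => ?_⟩
  rw [← map_d1 (ρ' := indRep U (D.dl ρ)) (bFL k V U) bFL_comm]
  have h4 : d1 (indRep U (D.dl ρ)) c' p = constLin (k := k) U (x p) := (h3 p.1 p.2).symm
  rw [h4, bFL_const]

variable [U.Normal]

/-- the restriction of the trivialisation is a cocycle -/
theorem pb_ct_mem {x : Γ × Γ → Dual k V}
    {ct : Γ → Dual k (Γ ⧸ U → V)} (hct : D.𝓤.Sm1 ct)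
    (hd : ∀ p φ, d1 (D.dl (indRep U ρ)) ct p φ = x p (tr (k := k) U φ)) :
    pb (ik k V U) ct ∈ Z1 D.𝓤 (D.dl (trKerRep U ρ)) := by
  refine ⟨hct.post fun f => f ∘ₗ ik k V U, ?_⟩
  apply d1_eq_zero_iff.mp
  intro g h
  ext w
  have h1 := hd (g, h) (ik k V U w)
  rw [tr_ik, map_zero] at h1
  rw [LinearMap.zero_apply, ← h1]
  rfl

/-- boundaries in the cone, as a linear map -/
def bdL (D : Frame k Γ) (σ : Representation k Γ W) : (Γ → W) × (D.ι → W) →ₗ[k] D.CC W where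
  toFun z := (d1 σ z.1, fun v => D.r1 v z.1 - d0 (D.lr v σ) (z.2 v))
  map_add' z z' := by
    refine Prod.ext (map_add _ _ _) (funext fun v => ?_)
    change D.r1 v z.1 + D.r1 v z'.1 - d0 (D.lr v σ) (z.2 v + z'.2 v) = _
    rw [map_add]
    change _ = D.r1 v z.1 - d0 (D.lr v σ) (z.2 v) + (D.r1 v z'.1 - d0 (D.lr v σ) (z'.2 v))
    abel
  map_smul' c z := by
    refine Prod.ext (map_smul (d1 σ) _ _) (funext fun v => ?_)
    change c • D.r1 v z.1 - d0 (D.lr v σ) (c • z.2 v) =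
      c • (D.r1 v z.1 - d0 (D.lr v σ) (z.2 v))
    rw [map_smul, smul_sub]

theorem finrank_bound (hG : D.Good) (hU : U ∈ D.𝓤) (hρ : SmRep D.𝓤 ρ) [FiniteDimensional k V]
    (hT : D.Triv U ρ) {U₁ : Subgroup Γ} (hU₁ : U₁ ∈ D.𝓤) {ι : Type} [Fintype ι]
    (s : ι → H2 D.𝓤 (D.dl ρ)) (hs : LinearIndependent k s)
    (hs' : ∀ i, ∃ x : ↥(Z2 D.𝓤 (D.dl ρ)), H2.mk D.𝓤 (D.dl ρ) x = s i ∧
      (∀ v, D.r2 v (x : Γ × Γ → Dual k V) ∈ B2 (D.𝓥 v) (D.lr v (D.dl ρ))) ∧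
      ∃ ct : Γ → Dual k (Γ ⧸ U → V), D.𝓤.Sm1 ct ∧
      (∀ p φ, d1 (D.dl (indRep U ρ)) ct p φ = (x : Γ × Γ → Dual k V) p (tr (k := k) U φ)) ∧
      ∀ u ∈ U₁, pb (ik k V U) ct u = 0) : Fintype.card ι ≤ finrank k ↥(D.sha1 ρ) := by
  haveI := D.𝓤.finiteIndex U₁ hU₁
  have hUo : D.𝓤.IsOpen U := D.𝓤.isOpen_of_mem hU
  have hU₁o : D.𝓤.IsOpen U₁ := D.𝓤.isOpen_of_mem hU₁
  have hIs : SmRep D.𝓤 (indRep U ρ) := ind_sm hUo hρ
  have hκs : SmRep D.𝓤 (trKerRep U ρ) := (cycSES2 U ρ).smRep_left hIs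
  haveI := finite_H1 hG hρ
  -- the left space
  let XX : Submodule k ((Γ × Γ → Dual k V) × (Γ → Dual k (Γ ⧸ U → V))) :=
    { carrier := {a | a.1 ∈ Z2 D.𝓤 (D.dl ρ) ∧
        (∀ v, D.r2 v a.1 ∈ B2 (D.𝓥 v) (D.lr v (D.dl ρ))) ∧ D.𝓤.Sm1 a.2 ∧
        (∀ p φ, d1 (D.dl (indRep U ρ)) a.2 p φ = a.1 p (tr (k := k) U φ)) ∧
        pb (ik k V U) a.2 ∈ D.X U₁ (trKerRep U ρ)}
      zero_mem' := ⟨zero_mem _, fun v => zero_mem _, Fam.Sm1.const _ (0 : Dual k (Γ ⧸ U → V)),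
        fun p φ => by simp, zero_mem _⟩
      add_mem' := by
        rintro a b ⟨a1, a2, a3, a4, a5⟩ ⟨b1, b2, b3, b4, b5⟩
        refine ⟨add_mem a1 b1, fun v => add_mem (a2 v) (b2 v), a3.post₂ b3 (· + ·),
          fun p φ => ?_, add_mem a5 b5⟩
        rw [Prod.snd_add, map_add, Pi.add_apply, LinearMap.add_apply, a4, b4]
        rfl
      smul_mem' := by
        rintro c a ⟨a1, a2, a3, a4, a5⟩
        refine ⟨Submodule.smul_mem _ c a1, fun v => Submodule.smul_mem _ c (a2 v),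
          a3.post (c • ·), fun p φ => ?_, Submodule.smul_mem _ c a5⟩
        rw [Prod.smul_snd, map_smul, Pi.smul_apply, LinearMap.smul_apply, a4]
        rfl }
  let πX : ↥XX →ₗ[k] H2 D.𝓤 (D.dl ρ) := (H2.mk D.𝓤 (D.dl ρ)) ∘ₗ
    ((LinearMap.fst k _ _) ∘ₗ XX.subtype).codRestrict (Z2 D.𝓤 (D.dl ρ)) fun a => a.2.1
  let jX : ↥XX →ₗ[k] ↥(D.X U₁ (trKerRep U ρ)) :=
    { toFun := fun a => ⟨pb (ik k V U) a.1.2, a.2.2.2.2.2⟩
      map_add' := fun a b => rfl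
      map_smul' := fun c a => rfl }
  -- the right space
  let T : ((Γ → (Γ ⧸ U → V)) × (D.ι → (Γ ⧸ U → V))) ×
      D.CC (Γ ⧸ U₁ → ↥(trKer (k := k) (V := V) U)) →ₗ[k] D.CC (Γ ⧸ U → V) :=
    (D.mapC (ik k V U)) ∘ₗ (D.mapC (tr (k := k) U₁)) ∘ₗ (LinearMap.snd k _ _) -
      (bdL D (indRep U ρ)) ∘ₗ LinearMap.fst k _ _
  let YY : Submodule k (((Γ → (Γ ⧸ U → V)) × (D.ι → (Γ ⧸ U → V))) ×
      D.CC (Γ ⧸ U₁ → ↥(trKer (k := k) (V := V) U))) :=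
    (C1 D.𝓤 k (Γ ⧸ U → V)).comap ((LinearMap.fst k _ _) ∘ₗ (LinearMap.fst k _ _)) ⊓
      ((D.Y U₁ (trKerRep U ρ)).comap (LinearMap.snd k _ _) ⊓ LinearMap.ker T)
  let jY : ↥YY →ₗ[k] ↥(D.Y U₁ (trKerRep U ρ)) :=
    ((LinearMap.snd k _ _) ∘ₗ YY.subtype).codRestrict _ fun b => b.2.2.1
  have hYT : ∀ b : ↥YY, D.mapC (ik k V U) (D.mapC (tr (k := k) U₁) b.1.2) =
      bdL D (indRep U ρ) b.1.1 := fun b => sub_eq_zero.mp b.2.2.2
  have hYsm : ∀ b : ↥YY, D.𝓤.Sm1 b.1.1.1 := fun b => b.2.1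
  have hY1 : ∀ (b : ↥YY) p, ik k V U (tr (k := k) U₁ (b.1.2.1 p)) =
      d1 (indRep U ρ) b.1.1.1 p := fun b p => congrFun (congrArg Prod.fst (hYT b)) p
  have hY2 : ∀ (b : ↥YY) v g, ik k V U (tr (k := k) U₁ (b.1.2.2 v g)) =
      b.1.1.1 (D.r v g) - (indRep U ρ (D.r v g) (b.1.1.2 v) - b.1.1.2 v) := fun b v g =>
    congrFun (congrFun (congrArg Prod.snd (hYT b)) v) g
  have hYz : ∀ b : ↥YY, (fun g => tr (k := k) U (b.1.1.1 g)) ∈ Z1 D.𝓤 ρ := by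
    intro b
    have h1 : ∀ g h, d1 ρ (fun g => tr (k := k) U (b.1.1.1 g)) (g, h) = 0 := by
      intro g h
      rw [← map_d1 (ρ' := indRep U ρ) (tr (k := k) U) (tr_act ρ), ← hY1 b, tr_ik]
    exact ⟨(hYsm b).post _, d1_eq_zero_iff.mp h1⟩
  let πY : ↥YY →ₗ[k] H1 D.𝓤 ρ :=
    { toFun := fun b => H1.mk D.𝓤 ρ ⟨_, hYz b⟩
      map_add' := fun b b' => by
        rw [← map_add]
        exact congrArg _ (Subtype.ext (funext fun g => map_add (tr (k := k) U) _ _))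
      map_smul' := fun c b => by
        rw [RingHom.id_apply, ← map_smul]
        exact congrArg _ (Subtype.ext (funext fun g => LinearMap.map_smul (tr (k := k) U) c _)) }
  have hrY : LinearMap.range πY ≤ D.sha1 ρ := by
    rintro _ ⟨b, rfl⟩
    apply mk_mem_sha1.mpr
    intro v
    refine ⟨tr (k := k) U (b.1.1.2 v), funext fun g => ?_⟩
    have h1 := congrArg (tr (k := k) U) (hY2 b v g)
    rw [tr_ik, map_sub, map_sub, tr_act, eq_comm, sub_eq_zero] at h1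
    exact h1.symm
  haveI : FiniteDimensional k ↥(LinearMap.range πY) := Submodule.finiteDimensional_of_le hrY
  let P : ↥XX →ₗ[k] ↥YY →ₗ[k] k := (D.P (trKerRep U ρ) hU₁o hκs).compl₁₂ jX jY
  have hP : ∀ a b, P a b = D.pv (trKerRep U ρ) (pb (ik k V U) a.1.2) b.1.2 := fun a b => rfl
  have hA : ∀ b, πY b = 0 → ∀ a, P a b = 0 := by
    intro b hb a
    obtain ⟨m, hm⟩ := H1.mk_eq_zero.mp hb
    exact pv_eq_zero_S1 hG.recip hUo hρ a.2.2.1 a.2.2.2.1 a.2.2.2.2.1 hU₁o a.2.2.2.2.2 b.2.2.1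
      (hYsm b) (hY1 b) (hY2 b) hm
  have hB : ∀ a, (∀ b, P a b = 0) → πX a = 0 := by
    intro a ha
    obtain ⟨e, he, he'⟩ := exists_S2 hG hU hρ hT a.2.2.2.1 a.2.2.2.2.1 hU₁ a.2.2.2.2.2
      (fun y hy hy' => by
        obtain ⟨η, m, h1, h2, h3⟩ := hy'
        have h4 : T ((η, m), y) = 0 := sub_eq_zero.mpr (Prod.ext h2 (funext h3))
        exact ha ⟨((η, m), y), h1, hy, h4⟩)
    exact H2.mk_eq_zero.mpr ⟨e, he, fun g h => (congrFun he' (g, h)).symm⟩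
  obtain ⟨h5, h6⟩ := LA.finrank_le (X := ↥XX) (Y := ↥YY) (A := H2 D.𝓤 (D.dl ρ))
    (C := H1 D.𝓤 ρ) (P := P) (πX := πX) (πY := πY) hA hB
  have h7 : ∀ i, s i ∈ LinearMap.range πX := by
    intro i
    obtain ⟨x, hx, hxl, ct, hct, hd, hct0⟩ := hs' i
    exact ⟨⟨(x, ct), x.2, hxl, hct, hd, pb_ct_mem hct hd, hct0⟩, hx⟩
  have h8 : LinearIndependent k (fun i => (⟨s i, h7 i⟩ : ↥(LinearMap.range πX))) :=
    LinearIndependent.of_comp (LinearMap.range πX).subtype hs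
  have h9 := h8.fintype_card_le_finrank
  exact h9.trans (h6.trans (Submodule.finrank_mono hrY))

omit [U.FiniteIndex] [U.Normal] in
/-- normalised representatives -/
theorem exists_normal_repr {σ : Representation k Γ W} (hσ : SmRep D.𝓤 σ) (c : H2 D.𝓤 σ) :
    ∃ z : ↥(Z2 D.𝓤 σ), H2.mk D.𝓤 σ z = c ∧ ∃ F ∈ D.𝓤, ∀ u ∈ F, ∀ v ∈ F,
      (z : Γ × Γ → W) (u, v) = 0 := by
  obtain ⟨z, rfl⟩ := H2.mk_surjective c
  set a : W := (z : Γ × Γ → W) (1, 1) with ha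
  have h1 : d1 σ (fun _ => a) ∈ Z2 D.𝓤 σ := d1_mem_Z2 hσ (Fam.Sm1.const _ a)
  set z' : ↥(Z2 D.𝓤 σ) := z - ⟨_, h1⟩ with hz'
  have h2 : (z' : Γ × Γ → W) (1, 1) = 0 := by
    change (z : Γ × Γ → W) (1, 1) - (σ 1 a - a + a) = 0
    rw [map_one, Module.End.one_apply, sub_add_cancel, sub_self]
  refine ⟨z', ?_, ?_⟩
  · rw [hz', map_sub, sub_eq_self]
    exact H2.mk_eq_zero.mpr ⟨fun _ => a, Fam.Sm1.const _ a, fun g h => rfl⟩
  · obtain ⟨F, hF, h3⟩ := z'.2.1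
    refine ⟨F, hF, fun u hu v hv => ?_⟩
    have h4 := h3 1 1 u hu v hv
    rw [one_mul, one_mul] at h4
    rw [h4, h2]

omit [U.FiniteIndex] [U.Normal] in
/-- **Second inequality.** -/
theorem finrank_sha2_dl_le (hG : D.Good) (hρ : SmRep D.𝓤 ρ) [FiniteDimensional k V] :
    FiniteDimensional k ↥(D.sha2 (D.dl ρ)) ∧
      finrank k ↥(D.sha2 (D.dl ρ)) ≤ finrank k ↥(D.sha1 ρ) := by
  classical
  apply LA.finite_of_card_le
  intro s hs
  have hs1 : LinearIndependent k (fun i : s => ((i : ↥(D.sha2 (D.dl ρ))) : H2 D.𝓤 (D.dl ρ))) :=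
    hs.map' (D.sha2 (D.dl ρ)).subtype (Submodule.ker_subtype _)
  rw [← Fintype.card_coe]
  choose z hz F hF hF0 using fun i : s => exists_normal_repr (D := D) (dl_sm hρ)
    ((i : ↥(D.sha2 (D.dl ρ))) : H2 D.𝓤 (D.dl ρ))
  obtain ⟨U₂, hU₂, hT⟩ := exists_triv hρ
  obtain ⟨U₃, hU₃, hle⟩ := D.𝓤.exists_le_forall Finset.univ F fun i _ => hF i
  set U := U₂ ⊓ U₃ with hUdef
  have hU : U ∈ D.𝓤 := D.𝓤.inf_mem _ hU₂ _ hU₃
  haveI := D.𝓤.finiteIndex U hU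
  haveI := D.𝓤.normal U hU
  have hleU : ∀ i, U ≤ F i := fun i => inf_le_right.trans (hle i (Finset.mem_univ _))
  choose ct hct hd using fun i : s => exists_ct hU (z i).2 fun u hu v hv =>
    hF0 i u (hleU i hu) v (hleU i hv)
  have h1 : ∀ i : s, ∃ U₁ ∈ D.𝓤, ∀ u ∈ U₁, pb (ik k V U) (ct i) u = 0 := by
    intro i
    have h2 := pb_ct_mem (hct i) (hd i)
    obtain ⟨U', hU', h3⟩ := h2.1
    refine ⟨U', hU', fun u hu => ?_⟩
    have h4 := h3 1 u hu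
    rw [one_mul] at h4
    rw [h4]
    exact Z1.map_one ⟨_, h2⟩
  choose F1 hF1 hF10 using h1
  obtain ⟨U₁, hU₁, hle1⟩ := D.𝓤.exists_le_forall Finset.univ F1 fun i _ => hF1 i
  refine finrank_bound hG hU hρ (hT U inf_le_left) hU₁ _ hs1 fun i =>
    ⟨z i, hz i, ?_, ct i, hct i, hd i, fun u hu => hF10 i u (hle1 i (Finset.mem_univ _) hu)⟩
  have h5 : H2.mk D.𝓤 (D.dl ρ) (z i) ∈ D.sha2 (D.dl ρ) := by
    rw [hz i]
    exact (i : ↥(D.sha2 (D.dl ρ))).2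
  exact mk_mem_sha2.mp h5

end Frame

end Fermat.Agent.PT
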